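import Fermat.Agent.TW.Idele.Defs
import Mathlib

/-!
# Products over cosets (norms)

`cosetProd H K x` is the product of the translates of a `K`-fixed element over `H / K`: it is fixed
by `H`, multiplicative and transitive in towers (`cosetProd_trans`).  `normIdele` is of this form
(`normIdele_eq_cosetProd`).
-/

set_option autoImplicit false

noncomputable section

open scoped Pointwise

namespace FLTAgent.TW

section Coset

variable {G M : Type*} [Group G] [CommMonoid M] [MulDistribMulAction G M]

/-- The product of the translates of `x` over representatives of `H / K`. -/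
def cosetProd (H K : Subgroup G) (x : M) : M :=
  ∏ᶠ c : H ⧸ K.subgroupOf H, ((Quotient.out c : H) : G) • x

variable {H K : Subgroup G} {x : M}

theorem mem_of_mk_eq {a b : H}
    (h : (QuotientGroup.mk a : H ⧸ K.subgroupOf H) = QuotientGroup.mk b) :
    ((a⁻¹ * b : H) : G) ∈ K :=
  Subgroup.mem_subgroupOf.mp ((QuotientGroup.eq (s := K.subgroupOf H)).mp h)

theorem smul_eq_of_mk_eq (hx : ∀ k ∈ K, k • x = x) {a b : H}
    (h : (QuotientGroup.mk a : H ⧸ K.subgroupOf H) = QuotientGroup.mk b) :
    (a : G) • x = (b : G) • x := by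
  have h' : ((a⁻¹ * b : H) : G) ∈ K := mem_of_mk_eq h
  conv_lhs => rw [← hx _ h']
  rw [← mul_smul]
  simp

theorem out_smul (hx : ∀ k ∈ K, k • x = x) (a : H) :
    ((Quotient.out (QuotientGroup.mk a : H ⧸ K.subgroupOf H) : H) : G) • x = (a : G) • x :=
  smul_eq_of_mk_eq hx (QuotientGroup.out_eq' _)

variable [Finite (H ⧸ K.subgroupOf H)]

theorem smul_cosetProd (hx : ∀ k ∈ K, k • x = x) {h : G} (hh : h ∈ H) :
    h • cosetProd H K x = cosetProd H K x := by
  have := Fintype.ofFinite (H ⧸ K.subgroupOf H)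
  unfold cosetProd
  rw [finprod_eq_prod_of_fintype, Finset.smul_prod']
  refine Fintype.prod_equiv (MulAction.toPerm (⟨h, hh⟩ : H)) _ _ fun c => ?_
  have e : (QuotientGroup.mk ((⟨h, hh⟩ : H) * Quotient.out c) : H ⧸ K.subgroupOf H)
      = (MulAction.toPerm (⟨h, hh⟩ : H)) c := by
    conv_rhs => rw [← QuotientGroup.out_eq' c]
    rfl
  rw [← e, out_smul hx, Subgroup.coe_mul, mul_smul]

theorem cosetProd_mul (y z : M) : cosetProd H K (y * z) = cosetProd H K y * cosetProd H K z := by
  unfold cosetProd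
  simp only [smul_mul']
  exact finprod_mul_distrib (Set.toFinite _) (Set.toFinite _)

theorem cosetProd_one : cosetProd H K (1 : M) = 1 := by simp [cosetProd]

theorem cosetProd_of_fixed (hx : ∀ h ∈ H, h • x = x) :
    cosetProd H K x = x ^ K.relIndex H := by
  have := Fintype.ofFinite (H ⧸ K.subgroupOf H)
  unfold cosetProd
  rw [finprod_eq_prod_of_fintype, Finset.prod_congr rfl fun c _ => hx _ (Quotient.out c).2,
    Finset.prod_const, Finset.card_univ, Subgroup.relIndex, Subgroup.index_eq_card,
    Nat.card_eq_fintype_card]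

theorem map_cosetProd {N : Type*} [CommMonoid N] [MulDistribMulAction G N] (f : M →* N)
    (hf : ∀ (g : G) (m : M), f (g • m) = g • f m) (y : M) :
    f (cosetProd H K y) = cosetProd H K (f y) := by
  unfold cosetProd
  rw [f.map_finprod (Set.toFinite _)]
  simp only [hf]

theorem cosetProd_trans {J : Subgroup G} (hJK : J ≤ K) (hKH : K ≤ H)
    [Finite (K ⧸ J.subgroupOf K)] [Finite (H ⧸ J.subgroupOf H)] (hx : ∀ j ∈ J, j • x = x) :
    cosetProd H K (cosetProd K J x) = cosetProd H J x := by
  have := Fintype.ofFinite (H ⧸ K.subgroupOf H)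
  have := Fintype.ofFinite (K ⧸ J.subgroupOf K)
  have := Fintype.ofFinite (H ⧸ J.subgroupOf H)
  unfold cosetProd
  simp only [finprod_eq_prod_of_fintype, Finset.smul_prod', ← mul_smul]
  rw [← Fintype.prod_prod_type']
  let e : (H ⧸ K.subgroupOf H) × (K ⧸ J.subgroupOf K) → (H ⧸ J.subgroupOf H) := fun c =>
    QuotientGroup.mk (Quotient.out c.1 * Subgroup.inclusion hKH (Quotient.out c.2))
  refine Fintype.prod_bijective e ⟨?_, ?_⟩ _ _ fun c => ?_
  · rintro ⟨a, b⟩ ⟨a', b'⟩ h
    have h' : (((Quotient.out a * Subgroup.inclusion hKH (Quotient.out b))⁻¹ *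
        (Quotient.out a' * Subgroup.inclusion hKH (Quotient.out b')) : H) : G) ∈ J :=
      mem_of_mk_eq (K := J) h
    have ha : a = a' := by
      rw [← QuotientGroup.out_eq' a, ← QuotientGroup.out_eq' a', QuotientGroup.eq]
      have := mul_mem (mul_mem ((Quotient.out b).2) (hJK h')) (inv_mem (Quotient.out b').2)
      simpa [Subgroup.mem_subgroupOf, mul_assoc] using this
    subst ha
    refine Prod.ext rfl ?_
    show b = b'
    rw [← QuotientGroup.out_eq' b, ← QuotientGroup.out_eq' b', QuotientGroup.eq]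
    simpa [Subgroup.mem_subgroupOf, mul_assoc] using h'
  · intro c
    set h := Quotient.out c with hh
    set a : H ⧸ K.subgroupOf H := QuotientGroup.mk h with ha
    have hk : (((Quotient.out a)⁻¹ * h : H) : G) ∈ K :=
      mem_of_mk_eq (QuotientGroup.out_eq' a)
    set b : K ⧸ J.subgroupOf K := QuotientGroup.mk ⟨_, hk⟩ with hb
    refine ⟨(a, b), ?_⟩
    have hj : (((Quotient.out b)⁻¹ * ⟨_, hk⟩ : K) : G) ∈ J :=
      mem_of_mk_eq (K := J) (QuotientGroup.out_eq' b)
    conv_rhs => rw [← QuotientGroup.out_eq' c, ← hh]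
    show QuotientGroup.mk _ = QuotientGroup.mk h
    rw [QuotientGroup.eq, Subgroup.mem_subgroupOf]
    simpa [mul_assoc] using hj
  · exact (out_smul hx (Quotient.out c.1 * Subgroup.inclusion hKH (Quotient.out c.2))).symm

end Coset

local notation "ℚ̄" => AlgebraicClosure ℚ
local notation "Γ" => (AlgebraicClosure ℚ ≃ₐ[ℚ] AlgebraicClosure ℚ)

theorem finite_fixing_quotient (H : Subgroup Γ) (L : IntermediateField ℚ ℚ̄)
    [FiniteDimensional ℚ L] : Finite (H ⧸ L.fixingSubgroup.subgroupOf H) := by
  have := GalCommon.isGalois_Qbar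
  have : Finite (Γ ⧸ L.fixingSubgroup) :=
    L.fixingSubgroup.quotient_finite_of_isOpen L.fixingSubgroup_isOpen
  have : L.fixingSubgroup.FiniteIndex := Subgroup.finiteIndex_of_finite_quotient
  have : (L.fixingSubgroup.subgroupOf H).FiniteIndex := inferInstance
  exact Subgroup.finite_quotient_of_finiteIndex

theorem normIdele_eq_cosetProd (F L : IntermediateField ℚ ℚ̄) (φ : PreIdele) :
    normIdele F L φ = cosetProd F.fixingSubgroup L.fixingSubgroup φ := rfl

theorem mem_of_forall_fixed {F : IntermediateField ℚ ℚ̄} {x : ℚ̄}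
    (h : ∀ σ ∈ F.fixingSubgroup, σ x = x) : x ∈ F := by
  have := GalCommon.isGalois_Qbar
  rw [← InfiniteGalois.fixedField_fixingSubgroup F]
  exact fun σ => h σ σ.2

end FLTAgent.TW
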