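import Fermat.Agent.TW.Idele.Approx

/-!
# `p`-th roots of elements close to `1` at a place

Let `ζ` be a primitive `p`-th root of unity and `v` the valuation of a place `A`.  If
`v (x - 1) < v p * v (ζ - 1)` then exactly one `p`-th root `t` of `x` satisfies
`v (t - 1) < v (ζ - 1)`; it is fixed by every automorphism stabilising `A` that fixes `x` and `ζ`,
and `v (x - 1) = v p * v (t - 1)`.  This replaces Hensel's lemma.
-/

set_option autoImplicit false

noncomputable section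

open scoped Pointwise

namespace FLTAgent.TW

local notation "ℚ̄" => AlgebraicClosure ℚ
local notation "Γ" => (AlgebraicClosure ℚ ≃ₐ[ℚ] AlgebraicClosure ℚ)

theorem exists_primitiveRoot_qbar (p : ℕ) [Fact p.Prime] : ∃ ζ : ℚ̄, IsPrimitiveRoot ζ p := by
  have : NeZero ((p : ℕ) : ℚ̄) := ⟨Nat.cast_ne_zero.mpr (Fact.out : p.Prime).ne_zero⟩
  exact HasEnoughRootsOfUnity.exists_primitiveRoot ℚ̄ p

variable {p : ℕ} [hp : Fact p.Prime] {ζ : ℚ̄} (hζ : IsPrimitiveRoot ζ p) (A : Place)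

include hζ

theorem valuation_zeta : A.1.valuation ζ = 1 :=
  (pow_eq_one_iff_of_nonneg zero_le hp.out.ne_zero).mp (by rw [← map_pow, hζ.pow_eq_one, map_one])

theorem valuation_zeta_sub_one_ne_zero : A.1.valuation (ζ - 1) ≠ 0 := by
  simpa [sub_eq_zero] using hζ.ne_one hp.out.one_lt

theorem valuation_pow_sub_one_le {η : ℚ̄} (hη : A.1.valuation η ≤ 1) (i : ℕ) :
    A.1.valuation (η ^ i - 1) ≤ A.1.valuation (η - 1) := by
  rw [← geom_sum_mul η i, map_mul]
  refine mul_le_of_le_one_left' (A.1.valuation.map_sum_le fun k _ => ?_)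
  rw [map_pow]
  exact pow_le_one₀ zero_le hη

theorem valuation_zeta_pow_sub_one {i : ℕ} (hi : ¬ p ∣ i) :
    A.1.valuation (ζ ^ i - 1) = A.1.valuation (ζ - 1) := by
  refine le_antisymm (valuation_pow_sub_one_le hζ A (valuation_zeta hζ A).le i) ?_
  obtain ⟨j, hj⟩ : ∃ j, i * j % p = 1 := by
    obtain ⟨j, -, hj⟩ := Nat.exists_mul_mod_eq_one_of_coprime
      ((hp.out.coprime_iff_not_dvd.mpr hi).symm) hp.out.one_lt
    exact ⟨j, hj⟩
  have h : (ζ ^ i) ^ j = ζ := by
    rw [← pow_mul, ← pow_mod_orderOf, ← hζ.eq_orderOf, hj, pow_one]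
  calc A.1.valuation (ζ - 1) = A.1.valuation ((ζ ^ i) ^ j - 1) := by rw [h]
    _ ≤ _ := valuation_pow_sub_one_le hζ A (by rw [map_pow, valuation_zeta hζ A, one_pow]) j

theorem valuation_prime_eq :
    A.1.valuation (p : ℚ̄) = A.1.valuation (ζ - 1) ^ (p - 1) := by
  obtain ⟨n, hn⟩ : ∃ n, p = n + 1 := ⟨p - 1, by have := hp.out.one_lt; omega⟩
  have h := IsPrimitiveRoot.prod_one_sub_pow_eq_order (R := ℚ̄) (μ := ζ) (n := n) (hn ▸ hζ)
  rw [show (p : ℚ̄) = (n : ℚ̄) + 1 by rw [hn]; push_cast; ring, ← h, map_prod,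
    show p - 1 = n by omega]
  refine (Finset.prod_eq_pow_card fun i hi => ?_).trans (by rw [Finset.card_range])
  rw [Finset.mem_range] at hi
  rw [Valuation.map_sub_swap]
  exact valuation_zeta_pow_sub_one hζ A (Nat.not_dvd_of_pos_of_lt (by omega) (by omega))

theorem valuation_prime_mul_eq :
    A.1.valuation (p : ℚ̄) * A.1.valuation (ζ - 1) = A.1.valuation (ζ - 1) ^ p := by
  rw [valuation_prime_eq hζ A, ← pow_succ, Nat.sub_add_cancel hp.out.one_lt.le]

theorem valuation_zeta_sub_one_le : A.1.valuation (ζ - 1) ≤ 1 :=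
  le_trans (A.1.valuation.map_sub _ _) (by simp [valuation_zeta hζ A])

theorem one_sub_pow_eq_prod (t : ℚ̄) :
    1 - t ^ p = ∏ i ∈ Finset.range p, (1 - ζ ^ i * t) := by
  have h := congrArg (Polynomial.eval 1) (X_pow_sub_C_eq_prod hζ hp.out.pos (α := t) rfl)
  simpa [Polynomial.eval_prod] using h

theorem valuation_eq_one_of_near {t : ℚ̄} (h : A.1.valuation (t - 1) < A.1.valuation (ζ - 1)) :
    A.1.valuation t = 1 := by
  rw [← sub_add_cancel t 1, Valuation.map_add_eq_of_lt_right _ (by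
    rw [map_one]; exact lt_of_lt_of_le h (valuation_zeta_sub_one_le hζ A)), map_one]

theorem valuation_zeta_mul_sub_one {t : ℚ̄}
    (h : A.1.valuation (t - 1) < A.1.valuation (ζ - 1)) {i : ℕ} (hi : ¬ p ∣ i) :
    A.1.valuation (ζ ^ i * t - 1) = A.1.valuation (ζ - 1) := by
  rw [show ζ ^ i * t - 1 = ζ ^ i * (t - 1) + (ζ ^ i - 1) by ring,
    Valuation.map_add_eq_of_lt_right _ (by
      rw [map_mul, map_pow, valuation_zeta hζ A, one_pow, one_mul,
        valuation_zeta_pow_sub_one hζ A hi]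
      exact h),
    valuation_zeta_pow_sub_one hζ A hi]

/-- Raising to the power `p` multiplies the distance to `1` by `v p`. -/
theorem valuation_pow_prime_sub_one {t : ℚ̄}
    (h : A.1.valuation (t - 1) < A.1.valuation (ζ - 1)) :
    A.1.valuation (t ^ p - 1) = A.1.valuation (p : ℚ̄) * A.1.valuation (t - 1) := by
  obtain ⟨n, hn⟩ : ∃ n, p = n + 1 := ⟨p - 1, by have := hp.out.one_lt; omega⟩
  rw [Valuation.map_sub_swap, one_sub_pow_eq_prod hζ, map_prod, valuation_prime_eq hζ A, hn,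
    Finset.prod_range_succ']
  simp only [pow_zero, one_mul, Nat.add_sub_cancel]
  rw [A.1.valuation.map_sub_swap 1 t]
  congr 1
  refine (Finset.prod_eq_pow_card fun i hi => ?_).trans (by rw [Finset.card_range])
  rw [Finset.mem_range] at hi
  rw [Valuation.map_sub_swap]
  exact valuation_zeta_mul_sub_one hζ A h (Nat.not_dvd_of_pos_of_lt (by omega) (by omega))

/-- If `t ^ p` is close to `1`, a conjugate of `t` is close to `1`. -/
theorem exists_zeta_mul_near {t : ℚ̄}
    (h : A.1.valuation (t ^ p - 1) < A.1.valuation (p : ℚ̄) * A.1.valuation (ζ - 1)) :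
    ∃ i < p, A.1.valuation (ζ ^ i * t - 1) < A.1.valuation (ζ - 1) := by
  by_contra hc
  push Not at hc
  refine absurd ?_ (not_le.mpr h)
  rw [valuation_prime_mul_eq hζ A, A.1.valuation.map_sub_swap (t ^ p) 1, one_sub_pow_eq_prod hζ,
    map_prod]
  refine le_of_eq_of_le (by rw [Finset.prod_const, Finset.card_range]) (Finset.prod_le_prod'
    (f := fun _ => A.1.valuation (ζ - 1)) fun i hi => ?_)
  rw [A.1.valuation.map_sub_swap 1 (ζ ^ i * t)]
  exact hc i (Finset.mem_range.mp hi)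

/-- Uniqueness of the root close to `1`. -/
theorem root_unique {t t' : ℚ̄} (he : t ^ p = t' ^ p)
    (ht : A.1.valuation (t - 1) < A.1.valuation (ζ - 1))
    (ht' : A.1.valuation (t' - 1) < A.1.valuation (ζ - 1)) : t = t' := by
  have ht0 : t ≠ 0 := fun h0 => by
    simpa [h0] using valuation_eq_one_of_near hζ A ht
  obtain ⟨i, hi, hi'⟩ := hζ.eq_pow_of_pow_eq_one (ξ := t' / t) (by
    rw [div_pow, ← he, div_self (pow_ne_zero _ ht0)])
  rw [eq_div_iff ht0] at hi'
  by_cases hi0 : i = 0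
  · simpa [hi0] using hi'
  · rw [← hi', valuation_zeta_mul_sub_one hζ A ht
      (Nat.not_dvd_of_pos_of_lt (Nat.pos_of_ne_zero hi0) hi)] at ht'
    exact absurd ht' (lt_irrefl _)

/-- An element close to `1` has a root fixed by the automorphisms of `A` fixing it and `ζ`. -/
theorem exists_root_fixed {x : ℚ̄}
    (h : A.1.valuation (x - 1) < A.1.valuation (p : ℚ̄) * A.1.valuation (ζ - 1)) :
    ∃ t : ℚ̄, t ^ p = x ∧ A.1.valuation (t - 1) < A.1.valuation (ζ - 1) ∧
      ∀ σ : Γ, σ • A = A → σ x = x → σ ζ = ζ → σ t = t := by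
  obtain ⟨t₀, rfl⟩ := IsAlgClosed.exists_pow_nat_eq x hp.out.pos
  obtain ⟨i, -, hi⟩ := exists_zeta_mul_near hζ A h
  have he : (ζ ^ i * t₀) ^ p = t₀ ^ p := by
    rw [mul_pow, ← pow_mul, mul_comm i p, pow_mul, hζ.pow_eq_one, one_pow, one_mul]
  refine ⟨_, he, hi, fun σ hA hx hσ => root_unique hζ A ?_ ?_ hi⟩
  · rw [← map_pow, he, hx]
  · have h1 := (valuation_smul_le_iff σ A (z := ζ - 1) (w := ζ ^ i * t₀ - 1)).not.mpr
      (not_le.mpr hi)
    rw [hA] at h1
    simpa [hσ] using h1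

end FLTAgent.TW
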