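import Fermat.Agent.TW.Idele.Local

/-!
# The components at infinity, signs, and approximation with prescribed signs

Restriction of embeddings to `F`, the absence of real embeddings for odd `p` and `μ_p ⊆ F`
(`isEmpty_realEmb`), signs at the real embeddings with elements of every prescribed sign vector
(`exists_prescribed_sign`), and the adjustment of signs without moving an element at the primes
over `T` (`exists_sign_adjust`).
-/

set_option autoImplicit false
set_option synthInstance.maxHeartbeats 200000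
set_option maxHeartbeats 1000000

noncomputable section

open IsDedekindDomain NumberField
open scoped Pointwise NumberField

namespace FLTAgent.TW

local notation "ℚ̄" => AlgebraicClosure ℚ
local notation "Γ" => (AlgebraicClosure ℚ ≃ₐ[ℚ] AlgebraicClosure ℚ)

attribute [local instance] numberField_intermediate

variable {F : IntermediateField ℚ ℚ̄}

/-- The restriction of an embedding. -/
def Emb.res (F : IntermediateField ℚ ℚ̄) (ι : Emb) : F →+* ℂ := ι.comp (algebraMap F ℚ̄)

theorem Emb.res_apply (ι : Emb) (x : F) : ι.res F x = ι (x : ℚ̄) := rfl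

theorem exists_res_eq (f : F →+* ℂ) : ∃ ι : Emb, ι.res F = f := by
  let := f.toAlgebra
  have := EllP.qbarIsAlgebraic
  have : Algebra.IsAlgebraic F ℚ̄ := Algebra.IsAlgebraic.tower_top (K := ℚ) F
  let g : ℚ̄ →ₐ[F] ℂ := IsAlgClosed.lift
  exact ⟨g.toRingHom, RingHom.ext fun x => g.commutes x⟩

theorem exists_smul_of_res_eq {ι ι' : Emb} (h : ι.res F = ι'.res F) :
    ∃ σ ∈ F.fixingSubgroup, ι' = ι.comp (σ : ℚ̄ →+* ℚ̄) := by
  have := EllP.qbarIsAlgebraic
  have : Normal ℚ ℚ̄ := inferInstance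
  let : Algebra ℚ̄ ℂ := ι.toAlgebra
  have : IsScalarTower ℚ ℚ̄ ℂ := IsScalarTower.of_algebraMap_eq' (Subsingleton.elim _ _)
  let σ : Γ := AlgHom.restrictNormal' (ι'.toRatAlgHom.comp ((AlgEquiv.refl : ℚ̄ ≃ₐ[ℚ] ℚ̄) : ℚ̄ →ₐ[ℚ] ℚ̄)) ℚ̄
  have hσ : ∀ x, ι (σ x) = ι' x := fun x =>
    AlgHom.restrictNormal_commutes
      (ι'.toRatAlgHom.comp ((AlgEquiv.refl : ℚ̄ ≃ₐ[ℚ] ℚ̄) : ℚ̄ →ₐ[ℚ] ℚ̄)) ℚ̄ x
  refine ⟨σ, (IntermediateField.mem_fixingSubgroup_iff _ _).mpr fun x hx => ι.injective ?_,
    RingHom.ext fun x => (hσ x).symm⟩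
  rw [hσ]
  exact (congrArg (fun f : F →+* ℂ => f ⟨x, hx⟩) h).symm

theorem inf_eq_of_res_eq {φ : PreIdele} (hφ : φ ∈ ideles F) {ι ι' : Emb}
    (h : ι.res F = ι'.res F) : φ.inf ι = φ.inf ι' := by
  obtain ⟨σ, hσ, rfl⟩ := exists_smul_of_res_eq h
  exact (inf_fixed hφ ι hσ).symm

variable (F) in
/-- The real embeddings of `F`. -/
abbrev RealEmb : Type := {f : F →+* ℂ // (starRingEnd ℂ).comp f = f}

theorem res_conj (ι : Emb) : ι.conj.res F = (starRingEnd ℂ).comp (ι.res F) := rfl

theorem RealEmb.coe_re (f : RealEmb F) (x : F) : ((f.1 x).re : ℂ) = f.1 x :=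
  Complex.conj_eq_iff_re.mp (RingHom.congr_fun f.2 x)

theorem inf_real {φ : PreIdele} (hφ : φ ∈ ideles F) {ι : Emb}
    (h : (starRingEnd ℂ).comp (ι.res F) = ι.res F) :
    (((φ.inf ι : ℂ)).re : ℂ) = φ.inf ι := by
  refine Complex.conj_eq_iff_re.mp ?_
  have h1 := congrArg Units.val (hφ.2.1 ι)
  rw [inf_eq_of_res_eq hφ (show ι.conj.res F = ι.res F by rw [res_conj, h])] at h1
  exact h1.symm

/-- Odd `p`: no real embeddings. -/
theorem isEmpty_realEmb {p : ℕ} [hp : Fact p.Prime] (hp2 : p ≠ 2) (hμ : ContainsMuP p F) :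
    IsEmpty (RealEmb F) := by
  refine ⟨fun f => ?_⟩
  obtain ⟨ζ, hζ⟩ := exists_primitiveRoot_qbar p
  let z : F := ⟨ζ, hμ ζ hζ.pow_eq_one⟩
  have h1 : z ^ p = 1 := Subtype.ext hζ.pow_eq_one
  have hodd : Odd p := hp.out.odd_of_ne_two hp2
  have h2 : (f.1 z).re ^ p = 1 := by
    apply Complex.ofReal_injective
    rw [Complex.ofReal_pow, f.coe_re, ← map_pow, h1, map_one, Complex.ofReal_one]
  have h3 : (f.1 z).re = 1 := hodd.strictMono_pow.injective (by simpa using h2)
  have h4 : z = 1 := f.1.injective (by rw [map_one, ← f.coe_re, h3, Complex.ofReal_one])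
  exact hζ.ne_one hp.out.one_lt (congrArg Subtype.val h4)

variable [FiniteDimensional ℚ F]

/-- The sign at a real embedding. -/
def realSign (f : RealEmb F) : Fˣ →* ℤˣ where
  toFun x := if 0 < (f.1 (x : F)).re then 1 else -1
  map_one' := by simp
  map_mul' x y := by
    have hne : ∀ z : Fˣ, (f.1 (z : F)).re ≠ 0 := fun z h => by
      have := f.coe_re (z : F)
      rw [h, Complex.ofReal_zero] at this
      exact z.ne_zero (f.1.injective (by rw [← this, map_zero]))
    have h : (f.1 ((x * y : Fˣ) : F)).re = (f.1 (x : F)).re * (f.1 (y : F)).re := by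
      rw [Units.val_mul, map_mul, ← f.coe_re (x : F), ← f.coe_re (y : F)]
      simp
    rw [h]
    rcases lt_or_gt_of_ne (hne x) with hx | hx <;> rcases lt_or_gt_of_ne (hne y) with hy | hy
    · simp [hx.not_gt, hy.not_gt, mul_pos_of_neg_of_neg hx hy]
    · simp [hx.not_gt, hy, (mul_neg_of_neg_of_pos hx hy).not_gt]
    · simp [hx, hy.not_gt, (mul_neg_of_pos_of_neg hx hy).not_gt]
    · simp [hx, hy, mul_pos hx hy]

theorem realSign_eq_one_iff (f : RealEmb F) (x : Fˣ) :
    realSign f x = 1 ↔ 0 < (f.1 (x : F)).re := by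
  show (if 0 < (f.1 (x : F)).re then (1 : ℤˣ) else -1) = 1 ↔ _
  split_ifs with h <;> simp [h]

/-- An element with prescribed signs. -/
theorem exists_prescribed_sign (s : RealEmb F → ℤˣ) : ∃ y : Fˣ, ∀ f, realSign f y = s f := by
  classical
  let a : InfinitePlace F → F := fun v =>
    if h : (starRingEnd ℂ).comp v.embedding = v.embedding then
      (if s ⟨v.embedding, h⟩ = 1 then 1 else -1)
    else 1
  obtain ⟨y, hy⟩ := (InfinitePlace.denseRange_algebraMap_pi F).exists_dist_lt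
    (fun v => WithAbs.toAbs v.1 (a v)) (half_pos (zero_lt_one' ℝ))
  have key : ∀ f : RealEmb F, |(f.1 (a (InfinitePlace.mk f.1))).re - (f.1 y).re| < 1 / 2 := by
    intro f
    have h := (dist_le_pi_dist (fun v : InfinitePlace F => WithAbs.toAbs v.1 (a v))
      (algebraMap F _ y) (InfinitePlace.mk f.1)).trans_lt hy
    rw [dist_eq_norm] at h
    refine lt_of_le_of_lt ?_ h
    rw [← Complex.sub_re, ← map_sub]
    exact (Complex.abs_re_le_norm _).trans (le_of_eq (InfinitePlace.apply f.1 _).symm)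
  have hval : ∀ f : RealEmb F, (f.1 (a (InfinitePlace.mk f.1))).re = if s f = 1 then 1 else -1 := by
    intro f
    have hr : ComplexEmbedding.IsReal f.1 :=
      ComplexEmbedding.isReal_iff.mpr (RingHom.ext fun x => RingHom.congr_fun f.2 x)
    have he := InfinitePlace.embedding_mk_eq_of_isReal hr
    have hcond : (starRingEnd ℂ).comp (InfinitePlace.mk f.1).embedding
        = (InfinitePlace.mk f.1).embedding := by rw [he]; exact f.2
    have hs : (⟨_, hcond⟩ : RealEmb F) = f := Subtype.ext he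
    simp only [a, dif_pos hcond, hs]
    split_ifs <;> simp
  have hpos : ∀ f : RealEmb F, (0 < (f.1 y).re ↔ s f = 1) ∧ (f.1 y).re ≠ 0 := by
    intro f
    have h := abs_lt.mp (key f)
    rw [hval f] at h
    split_ifs at h with hs
    · exact ⟨⟨fun _ => hs, fun _ => by linarith⟩, by linarith⟩
    · exact ⟨⟨fun hc => absurd hc (by linarith), fun hc => absurd hc hs⟩, by linarith⟩
  by_cases hy0 : y = 0
  · subst hy0
    exact ⟨1, fun f => absurd (by simp) (hpos f).2⟩
  refine ⟨Units.mk0 y hy0, fun f => ?_⟩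
  rcases Int.units_eq_one_or (s f) with h | h
  · rw [h, realSign_eq_one_iff]; exact (hpos f).1.mpr h
  · rw [h]
    rcases Int.units_eq_one_or (realSign f (Units.mk0 y hy0)) with h' | h'
    · have h2 := (hpos f).1.mp ((realSign_eq_one_iff f _).mp h')
      rw [h] at h2
      exact absurd h2 (by decide)
    · exact h'

/-- Changing the signs of an element without moving it at the primes over `T`. -/
theorem exists_sign_adjust {T : Finset ℕ} (hT : ∀ q ∈ T, q.Prime) (hTne : T.Nonempty) (x : Fˣ)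
    (s : RealEmb F → ℤˣ) (n : ℕ) : ∃ x' : Fˣ,
      (∀ A : Place, A.Over T →
        A.1.valuation (((x' : F) : ℚ̄) / ((x : F) : ℚ̄) - 1) ≤ A.1.valuation (A.char : ℚ̄) ^ n) ∧
      ∀ f, realSign f x' = s f := by
  classical
  obtain ⟨y, hy⟩ := exists_prescribed_sign s
  obtain ⟨k₀, hk₀⟩ := exists_pow_le_of_ne_zero (primesOverT F T) (fun _ => (x : F) / (y : F))
    (fun _ _ => div_ne_zero x.ne_zero y.ne_zero)
  set M : ℕ := ∏ q ∈ T, q with hM
  have hM1 : 1 < M := by
    obtain ⟨q, hq⟩ := hTne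
    refine lt_of_lt_of_le (hT q hq).one_lt (Nat.le_of_dvd (Finset.prod_pos fun r hr => (hT r hr).pos)
      (Finset.dvd_prod_of_mem _ hq))
  obtain ⟨k₁, hk₁⟩ : ∃ k₁ : ℕ, ∀ f : RealEmb F,
      |(f.1 (x : F)).re| < (M : ℝ) ^ k₁ * |(f.1 (y : F)).re| := by
    have := Fintype.ofFinite (RealEmb F)
    have hy' : ∀ f : RealEmb F, 0 < |(f.1 (y : F)).re| := fun f => abs_pos.mpr fun h => by
      have := f.coe_re (y : F)
      rw [h, Complex.ofReal_zero] at this
      exact y.ne_zero (f.1.injective (by rw [← this, map_zero]))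
    obtain ⟨k₁, hk₁⟩ := pow_unbounded_of_one_lt
      (∑ f : RealEmb F, |(f.1 (x : F)).re| / |(f.1 (y : F)).re|) (Nat.one_lt_cast.mpr hM1 : (1 : ℝ) < M)
    refine ⟨k₁, fun f => (div_lt_iff₀ (hy' f)).mp (lt_of_le_of_lt ?_ hk₁)⟩
    exact Finset.single_le_sum (f := fun f : RealEmb F => |(f.1 (x : F)).re| / |(f.1 (y : F)).re|)
      (fun g _ => by positivity) (Finset.mem_univ f)
  set k := k₀ + n + 1 + k₁
  have hk : ∀ A : Place, A.Over T →
      A.1.valuation ((((M : F) ^ k * (y : F) / (x : F) : F)) : ℚ̄) ≤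
        A.1.valuation (A.char : ℚ̄) ^ (n + 1) := by
    intro A hA
    have h := hk₀ A (primeOf_mem_primesOverT.mpr hA)
    have hM' : A.1.valuation (M : ℚ̄) ≤ A.1.valuation (A.char : ℚ̄) := by
      rw [hM, Nat.cast_prod, map_prod, ← Finset.mul_prod_erase _ _ (A.over_iff.mp hA)]
      exact mul_le_of_le_one_right' (Finset.prod_le_one' fun q _ =>
        (A.1.valuation_le_one_iff _).mpr (natCast_mem A.1 q))
    have hq0 : A.1.valuation (A.char : ℚ̄) ^ k₀ ≠ 0 := pow_ne_zero _ A.valuation_char_ne_zero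
    have h' : A.1.valuation ((((y : F) / (x : F) : F)) : ℚ̄) ≤
        (A.1.valuation (A.char : ℚ̄) ^ k₀)⁻¹ := by
      rw [show ((((y : F) / (x : F) : F)) : ℚ̄) = ((((x : F) / (y : F) : F)) : ℚ̄)⁻¹ by
        simp [inv_div], map_inv₀]
      exact (inv_le_inv₀ (lt_of_lt_of_le (zero_lt_iff.mpr hq0) h) (zero_lt_iff.mpr hq0)).mpr h
    rw [show ((((M : F) ^ k * (y : F) / (x : F) : F)) : ℚ̄) =
      (M : ℚ̄) ^ k * ((((y : F) / (x : F) : F)) : ℚ̄) by push_cast; ring, map_mul, map_pow]
    refine le_trans (mul_le_mul' (pow_le_pow_left₀ zero_le hM' k) h') ?_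
    rw [show k = k₀ + (n + 1 + k₁) by omega, pow_add, mul_comm (_ ^ k₀), mul_assoc,
      mul_inv_cancel₀ hq0, mul_one]
    exact pow_le_pow_of_le_one zero_le A.valuation_char_lt_one.le (by omega)
  have hsum : (x : F) + (M : F) ^ k * (y : F) ≠ 0 := by
    intro h
    by_cases hR : Nonempty (Place)
    · obtain ⟨q, hq⟩ := hTne
      obtain ⟨A₀, hA₀⟩ := GalCommon.exists_liesOverPrime (hT q hq)
      let A₁ : Place := ⟨A₀, q, hT q hq, hA₀⟩
      have hA : A₁.Over T := ⟨q, hq, hT q hq, hA₀⟩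
      have h1 := hk _ hA
      rw [show (M : F) ^ k * (y : F) = -(x : F) by linear_combination h, neg_div,
        div_self x.ne_zero] at h1
      simp only [NegMemClass.coe_neg, OneMemClass.coe_one, Valuation.map_neg, map_one] at h1
      exact absurd h1 (not_le.mpr (pow_lt_one₀ zero_le
        (Place.valuation_char_lt_one _) (Nat.succ_ne_zero n)))
    · obtain ⟨A₀, hA₀⟩ := GalCommon.exists_liesOverPrime Nat.prime_two
      exact hR ⟨⟨A₀, 2, Nat.prime_two, hA₀⟩⟩
  refine ⟨Units.mk0 _ hsum, fun A hA => ?_, fun f => ?_⟩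
  · rw [Units.val_mk0]
    have hx0 : ((x : F) : ℚ̄) ≠ 0 := by simp
    rw [show (((x : F) + (M : F) ^ k * (y : F) : F) : ℚ̄) / ((x : F) : ℚ̄) - 1 =
      ((((M : F) ^ k * (y : F) / (x : F) : F)) : ℚ̄) by push_cast; field_simp; ring]
    exact (hk A hA).trans
      (pow_le_pow_of_le_one zero_le A.valuation_char_lt_one.le n.le_succ)
  · have hiff : 0 < (f.1 ((x : F) + (M : F) ^ k * (y : F))).re ↔ 0 < (f.1 (y : F)).re := by
      have hre : (f.1 ((x : F) + (M : F) ^ k * (y : F))).re =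
          (f.1 (x : F)).re + (M : ℝ) ^ k * (f.1 (y : F)).re := by
        rw [map_add, map_mul, map_pow, map_natCast, Complex.add_re, ← f.coe_re (y : F),
          ← Complex.ofReal_natCast, ← Complex.ofReal_pow, ← Complex.ofReal_mul, Complex.ofReal_re,
          Complex.ofReal_re]
      have hlt : |(f.1 (x : F)).re| < (M : ℝ) ^ k * |(f.1 (y : F)).re| := by
        refine lt_of_lt_of_le (hk₁ f) (mul_le_mul_of_nonneg_right ?_ (abs_nonneg _))
        exact pow_le_pow_right₀ (Nat.one_le_cast.mpr hM1.le) (by omega)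
      have hMk : (0 : ℝ) < (M : ℝ) ^ k := pow_pos (by exact_mod_cast zero_lt_one.trans hM1) k
      rw [hre]
      rcases le_or_gt (f.1 (y : F)).re 0 with hy' | hy'
      · rw [abs_of_nonpos hy'] at hlt
        constructor <;> intro h <;> nlinarith [le_abs_self (f.1 (x : F)).re]
      · rw [abs_of_pos hy'] at hlt
        exact ⟨fun _ => hy', fun _ => by nlinarith [neg_abs_le (f.1 (x : F)).re]⟩
    rw [← hy f]
    rcases Int.units_eq_one_or (realSign f y) with h | h
    · rw [h, realSign_eq_one_iff, Units.val_mk0, hiff, ← realSign_eq_one_iff, h]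
    · rw [h]
      rcases Int.units_eq_one_or (realSign f (Units.mk0 _ hsum)) with h' | h'
      · rw [realSign_eq_one_iff, Units.val_mk0, hiff, ← realSign_eq_one_iff, h] at h'
        exact absurd h' (by decide)
      · exact h'

end FLTAgent.TW
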