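import Mathlib

/-!
# The index quotient of an endomorphism, and Herbrand quotients from `p`-th powers

For an endomorphism `f` of an abelian group the quotient `#coker f / #ker f` is multiplicative in
short exact sequences and in compositions.  For an automorphism `g` of order `p` of `M` this gives
`h(M) ^ (p - 1) = q_p(M^g) ^ p / q_p(M)`.
-/

set_option autoImplicit false

noncomputable section

namespace FLTAgent.TW

/-- Kernel and cokernel are finite. -/
structure QFinite {M : Type*} [CommGroup M] (f : M →* M) : Prop where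
  coker : Finite (M ⧸ f.range)
  ker : Finite f.ker

/-- `#coker / #ker`. -/
def qInd {M : Type*} [CommGroup M] (f : M →* M) : ℚ :=
  (Nat.card (M ⧸ f.range) : ℚ) / (Nat.card f.ker : ℚ)

section Exact

variable {A B C : Type*} [CommGroup A] [CommGroup B] [CommGroup C]

theorem finite_of_exact (u : A →* B) (v : B →* C) (h : u.range = v.ker) [Finite A] [Finite C] :
    Finite B := by
  have : Finite u.range := Finite.of_surjective _ u.rangeRestrict_surjective
  have : Finite v.ker := h ▸ inferInstance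
  exact v.finite_iff_finite_ker_range.mpr ⟨inferInstance, inferInstance⟩

theorem card_eq_range_mul (u : A →* B) (v : B →* C) (h : u.range = v.ker) :
    Nat.card B = Nat.card u.range * Nat.card v.range := by
  rw [h, ← Subgroup.index_ker v, Subgroup.card_mul_index]

variable {D E F : Type*} [CommGroup D] [CommGroup E] [CommGroup F]

/-- Cardinals in an exact sequence of six groups. -/
theorem card_six (u₁ : A →* B) (u₂ : B →* C) (u₃ : C →* D) (u₄ : D →* E) (u₅ : E →* F)
    (h₁ : Function.Injective u₁) (h₂ : u₁.range = u₂.ker) (h₃ : u₂.range = u₃.ker)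
    (h₄ : u₃.range = u₄.ker) (h₅ : u₄.range = u₅.ker) (h₆ : Function.Surjective u₅) :
    Nat.card A * Nat.card C * Nat.card E = Nat.card B * Nat.card D * Nat.card F := by
  have ha : Nat.card u₁.range = Nat.card A :=
    (Nat.card_congr (Equiv.ofInjective _ h₁)).symm
  have hf : Nat.card u₅.range = Nat.card F := by
    rw [MonoidHom.range_eq_top.mpr h₆]
    exact Subgroup.card_top
  rw [card_eq_range_mul u₁ u₂ h₂, card_eq_range_mul u₂ u₃ h₃, card_eq_range_mul u₃ u₄ h₄,
    card_eq_range_mul u₄ u₅ h₅, ha, hf]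
  ring

end Exact

section Snake

variable {A B C : Type*} [CommGroup A] [CommGroup B] [CommGroup C]
variable {fA : A →* A} {fB : B →* B} {fC : C →* C}

/-- The maps of the six-term sequence. -/
theorem snake (i : A →* B) (π : B →* C) (hi : Function.Injective i) (hπ : Function.Surjective π)
    (hex : i.range = π.ker) (hA : ∀ a, i (fA a) = fB (i a)) (hB : ∀ b, π (fB b) = fC (π b)) :
    ∃ (u₁ : fA.ker →* fB.ker) (u₂ : fB.ker →* fC.ker) (u₃ : fC.ker →* A ⧸ fA.range)
      (u₄ : A ⧸ fA.range →* B ⧸ fB.range) (u₅ : B ⧸ fB.range →* C ⧸ fC.range),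
      Function.Injective u₁ ∧ u₁.range = u₂.ker ∧ u₂.range = u₃.ker ∧ u₃.range = u₄.ker ∧
      u₄.range = u₅.ker ∧ Function.Surjective u₅ ∧
      (∀ a, (u₁ a : B) = i a) ∧ (∀ b, (u₂ b : C) = π b) ∧
      (∀ (c : fC.ker) (x : A) (b : B), π b = c → i x = fB b → u₃ c = QuotientGroup.mk x) ∧
      (∀ a : A, u₄ (QuotientGroup.mk a) = QuotientGroup.mk (i a)) ∧
      ∀ b : B, u₅ (QuotientGroup.mk b) = QuotientGroup.mk (π b) := by
  classical
  have hπi : ∀ a, π (i a) = 1 := fun a => MonoidHom.mem_ker.mp (hex ▸ ⟨a, rfl⟩)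
  have hlift : ∀ b, π b = 1 → ∃ a, i a = b := fun b hb =>
    MonoidHom.mem_range.mp (hex.symm ▸ MonoidHom.mem_ker.mpr hb : b ∈ i.range)
  have hrel : ∀ c : fC.ker, ∃ x : A, ∃ b, π b = c ∧ i x = fB b := by
    intro c
    obtain ⟨b, hb⟩ := hπ c
    obtain ⟨x, hx⟩ := hlift (fB b) (by rw [hB, hb]; exact c.2)
    exact ⟨x, b, hb, hx⟩
  have huniq : ∀ (x x' : A) (b b' : B), π b = π b' → i x = fB b → i x' = fB b' →
      (QuotientGroup.mk x : A ⧸ fA.range) = QuotientGroup.mk x' := by
    intro x x' b b' hbb hx hx'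
    obtain ⟨y, hy⟩ := hlift (b⁻¹ * b') (by rw [map_mul, map_inv, hbb, inv_mul_cancel])
    rw [QuotientGroup.eq]
    refine ⟨y, hi ?_⟩
    rw [hA, hy, map_mul, map_inv, map_mul, map_inv, hx, hx']
  choose δ β hβ hδ using hrel
  let u₃ : fC.ker →* A ⧸ fA.range :=
    { toFun := fun c => QuotientGroup.mk (δ c)
      map_one' := by
        rw [huniq (δ 1) 1 (β 1) 1 (by rw [hβ, map_one]; rfl) (hδ 1) (by simp)]
        rfl
      map_mul' := fun c c' => by
        rw [← QuotientGroup.mk_mul]
        exact huniq _ _ (β (c * c')) (β c * β c') (by rw [map_mul, hβ, hβ, hβ]; rfl) (hδ _)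
          (by rw [map_mul, map_mul, hδ, hδ]) }
  refine ⟨(i.comp fA.ker.subtype).codRestrict _ fun a => MonoidHom.mem_ker.mpr
      (show fB (i a) = 1 by rw [← hA, MonoidHom.mem_ker.mp a.2, map_one]),
    (π.comp fB.ker.subtype).codRestrict _ fun b => MonoidHom.mem_ker.mpr
      (show fC (π b) = 1 by rw [← hB, MonoidHom.mem_ker.mp b.2, map_one]),
    u₃,
    QuotientGroup.map _ _ i (by rintro _ ⟨a, rfl⟩; exact ⟨i a, (hA a).symm⟩),
    QuotientGroup.map _ _ π (by rintro _ ⟨b, rfl⟩; exact ⟨π b, (hB b).symm⟩), ?_, ?_, ?_, ?_, ?_, ?_,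
    fun a => rfl, fun b => rfl,
    fun c x b hb hx => huniq _ x _ b ((hβ c).trans hb.symm) (hδ c) hx, fun a => rfl, fun b => rfl⟩
  · exact fun a a' h => Subtype.ext (hi (congrArg Subtype.val h))
  · ext b
    constructor
    · rintro ⟨a, rfl⟩
      exact Subtype.ext (hπi a)
    · intro hb
      obtain ⟨a, ha⟩ := hlift b (congrArg Subtype.val hb)
      refine ⟨⟨a, hi ?_⟩, Subtype.ext ha⟩
      rw [hA, ha, map_one]
      exact b.2
  · ext c
    constructor
    · rintro ⟨b, rfl⟩
      show QuotientGroup.mk (δ _) = 1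
      rw [huniq _ 1 _ b (hβ _) (hδ _) (by rw [map_one]; exact b.2.symm)]
      rfl
    · intro hc
      obtain ⟨y, hy⟩ := (QuotientGroup.eq_one_iff _).mp hc
      refine ⟨⟨β c * (i y)⁻¹, MonoidHom.mem_ker.mpr ?_⟩, Subtype.ext ?_⟩
      · rw [map_mul, map_inv, ← hδ, ← hA, hy, mul_inv_cancel]
      · show π (β c * (i y)⁻¹) = c
        rw [map_mul, map_inv, hπi, inv_one, mul_one, hβ]
  · ext x
    induction x using QuotientGroup.induction_on with
    | _ a =>
      constructor
      · rintro ⟨c, hc⟩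
        rw [MonoidHom.mem_ker, ← hc]
        exact (QuotientGroup.eq_one_iff _).mpr ⟨β c, (hδ c).symm⟩
      · intro ha
        obtain ⟨b, hb⟩ := (QuotientGroup.eq_one_iff _).mp ha
        refine ⟨⟨π b, MonoidHom.mem_ker.mpr (by rw [← hB, hb, hπi])⟩, ?_⟩
        exact huniq _ a _ b (hβ _) (hδ _) hb.symm
  · ext x
    induction x using QuotientGroup.induction_on with
    | _ b =>
      constructor
      · rintro ⟨y, hy⟩
        induction y using QuotientGroup.induction_on with
        | _ a =>
          rw [MonoidHom.mem_ker, ← hy]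
          exact (QuotientGroup.eq_one_iff _).mpr (by rw [hπi]; exact one_mem _)
      · intro hb
        obtain ⟨c, hc⟩ := (QuotientGroup.eq_one_iff _).mp hb
        obtain ⟨b', rfl⟩ := hπ c
        obtain ⟨a, ha⟩ := hlift (b * (fB b')⁻¹) (by
          rw [map_mul, map_inv, hB, hc, mul_inv_cancel])
        refine ⟨QuotientGroup.mk a, ?_⟩
        show (QuotientGroup.mk (i a) : B ⧸ fB.range) = QuotientGroup.mk b
        rw [ha, QuotientGroup.eq]
        exact ⟨b', by rw [mul_inv, inv_inv, mul_comm b⁻¹, inv_mul_cancel_right]⟩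
  · intro x
    induction x using QuotientGroup.induction_on with
    | _ c =>
      obtain ⟨b, rfl⟩ := hπ c
      exact ⟨QuotientGroup.mk b, rfl⟩

variable (i : A →* B) (π : B →* C) (hi : Function.Injective i) (hπ : Function.Surjective π)
  (hex : i.range = π.ker) (hA : ∀ a, i (fA a) = fB (i a)) (hB : ∀ b, π (fB b) = fC (π b))

include hi hπ hex hA hB

theorem QFinite.middle (h : QFinite fA) (h' : QFinite fC) : QFinite fB := by
  obtain ⟨u₁, u₂, u₃, u₄, u₅, h₁, h₂, h₃, h₄, h₅, h₆, -⟩ := snake i π hi hπ hex hA hB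
  have := h.coker; have := h.ker; have := h'.coker; have := h'.ker
  exact ⟨finite_of_exact u₄ u₅ h₅, finite_of_exact u₁ u₂ h₂⟩

theorem QFinite.left (h : QFinite fB) (h' : QFinite fC) : QFinite fA := by
  obtain ⟨u₁, u₂, u₃, u₄, u₅, h₁, h₂, h₃, h₄, h₅, h₆, -⟩ := snake i π hi hπ hex hA hB
  have := h.coker; have := h.ker; have := h'.coker; have := h'.ker
  exact ⟨finite_of_exact u₃ u₄ h₄, Finite.of_injective _ h₁⟩

theorem QFinite.right (h : QFinite fA) (h' : QFinite fB) : QFinite fC := by
  obtain ⟨u₁, u₂, u₃, u₄, u₅, h₁, h₂, h₃, h₄, h₅, h₆, -⟩ := snake i π hi hπ hex hA hB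
  have := h.coker; have := h.ker; have := h'.coker; have := h'.ker
  exact ⟨Finite.of_surjective _ h₆, finite_of_exact u₂ u₃ h₃⟩

theorem qInd_mul (h : QFinite fA) (h' : QFinite fC) : qInd fB = qInd fA * qInd fC := by
  obtain ⟨u₁, u₂, u₃, u₄, u₅, h₁, h₂, h₃, h₄, h₅, h₆, -⟩ := snake i π hi hπ hex hA hB
  have := h.coker; have := h.ker; have := h'.coker; have := h'.ker
  have : Finite fB.ker := finite_of_exact u₁ u₂ h₂
  have hc := card_six u₁ u₂ u₃ u₄ u₅ h₁ h₂ h₃ h₄ h₅ h₆
  have e : (Nat.card fA.ker * Nat.card fC.ker * Nat.card (B ⧸ fB.range) : ℚ) =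
      Nat.card fB.ker * Nat.card (A ⧸ fA.range) * Nat.card (C ⧸ fC.range) := by exact_mod_cast hc
  have p1 : (Nat.card fA.ker : ℚ) ≠ 0 := by exact_mod_cast Nat.card_pos.ne'
  have p2 : (Nat.card fB.ker : ℚ) ≠ 0 := by exact_mod_cast Nat.card_pos.ne'
  have p3 : (Nat.card fC.ker : ℚ) ≠ 0 := by exact_mod_cast Nat.card_pos.ne'
  unfold qInd
  field_simp
  linear_combination e

end Snake

section Basic

variable {M : Type*} [CommGroup M]

theorem qFinite_of_finite [Finite M] (f : M →* M) : QFinite f := ⟨inferInstance, inferInstance⟩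

theorem qInd_of_finite [Finite M] (f : M →* M) : qInd f = 1 := by
  have h1 := Subgroup.card_mul_index f.range
  have h2 := Subgroup.card_mul_index f.ker
  rw [Subgroup.index_ker] at h2
  rw [Subgroup.index_eq_card] at h1
  have h3 : Nat.card (M ⧸ f.range) = Nat.card f.ker := by
    have := h1.trans h2.symm
    rw [mul_comm (Nat.card f.ker)] at this
    exact mul_left_cancel₀ Nat.card_pos.ne' this
  rw [qInd, h3, div_self (by exact_mod_cast Nat.card_pos.ne')]

theorem qInd_pos {f : M →* M} (h : QFinite f) : 0 < qInd f := by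
  have := h.coker; have := h.ker
  exact div_pos (by exact_mod_cast Nat.card_pos) (by exact_mod_cast Nat.card_pos)

theorem qFinite_of_equiv (e : M ≃* M) : QFinite (e : M →* M) := by
  refine ⟨?_, ?_⟩
  · rw [MonoidHom.range_eq_top.mpr e.surjective]; infer_instance
  · rw [(MonoidHom.ker_eq_bot_iff _).mpr e.injective]; infer_instance

theorem qInd_of_equiv (e : M ≃* M) : qInd (e : M →* M) = 1 := by
  have h1 : Nat.card (M ⧸ (e : M →* M).range) = 1 := by
    rw [← Subgroup.index_eq_card, MonoidHom.range_eq_top.mpr e.surjective, Subgroup.index_top]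
  have h2 : Nat.card (e : M →* M).ker = 1 := by
    rw [(MonoidHom.ker_eq_bot_iff _).mpr e.injective, Subgroup.card_bot]
  rw [qInd, h1, h2]; simp

theorem qInd_congr {N : Type*} [CommGroup N] (e : M ≃* N) {f : M →* M} {f' : N →* N}
    (h : ∀ m, e (f m) = f' (e m)) : qInd f' = qInd f ∧ (QFinite f → QFinite f') := by
  have hr : f.range.map (e : M →* N) = f'.range := by
    ext x
    constructor
    · rintro ⟨_, ⟨m, rfl⟩, rfl⟩; exact ⟨e m, (h m).symm⟩
    · rintro ⟨n, rfl⟩; exact ⟨f (e.symm n), ⟨_, rfl⟩, by simp [h]⟩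
  have hk : f.ker.map (e : M →* N) = f'.ker := by
    ext x
    constructor
    · rintro ⟨m, hm, rfl⟩
      show f' (e m) = 1
      rw [← h, show f m = 1 from hm, map_one]
    · intro hx
      refine ⟨e.symm x, e.injective ?_, by simp⟩
      rw [h, e.apply_symm_apply, map_one]; exact hx
  let e₁ : M ⧸ f.range ≃* N ⧸ f'.range := QuotientGroup.congr _ _ e hr
  let e₂ : f.ker ≃* f'.ker := (e.subgroupMap f.ker).trans (MulEquiv.subgroupCongr hk)
  refine ⟨by rw [qInd, qInd, Nat.card_congr e₁.toEquiv, Nat.card_congr e₂.toEquiv], fun hf => ?_⟩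
  have := hf.coker; have := hf.ker
  exact ⟨Finite.of_equiv _ e₁.toEquiv, Finite.of_equiv _ e₂.toEquiv⟩

/-- The six-term sequence of a composition. -/
theorem comp_exact (f g : M →* M) :
    ∃ (u₁ : g.ker →* (f.comp g).ker) (u₂ : (f.comp g).ker →* f.ker) (u₃ : f.ker →* M ⧸ g.range)
      (u₄ : M ⧸ g.range →* M ⧸ (f.comp g).range) (u₅ : M ⧸ (f.comp g).range →* M ⧸ f.range),
      Function.Injective u₁ ∧ u₁.range = u₂.ker ∧ u₂.range = u₃.ker ∧ u₃.range = u₄.ker ∧
      u₄.range = u₅.ker ∧ Function.Surjective u₅ := by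
  refine ⟨Subgroup.inclusion fun x hx => by
      rw [MonoidHom.mem_ker, MonoidHom.comp_apply, MonoidHom.mem_ker.mp hx, map_one],
    (g.comp (f.comp g).ker.subtype).codRestrict _ fun x => x.2,
    (QuotientGroup.mk' g.range).comp f.ker.subtype,
    QuotientGroup.map _ _ f (by rintro _ ⟨a, rfl⟩; exact ⟨a, rfl⟩),
    QuotientGroup.map _ _ (MonoidHom.id M) (by rintro _ ⟨a, rfl⟩; exact ⟨g a, rfl⟩),
    ?_, ?_, ?_, ?_, ?_, ?_⟩
  · exact Subgroup.inclusion_injective _
  · ext x
    constructor
    · rintro ⟨y, rfl⟩; exact Subtype.ext (MonoidHom.mem_ker.mp y.2)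
    · intro hx; exact ⟨⟨x, congrArg Subtype.val hx⟩, Subtype.ext rfl⟩
  · ext x
    constructor
    · rintro ⟨y, rfl⟩
      exact (QuotientGroup.eq_one_iff _).mpr ⟨y, rfl⟩
    · intro hx
      obtain ⟨y, hy⟩ := (QuotientGroup.eq_one_iff _).mp hx
      exact ⟨⟨y, by rw [MonoidHom.mem_ker, MonoidHom.comp_apply, hy]; exact x.2⟩, Subtype.ext hy⟩
  · ext x
    induction x using QuotientGroup.induction_on with
    | _ a =>
      constructor
      · rintro ⟨y, hy⟩
        rw [MonoidHom.mem_ker, ← hy]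
        exact (QuotientGroup.eq_one_iff _).mpr (by
          show f y ∈ _
          rw [MonoidHom.mem_ker.mp y.2]; exact one_mem _)
      · intro ha
        obtain ⟨y, hy⟩ := (QuotientGroup.eq_one_iff _).mp ha
        refine ⟨⟨a / g y, by
          rw [MonoidHom.mem_ker, _root_.map_div, ← hy]; exact div_self' _⟩, ?_⟩
        show (QuotientGroup.mk (a / g y) : M ⧸ g.range) = QuotientGroup.mk a
        rw [QuotientGroup.eq]
        exact ⟨y, by simp [div_eq_mul_inv, mul_comm a]⟩
  · ext x
    induction x using QuotientGroup.induction_on with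
    | _ a =>
      constructor
      · rintro ⟨y, hy⟩
        induction y using QuotientGroup.induction_on with
        | _ b =>
          rw [MonoidHom.mem_ker, ← hy]
          exact (QuotientGroup.eq_one_iff _).mpr ⟨b, rfl⟩
      · intro ha
        obtain ⟨b, hb⟩ := (QuotientGroup.eq_one_iff _).mp ha
        exact ⟨QuotientGroup.mk b, congrArg QuotientGroup.mk hb⟩
  · intro x
    induction x using QuotientGroup.induction_on with
    | _ a => exact ⟨QuotientGroup.mk a, rfl⟩

theorem QFinite.comp {f g : M →* M} (hf : QFinite f) (hg : QFinite g) : QFinite (f.comp g) := by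
  obtain ⟨u₁, u₂, u₃, u₄, u₅, h₁, h₂, h₃, h₄, h₅, h₆⟩ := comp_exact f g
  have := hf.coker; have := hf.ker; have := hg.coker; have := hg.ker
  exact ⟨finite_of_exact u₄ u₅ h₅, finite_of_exact u₁ u₂ h₂⟩

theorem qInd_comp {f g : M →* M} (hf : QFinite f) (hg : QFinite g) :
    qInd (f.comp g) = qInd f * qInd g := by
  obtain ⟨u₁, u₂, u₃, u₄, u₅, h₁, h₂, h₃, h₄, h₅, h₆⟩ := comp_exact f g
  have := hf.coker; have := hf.ker; have := hg.coker; have := hg.ker
  have : Finite (f.comp g).ker := finite_of_exact u₁ u₂ h₂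
  have e : (Nat.card g.ker * Nat.card f.ker * Nat.card (M ⧸ (f.comp g).range) : ℚ) =
      Nat.card (f.comp g).ker * Nat.card (M ⧸ g.range) * Nat.card (M ⧸ f.range) := by
    exact_mod_cast card_six u₁ u₂ u₃ u₄ u₅ h₁ h₂ h₃ h₄ h₅ h₆
  have p1 : (Nat.card g.ker : ℚ) ≠ 0 := by exact_mod_cast Nat.card_pos.ne'
  have p2 : (Nat.card f.ker : ℚ) ≠ 0 := by exact_mod_cast Nat.card_pos.ne'
  have p3 : (Nat.card (f.comp g).ker : ℚ) ≠ 0 := by exact_mod_cast Nat.card_pos.ne'
  unfold qInd
  field_simp
  linear_combination e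

/-- A subgroup as the domain of the power map. -/
theorem relIndex_map_pow (U : Subgroup M) (p : ℕ) :
    (U.map (powMonoidHom p)).relIndex U = Nat.card (U ⧸ (powMonoidHom p : U →* U).range) := by
  rw [Subgroup.relIndex, Subgroup.index_eq_card]
  congr 2
  ext x
  constructor
  · rintro ⟨y, hy, hxy⟩; exact ⟨⟨y, hy⟩, Subtype.ext hxy⟩
  · rintro ⟨y, rfl⟩; exact ⟨y, y.2, rfl⟩

/-- A subgroup of finite index has the same `q_p`. -/
theorem qPow_of_finite_index' (p : ℕ) (S : Subgroup M) [Finite (M ⧸ S)]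
    (hG : QFinite (powMonoidHom p : M →* M)) :
    QFinite (powMonoidHom p : S →* S) ∧
      qInd (powMonoidHom p : S →* S) = qInd (powMonoidHom p : M →* M) := by
  have hex : S.subtype.range = (QuotientGroup.mk' S).ker := by
    rw [QuotientGroup.ker_mk', Subgroup.range_subtype]
  have hS : QFinite (powMonoidHom p : S →* S) :=
    QFinite.left (fA := powMonoidHom p) (fB := powMonoidHom p) (fC := powMonoidHom p) S.subtype
      (QuotientGroup.mk' S) S.subtype_injective (QuotientGroup.mk'_surjective S) hex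
      (fun _ => rfl) (fun _ => rfl) hG (qFinite_of_finite _)
  refine ⟨hS, ?_⟩
  rw [qInd_mul (fA := powMonoidHom p) (fB := powMonoidHom p) (fC := powMonoidHom p) S.subtype
    (QuotientGroup.mk' S) S.subtype_injective (QuotientGroup.mk'_surjective S) hex
    (fun _ => rfl) (fun _ => rfl) hS (qFinite_of_finite _),
    qInd_of_finite (powMonoidHom p : M ⧸ S →* M ⧸ S), mul_one]

/-- A map with finite kernel and cokernel preserves `q_p`. -/
theorem qPow_of_finite_ker_coker {M' : Type*} [CommGroup M'] (p : ℕ) (f : M →* M') [Finite f.ker]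
    [Finite (M' ⧸ f.range)] (h : QFinite (powMonoidHom p : M' →* M')) :
    QFinite (powMonoidHom p : M →* M) ∧
      qInd (powMonoidHom p : M →* M) = qInd (powMonoidHom p : M' →* M') := by
  obtain ⟨hr1, hr2⟩ := qPow_of_finite_index' p f.range h
  have hex : f.ker.subtype.range = f.rangeRestrict.ker := by
    rw [MonoidHom.ker_rangeRestrict, Subgroup.range_subtype]
  refine ⟨QFinite.middle (fA := powMonoidHom p) (fB := powMonoidHom p) (fC := powMonoidHom p)
    f.ker.subtype f.rangeRestrict f.ker.subtype_injective f.rangeRestrict_surjective hex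
    (fun _ => rfl) (fun x => map_pow f.rangeRestrict x p) (qFinite_of_finite _) hr1, ?_⟩
  rw [qInd_mul (fA := powMonoidHom p) (fB := powMonoidHom p) (fC := powMonoidHom p)
    f.ker.subtype f.rangeRestrict f.ker.subtype_injective f.rangeRestrict_surjective hex
    (fun _ => rfl) (fun x => map_pow f.rangeRestrict x p) (qFinite_of_finite _) hr1,
    qInd_of_finite (powMonoidHom p : f.ker →* f.ker), one_mul, hr2]

end Basic

/-- Free abelian groups. -/
theorem qInd_pow_lattice (ι : Type*) [Fintype ι] {p : ℕ} (hp : p ≠ 0) :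
    QFinite (powMonoidHom p : Multiplicative (ι → ℤ) →* _) ∧
      qInd (powMonoidHom p : Multiplicative (ι → ℤ) →* _) = (p : ℚ) ^ Fintype.card ι := by
  have : NeZero p := ⟨hp⟩
  set f := (powMonoidHom p : Multiplicative (ι → ℤ) →* Multiplicative (ι → ℤ))
  let r : Multiplicative (ι → ℤ) →* Multiplicative (ι → ZMod p) :=
    AddMonoidHom.toMultiplicative ((Int.castAddHom (ZMod p)).compLeft ι)
  have hr : Function.Surjective r := fun x =>
    ⟨Multiplicative.ofAdd fun i => ((Multiplicative.toAdd x i).val : ℤ), by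
      refine Multiplicative.toAdd.injective (funext fun i => ?_)
      simp [r]⟩
  have hker : r.ker = f.range := by
    ext x
    constructor
    · intro hx
      have h0 : ∀ i, (p : ℤ) ∣ Multiplicative.toAdd x i := fun i =>
        (ZMod.intCast_zmod_eq_zero_iff_dvd _ p).mp
          (congrFun (congrArg Multiplicative.toAdd hx) i)
      choose c hc using h0
      exact ⟨Multiplicative.ofAdd c, Multiplicative.toAdd.injective (funext fun i => by
        simp [f, hc i, mul_comm])⟩
    · rintro ⟨y, rfl⟩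
      refine Multiplicative.toAdd.injective (funext fun i => ?_)
      simp [r, f]
  have hinj : f.ker = ⊥ := by
    rw [MonoidHom.ker_eq_bot_iff]
    intro x y h
    refine Multiplicative.toAdd.injective (funext fun i => ?_)
    have := congrFun (congrArg Multiplicative.toAdd h) i
    simpa [f, hp] using this
  let e : Multiplicative (ι → ℤ) ⧸ f.range ≃* Multiplicative (ι → ZMod p) :=
    (QuotientGroup.quotientMulEquivOfEq hker.symm).trans
      (QuotientGroup.quotientKerEquivOfSurjective r hr)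
  refine ⟨⟨Finite.of_equiv _ e.symm.toEquiv, by rw [hinj]; infer_instance⟩, ?_⟩
  rw [qInd, Nat.card_congr e.toEquiv, hinj, Subgroup.card_bot,
    Nat.card_congr Multiplicative.toAdd, Nat.card_fun, Nat.card_zmod, Nat.card_eq_fintype_card]
  simp

/-! ### Herbrand quotient -/

section Herbrand

open Polynomial

theorem geom_inverse {p : ℕ} (i k : ℕ) (hik : i * k % p = 1) :
    ∃ S : ℤ[X], (∑ j ∈ Finset.range i, X ^ j) * (∑ j ∈ Finset.range k, (X ^ i) ^ j) - 1 =
      (∑ j ∈ Finset.range p, X ^ j) * S := by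
  set t := i * k / p
  have hsplit : i * k = 1 + p * t := by
    have := Nat.mod_add_div (i * k) p
    rw [hik] at this
    exact this.symm
  refine ⟨X * ∑ j ∈ Finset.range t, (X ^ p) ^ j, ?_⟩
  have h0 : (X - 1 : ℤ[X]) ≠ 0 := by simpa using X_sub_C_ne_zero (R := ℤ) 1
  refine mul_left_cancel₀ h0 ?_
  have hp := mul_geom_sum (X : ℤ[X]) p
  have ht := mul_geom_sum ((X : ℤ[X]) ^ p) t
  have hi := mul_geom_sum (X : ℤ[X]) i
  have hk := mul_geom_sum ((X : ℤ[X]) ^ i) k
  calc (X - 1 : ℤ[X]) * ((∑ j ∈ Finset.range i, X ^ j) * (∑ j ∈ Finset.range k, (X ^ i) ^ j) - 1)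
      = (X ^ i - 1) * (∑ j ∈ Finset.range k, (X ^ i) ^ j) - (X - 1) := by rw [← hi]; ring
    _ = X ^ (i * k) - X := by rw [hk, ← pow_mul]; ring
    _ = X * ((X ^ p) ^ t - 1) := by rw [hsplit, pow_add, pow_one, pow_mul]; ring
    _ = _ := by rw [← ht, ← hp]; ring

theorem prod_one_sub_X_pow {p : ℕ} [hp : Fact p.Prime] :
    ∃ R : ℤ[X], (∏ i ∈ Finset.Ico 1 p, (1 - X ^ i)) - C (p : ℤ) =
      (∑ j ∈ Finset.range p, X ^ j) * R := by
  rw [← Polynomial.cyclotomic_prime ℤ p]
  obtain ⟨ζ, hζ⟩ : ∃ ζ : ℂ, IsPrimitiveRoot ζ p := ⟨_, Complex.isPrimitiveRoot_exp p hp.out.ne_zero⟩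
  have hmin : cyclotomic p ℤ = minpoly ℤ ζ := cyclotomic_eq_minpoly hζ hp.out.pos
  rw [hmin]
  refine minpoly.isIntegrallyClosed_dvd (hζ.isIntegral hp.out.pos) ?_
  rw [map_sub, map_prod, aeval_C]
  have h1 : (cyclotomic p ℂ).eval 1 = (p : ℂ) := eval_one_cyclotomic_prime
  rw [cyclotomic_eq_prod_X_sub_primitiveRoots hζ] at h1
  have hset : primitiveRoots p ℂ = (Finset.Ico 1 p).image (ζ ^ ·) := by
    ext μ
    rw [mem_primitiveRoots hp.out.pos, Finset.mem_image]
    constructor
    · intro hμ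
      obtain ⟨i, hi, rfl⟩ := hζ.eq_pow_of_pow_eq_one hμ.pow_eq_one
      refine ⟨i, Finset.mem_Ico.mpr ⟨Nat.one_le_iff_ne_zero.mpr ?_, hi⟩, rfl⟩
      rintro rfl
      exact hp.out.ne_one (hμ.unique (by simp))
    · rintro ⟨i, hi, rfl⟩
      rw [Finset.mem_Ico] at hi
      exact hζ.pow_of_coprime i ((hp.out.coprime_iff_not_dvd.mpr
        (Nat.not_dvd_of_pos_of_lt hi.1 hi.2)).symm)
  rw [hset, eval_prod, Finset.prod_image] at h1
  · simp only [eval_sub, eval_X, eval_C] at h1
    rw [sub_eq_zero]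
    simpa using h1
  · intro i hi j hj h
    simp only [Finset.coe_Ico, Set.mem_Ico] at hi hj
    exact hζ.pow_inj hi.2 hj.2 h

variable {M : Type*} [CommGroup M] {p : ℕ} [hp : Fact p.Prime] (g : M ≃* M)

/-- The fixed points. -/
def fixedBy : Subgroup M := MonoidHom.eqLocus (g : M →* M) (MonoidHom.id M)

/-- The norm `∏ g^i`. -/
def normHom (p : ℕ) : M →* M where
  toFun m := ∏ i ∈ Finset.range p, (g ^ i : MulAut M) m
  map_one' := by simp
  map_mul' a b := by simp [Finset.prod_mul_distrib]

/-- `m ↦ g m / m`. -/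
def diffHom : M →* M where
  toFun m := g m / m
  map_one' := by simp
  map_mul' a b := by rw [map_mul, mul_div_mul_comm]

variable {g} (hg : (g : MulAut M) ^ p = 1)

include hg in
theorem normHom_g (m : M) : normHom g p (g m) = normHom g p m := by
  have hp1 : 1 ≤ p := hp.out.pos
  obtain ⟨q, hq⟩ : ∃ q, p = q + 1 := ⟨p - 1, by omega⟩
  show ∏ i ∈ Finset.range p, (g ^ i : MulAut M) (g m) = ∏ i ∈ Finset.range p, (g ^ i : MulAut M) m
  have e : ∀ i, (g ^ i : MulAut M) (g m) = (g ^ (i + 1) : MulAut M) m := fun i => by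
    rw [pow_succ]; rfl
  simp only [e]
  rw [hq, Finset.prod_range_succ (fun i => (g ^ (i + 1) : MulAut M) m),
    Finset.prod_range_succ' (fun i => (g ^ i : MulAut M) m)]
  rw [← hq, hg, pow_zero]

include hg in
theorem normHom_mem_fixedBy (m : M) : normHom g p m ∈ fixedBy g := by
  show g (normHom g p m) = normHom g p m
  conv_rhs => rw [← normHom_g hg m]
  show g (∏ i ∈ Finset.range p, (g ^ i : MulAut M) m) = ∏ i ∈ Finset.range p, (g ^ i : MulAut M) (g m)
  rw [map_prod]
  refine Finset.prod_congr rfl fun i _ => ?_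
  exact DFunLike.congr_fun (Commute.self_pow (g : MulAut M) i).eq m

theorem normHom_of_fixed {m : M} (hm : m ∈ fixedBy g) : normHom g p m = m ^ p := by
  show ∏ i ∈ Finset.range p, (g ^ i : MulAut M) m = m ^ p
  rw [Finset.prod_eq_pow_card (b := m), Finset.card_range]
  intro i hi
  clear hi
  induction i with
  | zero => rfl
  | succ i ih =>
    rw [pow_succ]
    show (g ^ i : MulAut M) (g m) = m
    rw [show g m = m from hm]
    exact ih

include hg in
/-- **Herbrand quotient from `p`-th powers.** -/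
theorem herbrand_of_qInd (hM : QFinite (powMonoidHom p : M →* M))
    (hG : QFinite (powMonoidHom p : fixedBy g →* fixedBy g)) {a : ℚ}
    (hMa : qInd (powMonoidHom p : M →* M) = a)
    (hGa : qInd (powMonoidHom p : fixedBy g →* fixedBy g) = a) :
    0 < (normHom g p).range.relIndex (fixedBy g) ∧
    ((normHom g p).range.relIndex (fixedBy g) : ℚ) =
      a * ((diffHom g).range.relIndex (normHom g p).ker : ℚ) := by
  classical
  set N := normHom g p
  set G₀ := fixedBy g
  set M₀ := N.ker with hM₀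
  have hNG : N.range ≤ G₀ := by rintro _ ⟨m, rfl⟩; exact normHom_mem_fixedBy hg m
  have hpow : ∀ x ∈ G₀, x ^ p ∈ N.range := fun x hx => ⟨x, normHom_of_fixed hx⟩
  -- the image of the norm
  have := hG.coker
  let P : Subgroup G₀ := N.range.subgroupOf G₀
  have hPle : (powMonoidHom p : G₀ →* G₀).range ≤ P := by
    rintro _ ⟨x, rfl⟩; exact hpow _ x.2
  have hPfin : Finite (G₀ ⧸ P) :=
    Finite.of_surjective (QuotientGroup.map _ P (MonoidHom.id G₀) hPle) (by
      intro x
      induction x using QuotientGroup.induction_on with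
      | _ y => exact ⟨QuotientGroup.mk y, rfl⟩)
  have hexP : P.subtype.range = (QuotientGroup.mk' P).ker := by
    rw [QuotientGroup.ker_mk', Subgroup.range_subtype]
  have hPq : QFinite (powMonoidHom p : P →* P) :=
    QFinite.left (fB := powMonoidHom p) (fC := powMonoidHom p) P.subtype (QuotientGroup.mk' P)
      P.subtype_injective (QuotientGroup.mk'_surjective P) hexP (fun _ => rfl) (fun _ => rfl) hG
      (qFinite_of_finite _)
  have hPa : qInd (powMonoidHom p : P →* P) = a := by
    have := qInd_mul (fB := powMonoidHom p) (fC := powMonoidHom p) P.subtype (QuotientGroup.mk' P)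
      P.subtype_injective (QuotientGroup.mk'_surjective P) hexP (fun _ => rfl) (fun _ => rfl) hPq
      (qFinite_of_finite _)
    rw [hGa, qInd_of_finite (powMonoidHom p : G₀ ⧸ P →* G₀ ⧸ P), mul_one] at this
    exact this.symm
  -- the kernel of the norm
  let π : M →* P := ((N.codRestrict G₀ fun m => hNG ⟨m, rfl⟩)).codRestrict P fun m => ⟨m, rfl⟩
  have hπs : Function.Surjective π := fun ⟨⟨x, _⟩, ⟨m, hm⟩⟩ => ⟨m, Subtype.ext (Subtype.ext hm)⟩
  have hex0 : M₀.subtype.range = π.ker := by
    rw [Subgroup.range_subtype]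
    ext m
    exact ⟨fun h => Subtype.ext (Subtype.ext h), fun h => congrArg (fun z : P => ((z : G₀) : M)) h⟩
  have hM₀q : QFinite (powMonoidHom p : M₀ →* M₀) :=
    QFinite.left (fB := powMonoidHom p) (fC := powMonoidHom p) M₀.subtype π M₀.subtype_injective hπs
      hex0 (fun _ => rfl) (fun _ => map_pow π _ p) hM hPq
  have hM₀1 : qInd (powMonoidHom p : M₀ →* M₀) = 1 := by
    have := qInd_mul (fB := powMonoidHom p) (fC := powMonoidHom p) M₀.subtype π
      M₀.subtype_injective hπs hex0 (fun _ => rfl) (fun _ => map_pow π _ p) hM₀q hPq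
    rw [hMa, hPa] at this
    have ha : a ≠ 0 := hMa ▸ (qInd_pos hM).ne'
    exact (mul_eq_right₀ ha).mp this.symm
  -- `g - 1` on it
  have hgM₀ : ∀ m : M₀, g m ∈ M₀ := fun m => by
    show N (g m) = 1
    rw [normHom_g hg]; exact m.2
  let γ : AddMonoid.End (Additive M₀) := MonoidHom.toAdditive
    (((g : M →* M).comp M₀.subtype).codRestrict M₀ hgM₀)
  have hγpow : ∀ (i : ℕ) (x : Additive M₀),
      ((Additive.toMul ((γ ^ i) x) : M₀) : M) = (g ^ i : MulAut M) (Additive.toMul x : M₀) := by
    intro i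
    induction i with
    | zero => intro x; rfl
    | succ i ih =>
      intro x
      rw [pow_succ, pow_succ]
      exact (ih (γ x)).trans rfl
  let φ : ℤ[X] →ₐ[ℤ] AddMonoid.End (Additive M₀) := aeval γ
  have hΦ : φ (∑ j ∈ Finset.range p, X ^ j) = 0 := by
    refine DFunLike.ext _ _ fun x => ?_
    simp only [φ, map_sum, map_pow, aeval_X]
    rw [show ((∑ i ∈ Finset.range p, γ ^ i : AddMonoid.End (Additive M₀))) x
        = ∑ i ∈ Finset.range p, (γ ^ i) x from AddMonoidHom.finsetSum_apply _ _ _]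
    apply Additive.toMul.injective
    refine Subtype.ext ?_
    rw [toMul_sum, Subgroup.val_finsetProd]
    show _ = (1 : M)
    rw [Finset.prod_congr rfl fun i _ => hγpow i x]
    exact (Additive.toMul x : M₀).2
  let toHom : AddMonoid.End (Additive M₀) → (M₀ →* M₀) := fun f => MonoidHom.toAdditive.symm f
  have toHom_mul : ∀ f f', toHom (f * f') = (toHom f).comp (toHom f') := fun f f' => rfl
  set D := toHom (φ (X - 1)) with hD
  -- the units
  let u : ℕ → ℤ[X] := fun i => ∑ j ∈ Finset.range i, X ^ j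
  have hu : ∀ i ∈ Finset.Ico 1 p, IsUnit (φ (u i)) := by
    intro i hi
    rw [Finset.mem_Ico] at hi
    obtain ⟨k, hk⟩ := Nat.exists_mul_mod_eq_one_of_coprime (k := p) (n := i)
      ((hp.out.coprime_iff_not_dvd.mpr (Nat.not_dvd_of_pos_of_lt hi.1 hi.2)).symm) hp.out.one_lt
    obtain ⟨S, hS⟩ := geom_inverse i k hk.2
    refine isUnit_iff_exists.mpr ⟨φ (∑ j ∈ Finset.range k, (X ^ i) ^ j), ?_, ?_⟩
    · rw [← map_mul, sub_eq_iff_eq_add.mp hS, map_add, map_mul, hΦ, zero_mul, zero_add, map_one]
    · rw [← map_mul, mul_comm, sub_eq_iff_eq_add.mp hS, map_add, map_mul, hΦ, zero_mul, zero_add,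
        map_one]
  have hneg : IsUnit (φ (-1)) := (isUnit_one.neg).map φ
  have hprodu : ∀ s : Finset ℕ, s ⊆ Finset.Ico 1 p → IsUnit (φ (∏ i ∈ s, -u i)) := by
    intro s
    induction s using Finset.induction_on with
    | empty => intro _; simp
    | insert i s hi ih =>
      intro hs
      rw [Finset.prod_insert hi, map_mul]
      refine IsUnit.mul ?_ (ih fun j hj => hs (Finset.mem_insert_of_mem hj))
      rw [neg_eq_neg_one_mul, map_mul]
      exact hneg.mul (hu i (hs (Finset.mem_insert_self i s)))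
  obtain ⟨w, hw⟩ := hprodu _ subset_rfl
  have hpD : (powMonoidHom p : M₀ →* M₀) = (toHom ↑w).comp (toHom (φ ((X - 1) ^ (p - 1)))) := by
    rw [← toHom_mul, hw, ← map_mul]
    obtain ⟨R, hR⟩ := prod_one_sub_X_pow (p := p)
    have e1 : (∏ i ∈ Finset.Ico 1 p, -u i) * (X - 1) ^ (p - 1)
        = ∏ i ∈ Finset.Ico 1 p, (1 - X ^ i) := by
      rw [show p - 1 = (Finset.Ico 1 p).card from by simp, ← Finset.prod_const, ← Finset.prod_mul_distrib]
      refine Finset.prod_congr rfl fun i _ => ?_
      rw [neg_mul, show u i * (X - 1) = X ^ i - 1 from geom_sum_mul (X : ℤ[X]) i, neg_sub]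
    rw [e1, sub_eq_iff_eq_add.mp hR, map_add, map_mul, hΦ, zero_mul, zero_add]
    refine MonoidHom.ext fun x => ?_
    show x ^ p = toHom (φ (C (p : ℤ))) x
    simp only [φ, aeval_C]
    rw [eq_intCast, Int.cast_natCast]
    exact congrArg Additive.toMul (show p • Additive.ofMul x = ((p : AddMonoid.End (Additive M₀))) (Additive.ofMul x) from (AddMonoid.End.natCast_apply p _).symm)
  have hwq : QFinite (toHom ↑w) ∧ qInd (toHom ↑w) = 1 := by
    let e : M₀ ≃* M₀ :=
      { toFun := toHom ↑w
        invFun := toHom ↑w⁻¹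
        left_inv := fun x => by
          show (toHom ↑w⁻¹).comp (toHom ↑w) x = x
          rw [← toHom_mul, Units.inv_mul]; rfl
        right_inv := fun x => by
          show (toHom ↑w).comp (toHom ↑w⁻¹) x = x
          rw [← toHom_mul, Units.mul_inv]; rfl
        map_mul' := map_mul _ }
    exact ⟨qFinite_of_equiv e, qInd_of_equiv e⟩
  have hDpow : ∀ n : ℕ, toHom (φ ((X - 1) ^ (n + 1))) = D.comp (toHom (φ ((X - 1) ^ n))) := fun n => by
    rw [hD, ← toHom_mul, ← map_mul, pow_succ']
  have hDq : QFinite D := by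
    have hp2 : p - 1 = (p - 2) + 1 := by have := hp.out.two_le; omega
    have hpw : QFinite (toHom (φ ((X - 1) ^ (p - 1)))) := by
      have hwi := qFinite_of_equiv (M := M₀)
        { toFun := toHom ↑w⁻¹
          invFun := toHom ↑w
          left_inv := fun x => by
            show (toHom ↑w).comp (toHom ↑w⁻¹) x = x
            rw [← toHom_mul, Units.mul_inv]; rfl
          right_inv := fun x => by
            show (toHom ↑w⁻¹).comp (toHom ↑w) x = x
            rw [← toHom_mul, Units.inv_mul]; rfl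
          map_mul' := map_mul _ }
      have h : toHom (φ ((X - 1) ^ (p - 1))) = (toHom ↑w⁻¹).comp (powMonoidHom p : M₀ →* M₀) := by
        rw [hpD, ← toHom_mul, ← toHom_mul, Units.inv_mul_cancel_left]
      rw [h]
      exact QFinite.comp hwi hM₀q
    have := hpw.coker; have := hpw.ker
    constructor
    · -- a quotient of the cokernel of the power
      rw [hp2, hDpow] at hpw
      have := hpw.coker
      exact Finite.of_surjective (QuotientGroup.map _ _ (MonoidHom.id M₀) (by
        rintro _ ⟨x, rfl⟩; exact ⟨toHom (φ ((X - 1) ^ (p - 2))) x, rfl⟩) :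
        M₀ ⧸ (D.comp (toHom (φ ((X - 1) ^ (p - 2))))).range →* M₀ ⧸ D.range) (by
          intro x
          induction x using QuotientGroup.induction_on with
          | _ y => exact ⟨QuotientGroup.mk y, rfl⟩)
    · have e : toHom (φ ((X - 1) ^ (p - 1))) = (toHom (φ ((X - 1) ^ (p - 2)))).comp D := by
        rw [hD, ← toHom_mul, ← map_mul, ← pow_succ, ← hp2]
      exact Finite.of_injective
        (Subgroup.inclusion (show D.ker ≤ (toHom (φ ((X - 1) ^ (p - 1)))).ker from fun x hx => by
          rw [MonoidHom.mem_ker, e, MonoidHom.comp_apply, MonoidHom.mem_ker.mp hx, map_one]))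
        (Subgroup.inclusion_injective _)
  have hDn : ∀ n : ℕ, QFinite (toHom (φ ((X - 1) ^ n))) ∧
      qInd (toHom (φ ((X - 1) ^ n))) = qInd D ^ n := by
    intro n
    induction n with
    | zero =>
      rw [pow_zero, map_one, pow_zero]
      exact ⟨qFinite_of_equiv (MulEquiv.refl M₀), qInd_of_equiv (MulEquiv.refl M₀)⟩
    | succ n ih =>
      rw [hDpow]
      exact ⟨QFinite.comp hDq ih.1, by rw [qInd_comp hDq ih.1, ih.2, pow_succ']⟩
  have hD1 : qInd D = 1 := by
    have h := hM₀1
    rw [hpD, qInd_comp hwq.1 (hDn _).1, hwq.2, (hDn _).2, one_mul] at h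
    exact (pow_eq_one_iff_of_nonneg (qInd_pos hDq).le (by have := hp.out.two_le; omega)).mp h
  -- comparison of cokernels
  have hDval : ∀ x : M₀, ((D x : M₀) : M) = g x / x := by
    intro x
    simp only [hD, φ, map_sub, aeval_X, map_one]
    show ((Additive.toMul ((γ - 1) (Additive.ofMul x)) : M₀) : M) = _
    rfl
  -- `[DM : DM₀] = [NM : pG₀]`
  let α : M →* P ⧸ ((powMonoidHom p : G₀ →* G₀).range).subgroupOf P := (QuotientGroup.mk' _).comp π
  let β : M →* (diffHom g).range ⧸ (((D.range).map M₀.subtype)).subgroupOf (diffHom g).range :=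
    (QuotientGroup.mk' _).comp (diffHom g).rangeRestrict
  have hαs : Function.Surjective α := (QuotientGroup.mk'_surjective _).comp hπs
  have hβs : Function.Surjective β :=
    (QuotientGroup.mk'_surjective _).comp (diffHom g).rangeRestrict_surjective
  have hker : α.ker = β.ker := by
    ext m
    simp only [α, β, MonoidHom.mem_ker, MonoidHom.comp_apply, QuotientGroup.mk'_apply,
      QuotientGroup.eq_one_iff, Subgroup.mem_subgroupOf]
    constructor
    · rintro ⟨x, hx⟩
      have hx' : N m = (x : M) ^ p := (congrArg Subtype.val hx).symm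
      have hm₀ : m / (x : M) ∈ M₀ := by
        show N (m / x) = 1
        rw [_root_.map_div, hx', normHom_of_fixed x.2, div_self']
      refine ⟨D ⟨_, hm₀⟩, ⟨_, rfl⟩, ?_⟩
      show ((D ⟨_, hm₀⟩ : M₀) : M) = g m / m
      rw [hDval, _root_.map_div, show g (x : M) = x from x.2]
      exact div_div_div_cancel_right _ _ _
    · rintro ⟨_, ⟨x, rfl⟩, hx⟩
      have hx' : g x / x = g m / m := (hDval x).symm.trans hx
      have hfix : m / (x : M) ∈ G₀ := by
        show g (m / x) = m / x
        rw [_root_.map_div, div_eq_div_iff_div_eq_div]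
        exact hx'.symm
      refine ⟨⟨_, hfix⟩, Subtype.ext ?_⟩
      show (m / (x : M)) ^ p = N m
      rw [← normHom_of_fixed hfix, _root_.map_div, show N (x : M) = 1 from x.2, div_one]
  have hcard : Nat.card (P ⧸ ((powMonoidHom p : G₀ →* G₀).range).subgroupOf P) =
      Nat.card ((diffHom g).range ⧸ (((D.range).map M₀.subtype)).subgroupOf (diffHom g).range) :=
    Nat.card_congr (((QuotientGroup.quotientKerEquivOfSurjective α hαs).symm.trans
      ((QuotientGroup.quotientMulEquivOfEq hker).trans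
        (QuotientGroup.quotientKerEquivOfSurjective β hβs))).toEquiv)
  rw [← Subgroup.index_eq_card, ← Subgroup.index_eq_card] at hcard
  -- towers
  have hdle : (D.range).map M₀.subtype ≤ (diffHom g).range := by
    rintro _ ⟨_, ⟨x, rfl⟩, rfl⟩; exact ⟨x, (hDval x).symm⟩
  have hdker : (diffHom g).range ≤ M₀ := by
    rintro _ ⟨m, rfl⟩
    show N (g m / m) = 1
    rw [_root_.map_div, normHom_g hg, div_self']
  have t1 := Subgroup.relIndex_mul_relIndex _ _ _ hdle hdker
  have t1' : ((D.range).map M₀.subtype).relIndex M₀ = Nat.card (M₀ ⧸ D.range) := by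
    rw [Subgroup.relIndex, Subgroup.index_eq_card, Subgroup.subgroupOf,
      Subgroup.comap_map_eq_self_of_injective M₀.subtype_injective]
  have t2 := Subgroup.relIndex_mul_index hPle
  rw [Subgroup.index_eq_card (H := (powMonoidHom p : G₀ →* G₀).range)] at t2
  -- kernels
  have hk : Nat.card (powMonoidHom p : G₀ →* G₀).ker = Nat.card D.ker := by
    refine Nat.card_congr
      { toFun := fun x => ⟨⟨(x.1 : M), ?_⟩, ?_⟩
        invFun := fun x => ⟨⟨(x.1 : M), ?_⟩, ?_⟩
        left_inv := fun x => rfl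
        right_inv := fun x => rfl }
    · show N (x.1 : M) = 1
      rw [normHom_of_fixed x.1.2]
      exact congrArg Subtype.val (MonoidHom.mem_ker.mp x.2)
    · refine MonoidHom.mem_ker.mpr (Subtype.ext ?_)
      rw [hDval]
      show g (x.1 : M) / (x.1 : M) = 1
      rw [show g (x.1 : M) = x.1 from x.1.2, div_self']
    · have h := congrArg Subtype.val (MonoidHom.mem_ker.mp x.2)
      rw [hDval, Subgroup.coe_one, div_eq_one] at h
      exact h
    · refine MonoidHom.mem_ker.mpr (Subtype.ext ?_)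
      have h := congrArg Subtype.val (MonoidHom.mem_ker.mp x.2)
      rw [hDval, Subgroup.coe_one, div_eq_one] at h
      show (x.1 : M) ^ p = 1
      rw [← normHom_of_fixed (show (x.1 : M) ∈ G₀ from h)]
      exact x.1.2
  have := hDq.coker; have := hDq.ker; have := hG.ker
  have hcD : Nat.card (M₀ ⧸ D.range) = Nat.card D.ker := by
    have := hD1
    rw [qInd, div_eq_one_iff_eq (by exact_mod_cast Nat.card_pos.ne')] at this
    exact_mod_cast this
  have hcG : (Nat.card (G₀ ⧸ (powMonoidHom p : G₀ →* G₀).range) : ℚ) = a * Nat.card D.ker := by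
    rw [← hk]
    have := hGa
    rw [qInd, div_eq_iff (by exact_mod_cast Nat.card_pos.ne')] at this
    exact this
  have hi0 : N.range.relIndex G₀ = P.index := rfl
  have hPpos : 0 < P.index := by rw [Subgroup.index_eq_card]; exact Nat.card_pos
  refine ⟨hi0 ▸ hPpos, ?_⟩
  set x := ((powMonoidHom p : G₀ →* G₀).range).relIndex P
  have hxe : ((D.range).map M₀.subtype).relIndex (diffHom g).range = x := hcard.symm
  rw [hxe, t1', hcD] at t1
  have hxpos : (x : ℚ) ≠ 0 := by
    have : x * P.index ≠ 0 := by rw [t2]; exact Nat.card_pos.ne'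
    exact_mod_cast (mul_ne_zero_iff.mp this).1
  have e1 : (x : ℚ) * (diffHom g).range.relIndex M₀ = Nat.card D.ker := by exact_mod_cast t1
  have e2 : (x : ℚ) * P.index = Nat.card (G₀ ⧸ (powMonoidHom p : G₀ →* G₀).range) := by
    exact_mod_cast t2
  rw [hcG, ← e1] at e2
  rw [hi0]
  exact mul_left_cancel₀ hxpos (by linear_combination e2)

end Herbrand

end FLTAgent.TW
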