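import Fermat.Agent.TW.Idele.Counts
import Fermat.Agent.TW.Idele.QIndex

/-!
# The `p`-th power index of the `T`-units

`q_p(U_T) = p ^ (number of places in T and at infinity) / p`, from Dirichlet's unit theorem and the
finiteness of the class group.
-/

set_option autoImplicit false
set_option synthInstance.maxHeartbeats 200000
set_option maxSynthPendingDepth 6
set_option maxHeartbeats 1000000

noncomputable section

open IsDedekindDomain NumberField
open scoped Pointwise NumberField nonZeroDivisors

namespace FLTAgent.TW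

local notation "ℚ̄" => AlgebraicClosure ℚ
local notation "Γ" => (AlgebraicClosure ℚ ≃ₐ[ℚ] AlgebraicClosure ℚ)

attribute [local instance] numberField_intermediate

section PowExact

variable {A B C : Type*} [CommGroup A] [CommGroup B] [CommGroup C] (p : ℕ)

theorem qPow_of_exact (i : A →* B) (π : B →* C) (hi : Function.Injective i)
    (hπ : Function.Surjective π) (hex : i.range = π.ker)
    (hA : QFinite (powMonoidHom p : A →* A)) (hC : QFinite (powMonoidHom p : C →* C)) :
    QFinite (powMonoidHom p : B →* B) ∧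
      qInd (powMonoidHom p : B →* B) =
        qInd (powMonoidHom p : A →* A) * qInd (powMonoidHom p : C →* C) :=
  ⟨QFinite.middle (fA := powMonoidHom p) (fB := powMonoidHom p) (fC := powMonoidHom p)
      i π hi hπ hex (fun a => map_pow i a p) (fun b => map_pow π b p) hA hC,
    qInd_mul i π hi hπ hex (fun a => map_pow i a p) (fun b => map_pow π b p) hA hC⟩

theorem qPow_of_exact_right (i : A →* B) (π : B →* C) (hi : Function.Injective i)
    (hπ : Function.Surjective π) (hex : i.range = π.ker)
    (hA : QFinite (powMonoidHom p : A →* A)) (hB : QFinite (powMonoidHom p : B →* B)) :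
    QFinite (powMonoidHom p : C →* C) ∧
      qInd (powMonoidHom p : B →* B) =
        qInd (powMonoidHom p : A →* A) * qInd (powMonoidHom p : C →* C) := by
  have hC := QFinite.right (fA := powMonoidHom p) (fB := powMonoidHom p) (fC := powMonoidHom p) i π hi hπ hex (fun a => map_pow i a p) (fun b => map_pow π b p) hA hB
  exact ⟨hC, (qPow_of_exact p i π hi hπ hex hA hC).2⟩

/-- A subgroup of finite index has the same `q_p`. -/
theorem qPow_of_finite_index {G : Type*} [CommGroup G] (S : Subgroup G) [Finite (G ⧸ S)]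
    (hG : QFinite (powMonoidHom p : G →* G)) :
    QFinite (powMonoidHom p : S →* S) ∧
      qInd (powMonoidHom p : S →* S) = qInd (powMonoidHom p : G →* G) := by
  have hex : S.subtype.range = (QuotientGroup.mk' S).ker := by
    rw [QuotientGroup.ker_mk', Subgroup.range_subtype]
  have hS : QFinite (powMonoidHom p : S →* S) :=
    QFinite.left (fA := powMonoidHom p) (fB := powMonoidHom p) (fC := powMonoidHom p) S.subtype (QuotientGroup.mk' S) S.subtype_injective
      (QuotientGroup.mk'_surjective S) hex (fun a => rfl) (fun b => rfl) hG (qFinite_of_finite _)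
  refine ⟨hS, ?_⟩
  rw [(qPow_of_exact p S.subtype (QuotientGroup.mk' S) S.subtype_injective
    (QuotientGroup.mk'_surjective S) hex hS (qFinite_of_finite _)).2,
    qInd_of_finite (powMonoidHom p : G ⧸ S →* G ⧸ S), mul_one]

/-- A group has the same `q_p` as a subgroup of finite index. -/
theorem qPow_of_finite_coker {G : Type*} [CommGroup G] (S : Subgroup G) [Finite (G ⧸ S)]
    (hS : QFinite (powMonoidHom p : S →* S)) :
    QFinite (powMonoidHom p : G →* G) ∧
      qInd (powMonoidHom p : G →* G) = qInd (powMonoidHom p : S →* S) := by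
  have hex : S.subtype.range = (QuotientGroup.mk' S).ker := by
    rw [QuotientGroup.ker_mk', Subgroup.range_subtype]
  obtain ⟨h1, h2⟩ := qPow_of_exact p S.subtype (QuotientGroup.mk' S) S.subtype_injective
    (QuotientGroup.mk'_surjective S) hex hS (qFinite_of_finite _)
  exact ⟨h1, by rw [h2, qInd_of_finite (powMonoidHom p : G ⧸ S →* G ⧸ S), mul_one]⟩

theorem qInd_ker_mul {M : Type*} [CommGroup M] {f : M →* M} (h : QFinite f) :
    qInd f * Nat.card f.ker = Nat.card (M ⧸ f.range) := by
  have := h.ker
  rw [qInd, div_mul_cancel₀]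
  exact_mod_cast Nat.card_pos.ne'

end PowExact

variable {T : Finset ℕ} {p : ℕ} [hp : Fact p.Prime]
variable {F : IntermediateField ℚ ℚ̄} [FiniteDimensional ℚ F]

omit hp in
theorem numReal_eq : numReal F = InfinitePlace.nrRealPlaces F := by
  classical
  rw [← InfinitePlace.card_real_embeddings, ← Nat.card_eq_fintype_card, numReal,
    ← Nat.card_coe_set_eq]
  exact Nat.card_congr (Equiv.subtypeEquivRight fun f => (ComplexEmbedding.isReal_iff (φ := f)).symm)

omit hp in
theorem numInf_eq : numInf F = Fintype.card (InfinitePlace F) := by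
  classical
  rw [numInf, numReal_eq, InfinitePlace.card_eq_nrRealPlaces_add_nrComplexPlaces,
    ← InfinitePlace.card_add_two_mul_card_eq_rank F]
  omega

omit hp in
theorem two_mul_numInf : 2 * numInf F = numReal F + Module.finrank ℚ F := by
  classical
  rw [numInf_eq, numReal_eq, InfinitePlace.card_eq_nrRealPlaces_add_nrComplexPlaces,
    ← InfinitePlace.card_add_two_mul_card_eq_rank F]
  omega

/-- The units of the ring of integers have `q_p = p ^ (r₁ + r₂ - 1)`. -/
theorem qInd_units :
    QFinite (powMonoidHom p : (𝓞 F)ˣ →* (𝓞 F)ˣ) ∧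
      qInd (powMonoidHom p : (𝓞 F)ˣ →* (𝓞 F)ˣ) * p = (p : ℚ) ^ numInf F := by
  classical
  let e : (𝓞 F)ˣ ⧸ Units.torsion F ≃* Multiplicative (Fin (Units.rank F) → ℤ) :=
    AddEquiv.toMultiplicativeRight (Units.basisModTorsion F).equivFun.toAddEquiv
  obtain ⟨hl1, hl2⟩ := qInd_pow_lattice (Fin (Units.rank F)) hp.out.ne_zero
  obtain ⟨hq1, hq2⟩ := qInd_congr e.symm (f := powMonoidHom p) (f' := powMonoidHom p)
    (fun m => map_pow e.symm m p)
  have : Finite (Units.torsion F) := inferInstance
  obtain ⟨h1, h2⟩ := qPow_of_exact p (Units.torsion F).subtype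
    (QuotientGroup.mk' (Units.torsion F)) (Units.torsion F).subtype_injective
    (QuotientGroup.mk'_surjective _) (by rw [QuotientGroup.ker_mk', Subgroup.range_subtype])
    (qFinite_of_finite _) (hq2 hl1)
  refine ⟨h1, ?_⟩
  rw [h2, qInd_of_finite, one_mul, hq1, hl2, Fintype.card_fin, ← pow_succ, numInf_eq, Units.rank,
    Nat.sub_add_cancel Fintype.card_pos]

variable (T F) in
/-- A `T`-unit as an element of `Fˣ`. -/
def tUnitToF : tUnits T F →* Fˣ where
  toFun x := Units.mk0 ⟨(x : ℚ̄ˣ), x.2.1⟩ fun h => (x : ℚ̄ˣ).ne_zero (congrArg Subtype.val h)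
  map_one' := Units.ext (Subtype.ext rfl)
  map_mul' _ _ := Units.ext (Subtype.ext rfl)

variable (T F) in
/-- The valuations of a `T`-unit at the primes over `T`. -/
def ordHom : tUnits T F →* Multiplicative ({P // P ∈ primesOverT F T} → ℤ) where
  toFun x := Multiplicative.ofAdd fun P =>
    Multiplicative.toAdd (P.1.valuationOfNeZero (tUnitToF T F x))
  map_one' := by
    refine Multiplicative.toAdd.injective (funext fun P => ?_)
    simp
  map_mul' x y := by
    refine Multiplicative.toAdd.injective (funext fun P => ?_)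
    simp

variable (T F) in
/-- The units of the integers as `T`-units. -/
def unitsToT : (𝓞 F)ˣ →* tUnits T F :=
  (Units.map ((algebraMap F ℚ̄).comp (algebraMap (𝓞 F) F) : 𝓞 F →* ℚ̄)).codRestrict _ fun u => by
    refine ⟨((u : 𝓞 F) : F).2, fun A _ => ?_⟩
    rw [mem_unitGroup_iff]
    refine le_antisymm (valuation_int_le A _) ?_
    have h : A.1.valuation (((u : 𝓞 F) : F) : ℚ̄) * A.1.valuation ((((u⁻¹ : (𝓞 F)ˣ) : 𝓞 F) : F) : ℚ̄)
        = 1 := by
      rw [← map_mul, ← MulMemClass.coe_mul, ← map_mul, ← Units.val_mul, mul_inv_cancel]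
      simp
    calc (1 : _) = _ := h.symm
      _ ≤ _ := mul_le_of_le_one_right zero_le (valuation_int_le A _)

omit hp in
theorem unitsToT_injective : Function.Injective (unitsToT T F) := by
  intro u v h
  have h' := congrArg (fun x : tUnits T F => ((x : ℚ̄ˣ) : ℚ̄)) h
  exact Units.ext (FaithfulSMul.algebraMap_injective (𝓞 F) F (Subtype.ext h'))

omit hp in
theorem ordHom_ker : (unitsToT T F).range = (ordHom T F).ker := by
  ext x
  constructor
  · rintro ⟨u, rfl⟩
    refine Multiplicative.toAdd.injective (funext fun P => ?_)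
    show Multiplicative.toAdd (P.1.valuationOfNeZero (tUnitToF T F (unitsToT T F u))) = 0
    rw [show tUnitToF T F (unitsToT T F u) = Units.map (algebraMap (𝓞 F) F : 𝓞 F →* F) u from
      Units.ext (Subtype.ext rfl), P.1.valuation_of_unit_eq, toAdd_one]
  · intro hx
    set y := tUnitToF T F x with hy
    have hall : ∀ P : HeightOneSpectrum (𝓞 F), P.valuation F (y : F) = 1 := by
      intro P
      by_cases hP : P ∈ primesOverT F T
      · have h := congrFun (congrArg Multiplicative.toAdd (MonoidHom.mem_ker.mp hx)) ⟨P, hP⟩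
        have h' : P.valuationOfNeZero y = 1 := Multiplicative.toAdd.injective h
        rw [← HeightOneSpectrum.valuationOfNeZero_eq, h']
        rfl
      · have hA : ¬ (placeAbove F P).Over T := fun h => hP (by
          rw [← primeOf_placeAbove P]; exact primeOf_mem_primesOverT.mpr h)
        have h := (valuation_eq_iff (A := placeAbove F P) (y : F) (1 : F)).mp (by
          rw [OneMemClass.coe_one, map_one]; exact x.2.2 _ hA)
        rwa [primeOf_placeAbove, map_one] at h
    obtain ⟨a, ha⟩ := HeightOneSpectrum.mem_integers_of_valuation_le_one F (y : F)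
      fun P => (hall P).le
    obtain ⟨b, hb⟩ := HeightOneSpectrum.mem_integers_of_valuation_le_one F ((y⁻¹ : Fˣ) : F)
      fun P => by rw [Units.val_inv_eq_inv_val, map_inv₀, hall P, inv_one]
    have hab : a * b = 1 := FaithfulSMul.algebraMap_injective (𝓞 F) F (by
      rw [map_mul, ha, hb, Units.mul_inv, map_one])
    exact ⟨Units.mkOfMulEqOne a b hab, Subtype.ext (Units.ext (congrArg Subtype.val ha))⟩

omit hp in
theorem finite_quotient_ordHom :
    Finite (Multiplicative ({P // P ∈ primesOverT F T} → ℤ) ⧸ (ordHom T F).range) := by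
  classical
  set h := Fintype.card (ClassGroup (𝓞 F)) with hh
  have h0 : h ≠ 0 := Fintype.card_ne_zero
  set G := (ordHom T F).range
  have hsingle : ∀ P : {P // P ∈ primesOverT F T},
      Multiplicative.ofAdd (Pi.single P (h : ℤ) : {P // P ∈ primesOverT F T} → ℤ) ∈ G := by
    rintro ⟨P, hP⟩
    have hmem : P.asIdeal ∈ (Ideal (𝓞 F))⁰ := mem_nonZeroDivisors_of_ne_zero P.ne_bot
    have hpr : (P.asIdeal ^ h).IsPrincipal := by
      refine (ClassGroup.mk0_eq_one_iff (pow_mem hmem h)).mp ?_
      have e : (⟨P.asIdeal ^ h, pow_mem hmem h⟩ : (Ideal (𝓞 F))⁰) = ⟨P.asIdeal, hmem⟩ ^ h := rfl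
      rw [e, map_pow, hh, pow_card_eq_one]
    obtain ⟨γ, hγ⟩ := hpr
    change P.asIdeal ^ h = Ideal.span {γ} at hγ
    have hγ0 : γ ≠ 0 := fun hz => pow_ne_zero h P.ne_bot (by rw [hγ, hz]; simp)
    have hγP : P.valuation F (γ : F) = WithZero.exp (-(h : ℤ)) := by
      refine le_antisymm ((valuation_int_le_exp_iff P γ h).mpr
        (hγ ▸ Ideal.mem_span_singleton_self γ)) (not_lt.mp fun hlt => ?_)
      rw [lt_exp_neg_iff] at hlt
      have hm := (valuation_int_le_exp_iff P γ (h + 1)).mp hlt
      have hle : P.asIdeal ^ h ≤ P.asIdeal ^ (h + 1) := by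
        rw [hγ, Ideal.span_singleton_le_iff_mem]; exact hm
      exact absurd hle (not_le_of_gt (Ideal.pow_right_strictAnti _ P.ne_bot P.isPrime.ne_top
        h.lt_succ_self))
    have hoff : ∀ A : Place, primeOf F A ≠ P → A.1.valuation ((γ : F) : ℚ̄) = 1 := by
      intro A hA
      refine valuation_coe_eq_one fun hc => hA ?_
      have hdvd : P.asIdeal ^ h ≤ (primeOf F A).asIdeal := by
        rw [hγ, Ideal.span_singleton_le_iff_mem]; exact hc
      refine HeightOneSpectrum.ext ((P.isMaximal.eq_of_le (primeOf F A).isPrime.ne_top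
        ((primeOf F A).isPrime.le_of_pow_le hdvd)).symm)
    let u : ℚ̄ˣ := Units.mk0 ((γ : F) : ℚ̄) (by simpa using hγ0)
    have hu : u ∈ tUnits T F := ⟨(γ : F).2, fun A hA => hoff A fun he => hA
      (primeOf_mem_primesOverT.mp (he ▸ hP))⟩
    refine ⟨(⟨u, hu⟩ : tUnits T F)⁻¹, Multiplicative.toAdd.injective (funext fun Q => ?_)⟩
    rw [map_inv, toAdd_inv, toAdd_ofAdd, Pi.neg_apply]
    show -Multiplicative.toAdd (Q.1.valuationOfNeZero (tUnitToF T F ⟨u, hu⟩)) = _
    have hval : (Q.1.valuationOfNeZero (tUnitToF T F ⟨u, hu⟩) : WithZero (Multiplicative ℤ)) =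
        Q.1.valuation F (γ : F) := HeightOneSpectrum.valuationOfNeZero_eq _ _
    by_cases hQ : Q = ⟨P, hP⟩
    · subst hQ
      rw [hγP] at hval
      rw [WithZero.coe_inj.mp hval, Pi.single_eq_same, toAdd_ofAdd, neg_neg]
    · have h1 : Q.1.valuation F (γ : F) = 1 := by
        have := (valuation_eq_iff (A := placeAbove F Q.1) (γ : F) (1 : F)).mp (by
          rw [OneMemClass.coe_one, map_one]
          exact hoff _ (by rw [primeOf_placeAbove]; exact fun he => hQ (Subtype.ext he)))
        rwa [primeOf_placeAbove, map_one] at this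
      rw [h1, ← WithZero.coe_one] at hval
      rw [WithZero.coe_inj.mp hval, Pi.single_eq_of_ne hQ, toAdd_one, neg_zero]
  have hle : (powMonoidHom h).range ≤ G := by
    rintro _ ⟨f, rfl⟩
    have e : powMonoidHom h f = ∏ P : {P // P ∈ primesOverT F T},
        Multiplicative.ofAdd (Pi.single P (h : ℤ) : {P // P ∈ primesOverT F T} → ℤ) ^
          Multiplicative.toAdd f P := by
      refine Multiplicative.toAdd.injective (funext fun Q => ?_)
      simp only [powMonoidHom_apply, toAdd_pow, toAdd_prod, toAdd_zpow, toAdd_ofAdd,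
        Finset.sum_apply, Pi.smul_apply, Pi.single_apply, smul_eq_mul, nsmul_eq_mul]
      simp [mul_comm]
    rw [e]
    exact prod_mem fun P _ => G.zpow_mem (hsingle P) _
  have := (qInd_pow_lattice {P // P ∈ primesOverT F T} h0).1.coker
  exact Finite.of_surjective (QuotientGroup.map _ G (MonoidHom.id _) hle) (fun x => by
    induction x using QuotientGroup.induction_on with
    | _ y => exact ⟨QuotientGroup.mk y, rfl⟩)

/-- `q_p` of the `T`-units. -/
theorem qInd_tUnits :
    QFinite (powMonoidHom p : tUnits T F →* tUnits T F) ∧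
      qInd (powMonoidHom p : tUnits T F →* tUnits T F) * p =
        (p : ℚ) ^ (numPlaces T F + numInf F) := by
  classical
  obtain ⟨hu1, hu2⟩ := qInd_units (p := p) (F := F)
  obtain ⟨hl1, hl2⟩ := qInd_pow_lattice {P // P ∈ primesOverT F T} hp.out.ne_zero
  have := finite_quotient_ordHom (T := T) (F := F)
  obtain ⟨hr1, hr2⟩ := qPow_of_finite_index p (ordHom T F).range hl1
  obtain ⟨h1, h2⟩ := qPow_of_exact p (unitsToT T F) (ordHom T F).rangeRestrict unitsToT_injective
    (ordHom T F).rangeRestrict_surjective (by rw [MonoidHom.ker_rangeRestrict, ordHom_ker]) hu1 hr1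
  refine ⟨h1, ?_⟩
  rw [h2, hr2, hl2, mul_right_comm, hu2, Fintype.card_coe, numPlaces_eq_card, ← pow_add, add_comm]

/-- The `T`-units killed by `p` are the roots of unity. -/
theorem card_tUnits_torsion (hμ : ContainsMuP p F) :
    Nat.card (powMonoidHom p : tUnits T F →* tUnits T F).ker = p := by
  obtain ⟨ζ, hζ⟩ := exists_primitiveRoot_qbar p
  have hcard : Nat.card (rootsOfUnity p ℚ̄) = p := by
    have : NeZero p := ⟨hp.out.ne_zero⟩
    have : NeZero ((p : ℕ) : ℚ̄) := ⟨Nat.cast_ne_zero.mpr hp.out.ne_zero⟩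
    exact HasEnoughRootsOfUnity.natCard_rootsOfUnity ℚ̄ p
  have hmem : ∀ x : ℚ̄ˣ, x ^ p = 1 → x ∈ tUnits T F := fun x hx =>
    ⟨hμ _ (by rw [← Units.val_pow_eq_pow_val, hx, Units.val_one]), fun A _ => by
      rw [mem_unitGroup_iff]
      exact (pow_eq_one_iff_of_nonneg zero_le hp.out.ne_zero).mp (by
        rw [← map_pow, ← Units.val_pow_eq_pow_val, hx, Units.val_one, map_one])⟩
  refine (Nat.card_congr ?_).trans hcard
  exact
    { toFun := fun x => ⟨(x : tUnits T F), by
        rw [mem_rootsOfUnity]
        exact congrArg Subtype.val (MonoidHom.mem_ker.mp x.2)⟩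
      invFun := fun x => ⟨⟨x, hmem _ ((mem_rootsOfUnity _ _).mp x.2)⟩,
        Subtype.ext ((mem_rootsOfUnity _ _).mp x.2)⟩
      left_inv := fun x => rfl
      right_inv := fun x => rfl }

/-- `T`-units modulo `p`-th powers. -/
theorem relIndex_tUnits_pow' (hμ : ContainsMuP p F) :
    ((tUnits T F).map (powMonoidHom p)).relIndex (tUnits T F) =
      p ^ (numPlaces T F + numInf F) := by
  obtain ⟨h1, h2⟩ := qInd_tUnits (T := T) (p := p) (F := F)
  have h3 := qInd_ker_mul h1
  rw [card_tUnits_torsion hμ, h2] at h3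
  rw [relIndex_map_pow]
  exact_mod_cast h3.symm

end FLTAgent.TW
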