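import Fermat.Agent.TW.Idele.Approx

/-!
# Principal ideles, the class kernel, finiteness of the class group, fixed classes, norms

Basic properties of the model of `Defs`: principal ideles are determined at infinity, so
`C_T(F) → C_T(L)` is injective (`classKer_inter'`); some finite set of primes makes the class
groups of all subfields trivial (`exists_tPrincipal'`, through the ideal of an idele); a fixed
class of a Galois layer comes from below (`exists_fixed'`, by Hilbert 90 and descent place by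
place); and `normIdele` maps ideles to ideles, is transitive and preserves `classKer`.
-/

set_option autoImplicit false
set_option synthInstance.maxHeartbeats 200000
set_option maxHeartbeats 1000000

noncomputable section

open IsDedekindDomain
open scoped Pointwise NumberField nonZeroDivisors

namespace FLTAgent.TW

open PreIdele

local notation "ℚ̄" => AlgebraicClosure ℚ
local notation "Γ" => (AlgebraicClosure ℚ ≃ₐ[ℚ] AlgebraicClosure ℚ)

attribute [local instance] numberField_intermediate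

variable {T T' : Finset ℕ} {p : ℕ} {L F F' : IntermediateField ℚ (AlgebraicClosure ℚ)}

theorem over_mono {A : Place} (hTT' : T ⊆ T') (h : A.Over T) : A.Over T' :=
  let ⟨q, hq, h'⟩ := h; ⟨q, hTT' hq, h'⟩

theorem ideles_le_of_le (hFL : F ≤ L) : ideles F ≤ ideles L := fun _ ⟨h1, h2, h3⟩ =>
  ⟨fun σ hσ => h1 σ (IntermediateField.fixingSubgroup_le hFL hσ), h2, h3⟩

theorem principalHom_mem_ideles {x : ℚ̄ˣ} (hx : (x : ℚ̄) ∈ L) :
    principalHom x ∈ ideles L := by
  obtain ⟨S, hS⟩ := exists_finset_unit x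
  refine ⟨fun σ hσ => ?_, fun ι => ?_, S, hS⟩
  · rw [smul_principalHom]
    exact congrArg _ (Units.ext ((IntermediateField.mem_fixingSubgroup_iff _ _).mp hσ _ hx))
  · exact Units.ext rfl

theorem principal_le_ideles : principal L ≤ ideles L := by
  rintro _ ⟨x, hx, rfl⟩
  exact principalHom_mem_ideles hx

theorem awayIdeles_le_ideles : awayIdeles T L ≤ ideles L := fun _ h => h.1

theorem unitIdeles_le_ideles : unitIdeles T L ≤ ideles L := fun _ h => h.1.1

theorem classKer_le_ideles' : classKer T L ≤ ideles L :=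
  sup_le principal_le_ideles unitIdeles_le_ideles

theorem principal_mono (hFL : F ≤ L) : principal F ≤ principal L := by
  rintro _ ⟨x, hx, rfl⟩; exact ⟨x, hFL hx, rfl⟩

theorem unitIdeles_mono (hFL : F ≤ L) : unitIdeles T F ≤ unitIdeles T L :=
  fun _ ⟨⟨h1, h2, h3⟩, h4⟩ => ⟨⟨ideles_le_of_le hFL h1, h2, h3⟩, h4⟩

theorem classKer_mono' (hFL : F ≤ L) : classKer T F ≤ classKer T L :=
  sup_le_sup (principal_mono hFL) (unitIdeles_mono hFL)

/-- The infinite components determine a principal idele. -/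
theorem eq_of_inf_eq {x y : ℚ̄ˣ} (h : (principalHom x).inf = (principalHom y).inf) : x = y := by
  obtain ⟨ι⟩ := exists_emb
  exact Units.ext (ι.injective (congrArg Units.val (congrFun h ι)))

theorem classKer_inter' {φ : PreIdele} (hφ : φ ∈ ideles F) (h : φ ∈ classKer T L) :
    φ ∈ classKer T F := by
  obtain ⟨_, ⟨x, hxL, rfl⟩, u, hu, rfl⟩ := Subgroup.mem_sup.mp h
  have hxF : (x : ℚ̄) ∈ F := mem_of_forall_fixed fun σ hσ => by
    have h1 : Units.map (σ : ℚ̄ →* ℚ̄) x = x := eq_of_inf_eq (funext fun ι => by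
      have h2 := inf_fixed hφ ι hσ
      simp only [PreIdele.inf_mul, congrFun hu.1.2.2, Pi.one_apply, mul_one] at h2
      rw [← smul_principalHom, PreIdele.inf_smul]
      exact h2)
    exact congrArg Units.val h1
  refine Subgroup.mul_mem_sup ⟨x, hxF, rfl⟩ ⟨⟨?_, hu.1.2⟩, hu.2⟩
  have := mul_mem (inv_mem (principalHom_mem_ideles hxF)) hφ
  rwa [inv_mul_cancel_left] at this

theorem tPrincipal_mono (h : TPrincipal T F) (hTT' : T ⊆ T') : TPrincipal T' F := fun φ hφ =>
  let ⟨x, hx, hu⟩ := h φ hφ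
  ⟨x, hx, fun A hA => hu A fun h' => hA (over_mono hTT' h')⟩

/-! ### Finiteness of the class group -/

section ClassGroup

variable [FiniteDimensional ℚ F]

/-- The nonunit components of an idele lie over finitely many primes of `F`. -/
theorem exists_finset_primes {φ : PreIdele} (hφ : φ ∈ ideles F) :
    ∃ W : Finset (HeightOneSpectrum (𝓞 F)), ∀ A : Place, primeOf F A ∉ W →
      A.1.valuation (φ.fin A : ℚ̄) = 1 := by
  obtain ⟨-, -, S, hS⟩ := hφ
  exact ⟨primesOverT F S, fun A hA => hS A fun h => hA (primeOf_mem_primesOverT.mpr h)⟩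

/-- A positive integer clearing the denominators of an idele. -/
theorem exists_natCast_mul_le_one {φ : PreIdele} (hφ : φ ∈ ideles F) :
    ∃ N : ℕ, N ≠ 0 ∧ ∀ A : Place, A.1.valuation ((N : ℚ̄) * φ.fin A) ≤ 1 := by
  classical
  obtain ⟨W, hW⟩ := exists_finset_primes hφ
  choose y hy0 hy using fun P => exists_approx_fin hφ (placeAbove F P) 1
  obtain ⟨k, hk⟩ := exists_pow_le_of_ne_zero W (fun P => (y P)⁻¹)
    (fun P _ => inv_ne_zero (hy0 P))
  refine ⟨∏ P ∈ W, (placeAbove F P).char ^ k,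
    Finset.prod_ne_zero_iff.mpr fun P _ => pow_ne_zero _ (placeAbove F P).prime_char.ne_zero,
    fun A => ?_⟩
  rw [map_mul]
  have hnat : ∀ m : ℕ, A.1.valuation (m : ℚ̄) ≤ 1 := fun m =>
    (A.1.valuation_le_one_iff _).mpr (natCast_mem A.1 m)
  by_cases hA : primeOf F A ∈ W
  · obtain ⟨σ, hσ, hσA⟩ := exists_smul_eq_of_primeOf_eq (F := F)
      (A := placeAbove F (primeOf F A)) (B := A) (primeOf_placeAbove _)
    set B := placeAbove F (primeOf F A)
    have h1 := hy (primeOf F A)
    have hb1 : B.1.valuation ((y (primeOf F A) : ℚ̄) / φ.fin B) = 1 := by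
      rw [← sub_add_cancel ((y (primeOf F A) : ℚ̄) / (φ.fin B : ℚ̄)) 1,
        Valuation.map_add_eq_of_lt_right _ (by
          rw [map_one]
          exact lt_of_le_of_lt h1 (pow_lt_one₀ zero_le B.valuation_char_lt_one one_ne_zero)),
        map_one]
    rw [map_div₀, div_eq_one_iff_eq (by simp)] at hb1
    have h2 := (valuation_smul_eq_iff σ B).mpr hb1
    rw [← coe_smul_fin hφ hσ, hσA,
      (IntermediateField.mem_fixingSubgroup_iff _ _).mp hσ _ (y (primeOf F A)).2] at h2
    rw [← h2]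
    have h3 := hk A hA
    rw [IntermediateField.coe_inv, map_inv₀, le_inv_comm₀ (zero_lt_iff.mpr (pow_ne_zero _
      A.valuation_char_ne_zero)) (by simpa [zero_lt_iff] using hy0 (primeOf F A))] at h3
    rw [Nat.cast_prod, map_prod, ← Finset.mul_prod_erase _ _ hA]
    simp only [Nat.cast_pow, map_pow]
    rw [char_placeAbove (A := A) rfl]
    calc _ ≤ A.1.valuation (A.char : ℚ̄) ^ k * 1 * (A.1.valuation (A.char : ℚ̄) ^ k)⁻¹ := by
          gcongr
          · exact Finset.prod_le_one' fun P _ => pow_le_one₀ zero_le (hnat _)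
      _ = 1 := by rw [mul_one, mul_inv_cancel₀ (pow_ne_zero _ A.valuation_char_ne_zero)]
  · rw [hW A hA, mul_one]
    exact hnat _

/-- The ideal of an integral idele: integers divisible by it at every place. -/
def ideleIdeal (F : IntermediateField ℚ ℚ̄) [FiniteDimensional ℚ F] (φ : PreIdele) : Ideal (𝓞 F) where
  carrier := {r | ∀ A : Place, A.1.valuation ((r : F) : ℚ̄) ≤ A.1.valuation (φ.fin A : ℚ̄)}
  zero_mem' A := by simp
  add_mem' {a b} ha hb A := by
    simp only [map_add, AddMemClass.coe_add]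
    exact (A.1.valuation.map_add _ _).trans (max_le (ha A) (hb A))
  smul_mem' c x hx A := by
    simp only [smul_eq_mul, map_mul, MulMemClass.coe_mul]
    calc _ ≤ 1 * A.1.valuation (φ.fin A : ℚ̄) := mul_le_mul' (valuation_int_le A c) (hx A)
      _ = _ := one_mul _

theorem exists_mem_ideleIdeal {φ : PreIdele} (hφ : φ ∈ ideles F)
    (hint : ∀ A : Place, A.1.valuation (φ.fin A : ℚ̄) ≤ 1) (A : Place) :
    ∃ r : 𝓞 F, r ∈ ideleIdeal F φ ∧ r ≠ 0 ∧
      A.1.valuation ((r : F) : ℚ̄) = A.1.valuation (φ.fin A : ℚ̄) := by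
  classical
  obtain ⟨W₀, hW₀⟩ := exists_finset_primes hφ
  set W := insert (primeOf F A) W₀
  choose y hy0 hy using fun P => exists_approx_fin hφ (placeAbove F P) 1
  -- local values
  have hval : ∀ B : Place, B.1.valuation (y (primeOf F B) : ℚ̄) = B.1.valuation (φ.fin B : ℚ̄) := by
    intro B
    obtain ⟨σ, hσ, hσB⟩ := exists_smul_eq_of_primeOf_eq (F := F)
      (A := placeAbove F (primeOf F B)) (B := B) (primeOf_placeAbove _)
    set C := placeAbove F (primeOf F B)
    have h1 := hy (primeOf F B)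
    have hb1 : C.1.valuation ((y (primeOf F B) : ℚ̄) / φ.fin C) = 1 := by
      rw [← sub_add_cancel ((y (primeOf F B) : ℚ̄) / (φ.fin C : ℚ̄)) 1,
        Valuation.map_add_eq_of_lt_right _ (by
          rw [map_one]
          exact lt_of_le_of_lt h1 (pow_lt_one₀ zero_le C.valuation_char_lt_one one_ne_zero)),
        map_one]
    rw [map_div₀, div_eq_one_iff_eq (by simp)] at hb1
    have h2 := (valuation_smul_eq_iff σ C).mpr hb1
    rwa [← coe_smul_fin hφ hσ, hσB,
      (IntermediateField.mem_fixingSubgroup_iff _ _).mp hσ _ (y (primeOf F B)).2] at h2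
  obtain ⟨k, hk⟩ := exists_pow_le_of_ne_zero W y fun P _ => hy0 P
  -- an integral element with these values
  obtain ⟨x, hx⟩ := exists_weak_approx W
    (fun P => if P = primeOf F A then y P else 0) (k + 1)
  obtain ⟨a, b, hb, hab⟩ := IsFractionRing.div_surjective (𝓞 F) x
  obtain ⟨c, hc⟩ : ∃ c : 𝓞 F, ∀ B : Place, primeOf F B ∈ W →
      B.1.valuation (((c : F) : ℚ̄) - (x : ℚ̄)) ≤ B.1.valuation (B.char : ℚ̄) ^ (k + 1) := by
    -- `x` is integral at the primes of `W`
    have hxint : ∀ P ∈ W, P.valuation F x ≤ 1 := fun P hP => by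
      obtain ⟨B, rfl⟩ := exists_primeOf_eq F P
      refine (coe_le_one_iff x).mp ?_
      have h := hx B hP
      rw [← sub_add_cancel (x : ℚ̄) ((if primeOf F B = primeOf F A then y (primeOf F B) else 0 : F) : ℚ̄)]
      refine (B.1.valuation.map_add _ _).trans (max_le
        (h.trans (pow_le_one₀ zero_le B.valuation_char_lt_one.le)) ?_)
      split_ifs
      · rw [hval B]; exact hint B
      · simp
    have hch : ∀ P ∈ W, ∃ c : 𝓞 F, ∀ B : Place, primeOf F B = P →
        B.1.valuation (((c : F) : ℚ̄) - (x : ℚ̄)) ≤ B.1.valuation (B.char : ℚ̄) ^ (k + 1) := by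
      intro P hP
      obtain ⟨n, s, hns⟩ := P.exists_primeCompl_mul_eq_of_integer (x := x) (hxint P hP)
      have hsmax : (Ideal.span {(s : 𝓞 F)}) ⊔ P.asIdeal ^
          multiplicity P.asIdeal (Ideal.span {(((placeAbove F P).char : 𝓞 F) ^ (k + 1))}) = ⊤ := by
        refine Ideal.sup_pow_eq_top (P.isMaximal.out.2 _ ?_)
        exact lt_of_le_of_ne le_sup_right fun h => s.2 (by
          show (s : 𝓞 F) ∈ P.asIdeal
          exact (SetLike.ext_iff.mp h _).mpr
            (Ideal.mem_sup_left (Ideal.mem_span_singleton_self _)))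
      obtain ⟨u, hu, v, hv, huv⟩ := Submodule.mem_sup.mp ((Ideal.eq_top_iff_one _).mp hsmax)
      obtain ⟨t, rfl⟩ := Ideal.mem_span_singleton'.mp hu
      refine ⟨n * t, fun B hB => ?_⟩
      have hv' : B.1.valuation ((v : F) : ℚ̄) ≤ B.1.valuation (B.char : ℚ̄) ^ (k + 1) := by
        have h1 : P.valuation F (v : F) ≤
            P.valuation F ((((placeAbove F P).char : 𝓞 F) ^ (k + 1) : 𝓞 F) : F) := by
          rw [HeightOneSpectrum.valuation_of_algebraMap, HeightOneSpectrum.valuation_of_algebraMap,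
            P.intValuation_eq_exp_neg_multiplicity
              (pow_ne_zero _ (Nat.cast_ne_zero.mpr (placeAbove F P).prime_char.ne_zero))]
          exact (P.intValuation_le_pow_iff_mem _ _).mpr hv
        rw [← hB] at h1
        have h2 := (valuation_le_iff (A := B) _ _).mpr h1
        rw [char_placeAbove (A := B) rfl] at h2
        simpa [map_pow] using h2
      have e : (((n * t : 𝓞 F) : F) : ℚ̄) - (x : ℚ̄) = -((x : ℚ̄) * ((v : F) : ℚ̄)) := by
        have h1 : ((n : F) : ℚ̄) = (x : ℚ̄) * (((s : 𝓞 F) : F) : ℚ̄) := by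
          simpa using (congrArg (Subtype.val : F → ℚ̄) hns).symm
        have h2 : ((t : F) : ℚ̄) * (((s : 𝓞 F) : F) : ℚ̄) + ((v : F) : ℚ̄) = 1 := by
          simpa using congrArg (fun z : 𝓞 F => ((z : F) : ℚ̄)) huv
        simp only [map_mul, MulMemClass.coe_mul, h1]
        linear_combination (x : ℚ̄) * h2
      rw [e, Valuation.map_neg, map_mul]
      calc _ ≤ 1 * B.1.valuation (B.char : ℚ̄) ^ (k + 1) :=
            mul_le_mul' ((coe_le_one_iff x).mpr (hB ▸ hxint P hP)) hv'
        _ = _ := one_mul _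
    choose c₀ hc₀ using hch
    obtain ⟨c, hc⟩ := exists_congr W (fun P => if hP : P ∈ W then c₀ P hP else 0) (k + 1)
    refine ⟨c, fun B hB => ?_⟩
    have h1 := hc B hB
    rw [dif_pos hB] at h1
    rw [← sub_add_sub_cancel]
    exact (B.1.valuation.map_add _ _).trans (max_le h1 (hc₀ _ hB B rfl))
  have hdiff : ∀ B : Place, primeOf F B ∈ W → B.1.valuation (((c : F) : ℚ̄) -
      ((if primeOf F B = primeOf F A then y (primeOf F B) else 0 : F) : ℚ̄))
        < B.1.valuation (φ.fin B : ℚ̄) := fun B hB => by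
    rw [← hval B]
    have h1 : B.1.valuation (((c : F) : ℚ̄) -
        ((if primeOf F B = primeOf F A then y (primeOf F B) else 0 : F) : ℚ̄))
          ≤ B.1.valuation (B.char : ℚ̄) ^ (k + 1) := by
      rw [← sub_add_sub_cancel ((c : F) : ℚ̄) (x : ℚ̄)]
      exact (B.1.valuation.map_add _ _).trans (max_le (hc B hB) (hx B hB))
    have h2 : B.1.valuation (B.char : ℚ̄) ^ (k + 1) < B.1.valuation (B.char : ℚ̄) ^ k :=
      pow_lt_pow_right_of_lt_one₀ (zero_lt_iff.mpr B.valuation_char_ne_zero)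
        B.valuation_char_lt_one k.lt_succ_self
    exact lt_of_le_of_lt h1 (lt_of_lt_of_le h2 (hk B hB))
  have hAW : primeOf F A ∈ W := Finset.mem_insert_self _ _
  have hA' := hdiff A hAW
  rw [if_pos rfl] at hA'
  have heq : A.1.valuation ((c : F) : ℚ̄) = A.1.valuation (φ.fin A : ℚ̄) := by
    rw [← sub_add_cancel ((c : F) : ℚ̄) (y (primeOf F A) : ℚ̄),
      Valuation.map_add_eq_of_lt_right _ (by rwa [hval A]), hval A]
  refine ⟨c, fun B => ?_, fun h0 => ?_, heq⟩
  · by_cases hB : primeOf F B ∈ W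
    · have h1 := hdiff B hB
      split_ifs at h1 with h2
      · rw [← sub_add_cancel ((c : F) : ℚ̄) (y (primeOf F B) : ℚ̄)]
        exact (B.1.valuation.map_add _ _).trans (max_le h1.le (hval B).le)
      · rw [ZeroMemClass.coe_zero, sub_zero] at h1
        exact h1.le
    · rw [hW₀ B fun h => hB (Finset.mem_insert_of_mem h)]
      exact valuation_int_le B c
  · rw [h0] at heq
    simp only [map_zero, ZeroMemClass.coe_zero] at heq
    exact absurd heq.symm (by simp)

theorem ideleIdeal_ne_bot {φ : PreIdele} (hφ : φ ∈ ideles F)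
    (hint : ∀ A : Place, A.1.valuation (φ.fin A : ℚ̄) ≤ 1) : ideleIdeal F φ ≠ ⊥ := by
  obtain ⟨A, hA⟩ := GalCommon.exists_liesOverPrime Nat.prime_two
  obtain ⟨r, hr, hr0, -⟩ := exists_mem_ideleIdeal hφ hint ⟨A, 2, Nat.prime_two, hA⟩
  exact fun h => hr0 (by rwa [h, Ideal.mem_bot] at hr)

/-- The value at a place of a multiple of the ideal of an idele. -/
theorem valuation_le_of_mem_mul {φ : PreIdele} {a z : 𝓞 F}
    (hz : z ∈ Ideal.span {a} * ideleIdeal F φ) (A : Place) :
    A.1.valuation ((z : F) : ℚ̄) ≤ A.1.valuation ((a : F) : ℚ̄) * A.1.valuation (φ.fin A : ℚ̄) := by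
  obtain ⟨r, hr, rfl⟩ := Ideal.mem_span_singleton_mul.mp hz
  simp only [map_mul, MulMemClass.coe_mul]
  exact mul_le_mul_right (hr A) _

variable (F) in
/-- Some finite set of primes generates the class group. -/
theorem exists_tPrincipal_single (T₀ : Finset ℕ) :
    ∃ T : Finset ℕ, T₀ ⊆ T ∧ (∀ q ∈ T, q ∈ T₀ ∨ q.Prime) ∧ TPrincipal T F := by
  classical
  choose J hJ using ClassGroup.mk0_surjective (R := 𝓞 F)
  have hn : ∀ c, Ideal.absNorm (J c : Ideal (𝓞 F)) ≠ 0 := fun c =>
    Ideal.absNorm_eq_zero_iff.not.mpr (nonZeroDivisors.ne_zero (J c).2)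
  refine ⟨T₀ ∪ Finset.univ.biUnion fun c => (Ideal.absNorm (J c : Ideal (𝓞 F))).primeFactors,
    Finset.subset_union_left, fun q hq => ?_, fun φ₀ hφ₀ => ?_⟩
  · rcases Finset.mem_union.mp hq with h | h
    · exact Or.inl h
    · obtain ⟨c, -, hc⟩ := Finset.mem_biUnion.mp h
      exact Or.inr (Nat.mem_primeFactors.mp hc).1
  obtain ⟨N, hN0, hN⟩ := exists_natCast_mul_le_one hφ₀
  set ν : ℚ̄ˣ := Units.mk0 (N : ℚ̄) (Nat.cast_ne_zero.mpr hN0)
  have hνF : (ν : ℚ̄) ∈ F := natCast_mem F N
  set φ := principalHom ν * φ₀ with hφdef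
  have hφ : φ ∈ ideles F := mul_mem (principalHom_mem_ideles hνF) hφ₀
  have hint : ∀ A : Place, A.1.valuation (φ.fin A : ℚ̄) ≤ 1 := hN
  set I : (Ideal (𝓞 F))⁰ := ⟨ideleIdeal F φ,
    mem_nonZeroDivisors_of_ne_zero (ideleIdeal_ne_bot hφ hint)⟩
  obtain ⟨a, b, ha, hb, hab⟩ := ClassGroup.mk0_eq_mk0_iff.mp (hJ (ClassGroup.mk0 I)).symm
  have ha' : ((a : F) : ℚ̄) ≠ 0 := by simpa using ha
  have hb' : ((b : F) : ℚ̄) ≠ 0 := by simpa using hb
  refine ⟨Units.mk0 (((b : F) : ℚ̄) / (((a : F) : ℚ̄) * N))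
    (div_ne_zero hb' (mul_ne_zero ha' (Nat.cast_ne_zero.mpr hN0))), ?_, fun A hA => ?_⟩
  · exact div_mem (b : F).2 (mul_mem (a : F).2 (natCast_mem F N))
  rw [mem_unitGroup_iff]
  set c := ClassGroup.mk0 I
  have key : A.1.valuation ((a : F) : ℚ̄) * A.1.valuation (φ.fin A : ℚ̄)
      = A.1.valuation ((b : F) : ℚ̄) := by
    apply le_antisymm
    · obtain ⟨r, hr, -, hr'⟩ := exists_mem_ideleIdeal hφ hint A
      have hmem : a * r ∈ Ideal.span {b} * (J c : Ideal (𝓞 F)) :=
        hab ▸ Ideal.mul_mem_mul (Ideal.mem_span_singleton_self a) hr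
      obtain ⟨j, -, hj⟩ := Ideal.mem_span_singleton_mul.mp hmem
      rw [← hr', ← map_mul, ← MulMemClass.coe_mul, ← map_mul, ← hj, map_mul, MulMemClass.coe_mul,
        map_mul]
      exact mul_le_of_le_one_right zero_le (valuation_int_le A j)
    · -- an element of the representative which is a unit at `A`
      have hn' : (Ideal.absNorm (J c : Ideal (𝓞 F)) : 𝓞 F) ∈ (J c : Ideal (𝓞 F)) :=
        Ideal.absNorm_mem _
      have hmem : b * (Ideal.absNorm (J c : Ideal (𝓞 F)) : 𝓞 F) ∈ Ideal.span {a} * ideleIdeal F φ := by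
        show _ ∈ Ideal.span {a} * (I : Ideal (𝓞 F))
        rw [hab]
        exact Ideal.mul_mem_mul (Ideal.mem_span_singleton_self b) hn'
      have h := valuation_le_of_mem_mul hmem A
      have hunit : A.1.valuation (((Ideal.absNorm (J c : Ideal (𝓞 F)) : 𝓞 F) : F) : ℚ̄) = 1 := by
        refine le_antisymm (valuation_int_le A _) (not_lt.mp fun hlt => hA ?_)
        rw [A.over_iff, Finset.mem_union]
        refine Or.inr (Finset.mem_biUnion.mpr ⟨c, Finset.mem_univ _, Nat.mem_primeFactors.mpr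
          ⟨A.prime_char, ?_, hn c⟩⟩)
        refine (GalCommon.natCast_mem_nonunits_iff A.prime_char A.liesOver_char _).mp ?_
        rw [ValuationSubring.mem_nonunits_iff]
        simpa using hlt
      simp only [map_mul, MulMemClass.coe_mul, hunit, mul_one] at h
      exact h
  show A.1.valuation ((φ₀.fin A : ℚ̄) * ((Units.mk0 _ _ : ℚ̄ˣ)⁻¹ : ℚ̄ˣ)) = 1
  have hφA : (φ.fin A : ℚ̄) = (N : ℚ̄) * φ₀.fin A := rfl
  rw [hφA, map_mul] at key
  rw [Units.val_inv_eq_inv_val, Units.val_mk0, map_mul, map_inv₀, map_div₀, map_mul, ← key,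
    inv_div]
  have h1 : A.1.valuation ((a : F) : ℚ̄) ≠ 0 := by simpa using ha'
  have h2 : A.1.valuation (N : ℚ̄) ≠ 0 := by simpa using hN0
  have h3 : A.1.valuation (φ₀.fin A : ℚ̄) ≠ 0 := by simp
  field_simp

theorem exists_tPrincipal' (L : IntermediateField ℚ (AlgebraicClosure ℚ)) [FiniteDimensional ℚ L]
    (T₀ : Finset ℕ) :
    ∃ T : Finset ℕ, T₀ ⊆ T ∧ (∀ q ∈ T, q ∈ T₀ ∨ q.Prime) ∧ ∀ F ≤ L, TPrincipal T F := by
  classical
  have : Finite (IntermediateField ℚ L) :=
    (Field.exists_primitive_element_iff_finite_intermediateField ℚ L).mp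
      ⟨Algebra.IsAlgebraic.of_finite ℚ L, Field.exists_primitive_element ℚ L⟩
  have := Fintype.ofFinite (IntermediateField ℚ L)
  have hfd : ∀ K : IntermediateField ℚ L, FiniteDimensional ℚ (IntermediateField.lift K) := fun K =>
    FiniteDimensional.of_injective
      (IntermediateField.inclusion (IntermediateField.lift_le K)).toLinearMap
      (IntermediateField.inclusion (IntermediateField.lift_le K)).toRingHom.injective
  choose f hf0 hfp hf using fun K : IntermediateField ℚ L =>
    haveI := hfd K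
    exists_tPrincipal_single (IntermediateField.lift K) T₀
  refine ⟨T₀ ∪ Finset.univ.biUnion f, Finset.subset_union_left, fun q hq => ?_, fun F hF => ?_⟩
  · rcases Finset.mem_union.mp hq with h | h
    · exact Or.inl h
    · obtain ⟨K, -, hK⟩ := Finset.mem_biUnion.mp h
      exact hfp K q hK
  · have h := hf (F.comap L.val)
    have e : IntermediateField.lift (F.comap L.val) = F := by
      ext x
      constructor
      · rintro ⟨y, hy, rfl⟩; exact hy
      · exact fun hx => ⟨⟨x, hF hx⟩, hx, rfl⟩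
    intro φ hφ
    have h' : ∀ K, K = F → TPrincipal (f (F.comap L.val)) K → TPrincipal (f (F.comap L.val)) F :=
      fun K hK hK' => hK ▸ hK'
    exact tPrincipal_mono (h' _ e h)
      ((Finset.subset_biUnion_of_mem f (Finset.mem_univ _)).trans Finset.subset_union_right) φ hφ

end ClassGroup

/-! ### Fixed classes -/

theorem exists_fixed' (hL : IdeleSetting T p L) (hFF' : F ≤ F') (hF'L : F' ≤ L)
    (hnormal : (F'.fixingSubgroup.subgroupOf F.fixingSubgroup).Normal) {φ : PreIdele}
    (hφ : φ ∈ ideles F') (h : ∀ σ ∈ F.fixingSubgroup, σ • φ / φ ∈ classKer T F') :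
    ∃ ψ ∈ ideles F, φ / ψ ∈ classKer T F' := by
  classical
  have := hL.finite
  have : FiniteDimensional ℚ F' := FiniteDimensional.of_injective
    (IntermediateField.inclusion hF'L).toLinearMap (IntermediateField.inclusion hF'L).toRingHom.injective
  have hdec : ∀ σ : Γ, ∃ x : ℚ̄ˣ, σ ∈ F.fixingSubgroup →
      (x : ℚ̄) ∈ F' ∧ σ • φ / φ / principalHom x ∈ unitIdeles T F' := fun σ => by
    by_cases hσ : σ ∈ F.fixingSubgroup
    · obtain ⟨_, ⟨x, hx, rfl⟩, u, hu, he⟩ := Subgroup.mem_sup.mp (h σ hσ)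
      exact ⟨x, fun _ => ⟨hx, by rw [← he, mul_div_cancel_left]; exact hu⟩⟩
    · exact ⟨1, fun h' => absurd h' hσ⟩
  choose x hx using hdec
  have hinf : ∀ σ ∈ F.fixingSubgroup, ∀ ι : Emb,
      (principalHom (x σ)).inf ι = (σ • φ).inf ι / φ.inf ι := fun σ hσ ι => by
    have h1 := congrFun (hx σ hσ).2.1.2.2 ι
    simp only [div_eq_mul_inv, PreIdele.inf_mul, PreIdele.inf_inv, Pi.one_apply] at h1
    rw [div_eq_mul_inv]
    exact (mul_inv_eq_one.mp h1).symm
  -- cocycle
  have hcoc : ∀ σ ∈ F.fixingSubgroup, ∀ τ ∈ F.fixingSubgroup,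
      x (σ * τ) = Units.map (σ : ℚ̄ →* ℚ̄) (x τ) * x σ := fun σ hσ τ hτ =>
    eq_of_inf_eq (funext fun ι => by
      rw [map_mul, PreIdele.inf_mul, ← smul_principalHom, PreIdele.inf_smul, hinf σ hσ,
        hinf τ hτ, hinf _ (mul_mem hσ hτ), mul_smul, PreIdele.inf_smul]
      exact (div_mul_div_cancel _ _ _).symm)
  have hone : ∀ σ ∈ F'.fixingSubgroup, σ ∈ F.fixingSubgroup → x σ = 1 := fun σ hσ hσF =>
    eq_of_inf_eq (funext fun ι => by
      rw [hinf σ hσF, hφ.1 σ hσ, div_self', map_one]; rfl)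
  have hle : F'.fixingSubgroup ≤ F.fixingSubgroup := IntermediateField.fixingSubgroup_le hFF'
  -- Hilbert 90
  have := finite_fixing_quotient F.fixingSubgroup F'
  have := Fintype.ofFinite (F.fixingSubgroup ⧸ F'.fixingSubgroup.subgroupOf F.fixingSubgroup)
  let out : F.fixingSubgroup ⧸ F'.fixingSubgroup.subgroupOf F.fixingSubgroup → Γ :=
    fun c => ((Quotient.out c : F.fixingSubgroup) : Γ)
  obtain ⟨θ, hθ⟩ : ∃ θ : F', (∑ c, (x (out c) : ℚ̄) * out c (θ : ℚ̄)) ≠ 0 := by
    let emb : (F.fixingSubgroup ⧸ F'.fixingSubgroup.subgroupOf F.fixingSubgroup) → (F' →* ℚ̄) :=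
      fun c => ((out c : ℚ̄ →* ℚ̄)).comp (F'.val : F' →* ℚ̄)
    have hinj : Function.Injective emb := fun c c' he => by
      rw [← QuotientGroup.out_eq' c, ← QuotientGroup.out_eq' c', QuotientGroup.eq,
        Subgroup.mem_subgroupOf, IntermediateField.mem_fixingSubgroup_iff]
      intro z hz
      have h1 : out c z = out c' z := DFunLike.congr_fun he ⟨z, hz⟩
      simp only [Subgroup.coe_mul, InvMemClass.coe_inv, AlgEquiv.mul_apply]
      show (out c)⁻¹ (out c' z) = z
      rw [← h1, ← AlgEquiv.mul_apply, inv_mul_cancel, AlgEquiv.one_apply]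
    have hli := (linearIndependent_monoidHom F' ℚ̄).comp emb hinj
    by_contra hall
    push Not at hall
    have := Fintype.linearIndependent_iff.mp hli (fun c => (x (out c) : ℚ̄)) (funext fun θ => by
      simpa [emb, Finset.sum_apply] using hall θ) (QuotientGroup.mk 1)
    exact (x _).ne_zero this
  set y : ℚ̄ := ∑ c, (x (out c) : ℚ̄) * out c (θ : ℚ̄)
  have hy : ∀ τ ∈ F.fixingSubgroup, τ y * (x τ : ℚ̄) = y := fun τ hτ => by
    rw [map_sum, Finset.sum_mul]
    refine Fintype.sum_equiv (MulAction.toPerm (⟨τ, hτ⟩ : F.fixingSubgroup)) _ _ fun c => ?_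
    set d := (MulAction.toPerm (⟨τ, hτ⟩ : F.fixingSubgroup)) c with hd
    have e : (QuotientGroup.mk ((⟨τ, hτ⟩ : F.fixingSubgroup) * Quotient.out c) :
        F.fixingSubgroup ⧸ F'.fixingSubgroup.subgroupOf F.fixingSubgroup) = QuotientGroup.mk (Quotient.out d) := by
      rw [QuotientGroup.out_eq', hd]
      conv_rhs => rw [← QuotientGroup.out_eq' c]
      rfl
    have hk : ((((⟨τ, hτ⟩ : F.fixingSubgroup) * Quotient.out c)⁻¹ * Quotient.out d :
        F.fixingSubgroup) : Γ) ∈ F'.fixingSubgroup := mem_of_mk_eq e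
    set κ := ((((⟨τ, hτ⟩ : F.fixingSubgroup) * Quotient.out c)⁻¹ * Quotient.out d :
        F.fixingSubgroup) : Γ)
    have hout : out d = τ * out c * κ := by simp [out, κ, mul_assoc]
    have hτc : τ * out c ∈ F.fixingSubgroup := mul_mem hτ (Quotient.out c).2
    have hθ' : out d (θ : ℚ̄) = τ (out c (θ : ℚ̄)) := by
      rw [hout, AlgEquiv.mul_apply, (IntermediateField.mem_fixingSubgroup_iff _ _).mp hk _ θ.2,
        AlgEquiv.mul_apply]
    have hxd : (x (out d) : ℚ̄) = τ (x (out c) : ℚ̄) * (x τ : ℚ̄) := by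
      rw [hout, hcoc _ hτc _ (hle hk), hone κ hk (hle hk), map_one, one_mul,
        hcoc τ hτ (out c) (Quotient.out c).2]
      rfl
    rw [map_mul, hθ', hxd]
    ring
  have hyF' : y ∈ F' := mem_of_forall_fixed fun τ hτ => by
    have := hy τ (hle hτ)
    rwa [hone τ hτ (hle hτ), Units.val_one, mul_one] at this
  set η : ℚ̄ˣ := Units.mk0 y hθ with hη
  set φ₁ := principalHom η * φ with hφ₁def
  have hφ₁ : φ₁ ∈ ideles F' := mul_mem (principalHom_mem_ideles hyF') hφ
  have hu : ∀ σ ∈ F.fixingSubgroup, σ • φ₁ / φ₁ ∈ unitIdeles T F' := fun σ hσ => by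
    have e : σ • φ₁ / φ₁ = σ • φ / φ / principalHom (x σ) := by
      have h1 : principalHom η = principalHom (Units.map (σ : ℚ̄ →* ℚ̄) η) * principalHom (x σ) := by
        rw [← map_mul]
        exact congrArg _ (Units.ext (hy σ hσ).symm)
      rw [hφ₁def, smul_mul', smul_principalHom]
      conv_lhs => enter [2, 1]; rw [h1]
      rw [mul_assoc, mul_div_mul_left_eq_div, div_mul_eq_div_div_swap]
    rw [e]
    exact (hx σ hσ).2
  -- values off `T` are powers of the residue characteristic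
  have hk : ∀ A : Place, ¬ A.Over T →
      ∃ k : ℤ, A.1.valuation (φ₁.fin A : ℚ̄) = A.1.valuation (A.char : ℚ̄) ^ k := fun A hA => by
    obtain ⟨z, hz0, hz⟩ := exists_approx_fin hφ₁ A 1
    obtain ⟨k, hk⟩ := EllP.exists_valuation_eq_zpow A.prime_char A.liesOver_char
      (y := (z : ℚ̄)) (by simpa using hz0) fun σ hσ =>
        (IntermediateField.mem_fixingSubgroup_iff _ _).mp (hL.unramified A hA σ hσ) _ (hF'L z.2)
    have hb1 : A.1.valuation ((z : ℚ̄) / φ₁.fin A) = 1 := by
      rw [← sub_add_cancel ((z : ℚ̄) / (φ₁.fin A : ℚ̄)) 1, Valuation.map_add_eq_of_lt_right _ (by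
        rw [map_one]
        exact lt_of_le_of_lt hz (pow_lt_one₀ zero_le A.valuation_char_lt_one one_ne_zero)), map_one]
    rw [map_div₀, div_eq_one_iff_eq (by simp)] at hb1
    exact ⟨k, hb1 ▸ hk⟩
  choose k hk using hk
  let ψ : PreIdele :=
    { fin := fun A => if hA : A.Over T then φ₁.fin A else
        (Units.mk0 (A.char : ℚ̄) (Nat.cast_ne_zero.mpr A.prime_char.ne_zero)) ^ (k A hA)
      inf := φ₁.inf }
  have hkσ : ∀ σ ∈ F.fixingSubgroup, ∀ (A : Place) (hA : ¬ A.Over T)
      (hA' : ¬ (σ • A).Over T), k (σ • A) hA' = k A hA := by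
    intro σ hσ A hA hA'
    have h1 : A.1.valuation (φ₁.fin A : ℚ̄) = A.1.valuation ((A.char : ℚ̄) ^ k A hA) := by
      rw [map_zpow₀]; exact hk A hA
    have h2 := (valuation_smul_eq_iff σ A).mpr h1
    have h3 : (σ • A).1.valuation (σ (φ₁.fin A : ℚ̄)) = (σ • A).1.valuation (φ₁.fin (σ • A) : ℚ̄) := by
      have h4 := (hu σ hσ).2 (σ • A)
      rw [mem_unitGroup_iff] at h4
      simp only [div_eq_mul_inv, PreIdele.fin_mul, PreIdele.fin_inv, Units.val_mul,
        Units.val_inv_eq_inv_val, map_mul, map_inv₀, PreIdele.coe_fin_smul, inv_smul_smul] at h4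
      exact (mul_inv_eq_one₀ (by simp)).mp h4
    rw [map_zpow₀, map_natCast, h3, hk _ hA', map_zpow₀, Place.char_smul] at h2
    have hlt : (σ • A).1.valuation (A.char : ℚ̄) < 1 := by
      simpa using (σ • A).valuation_char_lt_one
    have hne : (σ • A).1.valuation (A.char : ℚ̄) ≠ 0 := by simpa using A.prime_char.ne_zero
    exact (zpow_right_strictAnti₀ (zero_lt_iff.mpr hne) hlt).injective h2
  have hψ : ψ ∈ ideles F := by
    obtain ⟨-, hconj, S, hS⟩ := hφ₁
    refine ⟨fun σ hσ => PreIdele.ext (funext fun A => Units.ext ?_) ?_, hconj, S ∪ T, fun A hA => ?_⟩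
    · rw [PreIdele.coe_fin_smul]
      by_cases hA : A.Over T
      · have hA' : (σ⁻¹ • A).Over T := hA.smul _
        simp only [ψ, dif_pos hA, dif_pos hA']
        have h4 := (hu σ hσ).1.2.1 A hA
        rw [div_eq_mul_inv, PreIdele.fin_mul, PreIdele.fin_inv, mul_inv_eq_one] at h4
        rw [← h4, PreIdele.coe_fin_smul]
      · have hA' : ¬ (σ⁻¹ • A).Over T := fun h' => hA (Place.over_smul_iff.mp h')
        simp only [ψ, dif_neg hA, dif_neg hA']
        rw [hkσ σ⁻¹ (inv_mem hσ) A hA hA']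
        simp [map_zpow₀]
    · funext ι
      have h4 := congrFun (hu σ hσ).1.2.2 ι
      simp only [div_eq_mul_inv, PreIdele.inf_mul, PreIdele.inf_inv, Pi.one_apply] at h4
      exact mul_inv_eq_one.mp h4
    · have hAT : ¬ A.Over T := fun h' => hA (over_mono Finset.subset_union_right h')
      have hAS : ¬ A.Over S := fun h' => hA (over_mono Finset.subset_union_left h')
      simp only [ψ, dif_neg hAT]
      rw [mem_unitGroup_iff, Units.val_zpow_eq_zpow_val, Units.val_mk0, map_zpow₀, ← hk A hAT]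
      exact mem_unitGroup_iff.mp (hS A hAS)
  refine ⟨ψ, hψ, ?_⟩
  have e : φ / ψ = principalHom η⁻¹ * (φ₁ / ψ) := by
    rw [hφ₁def, map_inv, mul_div_assoc', inv_mul_cancel_left]
  rw [e]
  refine Subgroup.mul_mem_sup ⟨η⁻¹, by rw [Units.val_inv_eq_inv_val]; exact inv_mem hyF', rfl⟩ ?_
  refine ⟨⟨div_mem hφ₁ (ideles_le_of_le hFF' hψ), fun A hA => ?_, ?_⟩, fun A => ?_⟩
  · simp [ψ, dif_pos hA, div_eq_mul_inv]
  · funext ι; simp [ψ, div_eq_mul_inv]
  · rw [div_eq_mul_inv, PreIdele.fin_mul, PreIdele.fin_inv]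
    by_cases hA : A.Over T
    · simp [ψ, dif_pos hA]
    · simp only [ψ, dif_neg hA]
      rw [mem_unitGroup_iff]
      simp only [Units.val_mul, Units.val_inv_eq_inv_val, Units.val_zpow_eq_zpow_val, Units.val_mk0,
        map_mul, map_inv₀, map_zpow₀, ← hk A hA]
      exact mul_inv_cancel₀ (by simp)

/-! ### Norms -/

theorem finite_of_le [FiniteDimensional ℚ L] (hFL : F ≤ L) : FiniteDimensional ℚ F :=
  FiniteDimensional.of_injective (IntermediateField.inclusion hFL).toLinearMap
    (IntermediateField.inclusion hFL).toRingHom.injective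

/-- Evaluation at an infinite place. -/
def infHom (ι : Emb) : PreIdele →* ℂˣ where
  toFun φ := φ.inf ι
  map_one' := rfl
  map_mul' _ _ := rfl

/-- Evaluation at a place. -/
def finHom (A : Place) : PreIdele →* ℚ̄ˣ where
  toFun φ := φ.fin A
  map_one' := rfl
  map_mul' _ _ := rfl

variable [FiniteDimensional ℚ L]

theorem normIdele_mem' {φ : PreIdele} (hφ : φ ∈ ideles L) : normIdele F L φ ∈ ideles F := by
  have := finite_fixing_quotient F.fixingSubgroup L
  have := Fintype.ofFinite (F.fixingSubgroup ⧸ L.fixingSubgroup.subgroupOf F.fixingSubgroup)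
  refine ⟨fun σ hσ => smul_cosetProd hφ.1 hσ, fun ι => ?_, ?_⟩
  · show infHom ι.conj (normIdele F L φ) = Units.map _ (infHom ι (normIdele F L φ))
    unfold normIdele
    rw [finprod_eq_prod_of_fintype, map_prod, map_prod, map_prod]
    refine Finset.prod_congr rfl fun c _ => ?_
    show φ.inf (ι.conj.comp _) = _
    exact hφ.2.1 (ι.comp _)
  · obtain ⟨-, -, S, hS⟩ := hφ
    refine ⟨S, fun A hA => ?_⟩
    show finHom A (normIdele F L φ) ∈ _
    unfold normIdele
    rw [finprod_eq_prod_of_fintype, map_prod]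
    refine prod_mem fun c _ => ?_
    show Units.map _ _ ∈ _
    set σ := ((Quotient.out c : F.fixingSubgroup) : Γ)
    conv => arg 1; rw [← smul_inv_smul σ A, Place.coe_smul]
    exact unitGroup_smul.mpr (hS _ (by rwa [Place.over_smul_iff]))

theorem normIdele_mul' (φ ψ : PreIdele) :
    normIdele F L (φ * ψ) = normIdele F L φ * normIdele F L ψ := by
  have := finite_fixing_quotient F.fixingSubgroup L
  exact cosetProd_mul φ ψ

theorem normIdele_trans' (hFF' : F ≤ F') (hF'L : F' ≤ L) {φ : PreIdele} (hφ : φ ∈ ideles L) :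
    normIdele F F' (normIdele F' L φ) = normIdele F L φ := by
  have := finite_of_le (L := L) hF'L
  have := finite_fixing_quotient F.fixingSubgroup L
  have := finite_fixing_quotient F'.fixingSubgroup L
  have := finite_fixing_quotient F.fixingSubgroup F'
  exact cosetProd_trans (IntermediateField.fixingSubgroup_le hF'L)
    (IntermediateField.fixingSubgroup_le hFF') hφ.1

theorem normIdele_of_mem' {φ : PreIdele} (hφ : φ ∈ ideles F) :
    normIdele F L φ = φ ^ L.fixingSubgroup.relIndex F.fixingSubgroup := by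
  have := finite_fixing_quotient F.fixingSubgroup L
  exact cosetProd_of_fixed hφ.1

theorem normIdele_mem_classKer' {φ : PreIdele} (hφ : φ ∈ classKer T L) :
    normIdele F L φ ∈ classKer T F := by
  have := finite_fixing_quotient F.fixingSubgroup L
  have := Fintype.ofFinite (F.fixingSubgroup ⧸ L.fixingSubgroup.subgroupOf F.fixingSubgroup)
  obtain ⟨_, ⟨x, hx, rfl⟩, u, hu, rfl⟩ := Subgroup.mem_sup.mp hφ
  rw [normIdele_mul']
  refine Subgroup.mul_mem_sup ⟨∏ c : F.fixingSubgroup ⧸ L.fixingSubgroup.subgroupOf F.fixingSubgroup,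
    Units.map (((Quotient.out c : F.fixingSubgroup) : Γ) : ℚ̄ →* ℚ̄) x, ?_, ?_⟩ ?_
  · refine mem_of_forall_fixed fun σ hσ => ?_
    have h := smul_cosetProd (H := F.fixingSubgroup) (K := L.fixingSubgroup) (x := (x : ℚ̄))
      (fun k hk => (IntermediateField.mem_fixingSubgroup_iff _ _).mp hk _ hx) hσ
    rw [Units.coe_prod]
    simp only [cosetProd, finprod_eq_prod_of_fintype] at h
    exact h
  · unfold normIdele
    rw [finprod_eq_prod_of_fintype, map_prod]
    exact Finset.prod_congr rfl fun c _ => (smul_principalHom _ x).symm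
  · refine ⟨⟨normIdele_mem' hu.1.1, fun A hA => ?_, funext fun ι => ?_⟩, fun A => ?_⟩
    · show finHom A (normIdele F L u) = 1
      unfold normIdele
      rw [finprod_eq_prod_of_fintype, map_prod]
      exact Finset.prod_eq_one fun c _ => Units.ext (by
        show (Units.map _ (u.fin _) : ℚ̄ˣ).val = _
        rw [hu.1.2.1 _ (hA.smul _)]; simp)
    · show infHom ι (normIdele F L u) = 1
      unfold normIdele
      rw [finprod_eq_prod_of_fintype, map_prod]
      exact Finset.prod_eq_one fun c _ => by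
        show u.inf _ = 1
        rw [hu.1.2.2]; rfl
    · show finHom A (normIdele F L u) ∈ _
      unfold normIdele
      rw [finprod_eq_prod_of_fintype, map_prod]
      refine prod_mem fun c _ => ?_
      show Units.map _ _ ∈ _
      set σ := ((Quotient.out c : F.fixingSubgroup) : Γ)
      conv => arg 1; rw [← smul_inv_smul σ A, Place.coe_smul]
      exact unitGroup_smul.mpr (hu.2 _)

end FLTAgent.TW
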