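import Fermat.Agent.TW.Idele.Roots

/-!
# Local `p`-th power classes

For a place `A` over the prime `P` of a field `F ∋ ζ_p`, the elements of `F` which are `p`-th powers
in the decomposition field of `A` have index `p ^ 2 * N(P) ^ e` in `Fˣ`, `e` the exponent of `P`
in `p`.  This is computed in the finite group `(𝓞 F / P ^ m)ˣ`, `m` large enough.
-/

set_option autoImplicit false
set_option synthInstance.maxHeartbeats 200000
set_option maxHeartbeats 1000000

noncomputable section

open IsDedekindDomain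
open scoped Pointwise NumberField WithZero

namespace FLTAgent.TW

local notation "ℚ̄" => AlgebraicClosure ℚ
local notation "Γ" => (AlgebraicClosure ℚ ≃ₐ[ℚ] AlgebraicClosure ℚ)

attribute [local instance] numberField_intermediate

/-- The `p`-th powers of the decomposition field of `A` over `F`. -/
def decPow (p : ℕ) (F : IntermediateField ℚ ℚ̄) (A : Place) : Subgroup ℚ̄ˣ where
  carrier := {x | ∃ t : ℚ̄ˣ, t ^ p = x ∧
    ∀ σ ∈ F.fixingSubgroup, σ • A = A → σ (t : ℚ̄) = t}
  one_mem' := ⟨1, one_pow _, fun σ _ _ => by simp⟩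
  mul_mem' := by
    rintro _ _ ⟨s, rfl, hs⟩ ⟨t, rfl, ht⟩
    exact ⟨s * t, mul_pow s t p, fun σ h h' => by
      rw [Units.val_mul, map_mul, hs σ h h', ht σ h h']⟩
  inv_mem' := by
    rintro _ ⟨t, rfl, ht⟩
    exact ⟨t⁻¹, inv_pow t p, fun σ h h' => by
      rw [Units.val_inv_eq_inv_val, map_inv₀, ht σ h h']⟩

/-- Elements of `Fˣ` which are `p`-th powers in the decomposition field of `A`. -/
def locSub (p : ℕ) (F : IntermediateField ℚ ℚ̄) (A : Place) : Subgroup Fˣ :=
  (decPow p F A).comap (Units.map (algebraMap F ℚ̄ : F →* ℚ̄))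

variable {p : ℕ} [hp : Fact p.Prime] {F : IntermediateField ℚ ℚ̄}

theorem pow_mem_decPow {x : ℚ̄ˣ} {A : Place} (hx : ∀ σ ∈ F.fixingSubgroup, σ • A = A →
    σ (x : ℚ̄) = x) : x ^ p ∈ decPow p F A := ⟨x, rfl, hx⟩

theorem pow_mem_locSub (x : Fˣ) (A : Place) : x ^ p ∈ locSub p F A := by
  rw [locSub, Subgroup.mem_comap, map_pow]
  exact pow_mem_decPow fun σ hσ _ =>
    (IntermediateField.mem_fixingSubgroup_iff _ _).mp hσ _ (x : F).2

/-- Elements close to `1` are `p`-th powers in the decomposition field. -/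
theorem mem_decPow_of_near {ζ : ℚ̄} (hζ : IsPrimitiveRoot ζ p) (hζF : ζ ∈ F) {A : Place}
    {x : ℚ̄ˣ} (hfix : ∀ σ ∈ F.fixingSubgroup, σ • A = A → σ (x : ℚ̄) = x)
    (h : A.1.valuation ((x : ℚ̄) - 1) < A.1.valuation (p : ℚ̄) * A.1.valuation (ζ - 1)) :
    x ∈ decPow p F A := by
  obtain ⟨t, ht, -, hfix'⟩ := exists_root_fixed hζ A h
  have ht0 : t ≠ 0 := fun h0 => x.ne_zero (by rw [← ht, h0, zero_pow hp.out.ne_zero])
  exact ⟨Units.mk0 t ht0, Units.ext ht, fun σ hσ hA => hfix' σ hA (hfix σ hσ hA)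
    ((IntermediateField.mem_fixingSubgroup_iff _ _).mp hσ _ hζF)⟩

variable [FiniteDimensional ℚ F]

theorem numPlaces_eq_card (T : Finset ℕ) : numPlaces T F = (primesOverT F T).card := by
  rw [numPlaces, ← Set.ncard_coe_finset]
  symm
  refine Set.ncard_congr (fun P _ => MulAction.orbit F.fixingSubgroup (placeAbove F P))
    (fun P hP => ⟨placeAbove F P, ?_, rfl⟩) (fun P P' _ _ h => ?_) ?_
  · exact primeOf_mem_primesOverT.mp (by rwa [primeOf_placeAbove])
  · obtain ⟨⟨σ, hσ⟩, h'⟩ := (MulAction.orbit_eq_iff.mp h : placeAbove F P ∈ _)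
    have := primeOf_smul (F := F) hσ (A := placeAbove F P')
    have h'' : σ • placeAbove F P' = placeAbove F P := h'
    rwa [h'', primeOf_placeAbove, primeOf_placeAbove] at this
  · rintro _ ⟨A, hA, rfl⟩
    refine ⟨primeOf F A, primeOf_mem_primesOverT.mpr hA, MulAction.orbit_eq_iff.mpr ?_⟩
    obtain ⟨σ, hσ, h⟩ := exists_smul_eq_of_primeOf_eq (F := F) (A := A)
      (B := placeAbove F (primeOf F A)) (primeOf_placeAbove _).symm
    exact ⟨⟨σ, hσ⟩, h⟩

variable (F) in
/-- The exponent of a prime in `n`. -/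
def expOf (P : HeightOneSpectrum (𝓞 F)) (n : ℕ) : ℕ :=
  (Associates.mk P.asIdeal).count (Associates.mk (Ideal.span {(n : 𝓞 F)})).factors

theorem valuation_natCast (P : HeightOneSpectrum (𝓞 F)) {n : ℕ} (hn : n ≠ 0) :
    P.valuation F (n : F) = WithZero.exp (-(expOf F P n : ℤ)) := by
  rw [← map_natCast (algebraMap (𝓞 F) F), HeightOneSpectrum.valuation_of_algebraMap,
    P.intValuation_if_neg (Nat.cast_ne_zero.mpr hn)]
  rfl

section Residue

variable (P : HeightOneSpectrum (𝓞 F))

theorem valuation_int_le_exp_iff (z : 𝓞 F) (n : ℕ) :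
    P.valuation F (z : F) ≤ WithZero.exp (-(n : ℤ)) ↔ z ∈ P.asIdeal ^ n := by
  rw [HeightOneSpectrum.valuation_of_algebraMap]
  exact P.intValuation_le_pow_iff_mem z n

theorem exists_int_near {x : F} (hx : P.valuation F x ≤ 1) (m : ℕ) :
    ∃ a : 𝓞 F, P.valuation F (x - a) ≤ WithZero.exp (-(m : ℤ)) := by
  obtain ⟨a, s, has⟩ := P.exists_primeCompl_mul_eq_of_integer x hx
  have hu : IsUnit (Ideal.Quotient.mk (P.asIdeal ^ m) (s : 𝓞 F)) := by
    rcases eq_or_ne m 0 with rfl | hm
    · have : Subsingleton (𝓞 F ⧸ P.asIdeal ^ 0) :=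
        Ideal.Quotient.subsingleton_iff.mpr (by simp)
      exact isUnit_of_subsingleton _
    · exact (Ideal.Quotient.isUnit_mk_pow_iff_notMem _ hm).mpr s.2
  obtain ⟨u, hu⟩ := hu.exists_right_inv
  obtain ⟨r, rfl⟩ := Ideal.Quotient.mk_surjective u
  rw [← map_mul, ← map_one (Ideal.Quotient.mk _), Ideal.Quotient.eq] at hu
  refine ⟨a * r, ?_⟩
  have e : x - ((a * r : 𝓞 F) : F) = -(x * (((s : 𝓞 F) * r - 1 : 𝓞 F) : F)) := by
    have has' : x * ((s : 𝓞 F) : F) = (a : F) := has
    push_cast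
    linear_combination (r : F) * has'
  rw [e, Valuation.map_neg, map_mul]
  exact le_trans (mul_le_of_le_one_left' hx) ((valuation_int_le_exp_iff P _ m).mpr hu)

variable (m : ℕ)

/-- Units at `P`. -/
abbrev unitsAt : Subgroup Fˣ := (P.valuationOfNeZero (K := F)).ker

theorem mem_unitsAt {x : Fˣ} : x ∈ unitsAt P ↔ P.valuation F (x : F) = 1 := by
  rw [MonoidHom.mem_ker, ← WithZero.coe_inj, HeightOneSpectrum.valuationOfNeZero_eq]
  rfl

/-- Reduction modulo `P ^ m` of the units at `P`. -/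
def residueFun (x : unitsAt P) : 𝓞 F ⧸ P.asIdeal ^ m :=
  Ideal.Quotient.mk _ (exists_int_near P ((mem_unitsAt P).mp x.2).le m).choose

variable {P m}

theorem residueFun_eq {x : unitsAt P} {a : 𝓞 F}
    (h : P.valuation F ((x : Fˣ) - a : F) ≤ WithZero.exp (-(m : ℤ))) :
    residueFun P m x = Ideal.Quotient.mk _ a := by
  rw [residueFun, Ideal.Quotient.eq, ← valuation_int_le_exp_iff]
  have h' := (exists_int_near P ((mem_unitsAt P).mp x.2).le m).choose_spec
  set b := (exists_int_near P ((mem_unitsAt P).mp x.2).le m).choose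
  have e : ((b - a : 𝓞 F) : F) = (((x : Fˣ) : F) - a) - (((x : Fˣ) : F) - b) := by
    push_cast; ring
  rw [e]
  exact (Valuation.map_sub _ _ _).trans (max_le h h')

variable (P m) in
/-- The reduction as a homomorphism. -/
def residueHom : unitsAt P →* (𝓞 F ⧸ P.asIdeal ^ m)ˣ :=
  MonoidHom.toHomUnits
  { toFun := residueFun P m
    map_one' := residueFun_eq (a := 1) (by simp)
    map_mul' := fun x y => by
      have hx := (exists_int_near P ((mem_unitsAt P).mp x.2).le m).choose_spec
      have hy := (exists_int_near P ((mem_unitsAt P).mp y.2).le m).choose_spec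
      refine (residueFun_eq ?_).trans (map_mul _ _ _)
      set a := (exists_int_near P ((mem_unitsAt P).mp x.2).le m).choose
      set b := (exists_int_near P ((mem_unitsAt P).mp y.2).le m).choose
      have e : (((x * y : unitsAt P) : Fˣ) : F) - ((a * b : 𝓞 F) : F) =
          (((x : Fˣ) : F) - a) * ((y : Fˣ) : F) + (a : F) * (((y : Fˣ) : F) - b) := by
        push_cast; ring
      rw [e]
      refine (Valuation.map_add _ _ _).trans (max_le ?_ ?_) <;> rw [map_mul]
      · rwa [(mem_unitsAt P).mp y.2, mul_one]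
      · exact le_trans (mul_le_of_le_one_left' (P.valuation_le_one a)) hy }

theorem residueHom_surjective (hm : m ≠ 0) : Function.Surjective (residueHom P m) := by
  intro u
  obtain ⟨a, ha⟩ := Ideal.Quotient.mk_surjective (u : 𝓞 F ⧸ P.asIdeal ^ m)
  have ha' : a ∉ P.asIdeal :=
    (Ideal.Quotient.isUnit_mk_pow_iff_notMem _ hm).mp (ha ▸ u.isUnit)
  have hv : P.valuation F (a : F) = 1 := by
    rw [HeightOneSpectrum.valuation_of_algebraMap]
    exact (P.intValuation_eq_one_iff_mem_primeCompl _).mpr ha'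
  have ha0 : (a : F) ≠ 0 := fun h => by simp [h] at hv
  exact ⟨⟨Units.mk0 _ ha0, (mem_unitsAt P).mpr hv⟩, Units.ext
    ((residueFun_eq (a := a) (by simp)).trans ha)⟩

theorem residueHom_eq_one_iff {x : unitsAt P} :
    residueHom P m x = 1 ↔ P.valuation F (((x : Fˣ) : F) - 1) ≤ WithZero.exp (-(m : ℤ)) := by
  refine ⟨fun h => ?_, fun h => Units.ext ((residueFun_eq (a := 1) (by simpa using h)).trans
    (map_one _))⟩
  have h' : residueFun P m x = Ideal.Quotient.mk _ 1 := (congrArg Units.val h).trans (map_one _).symm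
  have hb := (exists_int_near P ((mem_unitsAt P).mp x.2).le m).choose_spec
  rw [residueFun, Ideal.Quotient.eq, ← valuation_int_le_exp_iff] at h'
  set b := (exists_int_near P ((mem_unitsAt P).mp x.2).le m).choose
  have e : ((x : Fˣ) : F) - 1 = (((x : Fˣ) : F) - b) + ((b - 1 : 𝓞 F) : F) := by
    push_cast; ring
  rw [e]
  exact (Valuation.map_add _ _ _).trans (max_le hb h')

end Residue

theorem lt_exp_neg_iff {z : ℤᵐ⁰} (a : ℕ) :
    z < WithZero.exp (-(a : ℤ)) ↔ z ≤ WithZero.exp (-((a + 1 : ℕ) : ℤ)) := by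
  rcases eq_or_ne z 0 with rfl | hz
  · simp
  · rw [← WithZero.exp_log hz, WithZero.exp_lt_exp, WithZero.exp_le_exp]
    push_cast
    omega

theorem card_ker_restrict {R : Type*} [CommRing R] (I J : Ideal R) (hIJ : I ≤ J)
    (hnil : ∀ z ∈ J.map (Ideal.Quotient.mk I), IsNilpotent z) :
    Nat.card {u : (R ⧸ I)ˣ // (u : R ⧸ I) - 1 ∈ J.map (Ideal.Quotient.mk I)} * Nat.card (R ⧸ J)
      = Nat.card (R ⧸ I) := by
  set J' := J.map (Ideal.Quotient.mk I) with hJ'
  have e : {u : (R ⧸ I)ˣ // (u : R ⧸ I) - 1 ∈ J'} ≃ J' :=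
    { toFun := fun u => ⟨_, u.2⟩
      invFun := fun z => ⟨((hnil z.1 z.2).isUnit_add_one).unit, by simp⟩
      left_inv := fun u => by apply Subtype.ext; apply Units.ext; simp
      right_inv := fun z => by apply Subtype.ext; simp }
  rw [Nat.card_congr e, ← Nat.card_congr (DoubleQuot.quotQuotEquivQuotOfLE hIJ).toEquiv]
  exact (Submodule.card_eq_card_quotient_mul_card J').symm.trans rfl

section Index

variable {A : Place}

/-- `Fˣ` modulo the `p`-th powers at `A`. -/
theorem index_locSub (hμ : ContainsMuP p F) (A : Place) :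
    (locSub p F A).index =
      p * (p * Ideal.absNorm (primeOf F A).asIdeal ^ expOf F (primeOf F A) p) := by
  classical
  obtain ⟨ζ, hζ⟩ := exists_primitiveRoot_qbar p
  have hζF : ζ ∈ F := hμ ζ hζ.pow_eq_one
  set P := primeOf F A with hP
  set w := P.valuation F with hw
  let ζF : F := ⟨ζ, hζF⟩
  have hζF' : IsPrimitiveRoot ζF p :=
    IsPrimitiveRoot.of_map_of_injective (f := F.val) hζ F.val.injective
  have hv : ∀ x y : F, A.1.valuation (x : ℚ̄) < A.1.valuation (y : ℚ̄) ↔ w x < w y :=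
    valuation_lt_iff
  have hcp : (((p : F) : F) : ℚ̄) = (p : ℚ̄) := map_natCast F.val p
  set e := expOf F P p with he
  have hwp : w (p : F) = WithZero.exp (-(e : ℤ)) := valuation_natCast P hp.out.ne_zero
  obtain ⟨a, ha⟩ : ∃ a : ℕ, w (ζF - 1) = WithZero.exp (-(a : ℤ)) := by
    have h0 : w (ζF - 1) ≠ 0 := by simpa [sub_eq_zero] using hζF'.ne_one hp.out.one_lt
    have h1 : w (ζF - 1) ≤ 1 := by
      have h := (valuation_le_iff (A := A) (ζF - 1) 1).mp (by
        simpa using valuation_zeta_sub_one_le hζ A)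
      simpa using h
    have hl : WithZero.log (w (ζF - 1)) ≤ 0 := by
      rwa [WithZero.log_le_iff_le_exp h0, WithZero.exp_zero]
    refine ⟨(-WithZero.log (w (ζF - 1))).toNat, ?_⟩
    rw [Int.toNat_of_nonneg (by omega), neg_neg, WithZero.exp_log h0]
  set N := a + 1 with hN
  set m := e + N with hm
  have hthr : ∀ z : F, w z < w (p : F) * w (ζF - 1) ↔ w z ≤ WithZero.exp (-(m : ℤ)) := by
    intro z
    rw [hwp, ha, ← WithZero.exp_add, hm, hN, ← Nat.add_assoc, ← lt_exp_neg_iff]
    push_cast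
    rw [neg_add]
  have hthr' : ∀ z : F, w z < w (ζF - 1) ↔ w z ≤ WithZero.exp (-(N : ℤ)) := fun z => by
    rw [ha, hN, lt_exp_neg_iff]
  -- transfer of the root lemmas to `F`
  have hpow : ∀ z : F, w (z - 1) < w (ζF - 1) →
      w (z ^ p - 1) = w (p : F) * w (z - 1) := by
    intro z hz
    have h := valuation_pow_prime_sub_one hζ A (t := (z : ℚ̄)) (by
      have := (hv (z - 1) (ζF - 1)).mpr hz
      simpa [ζF] using this)
    rw [← map_mul]
    refine (valuation_eq_iff (A := A) _ _).mp ?_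
    simpa [hcp] using h
  have hconj : ∀ z : F, w (z ^ p - 1) < w (p : F) * w (ζF - 1) →
      ∃ i < p, w (ζF ^ i * z - 1) < w (ζF - 1) := by
    intro z hz
    rw [← map_mul] at hz
    obtain ⟨i, hi, h⟩ := exists_zeta_mul_near hζ A (t := (z : ℚ̄)) (by
      have := (hv _ _).mpr hz
      simpa [hcp, ζF] using this)
    exact ⟨i, hi, (hv _ _).mp (by simpa [ζF] using h)⟩
  have hnear : ∀ x : Fˣ, w ((x : F) - 1) ≤ WithZero.exp (-(m : ℤ)) → x ∈ locSub p F A := by
    intro x hx
    rw [locSub, Subgroup.mem_comap]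
    refine mem_decPow_of_near hζ hζF (fun σ hσ _ =>
      (IntermediateField.mem_fixingSubgroup_iff _ _).mp hσ _ (x : F).2) ?_
    have h := (hthr _).mpr hx
    rw [← map_mul] at h
    have := (hv _ _).mpr h
    simpa [hcp, ζF] using this
  -- `p`-th powers in the decomposition field are `p`-th powers up to deep units
  have hsplit : ∀ x ∈ locSub p F A, ∃ y : Fˣ,
      w ((x : F) / (y : F) ^ p - 1) ≤ WithZero.exp (-(m : ℤ)) ∧ w (x : F) = w (y : F) ^ p := by
    rintro x ⟨t, ht, hfix⟩
    have hpz : (p : ℚ̄) * (ζ - 1) ≠ 0 :=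
      mul_ne_zero (Nat.cast_ne_zero.mpr hp.out.ne_zero) (sub_ne_zero.mpr (hζ.ne_one hp.out.one_lt))
    obtain ⟨n, hn⟩ := exists_char_pow_le A hpz
    obtain ⟨y, hy0, hy⟩ := exists_approx F A t.ne_zero hfix (n + 1)
    have hlt : A.1.valuation ((y : ℚ̄) / t - 1) < A.1.valuation ((p : ℚ̄) * (ζ - 1)) := by
      refine lt_of_le_of_lt hy (lt_of_lt_of_le ?_ hn)
      exact pow_lt_pow_right_of_lt_one₀ (zero_lt_iff.mpr A.valuation_char_ne_zero)
        A.valuation_char_lt_one n.lt_succ_self
    have hle : A.1.valuation ((p : ℚ̄) * (ζ - 1)) ≤ A.1.valuation (ζ - 1) := by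
      rw [map_mul]
      exact mul_le_of_le_one_left' ((A.1.valuation_le_one_iff _).mpr (natCast_mem A.1 p))
    have hlt' := lt_of_lt_of_le hlt hle
    have h1 : A.1.valuation (((y : ℚ̄) / t) ^ p - 1) < A.1.valuation ((p : ℚ̄) * (ζ - 1)) := by
      rw [valuation_pow_prime_sub_one hζ A hlt', map_mul]
      exact mul_lt_mul_of_pos_left hlt' (zero_lt_iff.mpr (by simpa using hp.out.ne_zero))
    have ht' : (t : ℚ̄) ^ p = ((x : F) : ℚ̄) := congrArg Units.val ht
    have hy1 : A.1.valuation (((y : ℚ̄) / t) ^ p) = 1 := by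
      rw [map_pow, valuation_eq_one_of_near hζ A hlt', one_pow]
    refine ⟨Units.mk0 y hy0, (hthr _).mp ?_, ?_⟩
    · rw [← map_mul]
      refine (hv _ _).mp ?_
      simp only [Units.val_mk0, AddSubgroupClass.coe_sub, IntermediateField.coe_div,
        IntermediateField.coe_mul, IntermediateField.coe_pow, hcp, ζF, OneMemClass.coe_one]
      rw [← ht', show (t : ℚ̄) ^ p / (y : ℚ̄) ^ p = (((y : ℚ̄) / t) ^ p)⁻¹ by
        rw [div_pow, inv_div]]
      set u := ((y : ℚ̄) / t) ^ p
      have hu0 : u ≠ 0 := fun h => by simp [h] at hy1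
      rw [show u⁻¹ - 1 = -((u - 1) * u⁻¹) by field_simp; ring, Valuation.map_neg, map_mul,
        map_inv₀, hy1, inv_one, mul_one]
      exact h1
    · rw [← map_pow]
      refine (valuation_eq_iff (A := A) _ _).mp ?_
      simp only [Units.val_mk0, IntermediateField.coe_pow]
      rw [← ht', map_pow, map_pow]
      have : A.1.valuation ((y : ℚ̄) / t) = 1 := valuation_eq_one_of_near hζ A hlt'
      rw [map_div₀, div_eq_one_iff_eq (by simp)] at this
      rw [this]
  -- valuations
  set ord := (P.valuationOfNeZero (K := F))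
  have hordw : ∀ x : Fˣ, (ord x : ℤᵐ⁰) = w (x : F) := fun x =>
    HeightOneSpectrum.valuationOfNeZero_eq P x
  have hord : Function.Surjective ord := by
    intro z
    obtain ⟨π, hπ⟩ := P.valuation_exists_uniformizer F
    have hπ0 : π ≠ 0 := fun h => WithZero.exp_ne_zero (by rw [← hπ, h, map_zero])
    refine ⟨Units.mk0 π hπ0 ^ (-Multiplicative.toAdd z), WithZero.coe_inj.mp ?_⟩
    rw [hordw, Units.val_zpow_eq_zpow_val, map_zpow₀, Units.val_mk0]
    show w π ^ _ = _
    rw [show w π = _ from hπ, ← WithZero.exp_zsmul]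
    simp [WithZero.exp]
  have hmap : (locSub p F A).map ord = (powMonoidHom p).range := by
    ext z
    constructor
    · rintro ⟨x, hx, rfl⟩
      obtain ⟨y, -, hy⟩ := hsplit x hx
      exact ⟨ord y, WithZero.coe_inj.mp (by
        rw [powMonoidHom_apply, WithZero.coe_pow, hordw, hordw, hy])⟩
    · rintro ⟨z, rfl⟩
      obtain ⟨x, rfl⟩ := hord z
      exact ⟨x ^ p, pow_mem_locSub x A, map_pow _ _ _⟩
  have hindex : ((powMonoidHom p).range : Subgroup (Multiplicative ℤ)).index = p := by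
    have : ((powMonoidHom p).range : Subgroup (Multiplicative ℤ)) =
        AddSubgroup.toSubgroup (AddSubgroup.zmultiples (p : ℤ)) := by
      ext z
      constructor
      · rintro ⟨y, rfl⟩
        exact ⟨Multiplicative.toAdd y, by simp [mul_comm]⟩
      · rintro ⟨k, hk⟩
        exact ⟨Multiplicative.ofAdd k, by
          apply Multiplicative.toAdd.injective
          simp only [powMonoidHom_apply, toAdd_pow, toAdd_ofAdd, nsmul_eq_mul]
          rw [mul_comm]
          exact hk⟩
    rw [this, AddSubgroup.index_toSubgroup, Int.index_zmultiples, Int.natAbs_natCast]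
  have h1 : (locSub p F A ⊔ unitsAt P).index = p := by
    have h := Subgroup.index_map (locSub p F A) ord
    rw [hmap, hindex, MonoidHom.range_eq_top.mpr hord, Subgroup.index_top, mul_one] at h
    exact h.symm
  -- the finite group
  have hm0 : m ≠ 0 := by omega
  let res := residueHom P m
  have hsub : ((locSub p F A).subgroupOf (unitsAt P)).map res = (powMonoidHom p).range := by
    ext g
    constructor
    · rintro ⟨x, hx, rfl⟩
      obtain ⟨y, hy, hy'⟩ := hsplit _ (Subgroup.mem_subgroupOf.mp hx)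
      have hyU : y ∈ unitsAt P := by
        rw [mem_unitsAt]
        have : w (y : F) ^ p = 1 := hy'.symm.trans ((mem_unitsAt P).mp x.2)
        exact (pow_eq_one_iff_of_nonneg zero_le hp.out.ne_zero).mp this
      refine ⟨res ⟨y, hyU⟩, ?_⟩
      rw [powMonoidHom_apply, ← map_pow]
      symm
      rw [← div_eq_one, ← map_div, residueHom_eq_one_iff]
      simpa using hy
    · rintro ⟨g, rfl⟩
      obtain ⟨y, rfl⟩ := residueHom_surjective (P := P) hm0 g
      exact ⟨y ^ p, Subgroup.mem_subgroupOf.mpr (pow_mem_locSub _ A), map_pow _ _ _⟩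
  have hker : res.ker ≤ (locSub p F A).subgroupOf (unitsAt P) := fun x hx =>
    Subgroup.mem_subgroupOf.mpr (hnear _ (residueHom_eq_one_iff.mp hx))
  have : Finite (𝓞 F ⧸ P.asIdeal ^ m) :=
    Ideal.finiteQuotientOfFreeOfNeBot _ (pow_ne_zero _ P.ne_bot)
  have h2 : (locSub p F A).relIndex (unitsAt P) =
      Nat.card (powMonoidHom p : (𝓞 F ⧸ P.asIdeal ^ m)ˣ →* _).ker := by
    have h := Subgroup.index_map ((locSub p F A).subgroupOf (unitsAt P)) res
    rw [hsub, sup_eq_left.mpr hker, MonoidHom.range_eq_top.mpr (residueHom_surjective hm0),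
      Subgroup.index_top, mul_one] at h
    rw [Subgroup.relIndex, ← h]
    set f := (powMonoidHom p : (𝓞 F ⧸ P.asIdeal ^ m)ˣ →* _)
    have e1 := Subgroup.card_mul_index f.range
    have e2 := Subgroup.card_mul_index f.ker
    rw [Subgroup.index_ker] at e2
    rw [← e2, mul_comm (Nat.card f.ker)] at e1
    exact Nat.eq_of_mul_eq_mul_left Nat.card_pos e1
  -- its `p`-torsion
  set J := (P.asIdeal ^ N).map (Ideal.Quotient.mk (P.asIdeal ^ m)) with hJ
  have hNm : P.asIdeal ^ m ≤ P.asIdeal ^ N := Ideal.pow_le_pow_right (by omega)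
  have hK : Nat.card {u : (𝓞 F ⧸ P.asIdeal ^ m)ˣ // (u : 𝓞 F ⧸ P.asIdeal ^ m) - 1 ∈ J} =
      Ideal.absNorm P.asIdeal ^ e := by
    have h := card_ker_restrict (P.asIdeal ^ m) (P.asIdeal ^ N) hNm (fun z hz => ?_)
    · have hc : ∀ k, Nat.card (𝓞 F ⧸ P.asIdeal ^ k) = Ideal.absNorm P.asIdeal ^ k := fun k => by
        rw [← map_pow, Ideal.absNorm_apply, Submodule.cardQuot_apply]
      rw [hc, hc] at h
      refine Nat.eq_of_mul_eq_mul_right (pow_pos (Nat.pos_of_ne_zero
        (Ideal.absNorm_eq_zero_iff.not.mpr P.ne_bot)) N) ?_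
      rw [← pow_add, ← hm]
      exact h
    · refine ⟨m, ?_⟩
      have := Ideal.pow_mem_pow hz m
      rw [← Ideal.map_pow, ← pow_mul] at this
      have hle : P.asIdeal ^ (N * m) ≤ P.asIdeal ^ m :=
        Ideal.pow_le_pow_right (Nat.le_mul_of_pos_left m (by omega))
      have := Ideal.map_mono (f := Ideal.Quotient.mk (P.asIdeal ^ m)) hle this
      rwa [Ideal.map_quotient_self, Ideal.mem_bot] at this
  have hmemJ : ∀ x : unitsAt P, (res x : 𝓞 F ⧸ P.asIdeal ^ m) - 1 ∈ J ↔
      w (((x : Fˣ) : F) - 1) ≤ WithZero.exp (-(N : ℤ)) := by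
    intro x
    have hb := (exists_int_near P ((mem_unitsAt P).mp x.2).le m).choose_spec
    show residueFun P m x - 1 ∈ J ↔ _
    rw [residueFun]
    set b := (exists_int_near P ((mem_unitsAt P).mp x.2).le m).choose
    rw [← map_one (Ideal.Quotient.mk _), ← map_sub, hJ,
      Ideal.mem_quotient_iff_mem_sup, sup_eq_left.mpr hNm, ← valuation_int_le_exp_iff P]
    have hb' : P.valuation F (((x : Fˣ) : F) - b) ≤ WithZero.exp (-(N : ℤ)) :=
      hb.trans (WithZero.exp_le_exp.mpr (by omega))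
    have e1 : ((b - 1 : 𝓞 F) : F) = (((x : Fˣ) : F) - 1) - (((x : Fˣ) : F) - b) := by
      push_cast; ring
    constructor
    · intro h
      have e2 : ((x : Fˣ) : F) - 1 = (((x : Fˣ) : F) - b) + ((b - 1 : 𝓞 F) : F) := by
        push_cast; ring
      rw [e2]
      exact (Valuation.map_add _ _ _).trans (max_le hb' h)
    · intro h
      rw [e1]
      exact (Valuation.map_sub _ _ _).trans (max_le h hb')
  have hζ0 : ζF ≠ 0 := hζF'.ne_zero hp.out.ne_zero
  have hζU : Units.mk0 ζF hζ0 ∈ unitsAt P := by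
    rw [mem_unitsAt, Units.val_mk0]
    refine (pow_eq_one_iff_of_nonneg zero_le hp.out.ne_zero).mp ?_
    rw [← map_pow, hζF'.pow_eq_one, map_one]
  set z : unitsAt P := ⟨_, hζU⟩ with hz
  have hzp : z ^ p = 1 := Subtype.ext (Units.ext hζF'.pow_eq_one)
  have h3 : Nat.card (powMonoidHom p : (𝓞 F ⧸ P.asIdeal ^ m)ˣ →* _).ker =
      p * Ideal.absNorm P.asIdeal ^ e := by
    rw [← hK]
    have hpowJ : ∀ u : (𝓞 F ⧸ P.asIdeal ^ m)ˣ, (u : 𝓞 F ⧸ P.asIdeal ^ m) - 1 ∈ J →
        u ^ p = 1 := by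
      intro u hu
      obtain ⟨x, rfl⟩ := residueHom_surjective (P := P) hm0 u
      have h := (hthr' _).mpr ((hmemJ x).mp hu)
      rw [← map_pow, residueHom_eq_one_iff, ← hthr]
      simp only [SubmonoidClass.coe_pow, Units.val_pow_eq_pow_val]
      rw [hpow _ h]
      exact mul_lt_mul_of_pos_left h (zero_lt_iff.mpr (by simpa using hp.out.ne_zero))
    let f : Fin p × {u : (𝓞 F ⧸ P.asIdeal ^ m)ˣ // (u : 𝓞 F ⧸ P.asIdeal ^ m) - 1 ∈ J} →
        (powMonoidHom p : (𝓞 F ⧸ P.asIdeal ^ m)ˣ →* _).ker := fun q =>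
      ⟨res z ^ (q.1 : ℕ) * q.2.1, by
        rw [MonoidHom.mem_ker, powMonoidHom_apply, mul_pow, hpowJ _ q.2.2, mul_one, ← pow_mul,
          mul_comm, pow_mul, ← map_pow, hzp, map_one, one_pow]⟩
    have hf : Function.Bijective f := by
      constructor
      · rintro ⟨i, u, hu⟩ ⟨j, v, hv'⟩ h
        have h' : res z ^ (i : ℕ) * u = res z ^ (j : ℕ) * v := congrArg Subtype.val h
        obtain ⟨x, rfl⟩ := residueHom_surjective (P := P) hm0 u
        obtain ⟨y, rfl⟩ := residueHom_surjective (P := P) hm0 v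
        suffices hij : i = j by
          subst hij
          simpa using h'
        -- the two representatives differ by a root of unity close to `1`
        by_contra hne
        have hd : ¬ p ∣ ((i : ℕ) + (p - (j : ℕ))) := by
          rintro ⟨k, hk⟩
          have hi := i.2; have hj := j.2
          rcases k with _ | _ | k
          · omega
          · exact hne (Fin.ext (by omega))
          · have : p * 2 ≤ p * (k + 1 + 1) := Nat.mul_le_mul_left p (by omega)
            omega
        have hq : res (z ^ ((i : ℕ) + (p - (j : ℕ)))) = res (y * x⁻¹) := by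
          rw [map_mul, map_inv, map_pow, eq_mul_inv_iff_mul_eq, pow_add (res z),
            mul_comm (res z ^ (i : ℕ)), mul_assoc, h', ← mul_assoc, ← pow_add (res z),
            Nat.sub_add_cancel j.2.le, ← map_pow, hzp, map_one, one_mul]
        have hy' := (hmemJ (z ^ ((i : ℕ) + (p - (j : ℕ))))).mp (by
          rw [hq, map_mul, map_inv, Units.val_mul]
          have e' : (res y : 𝓞 F ⧸ P.asIdeal ^ m) * ((res x)⁻¹ : (𝓞 F ⧸ P.asIdeal ^ m)ˣ) - 1 =
              (((res y : (𝓞 F ⧸ P.asIdeal ^ m)ˣ) : 𝓞 F ⧸ P.asIdeal ^ m) - 1 -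
                (((res x : (𝓞 F ⧸ P.asIdeal ^ m)ˣ) : 𝓞 F ⧸ P.asIdeal ^ m) - 1)) *
                ((res x)⁻¹ : (𝓞 F ⧸ P.asIdeal ^ m)ˣ) := by
            rw [sub_sub_sub_cancel_right, sub_mul, Units.mul_inv]
          rw [e']
          exact J.mul_mem_right _ (J.sub_mem hv' hu))
        rw [← hthr'] at hy'
        simp only [SubmonoidClass.coe_pow, Units.val_pow_eq_pow_val, hz, Units.val_mk0] at hy'
        have := (hv _ _).mpr hy'
        simp only [AddSubgroupClass.coe_sub, IntermediateField.coe_pow, OneMemClass.coe_one,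
          ζF] at this
        rw [valuation_zeta_pow_sub_one hζ A hd] at this
        exact lt_irrefl _ this
      · rintro ⟨u, hu⟩
        obtain ⟨x, rfl⟩ := residueHom_surjective (P := P) hm0 u
        rw [MonoidHom.mem_ker, powMonoidHom_apply, ← map_pow, residueHom_eq_one_iff, ← hthr] at hu
        simp only [SubmonoidClass.coe_pow, Units.val_pow_eq_pow_val] at hu
        obtain ⟨i, hi, h⟩ := hconj _ hu
        have h' := (hmemJ (z ^ i * x)).mpr ((hthr' _).mp (by simpa [hz] using h))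
        refine ⟨⟨⟨(p - i) % p, Nat.mod_lt _ hp.out.pos⟩, _, h'⟩, Subtype.ext ?_⟩
        show res z ^ ((p - i) % p) * res (z ^ i * x) = res x
        rw [← map_pow, ← map_mul, ← mul_assoc, ← pow_add]
        congr 1
        rw [mul_eq_right, pow_eq_pow_mod _ hzp, Nat.mod_add_mod, Nat.sub_add_cancel hi.le,
          Nat.mod_self, pow_zero]
    rw [← Nat.card_congr (Equiv.ofBijective f hf), Nat.card_prod, Nat.card_fin]
  rw [← Subgroup.relIndex_mul_index (le_sup_left : locSub p F A ≤ locSub p F A ⊔ unitsAt P), h1,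
    Subgroup.relIndex_sup_left, h2, h3, mul_comm]

end Index

/-- The product of the norms of the local factors of `p`. -/
theorem prod_absNorm_pow {T : Finset ℕ} {n : ℕ} (hn : n.Prime) (hT : n ∈ T) :
    ∏ P ∈ primesOverT F T, Ideal.absNorm P.asIdeal ^ expOf F P n = n ^ Module.finrank ℚ F := by
  classical
  have h0 : Ideal.span {(n : 𝓞 F)} ≠ 0 := by simpa using hn.ne_zero
  have hsupp : (Function.mulSupport fun P : HeightOneSpectrum (𝓞 F) =>
      P.maxPowDividing (Ideal.span {(n : 𝓞 F)})) ⊆ ↑(primesOverT F T) := by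
    intro P hP
    obtain ⟨A, hA⟩ := exists_primeOf_eq F P
    rw [Finset.mem_coe, mem_primesOverT]
    refine ⟨A, ?_, hA⟩
    rw [Place.over_iff]
    suffices A.char = n by rwa [this]
    have hdvd : P.asIdeal ∣ Ideal.span {(n : 𝓞 F)} := by
      by_contra hc
      refine hP ?_
      simp only [HeightOneSpectrum.maxPowDividing]
      rw [of_not_not (mt (Associates.count_ne_zero_iff_dvd h0 P.irreducible).mp hc), pow_zero]
    have hmem : (n : 𝓞 F) ∈ (primeOf F A).asIdeal :=
      hA ▸ (Ideal.span_singleton_le_iff_mem _).mp (Ideal.le_of_dvd hdvd)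
    have h2 := (GalCommon.natCast_mem_nonunits_iff A.prime_char A.liesOver_char n).mp (by
      rw [ValuationSubring.mem_nonunits_iff]
      simpa using mem_primeOf.mp hmem)
    exact (Nat.prime_dvd_prime_iff_eq A.prime_char hn).mp h2
  calc ∏ P ∈ primesOverT F T, Ideal.absNorm P.asIdeal ^ expOf F P n
      = Ideal.absNorm (∏ P ∈ primesOverT F T, P.maxPowDividing (Ideal.span {(n : 𝓞 F)})) := by
        rw [map_prod]
        refine Finset.prod_congr rfl fun P _ => ?_
        rw [HeightOneSpectrum.maxPowDividing, map_pow]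
        rfl
    _ = Ideal.absNorm (Ideal.span {(n : 𝓞 F)}) := by
        rw [← finprod_eq_prod_of_mulSupport_subset _ hsupp,
          Ideal.finprod_heightOneSpectrum_factorization h0]
    _ = _ := by
        rw [Ideal.absNorm_span_singleton, ← map_natCast (algebraMap ℤ (𝓞 F)),
          Algebra.norm_algebraMap, Int.natAbs_pow, Int.natAbs_natCast,
          NumberField.RingOfIntegers.rank]

end FLTAgent.TW
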