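import Fermat.Agent.TW.Idele.LocalQ

/-!
# Equivariant maps into the idele classes

For a group of order prime to `p`, `qHom` of `C_T(L)` is that of the trivial module `ℤ`
(`qHom_classes`): it is computed from the exact sequences of the `T`-units, the components at
`T ∪ ∞`, the deep units and the exponential at infinity.  `card_homs'` translates this into the
count of equivariant maps into `C_T(L)/p` and into `C_T(L)`.
-/

set_option autoImplicit false
set_option maxSynthPendingDepth 6
set_option synthInstance.maxHeartbeats 200000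
set_option maxHeartbeats 1000000

noncomputable section

open IsDedekindDomain NumberField
open scoped Pointwise NumberField

namespace FLTAgent.TW

local notation "ℚ̄" => AlgebraicClosure ℚ
local notation "Γ" => (AlgebraicClosure ℚ ≃ₐ[ℚ] AlgebraicClosure ℚ)

attribute [local instance] numberField_intermediate

variable (T : Finset ℕ) (c : ℕ) (L : IntermediateField ℚ ℚ̄) (H : Subgroup Γ) [Normal ℚ L]
  [(L.fixingSubgroup.subgroupOf H).Normal]

/-- `H / Gal(ℚ̄/L)`. -/
abbrev relQuot : Type := H ⧸ L.fixingSubgroup.subgroupOf H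

/-- The action on the `T`-units. -/
def unitsRes : relQuot L H →* MulAut (tUnits T L) :=
  quotRes unitsAut L (tUnits T L) (fun σ _ _ h => unitsAut_mem_tUnits T σ h) fun _ hσ _ hx =>
    Units.ext ((IntermediateField.mem_fixingSubgroup_iff _ _).mp hσ _ hx.1)

/-- The action on the integers. -/
def intRes : relQuot L H →* MulAut (intSub L) :=
  quotRes addQbarAut L (intSub L) (fun σ _ _ h => addQbarAut_mem_intSub σ h) fun _ hσ _ hx =>
    Multiplicative.toAdd.injective ((IntermediateField.mem_fixingSubgroup_iff _ _).mp hσ _ hx.1)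

/-- The action on the anti-invariant functions. -/
def antiRes : relQuot L H →* MulAut (antiFun L) :=
  quotRes (embFunAut _) L (antiFun L) (fun σ _ _ h => embFunAut_mem_antiFun σ h)
    fun σ hσ _ hx => hx.1 σ hσ

/-- The action on the logarithms. -/
def logRes : relQuot L H →* MulAut (logSub L) :=
  quotRes (embFunAut _) L (logSub L) (fun σ _ _ h => embFunAut_mem_logSub σ h)
    fun σ hσ _ hx => hx.1 σ hσ

/-- The action on the components at `T ∪ ∞`. -/
def locRes : relQuot L H →* MulAut (locIdeles T L) :=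
  quotRes ideleAut L (locIdeles T L) (fun σ _ _ h => smul_mem_locIdeles σ h)
    fun σ hσ _ hx => hx.1.1 σ hσ

/-- The action on the units at `T ∪ ∞`. -/
def locUnitsRes : relQuot L H →* MulAut (locUnits T L) :=
  quotRes ideleAut L (locUnits T L) (fun σ _ _ h => smul_mem_locUnits σ h)
    fun σ hσ _ hx => hx.1.1.1 σ hσ

/-- The action on the deep units. -/
def deepRes : relQuot L H →* MulAut (deepFin T L c) :=
  quotRes ideleAut L (deepFin T L c) (fun σ _ _ h => smul_mem_deepFin σ h)
    fun σ hσ _ hx => hx.1.1.1.1.1 σ hσ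

/-- The action on the infinite components. -/
def infRes : relQuot L H →* MulAut (infPart L) :=
  quotRes ideleAut L (infPart L) (fun σ _ _ h => smul_mem_infPart σ h)
    fun σ hσ _ hx => hx.1.1 σ hσ

/-- The action on the idele classes. -/
def classRes : relQuot L H →* MulAut (IdeleClass T L) :=
  QuotientGroup.lift _ ((MulDistribMulAction.toMulAut Γ (IdeleClass T L)).comp H.subtype)
    fun h hh => MonoidHom.mem_ker.mpr (MulEquiv.ext fun x => by
      induction x using QuotientGroup.induction_on with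
      | _ φ => exact congrArg QuotientGroup.mk (Subtype.ext (φ.2.1 _ (Subgroup.mem_subgroupOf.mp hh))))

theorem classRes_mk (h : H) (x : IdeleClass T L) :
    classRes T L H (QuotientGroup.mk h) x = (h : Γ) • x := rfl

omit [Normal ℚ L] [(L.fixingSubgroup.subgroupOf H).Normal] in
theorem smul_trunc (σ : Γ) (φ : PreIdele) : σ • trunc T φ = trunc T (σ • φ) := by
  refine PreIdele.ext (funext fun A => Units.ext ?_) (funext fun ι => rfl)
  rw [PreIdele.coe_fin_smul]
  by_cases hA : A.Over T
  · rw [trunc_fin_of_over φ (hA.smul _), trunc_fin_of_over _ hA, PreIdele.coe_fin_smul]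
  · rw [trunc_fin_of_not_over φ (by simpa using hA), trunc_fin_of_not_over _ hA, Units.val_one,
      map_one]

/-- A `T`-unit at `T ∪ ∞`. -/
def tUnitLoc : tUnits T L →* locIdeles T L :=
  ((trunc T).comp (PreIdele.principalHom.comp (tUnits T L).subtype)).codRestrict _ fun x =>
    ⟨trunc_mem (principalHom_mem_ideles x.2.1), fun _ hA => trunc_fin_of_not_over _ hA⟩

omit [Normal ℚ L] in
theorem tUnitLoc_injective : Function.Injective (tUnitLoc T L) := fun _ _ h =>
  Subtype.ext (eq_of_inf_eq (congrArg (fun θ : locIdeles T L => (θ : PreIdele).inf) h))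

theorem tUnitLoc_equivariant (g : relQuot L H) (u : tUnits T L) :
    tUnitLoc T L (unitsRes T L H g u) = locRes T L H g (tUnitLoc T L u) := by
  obtain ⟨h, rfl⟩ := QuotientGroup.mk_surjective g
  refine Subtype.ext ?_
  show trunc T (PreIdele.principalHom (Units.map ((h : Γ) : ℚ̄ →* ℚ̄) (u : ℚ̄ˣ))) =
    (h : Γ) • trunc T (PreIdele.principalHom (u : ℚ̄ˣ))
  rw [smul_trunc, PreIdele.smul_principalHom]

omit [Normal ℚ L] [(L.fixingSubgroup.subgroupOf H).Normal] in
theorem locUnits_le : locUnits T L ≤ locIdeles T L := fun _ h => h.1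

omit [Normal ℚ L] [(L.fixingSubgroup.subgroupOf H).Normal] in
theorem locIdeles_le : locIdeles T L ≤ ideles L := fun _ h => h.1

variable [FiniteDimensional ℚ L]

omit [(L.fixingSubgroup.subgroupOf H).Normal] in
/-- The `T`-units and the local units fill a subgroup of finite index. -/
theorem finite_coker_tUnitLoc :
    Finite (locIdeles T L ⧸ ((tUnitLoc T L).coprod
      (Subgroup.inclusion (locUnits_le T L))).range) := by
  classical
  have := finite_quotient_ordHom (T := T) (F := L)
  have hx : ∀ θ : locIdeles T L, ∃ x : Lˣ, ∀ A : Place, A.Over T →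
      A.1.valuation (((x : L)) : ℚ̄) = A.1.valuation ((θ : PreIdele).fin A : ℚ̄) := by
    intro θ
    obtain ⟨x, hx0, hx⟩ := exists_idele_approx θ.2.1 (primesOverT L T) 1
    refine ⟨Units.mk0 x hx0, fun A hA => ?_⟩
    have h := hx A (primeOf_mem_primesOverT.mpr hA)
    rw [pow_one] at h
    have h1 : A.1.valuation ((x : ℚ̄) / (θ : PreIdele).fin A) = 1 := by
      rw [← sub_add_cancel ((x : ℚ̄) / ((θ : PreIdele).fin A : ℚ̄)) 1,
        Valuation.map_add_eq_of_lt_right _
          (by rw [map_one]; exact lt_of_le_of_lt h A.valuation_char_lt_one), map_one]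
    rw [map_div₀] at h1
    exact (div_eq_one_iff_eq (by simp)).mp h1
  choose x hx using hx
  let v : Lˣ → Multiplicative ({P // P ∈ primesOverT L T} → ℤ) := fun y =>
    Multiplicative.ofAdd fun P => Multiplicative.toAdd (P.1.valuationOfNeZero y)
  refine Finite.of_injective (fun q : locIdeles T L ⧸ ((tUnitLoc T L).coprod
      (Subgroup.inclusion (locUnits_le T L))).range =>
    (QuotientGroup.mk (v (x q.out)) : _ ⧸ (ordHom T L).range)) fun q r hqr => ?_
  obtain ⟨u, hu⟩ := QuotientGroup.eq.mp hqr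
  rw [← QuotientGroup.out_eq' q, ← QuotientGroup.out_eq' r, QuotientGroup.eq]
  set θ : locIdeles T L := q.out
  set θ' : locIdeles T L := r.out
  have hq : ((tUnitLoc T L u)⁻¹ * (θ⁻¹ * θ') : locIdeles T L).1 ∈ locUnits T L := by
    refine ⟨((tUnitLoc T L u)⁻¹ * (θ⁻¹ * θ')).2, fun A => ?_⟩
    by_cases hA : A.Over T
    · set P : {P // P ∈ primesOverT L T} := ⟨primeOf L A, primeOf_mem_primesOverT.mpr hA⟩
      have hP : P.1.valuationOfNeZero ((tUnitToF T L u)⁻¹ * ((x θ)⁻¹ * x θ')) = 1 := by
        refine Multiplicative.toAdd.injective ?_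
        have h := congrFun (congrArg Multiplicative.toAdd hu) P
        simp only [ordHom, v, MonoidHom.coe_mk, OneHom.coe_mk, toAdd_mul, toAdd_inv, toAdd_ofAdd,
          Pi.add_apply, Pi.neg_apply] at h
        simp only [map_mul, map_inv, toAdd_mul, toAdd_inv, toAdd_one, h]
        ring
      have h1 : P.1.valuation L (((tUnitToF T L u)⁻¹ * ((x θ)⁻¹ * x θ') : Lˣ) : L) = 1 := by
        rw [← HeightOneSpectrum.valuationOfNeZero_eq, hP]; rfl
      have h2 := (valuation_eq_iff (A := A)
        (((tUnitToF T L u)⁻¹ * ((x θ)⁻¹ * x θ') : Lˣ) : L) (1 : L)).mpr (by rw [map_one]; exact h1)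
      rw [mem_unitGroup_iff]
      show A.1.valuation (((((trunc T (PreIdele.principalHom (u : ℚ̄ˣ))).fin A)⁻¹ *
        (((θ : PreIdele).fin A)⁻¹ * (θ' : PreIdele).fin A)) : ℚ̄ˣ) : ℚ̄) = 1
      rw [trunc_fin_of_over _ hA]
      simp only [Units.val_mul, Units.val_inv_eq_inv_val, map_mul, map_inv₀,
        IntermediateField.coe_mul, IntermediateField.coe_inv, OneMemClass.coe_one, map_one] at h2 ⊢
      rw [hx θ A hA, hx θ' A hA] at h2
      exact h2
    · rw [((tUnitLoc T L u)⁻¹ * (θ⁻¹ * θ')).2.2 A hA]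
      exact one_mem _
  refine ⟨(u, ⟨_, hq⟩), ?_⟩
  show tUnitLoc T L u * Subgroup.inclusion (locUnits_le T L) ⟨_, hq⟩ = θ⁻¹ * θ'
  refine Subtype.ext ?_
  show (tUnitLoc T L u : PreIdele) * ((tUnitLoc T L u : PreIdele)⁻¹ * ((θ : PreIdele)⁻¹ * θ')) = _
  rw [mul_inv_cancel_left]
  rfl

omit [(L.fixingSubgroup.subgroupOf H).Normal] [FiniteDimensional ℚ L] in
theorem tUnits_empty_le : tUnits ∅ L ≤ tUnits T L := fun _ hx =>
  ⟨hx.1, fun A _ => hx.2 A fun ⟨_, hq, _⟩ => absurd hq (Finset.notMem_empty _)⟩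

omit [(L.fixingSubgroup.subgroupOf H).Normal] [FiniteDimensional ℚ L] in
theorem tUnitLoc_mem_locUnits (u : tUnits ∅ L) :
    (tUnitLoc T L (Subgroup.inclusion (tUnits_empty_le T L) u) : PreIdele) ∈ locUnits T L := by
  refine ⟨(tUnitLoc T L _).2, fun A => ?_⟩
  by_cases hA : A.Over T
  · show (trunc T (PreIdele.principalHom (u : ℚ̄ˣ))).fin A ∈ _
    rw [trunc_fin_of_over _ hA]
    exact u.2.2 A fun ⟨_, hq, _⟩ => absurd hq (Finset.notMem_empty _)
  · rw [(tUnitLoc T L _).2.2 A hA]; exact one_mem _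

variable {N : Type} [AddCommGroup N] [Finite N] (ν : relQuot L H →* Function.End N)
  (p : ℕ) [hp : Fact p.Prime] [Finite (relQuot L H)]

section Seq

variable (hG : (Nat.card (relQuot L H)).Coprime p) (hNp : ∀ x : N, p • x = 0)
  (hν : ∀ g x y, ν g (x + y) = ν g x + ν g y)

include hG hNp hν

/-- The sequence `units → T-units × local units → local ideles`. -/
theorem qHom_units_loc (hQ : QFinite (powMonoidHom p : locUnits T L →* locUnits T L)) :
    QFinite (powMonoidHom p : locIdeles T L →* locIdeles T L) ∧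
      qHom ν p (unitsRes T L H) * qHom ν p (locUnitsRes T L H) =
        qHom ν p (unitsRes ∅ L H) * qHom ν p (locRes T L H) := by
  set Φ : tUnits T L × locUnits T L →* locIdeles T L :=
    (tUnitLoc T L).coprod (Subgroup.inclusion (locUnits_le T L)) with hΦ
  have : Finite (locIdeles T L ⧸ Φ.range) := finite_coker_tUnitLoc T L
  set i : tUnits ∅ L →* tUnits T L × locUnits T L :=
    (Subgroup.inclusion (tUnits_empty_le T L)).prod
      (((locIdeles T L).subtype.comp ((tUnitLoc T L).comp
        (Subgroup.inclusion (tUnits_empty_le T L)))).codRestrict _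
          (tUnitLoc_mem_locUnits T L))⁻¹ with hi
  have hii : Function.Injective i := fun a b h => Subgroup.inclusion_injective _ (congrArg Prod.fst h)
  have hex : i.range = Φ.rangeRestrict.ker := by
    rw [MonoidHom.ker_rangeRestrict]
    ext ⟨u, q⟩
    constructor
    · rintro ⟨a, ha⟩
      rw [← ha, MonoidHom.mem_ker]
      exact Subtype.ext (mul_inv_cancel (tUnitLoc T L (Subgroup.inclusion _ a) : PreIdele))
    · intro h
      have h' : (tUnitLoc T L u : PreIdele) * (q : PreIdele) = 1 :=
        congrArg Subtype.val (MonoidHom.mem_ker.mp h)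
      have hu : (u : ℚ̄ˣ) ∈ tUnits ∅ L := by
        refine ⟨u.2.1, fun A _ => ?_⟩
        by_cases hA : A.Over T
        · have h2 : (trunc T (PreIdele.principalHom (u : ℚ̄ˣ))).fin A = ((q : PreIdele).fin A)⁻¹ :=
            eq_inv_of_mul_eq_one_left (congrFun (congrArg PreIdele.fin h') A)
          rw [trunc_fin_of_over _ hA] at h2
          show (PreIdele.principalHom (u : ℚ̄ˣ)).fin A ∈ _
          rw [h2]
          exact inv_mem (q.2.2 A)
        · exact u.2.2 A hA
      exact ⟨⟨u, hu⟩, Prod.ext rfl (Subtype.ext (eq_inv_of_mul_eq_one_right h').symm)⟩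
  have hSB : ∀ g, ∀ m ∈ Φ.range, locRes T L H g m ∈ Φ.range := by
    rintro g _ ⟨⟨u, q⟩, rfl⟩
    refine ⟨prodAct (unitsRes T L H) (locUnitsRes T L H) g (u, q), ?_⟩
    obtain ⟨h, rfl⟩ := QuotientGroup.mk_surjective g
    show tUnitLoc T L (unitsRes T L H (QuotientGroup.mk h) u) *
        Subgroup.inclusion (locUnits_le T L) (locUnitsRes T L H (QuotientGroup.mk h) q) =
      locRes T L H (QuotientGroup.mk h)
        (tUnitLoc T L u * Subgroup.inclusion (locUnits_le T L) q)
    rw [tUnitLoc_equivariant, map_mul]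
    rfl
  have hU := (qInd_tUnits (T := T) (p := p) (F := L)).1
  have hU0 := (qInd_units_sub (p := p) (F := L)).1
  have hB := (qInd_prod p hU hQ).1
  have hiA : ∀ g a, i (unitsRes ∅ L H g a) =
      prodAct (unitsRes T L H) (locUnitsRes T L H) g (i a) := by
    intro g a
    obtain ⟨h, rfl⟩ := QuotientGroup.mk_surjective g
    refine Prod.ext (Subtype.ext rfl) (Subtype.ext ?_)
    show (tUnitLoc T L (unitsRes T L H (QuotientGroup.mk h)
        (Subgroup.inclusion (tUnits_empty_le T L) a)) : PreIdele)⁻¹ =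
      (h : Γ) • ((tUnitLoc T L (Subgroup.inclusion (tUnits_empty_le T L) a) : PreIdele)⁻¹)
    rw [tUnitLoc_equivariant, smul_inv']
    rfl
  have hπB : ∀ g b, Φ.rangeRestrict (prodAct (unitsRes T L H) (locUnitsRes T L H) g b) =
      resAct (locRes T L H) Φ.range hSB g (Φ.rangeRestrict b) := by
    rintro g ⟨u, q⟩
    obtain ⟨h, rfl⟩ := QuotientGroup.mk_surjective g
    refine Subtype.ext ?_
    show tUnitLoc T L (unitsRes T L H (QuotientGroup.mk h) u) *
        Subgroup.inclusion (locUnits_le T L) (locUnitsRes T L H (QuotientGroup.mk h) q) =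
      locRes T L H (QuotientGroup.mk h)
        (tUnitLoc T L u * Subgroup.inclusion (locUnits_le T L) q)
    rw [tUnitLoc_equivariant, map_mul]
    rfl
  clear_value i Φ
  have hC := QFinite.right (fA := powMonoidHom p) (fB := powMonoidHom p) (fC := powMonoidHom p)
    i Φ.rangeRestrict hii Φ.rangeRestrict_surjective hex (fun a => map_pow i a p)
    (fun b => map_pow Φ.rangeRestrict b p) hU0 hB
  have hmul := qHom_mul (ν := ν) p hG hNp hν i Φ.rangeRestrict hii Φ.rangeRestrict_surjective hex
    hiA hπB hU0 hC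
  obtain ⟨hQ', hQ'v⟩ := qHom_of_finite_index ν p hG hNp hν (locRes T L H) Φ.range hSB hC
  refine ⟨hQ', ?_⟩
  rw [← qHom_prod ν p hG hNp hν _ _ hU hQ, hmul, hQ'v]

/-- The sequence `T-units → local ideles → classes`. -/
theorem qHom_class (hT : ∀ q ∈ T, q.Prime) (hpT : p ∈ T) (hμ : ContainsMuP p L) :
    qHom ν p (locRes T L H) = qHom ν p (unitsRes T L H) * qHom ν p (classRes T L H) := by
  let ψ : locIdeles T L →* IdeleClass T L :=
    (QuotientGroup.mk' _).comp (Subgroup.inclusion (locIdeles_le T L))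
  have hrange : ψ.range = (awayToClass T L).range := by
    ext x
    constructor
    · rintro ⟨θ, rfl⟩
      refine ⟨QuotientGroup.mk ⟨θ, θ.2.1⟩, ?_⟩
      rw [awayToClass_mk]
      refine congrArg QuotientGroup.mk (Subtype.ext (PreIdele.ext (funext fun A => ?_) rfl))
      show (trunc T (θ : PreIdele)).fin A = (θ : PreIdele).fin A
      by_cases hA : A.Over T
      · exact trunc_fin_of_over _ hA
      · rw [trunc_fin_of_not_over _ hA, θ.2.2 A hA]
    · rintro ⟨a, rfl⟩
      obtain ⟨φ, rfl⟩ := QuotientGroup.mk_surjective a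
      exact ⟨⟨trunc T φ, trunc_mem φ.2, fun _ hA => trunc_fin_of_not_over _ hA⟩, rfl⟩
  have : Finite (IdeleClass T L ⧸ ψ.range) := hrange ▸ finite_coker_awayToClass
  have hex : (tUnitLoc T L).range = ψ.rangeRestrict.ker := by
    rw [MonoidHom.ker_rangeRestrict]
    ext θ
    rw [MonoidHom.mem_ker]
    constructor
    · rintro ⟨u, rfl⟩
      refine (QuotientGroup.eq_one_iff _).mpr (Subgroup.mem_subgroupOf.mpr ?_)
      show trunc T (PreIdele.principalHom (u : ℚ̄ˣ)) ∈ classKer T L
      set P := PreIdele.principalHom (u : ℚ̄ˣ)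
      rw [show trunc T P = P * (P / trunc T P)⁻¹ by simp]
      refine Subgroup.mul_mem_sup ⟨_, u.2.1, rfl⟩ (inv_mem
        ⟨div_trunc_mem_away (principalHom_mem_ideles u.2.1), fun A => ?_⟩)
      show P.fin A / (trunc T P).fin A ∈ _
      by_cases hA : A.Over T
      · rw [trunc_fin_of_over P hA, div_self']; exact one_mem _
      · rw [trunc_fin_of_not_over P hA, div_one]; exact u.2.2 A hA
    · intro hθ
      have h : (θ : PreIdele) ∈ classKer T L :=
        Subgroup.mem_subgroupOf.mp ((QuotientGroup.eq_one_iff (Subgroup.inclusion (locIdeles_le T L) θ)).mp hθ)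
      obtain ⟨_, ⟨x, hxL, rfl⟩, u, hu, he⟩ := Subgroup.mem_sup.mp h
      have hx : x ∈ tUnits T L := ⟨hxL, fun A hA => by
        have h1 : x * u.fin A = 1 := by rw [← θ.2.2 A hA, ← he]; rfl
        rw [eq_inv_of_mul_eq_one_left h1]
        exact inv_mem (hu.2 A)⟩
      refine ⟨⟨x, hx⟩, Subtype.ext ?_⟩
      show trunc T (PreIdele.principalHom x) = θ
      rw [← he]
      refine PreIdele.ext (funext fun A => ?_) (funext fun ι => ?_)
      · by_cases hA : A.Over T
        · rw [trunc_fin_of_over _ hA, PreIdele.fin_mul, hu.1.2.1 A hA, mul_one]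
        · rw [trunc_fin_of_not_over _ hA, he, θ.2.2 A hA]
      · rw [trunc_inf, PreIdele.inf_mul, hu.1.2.2, Pi.one_apply, mul_one]
  have hψ : ∀ g θ, ψ (locRes T L H g θ) = classRes T L H g (ψ θ) := by
    intro g θ
    obtain ⟨h, rfl⟩ := QuotientGroup.mk_surjective g
    rfl
  have hSC : ∀ g, ∀ m ∈ ψ.range, classRes T L H g m ∈ ψ.range := by
    rintro g _ ⟨θ, rfl⟩; exact ⟨_, hψ g θ⟩
  obtain ⟨hS, -⟩ := qPow_of_finite_index p ψ.range (qInd_ideleClass hT hpT hμ).1
  rw [(qHom_of_finite_index ν p hG hNp hν (classRes T L H) ψ.range hSC hS).2]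
  exact qHom_mul (ν := ν) p hG hNp hν (tUnitLoc T L) ψ.rangeRestrict (tUnitLoc_injective T L)
    ψ.rangeRestrict_surjective hex (tUnitLoc_equivariant T L H) (fun g θ => Subtype.ext (hψ g θ))
    (qInd_tUnits (T := T) (p := p) (F := L)).1 hS

end Seq

section Seq

variable (hG : (Nat.card (relQuot L H)).Coprime p) (hNp : ∀ x : N, p • x = 0)
  (hν : ∀ g x y, ν g (x + y) = ν g x + ν g y)

include hG hNp hν

/-- The exponential at infinity. -/
theorem qHom_infPart (hreal : IsEmpty (RealEmb L)) :
    QFinite (powMonoidHom p : infPart L →* infPart L) ∧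
      qHom ν p (antiRes L H) * qHom ν p (infRes L H) = 1 := by
  obtain ⟨hlog, hlogv⟩ := qHom_of_bijective ν p hNp (logRes L H) pow_bijective_logSub
  have hA := (qInd_antiFun (p := p) (F := L)).1
  have key : ∀ (u : antiFun L →* logSub L) (v : logSub L →* infPart L), Function.Injective u →
      Function.Surjective v → u.range = v.ker → QFinite (powMonoidHom p : infPart L →* infPart L) :=
    fun u v h1 h2 h3 => QFinite.right (fA := powMonoidHom p) (fB := powMonoidHom p)
      (fC := powMonoidHom p) u v h1 h2 h3 (fun a => map_pow u a p) (fun b => map_pow v b p) hA hlog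
  have hI := key (periodHom L) (expInf L) periodHom_injective (expInf_surjective hreal)
    range_periodHom
  refine ⟨hI, ?_⟩
  rw [← hlogv]
  refine (qHom_mul (ν := ν) p hG hNp hν (periodHom L) (expInf L) periodHom_injective
    (expInf_surjective hreal) range_periodHom (fun g a => ?_) (fun g b => ?_) hA hI).symm
  · obtain ⟨h, rfl⟩ := QuotientGroup.mk_surjective g
    exact Subtype.ext (funext fun ι => rfl)
  · obtain ⟨h, rfl⟩ := QuotientGroup.mk_surjective g
    refine Subtype.ext (PreIdele.ext (funext fun A => Units.ext ?_) (funext fun ι => rfl))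
    exact (map_one ((h : Γ))).symm

variable {ζ : ℚ̄} {c}

omit hG hν [Finite (relQuot L H)] in
/-- Deep units modulo `p`-th powers are the integers modulo `p`. -/
theorem qHom_deep (hT : ∀ q ∈ T, q.Prime) (hpT : p ∈ T) (hζ : IsPrimitiveRoot ζ p) (hζL : ζ ∈ L)
    (hc : DeepModulus T p ζ c) :
    QFinite (powMonoidHom p : deepFin T L c →* deepFin T L c) ∧
      qHom ν p (deepRes T c L H) = qHom ν p (intRes L H) := by
  classical
  let Q := intSub L ⧸ (powMonoidHom p : intSub L →* intSub L).range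
  let mkInt : 𝓞 L → Q := fun a => QuotientGroup.mk (intSubHom L (Multiplicative.ofAdd a))
  have hadd : ∀ a b, mkInt (a + b) = mkInt a * mkInt b := fun a b => by
    show QuotientGroup.mk _ = _
    rw [ofAdd_add, map_mul]; rfl
  have hone : ∀ a, mkInt a = 1 ↔ (p : 𝓞 L) ∣ a := by
    intro a
    refine (QuotientGroup.eq_one_iff _).trans ⟨?_, ?_⟩
    · rintro ⟨m, hm⟩
      obtain ⟨w, rfl⟩ := (intSubEquiv (F := L)).surjective m
      rw [powMonoidHom_apply, ← map_pow] at hm
      have := (intSubEquiv (F := L)).injective hm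
      exact ⟨Multiplicative.toAdd w, by
        rw [← nsmul_eq_mul, ← toAdd_pow, this, toAdd_ofAdd]⟩
    · rintro ⟨w, rfl⟩
      refine ⟨intSubHom L (Multiplicative.ofAdd w), ?_⟩
      rw [powMonoidHom_apply, ← map_pow, ← ofAdd_nsmul, nsmul_eq_mul]
  have hwd : ∀ a b, (p : 𝓞 L) ∣ a - b → mkInt a = mkInt b := fun a b h => by
    rw [← sub_add_cancel a b, hadd, (hone _).mpr h, one_mul]
  choose a ha using fun θ : deepFin T L c => exists_repDeep (p := p) hc θ.2
  let Ψ : deepFin T L c →* Q := MonoidHom.mk' (fun θ => mkInt (a θ)) fun θ θ' => by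
    rw [← hadd]
    exact hwd _ _ ((ha _).dvd_sub hpT hc ((ha θ).mul hc hζ θ'.2 (ha θ')))
  have hker : Ψ.ker = (powMonoidHom p : deepFin T L c →* deepFin T L c).range := by
    ext θ
    rw [MonoidHom.mem_ker, mem_range_pow_deepFin hζ hζL hc]
    refine (hone _).trans ⟨?_, fun h => ?_⟩
    · rintro ⟨w, hw⟩ A hA
      rw [show ((θ : PreIdele).fin A : ℚ̄) - 1 = (((θ : PreIdele).fin A : ℚ̄) - 1 -
        (c : ℚ̄) * ((a θ : L) : ℚ̄)) + (c : ℚ̄) * ((a θ : L) : ℚ̄) by ring]
      refine (A.1.valuation.map_add _ _).trans (max_le (ha θ A hA) ?_)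
      rw [hw]
      push_cast
      rw [map_mul, map_mul, mul_left_comm]
      exact mul_le_mul' le_rfl (mul_le_of_le_one_right' (valuation_int_le A w))
    · have h0 : RepDeep T p c (θ : PreIdele) (0 : 𝓞 L) := fun A hA => by simpa using h A hA
      simpa using (ha θ).dvd_sub hpT hc h0
  obtain ⟨A₀, hA₀⟩ := GalCommon.exists_liesOverPrime hp.out
  have hA₀' : Place.Over ⟨A₀, p, hp.out, hA₀⟩ T := ⟨p, hpT, hp.out, hA₀⟩
  have hsur : Function.Surjective Ψ := by
    intro x
    obtain ⟨m, rfl⟩ := QuotientGroup.mk_surjective x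
    obtain ⟨w, rfl⟩ := (intSubEquiv (F := L)).surjective m
    obtain ⟨θ, hθ, hθw⟩ := exists_deepFin_rep (L := L) hζ ⟨_, hA₀'⟩ hc (Multiplicative.toAdd w)
    exact ⟨⟨θ, hθ⟩, hwd _ _ ((ha _).dvd_sub hpT hc hθw)⟩
  let e := (QuotientGroup.quotientMulEquivOfEq hker.symm).trans
    (QuotientGroup.quotientKerEquivOfSurjective Ψ hsur)
  have hinj := pow_injective_deepFin (L := L) hζ hc
  have hQi := (qInd_intSub (p := p) (F := L)).1
  have := hQi.coker
  have : Finite (deepFin T L c ⧸ (powMonoidHom p : deepFin T L c →* deepFin T L c).range) :=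
    Finite.of_equiv _ e.symm.toEquiv
  refine ⟨⟨inferInstance, by rw [(MonoidHom.ker_eq_bot_iff _).mpr hinj]; infer_instance⟩, ?_⟩
  have htriv : ∀ {M : Type} [CommGroup M] (ρ : relQuot L H →* MulAut M),
      Function.Injective (powMonoidHom p : M →* M) → Nat.card (eHom ν ρ) = 1 := by
    intro M _ ρ hM
    have : Subsingleton (eHom ν ρ) := ⟨fun f f' => Subtype.ext (funext fun x =>
      hM ((eHom_values p ρ hNp f x).trans (eHom_values p ρ hNp f' x).symm))⟩
    exact Nat.card_of_subsingleton 1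
  have hintinj : Function.Injective (powMonoidHom p : intSub L →* intSub L) := fun x y h => by
    refine Subtype.ext (Multiplicative.toAdd.injective ?_)
    have h' := congrArg (fun z : intSub L => Multiplicative.toAdd (z : Multiplicative ℚ̄)) h
    simp only [powMonoidHom_apply, SubmonoidClass.coe_pow, toAdd_pow, nsmul_eq_mul] at h'
    exact mul_left_cancel₀ (Nat.cast_ne_zero.mpr hp.out.ne_zero) h'
  rw [qHom, qHom, htriv _ hinj, htriv _ hintinj, card_eHom_congr e fun g x => ?_]
  induction x using QuotientGroup.induction_on with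
  | _ θ =>
    obtain ⟨h, rfl⟩ := QuotientGroup.mk_surjective g
    show mkInt (a (deepRes T c L H (QuotientGroup.mk h) θ)) =
      powQuotAct p (intRes L H) (QuotientGroup.mk h) (mkInt (a θ))
    obtain ⟨w, hw⟩ := (intSubEquiv (F := L)).surjective
      (intRes L H (QuotientGroup.mk h) (intSubHom L (Multiplicative.ofAdd (a θ))))
    have hw' : (((Multiplicative.toAdd w : 𝓞 L) : L) : ℚ̄) = (h : Γ) (((a θ : 𝓞 L) : L) : ℚ̄) :=
      congrArg (fun z : intSub L => Multiplicative.toAdd (z : Multiplicative ℚ̄)) hw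
    have hs : RepDeep T p c ((deepRes T c L H (QuotientGroup.mk h) θ : deepFin T L c) : PreIdele)
        (Multiplicative.toAdd w) := RepDeep.smul (θ := (θ : PreIdele)) (h : Γ) (ha θ) hw'
    rw [hwd _ _ ((ha (deepRes T c L H (QuotientGroup.mk h) θ)).dvd_sub hpT hc hs)]
    show QuotientGroup.mk (intSubEquiv w) = _
    rw [hw, powQuotAct_mk]

/-- Deep units have finite index in the units. -/
theorem qHom_locUnits (hc : DeepModulus T p ζ c) (hζ : IsPrimitiveRoot ζ p)
    (hD : QFinite (powMonoidHom p : deepFin T L c →* deepFin T L c))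
    (hI : QFinite (powMonoidHom p : infPart L →* infPart L)) :
    QFinite (powMonoidHom p : locUnits T L →* locUnits T L) ∧
      qHom ν p (locUnitsRes T L H) = qHom ν p (deepRes T c L H) * qHom ν p (infRes L H) := by
  set S := (deepUnits T L c).subgroupOf (locUnits T L) with hSdef
  have : Finite (locUnits T L ⧸ S) := finite_deep_quotient hc
  have hS : ∀ g, ∀ m ∈ S, locUnitsRes T L H g m ∈ S := by
    intro g m hm
    obtain ⟨h, rfl⟩ := QuotientGroup.mk_surjective g
    exact smul_mem_deepUnits (h : Γ) hm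
  let i : deepFin T L c →* S :=
    { toFun := fun θ => ⟨⟨θ, θ.2.1.1⟩, θ.2.1⟩
      map_one' := rfl
      map_mul' := fun _ _ => rfl }
  have hmem : ∀ m : S, infProj ((m : locUnits T L) : PreIdele) ∈ infPart L := fun m =>
    ⟨infProj_mem L (m : locUnits T L).2.1.1, rfl⟩
  let π : S →* infPart L :=
    (infProj.comp ((locUnits T L).subtype.comp S.subtype)).codRestrict _ hmem
  have hii : Function.Injective i := fun a b h =>
    Subtype.ext (congrArg (fun z : S => ((z : locUnits T L) : PreIdele)) h)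
  have hπ : Function.Surjective π := by
    rintro ⟨φ, hφ, hφ1⟩
    have h1 : φ ∈ locUnits T L := ⟨⟨hφ, fun A _ => congrFun hφ1 A⟩, fun A => by
      rw [congrFun hφ1 A]; exact one_mem _⟩
    refine ⟨⟨⟨φ, h1⟩, Subgroup.mem_subgroupOf.mpr ⟨h1, fun A _ => ?_⟩⟩,
      Subtype.ext (PreIdele.ext hφ1.symm rfl)⟩
    rw [show φ.fin A = 1 from congrFun hφ1 A]; simp
  have hex : i.range = π.ker := by
    ext m
    constructor
    · rintro ⟨θ, rfl⟩
      exact Subtype.ext (PreIdele.ext rfl θ.2.2)
    · intro hm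
      exact ⟨⟨_, Subgroup.mem_subgroupOf.mp m.2,
        congrArg (fun z : infPart L => (z : PreIdele).inf) (MonoidHom.mem_ker.mp hm)⟩, rfl⟩
  have hiA : ∀ g a, i (deepRes T c L H g a) = resAct (locUnitsRes T L H) S hS g (i a) := by
    intro g a
    obtain ⟨h, rfl⟩ := QuotientGroup.mk_surjective g
    rfl
  have hπB : ∀ g b, π (resAct (locUnitsRes T L H) S hS g b) = infRes L H g (π b) := by
    intro g b
    obtain ⟨h, rfl⟩ := QuotientGroup.mk_surjective g
    exact Subtype.ext (PreIdele.ext (funext fun A => Units.ext (map_one (h : Γ)).symm)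
      (funext fun ι => rfl))
  have hSQ := QFinite.middle (fA := powMonoidHom p) (fB := powMonoidHom p) (fC := powMonoidHom p)
    i π hii hπ hex (fun a => map_pow i a p) (fun b => map_pow π b p) hD hI
  obtain ⟨hQ, hQv⟩ := qHom_of_finite_index ν p hG hNp hν (locUnitsRes T L H) S hS hSQ
  exact ⟨hQ, hQv.trans (qHom_mul (ν := ν) p hG hNp hν i π hii hπ hex hiA hπB hD hI)⟩

omit [Finite (relQuot L H)] hG hν in
/-- The trivial module. -/
theorem qHom_triv :
    qHom ν p (latAct (1 : relQuot L H →* Matrix Unit Unit ℤ)) =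
      Nat.card {f : N →+ ZMod p // ∀ g x, f (ν g x) = f x} := by
  rw [qHom_lattice p hNp]
  have htr : ∀ (g : relQuot L H) (v : Multiplicative (Unit → ZMod p)),
      vecAct p (1 : relQuot L H →* Matrix Unit Unit ℤ) g v = v := fun g v =>
    Multiplicative.toAdd.injective (by rw [toAdd_vecAct, MonoidHom.one_apply, map_one, Matrix.one_mulVec])
  norm_cast
  refine Nat.card_congr
    { toFun := fun f => ⟨AddMonoidHom.mk' (fun x => Multiplicative.toAdd (f.1 x) ())
        (fun x y => by rw [f.2.1]; rfl), fun g x => ?_⟩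
      invFun := fun f => ⟨fun x => Multiplicative.ofAdd fun _ => f.1 x,
        fun x y => congrArg (fun r : ZMod p => Multiplicative.ofAdd fun _ : Unit => r)
          (map_add f.1 x y),
        fun g x => (congrArg (fun r : ZMod p => Multiplicative.ofAdd fun _ : Unit => r)
          (f.2 g x)).trans (htr g _).symm⟩
      left_inv := fun f => Subtype.ext (funext fun x => rfl)
      right_inv := fun f => Subtype.ext (AddMonoidHom.ext fun x => rfl) }
  show Multiplicative.toAdd (f.1 (ν g x)) () = _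
  rw [f.2.2, htr]
  rfl

/-- The integers against units, anti-invariant functions and the trivial module. -/
theorem qHom_int (hH : L.fixingSubgroup ≤ H) :
    qHom ν p (intRes L H) = qHom ν p (unitsRes ∅ L H) * qHom ν p (antiRes L H) *
      qHom ν p (latAct (1 : relQuot L H →* Matrix Unit Unit ℤ)) := by
  have := fg_intSub (F := L)
  have := fg_units (F := L)
  have := fg_antiFun (F := L)
  have : Monoid.FG (Multiplicative (Unit → ℤ)) :=
    AddMonoid.fg_iff_mul_fg.mp (AddGroup.fg_iff_addMonoid_fg.mp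
      (Module.Finite.iff_addGroup_fg.mp inferInstance))
  have hU := (qInd_units_sub (p := p) (F := L)).1
  have hA := (qInd_antiFun (p := p) (F := L)).1
  have hZ := (qInd_pow_lattice Unit hp.out.ne_zero).1
  rw [← qHom_prod ν p hG hNp hν _ _ hU hA,
    ← qHom_prod ν p hG hNp hν _ _ (qInd_prod p hU hA).1 hZ]
  refine qHom_eq_of_fixed (ν := ν) p hG hNp hν _ _ fun S => ?_
  obtain ⟨F, hFL, hF⟩ := exists_fixedField (L := L)
    ((S.comap (QuotientGroup.mk' (L.fixingSubgroup.subgroupOf H))).map H.subtype) fun σ hσ =>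
      ⟨⟨σ, hH hσ⟩, by
        rw [SetLike.mem_coe, Subgroup.mem_comap,
          show QuotientGroup.mk' (L.fixingSubgroup.subgroupOf H) ⟨σ, hH hσ⟩ = 1 from
            (QuotientGroup.eq_one_iff _).mpr hσ]
        exact one_mem S, rfl⟩
  have := finite_of_le (L := L) hFL
  obtain ⟨hi1, hi2⟩ := qInd_intSub (p := p) (F := F)
  obtain ⟨hu1, hu2⟩ := qInd_units_sub (p := p) (F := F)
  obtain ⟨ha1, ha2⟩ := qInd_antiFun (p := p) (F := F)
  have sI : qInd (powMonoidHom p : fixSub (intRes L H) S →* fixSub (intRes L H) S) =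
      qInd (powMonoidHom p : intSub F →* intSub F) :=
    (qInd_fixSub_quotRes addQbarAut L p (intSub L) (intSub F) _ _ S F hF (mem_intSub_iff hFL)).2
  have sU := qInd_fixSub_quotRes unitsAut L p (tUnits ∅ L) (tUnits ∅ F)
    (fun σ _ _ h => unitsAut_mem_tUnits ∅ σ h)
    (fun _ hσ _ hx => Units.ext ((IntermediateField.mem_fixingSubgroup_iff _ _).mp hσ _ hx.1))
    S F hF (mem_tUnits_iff ∅ hFL)
  have sA := qInd_fixSub_quotRes (embFunAut _) L p (antiFun L) (antiFun F)
    (fun σ _ _ h => embFunAut_mem_antiFun σ h) (fun σ hσ _ hx => hx.1 σ hσ)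
    S F hF (mem_antiFun_iff hFL)
  let eZ : Multiplicative (Unit → ℤ) ≃*
      fixSub (latAct (1 : relQuot L H →* Matrix Unit Unit ℤ)) S :=
    { toFun := fun z => ⟨z, fun g _ => Multiplicative.toAdd.injective (by
        rw [toAdd_latAct, MonoidHom.one_apply, Matrix.one_mulVec])⟩
      invFun := Subtype.val
      left_inv := fun _ => rfl
      right_inv := fun _ => rfl
      map_mul' := fun _ _ => rfl }
  obtain ⟨hz2, hz1⟩ := qInd_congr eZ (f := powMonoidHom p) (f' := powMonoidHom p)
    (fun m => map_pow eZ m p)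
  have fU : QFinite (powMonoidHom p : fixSub (unitsRes ∅ L H) S →* _) := sU.1 hu1
  have fA : QFinite (powMonoidHom p : fixSub (antiRes L H) S →* _) := sA.1 ha1
  have fUA := (qInd_congr (fixSubProd (unitsRes ∅ L H) (antiRes L H) S).symm
    (f := powMonoidHom p) (f' := powMonoidHom p) fun m => map_pow _ m p).2 (qInd_prod p fU fA).1
  have eU : qInd (powMonoidHom p : fixSub (unitsRes ∅ L H) S →* fixSub (unitsRes ∅ L H) S) =
      qInd (powMonoidHom p : tUnits ∅ F →* tUnits ∅ F) := sU.2
  have eA : qInd (powMonoidHom p : fixSub (antiRes L H) S →* fixSub (antiRes L H) S) =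
      qInd (powMonoidHom p : antiFun F →* antiFun F) := sA.2
  rw [sI, hi2, qInd_fixSub_prod _ _ p S fUA (hz1 hZ), qInd_fixSub_prod _ _ p S fU fA, eU, eA, ha2,
    hz2, (qInd_pow_lattice Unit hp.out.ne_zero).2, Fintype.card_unit, pow_one, mul_right_comm, hu2,
    ← pow_add]
  congr 1
  have h1 := two_mul_numInf (F := F)
  have h2 := InfinitePlace.card_add_two_mul_card_eq_rank F
  rw [numReal_eq] at h1
  omega

/-- `qHom` of the classes is that of the trivial module. -/
theorem qHom_classes (hH : L.fixingSubgroup ≤ H) (hT : ∀ q ∈ T, q.Prime) (hpT : p ∈ T) (hp2 : p ≠ 2)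
    (hμ : ContainsMuP p L) :
    qHom ν p (classRes T L H) = qHom ν p (latAct (1 : relQuot L H →* Matrix Unit Unit ℤ)) := by
  obtain ⟨ζ, hζ⟩ := exists_primitiveRoot_qbar p
  have hζL := hμ ζ hζ.pow_eq_one
  obtain ⟨c, hc⟩ := exists_deepModulus (L := L) hT hζ hζL
  obtain ⟨hI, hIv⟩ := qHom_infPart L H ν p hG hNp hν (isEmpty_realEmb hp2 hμ)
  obtain ⟨hD, hDv⟩ := qHom_deep T L H ν p hNp hT hpT hζ hζL hc
  obtain ⟨hQ0, hQ0v⟩ := qHom_locUnits T L H ν p hG hNp hν hc hζ hD hI
  obtain ⟨hQ', hQ'v⟩ := qHom_units_loc T L H ν p hG hNp hν hQ0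
  have hC := qHom_class T L H ν p hG hNp hν hT hpT hμ
  have hM := qHom_int L H ν p hG hNp hν hH
  have pU := qHom_pos (ν := ν) p (unitsRes T L H) hNp (qInd_tUnits (T := T) (p := p) (F := L)).1
  have pU0 := qHom_pos (ν := ν) p (unitsRes ∅ L H) hNp (qInd_units_sub (p := p) (F := L)).1
  have pA := qHom_pos (ν := ν) p (antiRes L H) hNp (qInd_antiFun (p := p) (F := L)).1
  rw [hQ0v, hDv, hM, hC] at hQ'v
  have key : qHom ν p (unitsRes T L H) * qHom ν p (unitsRes ∅ L H) *
        qHom ν p (latAct (1 : relQuot L H →* Matrix Unit Unit ℤ)) =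
      qHom ν p (unitsRes T L H) * qHom ν p (unitsRes ∅ L H) * qHom ν p (classRes T L H) := by
    linear_combination hQ'v - qHom ν p (unitsRes T L H) * qHom ν p (unitsRes ∅ L H) *
      qHom ν p (latAct (1 : relQuot L H →* Matrix Unit Unit ℤ)) * hIv
  exact (mul_left_cancel₀ (mul_ne_zero pU.ne' pU0.ne') key).symm

end Seq

/-- The difference between `C_T(L)/p` and `C_T(L)[p]` as representations of a group of order prime
to `p` is the trivial representation. -/
theorem card_homs' {T : Finset ℕ} {L : IntermediateField ℚ ℚ̄} [Normal ℚ L] [FiniteDimensional ℚ L]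
    {p : ℕ} [hp : Fact p.Prime] (hp2 : p ≠ 2) (hT : ∀ q ∈ T, q.Prime) (hpT : p ∈ T)
    (hμ : ContainsMuP p L) (H : Subgroup Γ) (hH : L.fixingSubgroup ≤ H)
    (hord : (L.fixingSubgroup.relIndex H).Coprime p) (N : Type) [AddCommGroup N] [Finite N]
    [DistribMulAction H N] (hN : ∀ x : N, p • x = 0)
    (htriv : ∀ h : H, (h : Γ) ∈ L.fixingSubgroup → ∀ x : N, h • x = x) :
    0 < Nat.card (equivariantHoms H N (IdeleClassModP T p L)) ∧
    Nat.card (equivariantHoms H N (IdeleClassModP T p L)) =
      Nat.card {f : N →+ ZMod p // ∀ (h : H) x, f (h • x) = f x} *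
        Nat.card (equivariantHoms H N (IdeleClass T L)) := by
  have := normal_fixingSubgroup_of_normal L
  have : (L.fixingSubgroup.subgroupOf H).Normal := inferInstance
  have hne : L.fixingSubgroup.relIndex H ≠ 0 := fun h => hp.out.one_lt.ne' (by simpa [h] using hord)
  have : Finite (relQuot L H) :=
    Nat.finite_of_card_ne_zero (by rw [← Subgroup.index_eq_card]; exact hne)
  have hG : (Nat.card (relQuot L H)).Coprime p := by rwa [← Subgroup.index_eq_card]
  let ν : relQuot L H →* Function.End N :=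
    QuotientGroup.lift _ (MulAction.toEndHom : H →* Function.End N) fun h hh =>
      MonoidHom.mem_ker.mpr (funext fun x => htriv h (Subgroup.mem_subgroupOf.mp hh) x)
  have hν : ∀ g x y, ν g (x + y) = ν g x + ν g y := by
    intro g x y
    obtain ⟨h, rfl⟩ := QuotientGroup.mk_surjective g
    exact smul_add h x y
  have hQ := (qInd_ideleClass (F := L) hT hpT hμ).1
  obtain ⟨f1, f2⟩ := finite_eHom_of_qFinite (ν := ν) p (classRes T L H) hN hQ
  have e0 : Nat.card (equivariantHoms H N (IdeleClass T L)) =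
      Nat.card (eHom ν (classRes T L H)) := by
    refine Nat.card_congr (Equiv.subtypeEquivRight fun f => ?_)
    refine and_congr_right fun _ => ⟨fun h2 g x => ?_, fun h2 h x => h2 (QuotientGroup.mk h) x⟩
    obtain ⟨h, rfl⟩ := QuotientGroup.mk_surjective g
    exact h2 h x
  -- classes modulo `p`
  let Φ : IdeleClass T L →* IdeleClassModP T p L :=
    QuotientGroup.map _ _ (MonoidHom.id _) fun φ hφ =>
      Subgroup.mem_subgroupOf.mpr (Subgroup.mem_sup_left (Subgroup.mem_subgroupOf.mp hφ))
  have hΦs : Function.Surjective Φ := fun x => by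
    obtain ⟨φ, rfl⟩ := QuotientGroup.mk_surjective x
    exact ⟨QuotientGroup.mk φ, rfl⟩
  have hΦk : Φ.ker = (powMonoidHom p : IdeleClass T L →* IdeleClass T L).range := by
    ext x
    obtain ⟨φ, rfl⟩ := QuotientGroup.mk_surjective x
    rw [MonoidHom.mem_ker]
    constructor
    · intro h
      obtain ⟨k, hk, _, ⟨ψ, hψ, rfl⟩, he⟩ :=
        Subgroup.mem_sup.mp (Subgroup.mem_subgroupOf.mp ((QuotientGroup.eq_one_iff φ).mp h))
      refine ⟨QuotientGroup.mk ⟨ψ, hψ⟩, ?_⟩
      rw [powMonoidHom_apply, ← QuotientGroup.mk_pow]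
      refine QuotientGroup.eq.mpr (Subgroup.mem_subgroupOf.mpr ?_)
      show (ψ ^ p)⁻¹ * (φ : PreIdele) ∈ classKer T L
      rw [show (φ : PreIdele) = ψ ^ p * k by rw [← he, mul_comm]; rfl, inv_mul_cancel_left]
      exact hk
    · rintro ⟨d, hd⟩
      obtain ⟨ψ, rfl⟩ := QuotientGroup.mk_surjective d
      rw [← hd, powMonoidHom_apply, ← QuotientGroup.mk_pow]
      exact (QuotientGroup.eq_one_iff _).mpr
        (Subgroup.mem_subgroupOf.mpr (Subgroup.mem_sup_right ⟨ψ, ψ.2, rfl⟩))
  let e := (QuotientGroup.quotientMulEquivOfEq hΦk.symm).trans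
    (QuotientGroup.quotientKerEquivOfSurjective Φ hΦs)
  let ρ' : relQuot L H →* MulAut (IdeleClassModP T p L) :=
    (MulAut.congr e).toMonoidHom.comp (powQuotAct p (classRes T L H))
  have hρ' : ∀ (h : H) y, ρ' (QuotientGroup.mk h) y = (h : Γ) • y := by
    intro h y
    obtain ⟨φ, rfl⟩ := QuotientGroup.mk_surjective y
    have hs : e.symm (QuotientGroup.mk φ) = QuotientGroup.mk (QuotientGroup.mk φ) :=
      e.injective (e.apply_symm_apply _)
    show e (powQuotAct p (classRes T L H) (QuotientGroup.mk h) (e.symm (QuotientGroup.mk φ))) = _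
    rw [hs]
    rfl
  have e1 : Nat.card (equivariantHoms H N (IdeleClassModP T p L)) =
      Nat.card (eHom ν (powQuotAct p (classRes T L H))) := by
    rw [card_eHom_congr (ρB := ρ') e fun g y => (congrArg e
      (congrArg (powQuotAct p (classRes T L H) g) (e.symm_apply_apply y))).symm]
    refine Nat.card_congr (Equiv.subtypeEquivRight fun f => ?_)
    refine and_congr_right fun _ => ⟨fun h2 g x => ?_, fun h2 h x => ?_⟩
    · obtain ⟨h, rfl⟩ := QuotientGroup.mk_surjective g
      rw [hρ']
      exact h2 h x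
    · rw [← hρ']
      exact h2 (QuotientGroup.mk h) x
  refine ⟨by rw [e1]; exact Nat.card_pos, ?_⟩
  have hq := qHom_classes T L H ν p hG hN hν hH hT hpT hp2 hμ
  have e2 : Nat.card {f : N →+ ZMod p // ∀ g x, f (ν g x) = f x} =
      Nat.card {f : N →+ ZMod p // ∀ (h : H) x, f (h • x) = f x} := by
    refine Nat.card_congr (Equiv.subtypeEquivRight fun f =>
      ⟨fun h1 h x => h1 (QuotientGroup.mk h) x, fun h1 g x => ?_⟩)
    obtain ⟨h, rfl⟩ := QuotientGroup.mk_surjective g
    exact h1 h x
  rw [qHom_triv L H ν p hN, e2, qHom] at hq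
  rw [e0, e1]
  have hpos : (Nat.card (eHom ν (classRes T L H)) : ℚ) ≠ 0 := by exact_mod_cast Nat.card_pos.ne'
  rw [div_eq_iff hpos] at hq
  exact_mod_cast hq

end FLTAgent.TW
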