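import Fermat.Agent.TW.Idele.Units

/-!
# `C_T(F) / p` against `C_T(F)[p]`

The ideles modulo those away from `T` map onto a subgroup of finite index of `C_T(F)` with kernel
the `T`-units; so `q_p(C_T(F)) = q_p(ideles / away) / q_p(U_T) = p`.
-/

set_option autoImplicit false
set_option synthInstance.maxHeartbeats 200000
set_option maxHeartbeats 1000000

noncomputable section

open IsDedekindDomain NumberField
open scoped Pointwise NumberField nonZeroDivisors

namespace FLTAgent.TW

local notation "ℚ̄" => AlgebraicClosure ℚ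
local notation "Γ" => (AlgebraicClosure ℚ ≃ₐ[ℚ] AlgebraicClosure ℚ)

attribute [local instance] numberField_intermediate

section Trunc

open Classical in
/-- Forget the components outside `T`. -/
def trunc (T : Finset ℕ) : PreIdele →* PreIdele where
  toFun φ := ⟨fun A => if A.Over T then φ.fin A else 1, φ.inf⟩
  map_one' := PreIdele.ext (funext fun A => by simp) rfl
  map_mul' φ ψ := PreIdele.ext (funext fun A => by
    simp only [PreIdele.fin_mul]; split_ifs <;> simp) rfl

variable {T : Finset ℕ} {F : IntermediateField ℚ ℚ̄}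

theorem trunc_fin_of_over (φ : PreIdele) {A : Place} (h : A.Over T) :
    (trunc T φ).fin A = φ.fin A := by simp [trunc, h]

theorem trunc_fin_of_not_over (φ : PreIdele) {A : Place} (h : ¬ A.Over T) :
    (trunc T φ).fin A = 1 := by simp [trunc, h]

theorem trunc_inf (φ : PreIdele) : (trunc T φ).inf = φ.inf := rfl

theorem trunc_mem {φ : PreIdele} (hφ : φ ∈ ideles F) : trunc T φ ∈ ideles F := by
  refine ⟨fun σ hσ => PreIdele.ext (funext fun A => Units.ext ?_) (funext fun ι => ?_), hφ.2.1, T,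
    fun A hA => by rw [trunc_fin_of_not_over φ hA]; exact one_mem _⟩
  · rw [PreIdele.coe_fin_smul]
    by_cases hA : A.Over T
    · rw [trunc_fin_of_over φ hA, trunc_fin_of_over φ (hA.smul _)]
      conv_rhs => rw [← hφ.1 σ hσ, PreIdele.coe_fin_smul]
    · rw [trunc_fin_of_not_over φ hA, trunc_fin_of_not_over φ (by simpa using hA), Units.val_one,
        map_one]
  · exact inf_fixed hφ ι hσ

theorem div_trunc_mem_away {φ : PreIdele} (hφ : φ ∈ ideles F) :
    φ / trunc T φ ∈ awayIdeles T F := by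
  refine ⟨div_mem hφ (trunc_mem hφ), fun A hA => ?_, funext fun ι => ?_⟩
  · show φ.fin A / (trunc T φ).fin A = 1
    rw [trunc_fin_of_over φ hA, div_self']
  · show φ.inf ι / (trunc T φ).inf ι = 1
    rw [trunc_inf, div_self']

theorem trunc_eq_one_of_away {φ : PreIdele} (hφ : φ ∈ awayIdeles T F) : trunc T φ = 1 := by
  refine PreIdele.ext (funext fun A => ?_) (by rw [trunc_inf]; exact hφ.2.2)
  by_cases hA : A.Over T
  · rw [trunc_fin_of_over φ hA]; exact hφ.2.1 A hA
  · rw [trunc_fin_of_not_over φ hA]; rfl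

/-- The cokernel of `p`-th powers on a quotient of subgroups. -/
theorem card_quot_pow {G : Type*} [CommGroup G] (I N : Subgroup G) (hN : N ≤ I) (p : ℕ) :
    Nat.card ((I ⧸ N.subgroupOf I) ⧸
      (powMonoidHom p : I ⧸ N.subgroupOf I →* I ⧸ N.subgroupOf I).range) =
      (N ⊔ I.map (powMonoidHom p)).relIndex I := by
  set P := (I.map (powMonoidHom p)).subgroupOf I
  have hPle : I.map (powMonoidHom p) ≤ I := by rintro _ ⟨x, hx, rfl⟩; exact pow_mem hx p
  have hrange : (powMonoidHom p : I ⧸ N.subgroupOf I →* I ⧸ N.subgroupOf I).range =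
      P.map (QuotientGroup.mk' _) := by
    ext c
    constructor
    · rintro ⟨d, rfl⟩
      obtain ⟨x, rfl⟩ := QuotientGroup.mk_surjective d
      exact ⟨x ^ p, Subgroup.mem_subgroupOf.mpr ⟨x, x.2, rfl⟩, map_pow _ x p⟩
    · rintro ⟨x, hx, rfl⟩
      obtain ⟨y, hy, hxy⟩ := Subgroup.mem_subgroupOf.mp hx
      exact ⟨QuotientGroup.mk ⟨y, hy⟩, congrArg QuotientGroup.mk (Subtype.ext hxy)⟩
  rw [← Subgroup.index_eq_card, hrange, Subgroup.index_map, QuotientGroup.ker_mk',
    MonoidHom.range_eq_top.mpr (QuotientGroup.mk'_surjective _), Subgroup.index_top, mul_one,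
    Subgroup.relIndex, Subgroup.subgroupOf_sup hN hPle, sup_comm]

end Trunc

variable {T : Finset ℕ} {p : ℕ} [hp : Fact p.Prime] {F : IntermediateField ℚ ℚ̄}
  [FiniteDimensional ℚ F]

/-- The ideles modulo those away from `T`. -/
abbrev AwayQuot (T : Finset ℕ) (F : IntermediateField ℚ ℚ̄) : Type :=
  ideles F ⧸ (awayIdeles T F).subgroupOf (ideles F)

variable (T p F) in
/-- The `p`-torsion of the components at `T ∪ ∞`. -/
abbrev LocalTorsion : Type :=
  {θ : PreIdele // θ ∈ ideles F ∧ θ ^ p = 1 ∧ ∀ A : Place, ¬ A.Over T → θ.fin A = 1}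

theorem card_localTorsion (hμ : ContainsMuP p F) :
    Nat.card (LocalTorsion T p F) = p ^ (numPlaces T F + numInf F) := by
  classical
  have : NeZero p := ⟨hp.out.ne_zero⟩
  have : NeZero ((p : ℕ) : ℚ̄) := ⟨Nat.cast_ne_zero.mpr hp.out.ne_zero⟩
  have : NeZero ((p : ℕ) : ℂ) := ⟨Nat.cast_ne_zero.mpr hp.out.ne_zero⟩
  choose ext hext using exists_res_eq (F := F)
  set cj := Units.map (starRingEnd ℂ : ℂ →* ℂ) with hcj
  have hcjcj : ∀ u : ℂˣ, cj (cj u) = u := fun u => Units.ext (Complex.conj_conj _)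
  let rep : (F →+* ℂ) → (F →+* ℂ) := fun f => (InfinitePlace.mk f).embedding
  have hcomp : ∀ f : F →+* ℂ, (starRingEnd ℂ).comp f = ComplexEmbedding.conjugate f := fun f =>
    RingHom.ext fun x => rfl
  have hrep : ∀ f : F →+* ℂ, rep f = f ∨ rep f = (starRingEnd ℂ).comp f := fun f => by
    rw [hcomp]; exact InfinitePlace.embedding_mk_eq f
  have hrepc : ∀ f : F →+* ℂ, rep ((starRingEnd ℂ).comp f) = rep f := fun f => by
    simp only [rep, hcomp, InfinitePlace.mk_conjugate_eq]
  -- real embeddings only for `p = 2`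
  have hrealroot : ∀ f : F →+* ℂ, (starRingEnd ℂ).comp f = f → ∀ z : rootsOfUnity p ℂ,
      cj (z : ℂˣ) = z := by
    intro f hf z
    by_cases hp2 : p = 2
    · subst hp2
      have h := (mem_rootsOfUnity' _ _).mp z.2
      refine Units.ext ?_
      rcases sq_eq_one_iff.mp h with h1 | h1 <;> simp [hcj, h1]
    · exact (isEmpty_realEmb hp2 hμ).elim ⟨f, hf⟩
  let W := {P // P ∈ primesOverT F T}
  let mkFin : (W → rootsOfUnity p ℚ̄) → Place → ℚ̄ˣ := fun a A =>
    if h : A.Over T then (a ⟨primeOf F A, primeOf_mem_primesOverT.mpr h⟩ : ℚ̄ˣ) else 1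
  let mkInf : (InfinitePlace F → rootsOfUnity p ℂ) → Emb → ℂˣ := fun b ι =>
    if ι.res F = rep (ι.res F) then (b (InfinitePlace.mk (ι.res F)) : ℂˣ)
    else cj (b (InfinitePlace.mk (ι.res F)) : ℂˣ)
  have hmem : ∀ a b, (⟨mkFin a, mkInf b⟩ : PreIdele) ∈ ideles F := by
    intro a b
    refine ⟨fun σ hσ => PreIdele.ext (funext fun A => Units.ext ?_) (funext fun ι => ?_),
      fun ι => ?_, T, fun A hA => ?_⟩
    · rw [PreIdele.coe_fin_smul]
      show σ (mkFin a (σ⁻¹ • A) : ℚ̄) = (mkFin a A : ℚ̄)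
      simp only [mkFin]
      by_cases hA : A.Over T
      · rw [dif_pos (hA.smul _), dif_pos hA]
        have e : (⟨primeOf F (σ⁻¹ • A), primeOf_mem_primesOverT.mpr (hA.smul _)⟩ : W) =
            ⟨primeOf F A, primeOf_mem_primesOverT.mpr hA⟩ :=
          Subtype.ext (primeOf_smul (F := F) (inv_mem hσ))
        rw [e]
        refine (IntermediateField.mem_fixingSubgroup_iff _ _).mp hσ _ (hμ _ ?_)
        exact congrArg Units.val ((mem_rootsOfUnity _ _).mp (a _).2)
      · rw [dif_neg (by simpa using hA), dif_neg hA, Units.val_one, map_one]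
    · show mkInf b (ι.comp (σ : ℚ̄ →+* ℚ̄)) = mkInf b ι
      have e : Emb.res F (ι.comp (σ : ℚ̄ →+* ℚ̄)) = ι.res F := RingHom.ext fun x =>
        congrArg ι ((IntermediateField.mem_fixingSubgroup_iff _ _).mp hσ _ x.2)
      simp only [mkInf, e]
    · show mkInf b ι.conj = cj (mkInf b ι)
      simp only [mkInf, res_conj, hrepc]
      rw [show InfinitePlace.mk ((starRingEnd ℂ).comp (ι.res F)) = InfinitePlace.mk (ι.res F) by
        rw [hcomp, InfinitePlace.mk_conjugate_eq]]
      set f := ι.res F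
      by_cases hreal : (starRingEnd ℂ).comp f = f
      · have hr : rep f = f := (hrep f).elim id (fun h => h.trans hreal)
        simp only [hreal, hr, if_true]
        exact (hrealroot f hreal _).symm
      · rcases hrep f with hr | hr
        · rw [if_neg (fun h => hreal (h.trans hr)), if_pos hr.symm]
        · rw [if_pos hr.symm, if_neg (fun h => hreal (h.trans hr).symm), hcjcj]
    · show mkFin a A ∈ _
      simp only [mkFin, dif_neg hA]
      exact one_mem _
  have hpow : ∀ a b, (⟨mkFin a, mkInf b⟩ : PreIdele) ^ p = 1 := by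
    intro a b
    refine PreIdele.ext (funext fun A => ?_) (funext fun ι => ?_)
    · show finHom A ((⟨mkFin a, mkInf b⟩ : PreIdele) ^ p) = 1
      rw [map_pow]
      show mkFin a A ^ p = 1
      simp only [mkFin]
      split_ifs with h
      · exact (mem_rootsOfUnity _ _).mp (a _).2
      · exact one_pow _
    · show infHom ι ((⟨mkFin a, mkInf b⟩ : PreIdele) ^ p) = 1
      rw [map_pow]
      show mkInf b ι ^ p = 1
      simp only [mkInf]
      split_ifs
      · exact (mem_rootsOfUnity _ _).mp (b _).2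
      · rw [← map_pow, (mem_rootsOfUnity _ _).mp (b _).2, map_one]
  let build : (W → rootsOfUnity p ℚ̄) × (InfinitePlace F → rootsOfUnity p ℂ) → LocalTorsion T p F :=
    fun ab => ⟨⟨mkFin ab.1, mkInf ab.2⟩, hmem ab.1 ab.2, hpow ab.1 ab.2, fun A hA => dif_neg hA⟩
  have hbij : Function.Bijective build := by
    constructor
    · rintro ⟨a, b⟩ ⟨a', b'⟩ h
      have h' := congrArg Subtype.val h
      refine Prod.ext (funext fun P => Subtype.ext ?_) (funext fun v => Subtype.ext ?_)
      · have hover : (placeAbove F P.1).Over T :=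
          primeOf_mem_primesOverT.mp (by rw [primeOf_placeAbove]; exact P.2)
        have h1 : mkFin a (placeAbove F P.1) = mkFin a' (placeAbove F P.1) :=
          congrFun (congrArg PreIdele.fin h') _
        simp only [mkFin, dif_pos hover, primeOf_placeAbove] at h1
        exact h1
      · have h1 : mkInf b (ext v.embedding) = mkInf b' (ext v.embedding) :=
          congrFun (congrArg PreIdele.inf h') _
        simp only [mkInf, rep, hext, InfinitePlace.mk_embedding, if_true] at h1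
        exact h1
    · rintro ⟨θ, hθ, hθp, hθoff⟩
      have hf : ∀ A : Place, θ.fin A ∈ rootsOfUnity p ℚ̄ := fun A =>
        (mem_rootsOfUnity _ _).mpr (by
          have := congrArg (finHom A) hθp
          rwa [map_pow, map_one] at this)
      have hi : ∀ ι : Emb, θ.inf ι ∈ rootsOfUnity p ℂ := fun ι =>
        (mem_rootsOfUnity _ _).mpr (by
          have := congrArg (infHom ι) hθp
          rwa [map_pow, map_one] at this)
      refine ⟨⟨fun P => ⟨_, hf (placeAbove F P.1)⟩, fun v => ⟨_, hi (ext v.embedding)⟩⟩,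
        Subtype.ext (PreIdele.ext (funext fun A => ?_) (funext fun ι => ?_))⟩
      · show mkFin _ A = _
        simp only [mkFin]
        split_ifs with hA
        · obtain ⟨σ, hσ, hσA⟩ := exists_smul_eq_of_primeOf_eq (F := F)
            (A := placeAbove F (primeOf F A)) (B := A) (primeOf_placeAbove _)
          refine Units.ext ?_
          conv_rhs => rw [← hσA, coe_smul_fin hθ hσ]
          exact ((IntermediateField.mem_fixingSubgroup_iff _ _).mp hσ _
            (hμ _ (congrArg Units.val ((mem_rootsOfUnity _ _).mp (hf _))))).symm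
        · exact (hθoff A hA).symm
      · show mkInf _ ι = _
        simp only [mkInf]
        rcases hrep (ι.res F) with hr | hr
        · rw [if_pos hr.symm]
          exact inf_eq_of_res_eq hθ (by rw [hext]; exact hr)
        · have hc : θ.inf (ext (rep (ι.res F))) = cj (θ.inf ι) := by
            rw [hcj, ← hθ.2.1]
            exact inf_eq_of_res_eq hθ (by rw [hext, res_conj, hr])
          split_ifs with hh
          · exact inf_eq_of_res_eq hθ (by rw [hext]; exact hh.symm)
          · show cj (θ.inf (ext (rep (ι.res F)))) = _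
            rw [hc, hcjcj]
  rw [← Nat.card_congr (Equiv.ofBijective build hbij), Nat.card_prod, Nat.card_fun, Nat.card_fun,
    HasEnoughRootsOfUnity.natCard_rootsOfUnity, HasEnoughRootsOfUnity.natCard_rootsOfUnity,
    Nat.card_eq_fintype_card, Nat.card_eq_fintype_card, Fintype.card_coe, numPlaces_eq_card,
    numInf_eq, ← pow_add]

omit hp in
theorem card_ker_awayQuot :
    Nat.card (powMonoidHom p : AwayQuot T F →* AwayQuot T F).ker =
      Nat.card (LocalTorsion T p F) := by
  let f : LocalTorsion T p F → (powMonoidHom p : AwayQuot T F →* AwayQuot T F).ker := fun θ =>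
    ⟨QuotientGroup.mk ⟨θ.1, θ.2.1⟩, MonoidHom.mem_ker.mpr
      ((QuotientGroup.mk_pow _ _ _).symm.trans
        ((congrArg QuotientGroup.mk (Subtype.ext θ.2.2.1)).trans (QuotientGroup.mk_one _)))⟩
  refine (Nat.card_congr (Equiv.ofBijective f ⟨?_, ?_⟩)).symm
  · rintro ⟨θ, hθ, hp1, hθ1⟩ ⟨θ', hθ', hp1', hθ'1⟩ h
    have h0 : (QuotientGroup.mk ⟨θ, hθ⟩ : AwayQuot T F) = QuotientGroup.mk ⟨θ', hθ'⟩ :=
      congrArg Subtype.val h
    have h' : θ⁻¹ * θ' ∈ awayIdeles T F :=
      Subgroup.mem_subgroupOf.mp (QuotientGroup.eq.mp h0)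
    refine Subtype.ext (PreIdele.ext (funext fun A => ?_) (funext fun ι => ?_))
    · by_cases hA : A.Over T
      · exact inv_mul_eq_one.mp (h'.2.1 A hA)
      · rw [hθ1 A hA, hθ'1 A hA]
    · exact inv_mul_eq_one.mp (congrFun h'.2.2 ι)
  · rintro ⟨c, hc⟩
    obtain ⟨φ, rfl⟩ := QuotientGroup.mk_surjective c
    have hφp : (φ : PreIdele) ^ p ∈ awayIdeles T F :=
      Subgroup.mem_subgroupOf.mp ((QuotientGroup.eq_one_iff _).mp
        ((QuotientGroup.mk_pow _ _ _).trans (MonoidHom.mem_ker.mp hc)))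
    refine ⟨⟨trunc T φ, trunc_mem φ.2, by rw [← map_pow, trunc_eq_one_of_away hφp],
      fun A hA => trunc_fin_of_not_over _ hA⟩, Subtype.ext (QuotientGroup.eq.mpr
        (Subgroup.mem_subgroupOf.mpr ?_))⟩
    show (trunc T (φ : PreIdele))⁻¹ * φ ∈ awayIdeles T F
    rw [inv_mul_eq_div]
    exact div_trunc_mem_away φ.2

/-- `q_p` of the ideles modulo those away from `T`. -/
theorem qInd_awayQuot (hT : ∀ q ∈ T, q.Prime) (hpT : p ∈ T) (hμ : ContainsMuP p F) :
    QFinite (powMonoidHom p : AwayQuot T F →* AwayQuot T F) ∧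
      qInd (powMonoidHom p : AwayQuot T F →* AwayQuot T F) =
        (p : ℚ) ^ (numPlaces T F + numInf F) := by
  have hk := (card_ker_awayQuot (T := T) (p := p) (F := F)).trans (card_localTorsion hμ)
  have hc := (card_quot_pow (ideles F) (awayIdeles T F) awayIdeles_le_ideles p).trans
    (relIndex_away_sup_pow' hT hpT hμ)
  have hp0 : p ≠ 0 := hp.out.ne_zero
  refine ⟨⟨Nat.finite_of_card_ne_zero (by rw [hc]; exact pow_ne_zero _ hp0),
    Nat.finite_of_card_ne_zero (by rw [hk]; exact pow_ne_zero _ hp0)⟩, ?_⟩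
  rw [qInd, hk, hc]
  push_cast
  rw [div_eq_iff (pow_ne_zero _ (by exact_mod_cast hp0)), ← pow_add]
  congr 1
  have := two_mul_numInf (F := F)
  omega

variable (T F) in
/-- The class of the components at `T ∪ ∞`. -/
def awayToClass : AwayQuot T F →* IdeleClass T F :=
  QuotientGroup.lift _
    ((QuotientGroup.mk' _).comp (((trunc T).comp (ideles F).subtype).codRestrict (ideles F)
      fun φ => trunc_mem φ.2))
    fun φ hφ => by
      rw [MonoidHom.mem_ker]
      refine (QuotientGroup.eq_one_iff _).mpr (Subgroup.mem_subgroupOf.mpr ?_)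
      show trunc T (φ : PreIdele) ∈ classKer T F
      rw [trunc_eq_one_of_away (Subgroup.mem_subgroupOf.mp hφ)]
      exact one_mem _

omit hp in
theorem awayToClass_mk (φ : ideles F) :
    awayToClass T F (QuotientGroup.mk φ) = QuotientGroup.mk ⟨trunc T φ, trunc_mem φ.2⟩ := rfl

omit hp in
theorem finite_coker_awayToClass : Finite (IdeleClass T F ⧸ (awayToClass T F).range) := by
  classical
  -- the ideal class of an idele
  have hcl : ∀ φ : ideles F, ∃ (ν : ℚ̄ˣ) (hint : ∀ A : Place,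
      A.1.valuation ((PreIdele.principalHom ν * φ.1).fin A : ℚ̄) ≤ 1), (ν : ℚ̄) ∈ F := by
    intro φ
    obtain ⟨N, hN0, hN⟩ := exists_natCast_mul_le_one φ.2
    exact ⟨Units.mk0 (N : ℚ̄) (Nat.cast_ne_zero.mpr hN0), hN, natCast_mem F N⟩
  choose ν hint hν using hcl
  have hmem : ∀ φ : ideles F, PreIdele.principalHom (ν φ) * φ.1 ∈ ideles F := fun φ =>
    mul_mem (principalHom_mem_ideles (hν φ)) φ.2
  let cl : ideles F → ClassGroup (𝓞 F) := fun φ => ClassGroup.mk0
    ⟨ideleIdeal F (PreIdele.principalHom (ν φ) * φ.1),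
      mem_nonZeroDivisors_of_ne_zero (ideleIdeal_ne_bot (hmem φ) (hint φ))⟩
  let s : IdeleClass T F ⧸ (awayToClass T F).range → ClassGroup (𝓞 F) := fun c => cl c.out.out
  refine Finite.of_injective s fun c d hcd => ?_
  have hc : QuotientGroup.mk (QuotientGroup.mk c.out.out) = c := by
    rw [QuotientGroup.out_eq', QuotientGroup.out_eq']
  have hd : QuotientGroup.mk (QuotientGroup.mk d.out.out) = d := by
    rw [QuotientGroup.out_eq', QuotientGroup.out_eq']
  rw [← hc, ← hd, QuotientGroup.eq]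
  set φ : ideles F := c.out.out
  set ψ : ideles F := d.out.out
  have heq : cl φ = cl ψ := hcd
  obtain ⟨a, b, ha, hb, hab⟩ := ClassGroup.mk0_eq_mk0_iff.mp heq
  set Φ := PreIdele.principalHom (ν φ) * φ.1
  set Ψ := PreIdele.principalHom (ν ψ) * ψ.1
  have key : ∀ A : Place, A.1.valuation ((a : F) : ℚ̄) * A.1.valuation (Φ.fin A : ℚ̄) =
      A.1.valuation ((b : F) : ℚ̄) * A.1.valuation (Ψ.fin A : ℚ̄) := by
    intro A
    have hle : ∀ (a b : 𝓞 F) (Φ Ψ : PreIdele), Φ ∈ ideles F →
        (∀ B : Place, B.1.valuation (Φ.fin B : ℚ̄) ≤ 1) →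
        Ideal.span {a} * ideleIdeal F Φ = Ideal.span {b} * ideleIdeal F Ψ →
        A.1.valuation ((a : F) : ℚ̄) * A.1.valuation (Φ.fin A : ℚ̄) ≤
          A.1.valuation ((b : F) : ℚ̄) * A.1.valuation (Ψ.fin A : ℚ̄) := by
      intro a b Φ Ψ hΦ hi h
      obtain ⟨r, hr, -, hr'⟩ := exists_mem_ideleIdeal hΦ hi A
      have hz : a * r ∈ Ideal.span {b} * ideleIdeal F Ψ :=
        h ▸ Ideal.mul_mem_mul (Ideal.mem_span_singleton_self a) hr
      have := valuation_le_of_mem_mul hz A
      simpa [map_mul, hr'] using this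
    exact le_antisymm (hle a b Φ Ψ (hmem φ) (hint φ) hab)
      (hle b a Ψ Φ (hmem ψ) (hint ψ) hab.symm)
  have ha' : ((a : F) : ℚ̄) ≠ 0 := by simpa using ha
  have hb' : ((b : F) : ℚ̄) ≠ 0 := by simpa using hb
  set x : ℚ̄ˣ := Units.mk0 _ ha' * ν φ / (Units.mk0 _ hb' * ν ψ) with hx
  have hxF : (x : ℚ̄) ∈ F := by
    rw [hx, Units.val_div_eq_div_val, Units.val_mul, Units.val_mul]
    exact div_mem (mul_mem (a : F).2 (hν φ)) (mul_mem (b : F).2 (hν ψ))
  set η : PreIdele := φ.1⁻¹ * ψ.1 / PreIdele.principalHom x with hη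
  have hηmem : η ∈ ideles F :=
    div_mem (mul_mem (inv_mem φ.2) ψ.2) (principalHom_mem_ideles hxF)
  have hηunit : ∀ A : Place, η.fin A ∈ A.1.unitGroup := by
    intro A
    rw [mem_unitGroup_iff]
    have hk := key A
    have e1 : (Φ.fin A : ℚ̄) = (ν φ : ℚ̄) * (φ.1.fin A : ℚ̄) := rfl
    have e2 : (Ψ.fin A : ℚ̄) = (ν ψ : ℚ̄) * (ψ.1.fin A : ℚ̄) := rfl
    rw [e1, e2, map_mul, map_mul] at hk
    have e3 : (η.fin A : ℚ̄) = ((φ.1.fin A : ℚ̄))⁻¹ * (ψ.1.fin A : ℚ̄) /
        (((a : F) : ℚ̄) * (ν φ : ℚ̄) / (((b : F) : ℚ̄) * (ν ψ : ℚ̄))) := by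
      show ((((φ.1.fin A)⁻¹ * ψ.1.fin A) / x : ℚ̄ˣ) : ℚ̄) = _
      rw [hx]
      simp [Units.val_div_eq_div_val]
    rw [e3]
    simp only [map_div₀, map_mul, map_inv₀]
    have n1 : A.1.valuation (φ.1.fin A : ℚ̄) ≠ 0 := by simp
    have n2 : A.1.valuation (ψ.1.fin A : ℚ̄) ≠ 0 := by simp
    have n3 : A.1.valuation (ν φ : ℚ̄) ≠ 0 := by simp
    have n4 : A.1.valuation (ν ψ : ℚ̄) ≠ 0 := by simp
    have n5 : A.1.valuation ((a : F) : ℚ̄) ≠ 0 := by simpa using ha'
    have n6 : A.1.valuation ((b : F) : ℚ̄) ≠ 0 := by simpa using hb'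
    rw [div_eq_one_iff_eq (div_ne_zero (mul_ne_zero n5 n3) (mul_ne_zero n6 n4)), inv_mul_eq_div,
      div_eq_div_iff n1 (mul_ne_zero n6 n4), mul_assoc (A.1.valuation ((a : F) : ℚ̄)), hk]
    ac_rfl
  refine ⟨QuotientGroup.mk ⟨η, hηmem⟩, ?_⟩
  rw [awayToClass_mk, ← QuotientGroup.mk_inv, ← QuotientGroup.mk_mul, QuotientGroup.eq,
    Subgroup.mem_subgroupOf]
  show (trunc T η)⁻¹ * (φ.1⁻¹ * ψ.1) ∈ classKer T F
  rw [show (trunc T η)⁻¹ * (φ.1⁻¹ * ψ.1) = PreIdele.principalHom x * (η / trunc T η) by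
    rw [hη, div_right_comm, mul_div_cancel, inv_mul_eq_div]]
  refine Subgroup.mul_mem_sup ⟨x, hxF, rfl⟩ ⟨div_trunc_mem_away hηmem, fun A => ?_⟩
  show η.fin A / (trunc T η).fin A ∈ _
  refine div_mem (hηunit A) ?_
  by_cases hA : A.Over T
  · rw [trunc_fin_of_over η hA]; exact hηunit A
  · rw [trunc_fin_of_not_over η hA]; exact one_mem _

variable (T F) in
/-- A `T`-unit as an idele modulo those away from `T`. -/
def tUnitToAway : tUnits T F →* AwayQuot T F :=
  (QuotientGroup.mk' _).comp ((PreIdele.principalHom.comp (tUnits T F).subtype).codRestrict _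
    fun x => principalHom_mem_ideles x.2.1)

omit hp in
theorem tUnitToAway_injective : Function.Injective (tUnitToAway T F) := by
  intro x y h
  have h' : (PreIdele.principalHom (x : ℚ̄ˣ))⁻¹ * PreIdele.principalHom (y : ℚ̄ˣ) ∈ awayIdeles T F :=
    Subgroup.mem_subgroupOf.mp (QuotientGroup.eq.mp h)
  exact Subtype.ext (eq_of_inf_eq (funext fun ι => inv_mul_eq_one.mp (congrFun h'.2.2 ι)))

omit hp in
theorem range_tUnitToAway : (tUnitToAway T F).range = (awayToClass T F).rangeRestrict.ker := by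
  rw [MonoidHom.ker_rangeRestrict]
  ext c
  obtain ⟨φ, rfl⟩ := QuotientGroup.mk_surjective c
  rw [MonoidHom.mem_ker, awayToClass_mk, QuotientGroup.eq_one_iff, Subgroup.mem_subgroupOf]
  constructor
  · rintro ⟨x, hx⟩
    have h' : (PreIdele.principalHom (x : ℚ̄ˣ))⁻¹ * φ.1 ∈ awayIdeles T F :=
      Subgroup.mem_subgroupOf.mp (QuotientGroup.eq.mp hx)
    have ht : trunc T φ.1 = trunc T (PreIdele.principalHom (x : ℚ̄ˣ)) := by
      have := trunc_eq_one_of_away h'
      rw [map_mul, map_inv, inv_mul_eq_one] at this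
      exact this.symm
    show trunc T φ.1 ∈ classKer T F
    rw [ht]
    set P := PreIdele.principalHom (x : ℚ̄ˣ)
    rw [show trunc T P = P * (P / trunc T P)⁻¹ by simp]
    refine Subgroup.mul_mem_sup ⟨_, x.2.1, rfl⟩ (inv_mem
      ⟨div_trunc_mem_away (principalHom_mem_ideles x.2.1), fun A => ?_⟩)
    show P.fin A / (trunc T P).fin A ∈ _
    by_cases hA : A.Over T
    · rw [trunc_fin_of_over P hA, div_self']; exact one_mem _
    · rw [trunc_fin_of_not_over P hA, div_one]; exact x.2.2 A hA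
  · intro h
    change trunc T φ.1 ∈ classKer T F at h
    obtain ⟨_, ⟨x, hxF, rfl⟩, u, hu, he⟩ := Subgroup.mem_sup.mp h
    have hx : x ∈ tUnits T F := ⟨hxF, fun A hA => by
      have h1 : x * u.fin A = 1 := by
        rw [← trunc_fin_of_not_over φ.1 hA, ← he]; rfl
      rw [eq_inv_of_mul_eq_one_left h1]
      exact inv_mem (hu.2 A)⟩
    refine ⟨⟨x, hx⟩, QuotientGroup.eq.mpr (Subgroup.mem_subgroupOf.mpr ?_)⟩
    show (PreIdele.principalHom x)⁻¹ * φ.1 ∈ awayIdeles T F
    rw [show (PreIdele.principalHom x)⁻¹ * φ.1 = u * (φ.1 / trunc T φ.1) by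
      rw [← he, mul_comm (PreIdele.principalHom x) u, ← mul_div_assoc, mul_div_mul_left_eq_div,
        inv_mul_eq_div]]
    exact mul_mem hu.1 (div_trunc_mem_away φ.2)

/-- `q_p(C_T(F)) = p`. -/
theorem qInd_ideleClass (hT : ∀ q ∈ T, q.Prime) (hpT : p ∈ T) (hμ : ContainsMuP p F) :
    QFinite (powMonoidHom p : IdeleClass T F →* IdeleClass T F) ∧
      qInd (powMonoidHom p : IdeleClass T F →* IdeleClass T F) = p := by
  obtain ⟨hQ, hQv⟩ := qInd_awayQuot hT hpT hμ
  obtain ⟨hU, hUv⟩ := qInd_tUnits (T := T) (p := p) (F := F)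
  obtain ⟨hR, hRv⟩ := qPow_of_exact_right p (tUnitToAway T F) (awayToClass T F).rangeRestrict
    tUnitToAway_injective (awayToClass T F).rangeRestrict_surjective range_tUnitToAway hU hQ
  have := finite_coker_awayToClass (T := T) (F := F)
  obtain ⟨hC, hCv⟩ := qPow_of_finite_coker p (awayToClass T F).range hR
  refine ⟨hC, ?_⟩
  rw [hCv]
  rw [hQv, ← hUv] at hRv
  exact (mul_left_cancel₀ (qInd_pos hU).ne' hRv).symm

/-- `C_T(F)/p` has `p` times as many elements as `C_T(F)[p]`. -/
theorem card_classes' (hT : ∀ q ∈ T, q.Prime) (hpT : p ∈ T) (hμ : ContainsMuP p F) :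
    0 < Nat.card (IdeleClassModP T p F) ∧
    Nat.card (IdeleClassModP T p F) = p * Nat.card {c : IdeleClass T F // c ^ p = 1} := by
  obtain ⟨hC, hCv⟩ := qInd_ideleClass (p := p) hT hpT hμ
  have := hC.coker
  have := hC.ker
  have e : Nat.card (IdeleClassModP T p F) = Nat.card (IdeleClass T F ⧸
      (powMonoidHom p : IdeleClass T F →* IdeleClass T F).range) := by
    rw [card_quot_pow _ _ classKer_le_ideles']
    exact (Subgroup.index_eq_card _).symm
  have h := qInd_ker_mul hC
  rw [hCv] at h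
  refine ⟨by rw [e]; exact Nat.card_pos, ?_⟩
  rw [e]
  exact_mod_cast h.symm

end FLTAgent.TW
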