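import Fermat.Agent.TW.Idele.Infinite
import Fermat.Agent.TW.Idele.Basic

/-!
# Ideles modulo the ideles away from `T` and `p`-th powers

An idele whose components above `T` are `p`-th powers in the decomposition fields and whose real
components are `p`-th powers is a `p`-th power times an idele away from `T`.  With weak
approximation this computes `(ideles F) / (awayIdeles T F ⊔ powIdeles p F)` inside `Fˣ`.
-/

set_option autoImplicit false
set_option synthInstance.maxHeartbeats 200000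
set_option maxHeartbeats 1000000

noncomputable section

open IsDedekindDomain NumberField
open scoped Pointwise NumberField

namespace FLTAgent.TW

local notation "ℚ̄" => AlgebraicClosure ℚ
local notation "Γ" => (AlgebraicClosure ℚ ≃ₐ[ℚ] AlgebraicClosure ℚ)

attribute [local instance] numberField_intermediate

variable {T : Finset ℕ} {p : ℕ} [hp : Fact p.Prime] {F : IntermediateField ℚ ℚ̄}
  [FiniteDimensional ℚ F]

/-- Components which are `p`-th powers give a `p`-th power away from `T`. -/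
theorem mem_away_sup_pow {θ : PreIdele} (hθ : θ ∈ ideles F)
    (hfin : ∀ A : Place, A.Over T → θ.fin A ∈ decPow p F A)
    (hinf : ∀ ι : Emb, (starRingEnd ℂ).comp (ι.res F) = ι.res F →
      ∃ r : ℝ, (r : ℂ) ^ p = θ.inf ι) :
    θ ∈ awayIdeles T F ⊔ powIdeles p F := by
  classical
  -- roots above `T`
  have hroot : ∀ P : HeightOneSpectrum (𝓞 F), ∃ t : ℚ̄ˣ, (placeAbove F P).Over T →
      t ^ p = θ.fin (placeAbove F P) ∧
      ∀ σ ∈ F.fixingSubgroup, σ • placeAbove F P = placeAbove F P → σ (t : ℚ̄) = t := by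
    intro P
    by_cases h : (placeAbove F P).Over T
    · obtain ⟨t, ht⟩ := hfin _ h
      exact ⟨t, fun _ => ht⟩
    · exact ⟨1, fun h' => absurd h' h⟩
  choose t ht using hroot
  have htrans : ∀ B : Place, ∃ σ ∈ F.fixingSubgroup, σ • placeAbove F (primeOf F B) = B := fun B =>
    exists_smul_eq_of_primeOf_eq (F := F) (primeOf_placeAbove _)
  choose g hg hgB using htrans
  let fn : Place → ℚ̄ˣ := fun B =>
    if B.Over T then Units.map ((g B : Γ) : ℚ̄ →* ℚ̄) (t (primeOf F B)) else 1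
  have hfn : ∀ τ ∈ F.fixingSubgroup, ∀ B : Place, (fn (τ • B) : ℚ̄) = τ (fn B : ℚ̄) := by
    intro τ hτ B
    by_cases hB : B.Over T
    · have hP : primeOf F (τ • B) = primeOf F B := primeOf_smul (F := F) hτ
      simp only [fn, if_pos hB, if_pos (hB.smul τ), hP, Units.coe_map, MonoidHom.coe_coe]
      set A₀ := placeAbove F (primeOf F B) with hA₀
      have hT₀ : A₀.Over T := by
        rw [Place.over_iff, char_placeAbove (A := B) rfl, ← Place.over_iff]; exact hB
      have hmem : (g (τ • B))⁻¹ * (τ * g B) ∈ F.fixingSubgroup :=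
        mul_mem (inv_mem (hg _)) (mul_mem hτ (hg _))
      have hfix := (ht _ hT₀).2 _ hmem (by
        rw [mul_smul, mul_smul, hgB B, inv_smul_eq_iff]
        have := hgB (τ • B)
        rw [hP] at this
        exact this.symm)
      rw [AlgEquiv.mul_apply] at hfix
      have h2 := congrArg (g (τ • B)) hfix
      rw [← AlgEquiv.mul_apply (g (τ • B)), mul_inv_cancel, AlgEquiv.one_apply,
        AlgEquiv.mul_apply] at h2
      exact h2.symm
    · simp [fn, if_neg hB, hB]
  have hfnp : ∀ B : Place, B.Over T → fn B ^ p = θ.fin B := by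
    intro B hB
    have hT₀ : (placeAbove F (primeOf F B)).Over T := by
      rw [Place.over_iff, char_placeAbove (A := B) rfl, ← Place.over_iff]; exact hB
    simp only [fn, if_pos hB]
    rw [← map_pow, (ht _ hT₀).1]
    ext
    rw [Units.coe_map, MonoidHom.coe_coe, ← coe_smul_fin hθ (hg B), hgB B]
  -- roots at infinity
  choose ext hext using exists_res_eq (F := F)
  have hval : ∀ (ι : Emb) (f : F →+* ℂ), ι.res F = f → θ.inf ι = θ.inf (ext f) := fun ι f h =>
    inf_eq_of_res_eq hθ (by rw [h, hext])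
  have hinfroot : ∀ f : F →+* ℂ, ∃ z : ℂˣ, z ^ p = θ.inf (ext f) ∧
      ((starRingEnd ℂ).comp f = f → Units.map (starRingEnd ℂ : ℂ →* ℂ) z = z) := by
    intro f
    by_cases hf : (starRingEnd ℂ).comp f = f
    · obtain ⟨r, hr⟩ := hinf (ext f) (by rw [hext]; exact hf)
      have hr0 : (r : ℂ) ≠ 0 := fun h => (θ.inf (ext f)).ne_zero (by
        rw [← hr, h, zero_pow hp.out.ne_zero])
      exact ⟨Units.mk0 _ hr0, Units.ext hr, fun _ => Units.ext (Complex.conj_ofReal r)⟩
    · obtain ⟨z, hz⟩ := IsAlgClosed.exists_pow_nat_eq (θ.inf (ext f) : ℂ) hp.out.pos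
      have hz0 : z ≠ 0 := fun h => (θ.inf (ext f)).ne_zero (by rw [← hz, h, zero_pow hp.out.ne_zero])
      exact ⟨Units.mk0 z hz0, Units.ext hz, fun h => absurd h hf⟩
  choose z hz hzreal using hinfroot
  set cj := Units.map (starRingEnd ℂ : ℂ →* ℂ) with hcj
  let rep : (F →+* ℂ) → (F →+* ℂ) := fun f => (InfinitePlace.mk f).embedding
  let w : (F →+* ℂ) → ℂˣ := fun f => if f = rep f then z f else cj (z (rep f))
  have hrep : ∀ f : F →+* ℂ, rep f = f ∨ rep f = (starRingEnd ℂ).comp f := by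
    intro f
    rcases InfinitePlace.embedding_mk_eq f with h | h
    · exact Or.inl h
    · exact Or.inr (h.trans (RingHom.ext fun x => rfl))
  have hrepc : ∀ f : F →+* ℂ, rep ((starRingEnd ℂ).comp f) = rep f := by
    intro f
    simp only [rep]
    rw [show (starRingEnd ℂ).comp f = ComplexEmbedding.conjugate f from RingHom.ext fun x => rfl,
      InfinitePlace.mk_conjugate_eq]
  have hcc : ∀ f : F →+* ℂ, (starRingEnd ℂ).comp ((starRingEnd ℂ).comp f) = f := fun f =>
    RingHom.ext fun x => Complex.conj_conj _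
  have hcjcj : ∀ u : ℂˣ, cj (cj u) = u := fun u => Units.ext (Complex.conj_conj _)
  have hwp : ∀ f, w f ^ p = θ.inf (ext f) := by
    intro f
    simp only [w]
    split_ifs with h
    · exact hz f
    · rw [← map_pow, hz]
      have hr := (hrep f).resolve_left (Ne.symm h)
      rw [hcj, ← hθ.2.1]
      exact inf_eq_of_res_eq hθ (by rw [res_conj, hext, hext, hr, hcc])
  have hwc : ∀ f, w ((starRingEnd ℂ).comp f) = cj (w f) := by
    intro f
    simp only [w, hrepc]
    by_cases hreal : (starRingEnd ℂ).comp f = f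
    · have hr : rep f = f := (hrep f).elim id (fun h => h.trans hreal)
      simp only [hreal, hr, if_true]
      exact (hzreal f hreal).symm
    · rcases hrep f with hr | hr
      · rw [if_pos hr.symm, if_neg (fun h => hreal (h.trans hr)), hr]
      · rw [if_pos hr.symm, if_neg (fun h => hreal (h.trans hr).symm), hcjcj, hr]
  set ψ : PreIdele := ⟨fn, fun ι => w (ι.res F)⟩ with hψ
  have hψmem : ψ ∈ ideles F := by
    refine ⟨fun σ hσ => ?_, fun ι => ?_, T, fun A hA => ?_⟩
    · refine PreIdele.ext (funext fun A => Units.ext ?_) (funext fun ι => ?_)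
      · rw [PreIdele.coe_fin_smul]
        show σ (fn (σ⁻¹ • A) : ℚ̄) = _
        rw [← hfn σ hσ, smul_inv_smul]
      · show w (Emb.res F (ι.comp (σ : ℚ̄ →+* ℚ̄))) = w (ι.res F)
        congr 1
        exact RingHom.ext fun x => congrArg ι
          ((IntermediateField.mem_fixingSubgroup_iff _ _).mp hσ _ x.2)
    · show w (ι.conj.res F) = cj (w (ι.res F))
      rw [res_conj, hwc]
    · show fn A ∈ _
      simp only [fn, if_neg hA]
      exact one_mem _
  refine Subgroup.mem_sup.mpr ⟨θ / ψ ^ p, ⟨div_mem hθ (pow_mem hψmem p), fun A hA => ?_,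
    funext fun ι => ?_⟩, ψ ^ p, ⟨ψ, hψmem, rfl⟩, div_mul_cancel _ _⟩
  · show finHom A (θ / ψ ^ p) = 1
    rw [map_div, map_pow]
    exact div_eq_one.mpr (hfnp A hA).symm
  · show infHom ι (θ / ψ ^ p) = 1
    rw [map_div, map_pow]
    refine div_eq_one.mpr ?_
    show θ.inf ι = w (ι.res F) ^ p
    rw [hwp, ← hval ι _ rfl]

theorem component_of_mem {θ : PreIdele} (hθ : θ ∈ awayIdeles T F ⊔ powIdeles p F) :
    (∀ A : Place, A.Over T → θ.fin A ∈ decPow p F A) ∧
    ∀ ι : Emb, (starRingEnd ℂ).comp (ι.res F) = ι.res F → ∃ r : ℝ, (r : ℂ) ^ p = θ.inf ι := by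
  obtain ⟨a, ⟨-, ha1, ha2⟩, _, ⟨ψ, hψ, rfl⟩, rfl⟩ := Subgroup.mem_sup.mp hθ
  refine ⟨fun A hA => ?_, fun ι hι => ⟨((ψ.inf ι : ℂ)).re, ?_⟩⟩
  · show finHom A (a * ψ ^ p) ∈ decPow p F A
    rw [map_mul, map_pow, show finHom A a = 1 from ha1 A hA, one_mul]
    exact pow_mem_decPow fun σ hσ hA => fin_fixed hψ A hσ hA
  · show ((ψ.inf ι : ℂ).re : ℂ) ^ p = (infHom ι (a * ψ ^ p) : ℂ)
    rw [map_mul, map_pow, show infHom ι a = 1 from congrFun ha2 ι, one_mul,
      Units.val_pow_eq_pow_val, inf_real hψ hι]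
    rfl

/-- Depth below which an element is a `p`-th power in the decomposition field. -/
theorem exists_depth (hμ : ContainsMuP p F) (T : Finset ℕ) : ∃ n : ℕ, ∀ (A : Place) (x : ℚ̄ˣ),
    A.Over T → (∀ σ ∈ F.fixingSubgroup, σ • A = A → σ (x : ℚ̄) = x) →
    A.1.valuation ((x : ℚ̄) - 1) ≤ A.1.valuation (A.char : ℚ̄) ^ n → x ∈ decPow p F A := by
  obtain ⟨ζ, hζ⟩ := exists_primitiveRoot_qbar p
  let z : F := ⟨ζ, hμ ζ hζ.pow_eq_one⟩
  have hne : (p : F) * (z - 1) ≠ 0 := by
    refine mul_ne_zero (Nat.cast_ne_zero.mpr hp.out.ne_zero) (sub_ne_zero.mpr fun h => ?_)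
    exact hζ.ne_one hp.out.one_lt (congrArg Subtype.val h)
  obtain ⟨k, hk⟩ := exists_pow_le_of_ne_zero (primesOverT F T) (fun _ => (p : F) * (z - 1))
    fun _ _ => hne
  refine ⟨k + 1, fun A x hA hfix hx => mem_decPow_of_near hζ z.2 hfix ?_⟩
  have h := hk A (primeOf_mem_primesOverT.mpr hA)
  have e : (((p : F)) : ℚ̄) = (p : ℚ̄) := map_natCast F.val p
  rw [IntermediateField.coe_mul, map_mul, AddSubgroupClass.coe_sub, OneMemClass.coe_one, e] at h
  exact lt_of_le_of_lt hx (lt_of_lt_of_le (pow_lt_pow_right_of_lt_one₀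
    (zero_lt_iff.mpr A.valuation_char_ne_zero) A.valuation_char_lt_one k.lt_succ_self) h)

theorem exists_real_root_of_pos {a : ℝ} (ha : 0 < a) :
    ∃ r : ℝ, (r : ℂ) ^ p = (a : ℂ) :=
  ⟨a ^ ((p : ℝ)⁻¹), by rw [← Complex.ofReal_pow, Real.rpow_inv_natCast_pow ha.le hp.out.ne_zero]⟩

/-- Approximation at `T` and at the real places. -/
theorem ideles_le_principal_sup' (hT : ∀ q ∈ T, q.Prime) (hne : T.Nonempty) (hμ : ContainsMuP p F) :
    ideles F ≤ principal F ⊔ (awayIdeles T F ⊔ powIdeles p F) := by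
  classical
  intro φ hφ
  obtain ⟨n, hn⟩ := exists_depth hμ T
  obtain ⟨x, hx0, hx⟩ := exists_idele_approx hφ (primesOverT F T) (n + 1)
  choose ext hext using exists_res_eq (F := F)
  obtain ⟨x', hx', hs⟩ := exists_sign_adjust hT hne (Units.mk0 x hx0)
    (fun f => if 0 < (φ.inf (ext f.1) : ℂ).re then 1 else -1) (n + 1)
  set u : ℚ̄ˣ := Units.map (algebraMap F ℚ̄ : F →* ℚ̄) x' with hu
  have huF : (u : ℚ̄) ∈ F := (x' : F).2
  have hprin : PreIdele.principalHom u ∈ principal F := ⟨u, huF, rfl⟩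
  refine Subgroup.mem_sup.mpr ⟨_, hprin, φ / PreIdele.principalHom u, ?_, mul_div_cancel _ _⟩
  have hθ : φ / PreIdele.principalHom u ∈ ideles F :=
    div_mem hφ (principal_le_ideles hprin)
  refine mem_away_sup_pow hθ (fun A hA => hn A _ hA (fun σ hσ hA' => fin_fixed hθ A hσ hA') ?_)
    fun ι hι => ?_
  · have h1 := hx A (primeOf_mem_primesOverT.mpr hA)
    have h2 := hx' A hA
    set q := A.1.valuation (A.char : ℚ̄) with hq
    have hq1 : q ^ (n + 1) < 1 :=
      pow_lt_one₀ zero_le A.valuation_char_lt_one (Nat.succ_ne_zero n)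
    have hφ0 : (φ.fin A : ℚ̄) ≠ 0 := Units.ne_zero _
    have hx'0 : ((x' : F) : ℚ̄) ≠ 0 := by simp
    have hx00 : (x : ℚ̄) ≠ 0 := by simpa using hx0
    rw [Units.val_mk0] at h2
    set s := ((x' : F) : ℚ̄) / (φ.fin A : ℚ̄) with hs'
    have hs1 : A.1.valuation (s - 1) ≤ q ^ (n + 1) := by
      have e : s - 1 = (((x' : F) : ℚ̄) / (x : ℚ̄) - 1) * ((x : ℚ̄) / (φ.fin A : ℚ̄))
          + ((x : ℚ̄) / (φ.fin A : ℚ̄) - 1) := by
        rw [hs']; field_simp; ring
      rw [e]
      refine le_trans (A.1.valuation.map_add _ _) (max_le ?_ h1)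
      rw [map_mul]
      refine le_trans (mul_le_mul_left h2 _) (mul_le_of_le_one_right' ?_)
      rw [← sub_add_cancel ((x : ℚ̄) / (φ.fin A : ℚ̄)) 1]
      exact le_trans (A.1.valuation.map_add _ _) (max_le (h1.trans hq1.le) (by simp))
    have hsv : A.1.valuation s = 1 := by
      rw [← sub_add_cancel s 1, Valuation.map_add_eq_of_lt_right _ (by
        rw [map_one]; exact lt_of_le_of_lt hs1 hq1), map_one]
    have e : (((φ / PreIdele.principalHom u).fin A : ℚ̄ˣ) : ℚ̄) = s⁻¹ := by
      rw [hs', inv_div]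
      show ((φ.fin A / u : ℚ̄ˣ) : ℚ̄) = _
      rw [Units.val_div_eq_div_val]
      rfl
    rw [e]
    have hs0 : s ≠ 0 := fun h => by simp [h] at hsv
    rw [show s⁻¹ - 1 = -((s - 1) * s⁻¹) by field_simp; ring, Valuation.map_neg, map_mul, map_inv₀,
      hsv, inv_one, mul_one]
    exact hs1.trans (pow_le_pow_of_le_one zero_le A.valuation_char_lt_one.le n.le_succ)
  · set f : RealEmb F := ⟨ι.res F, hι⟩
    have hφι : φ.inf (ext f.1) = φ.inf ι := inf_eq_of_res_eq hφ (hext _)
    have hsf := hs f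
    rw [hφι] at hsf
    have hre : ((φ.inf ι : ℂ)).re ≠ 0 := fun h => (φ.inf ι).ne_zero (by
      rw [← inf_real hφ hι, h, Complex.ofReal_zero])
    have hval : ((φ / PreIdele.principalHom u).inf ι : ℂ) =
        (((φ.inf ι : ℂ)).re / (f.1 (x' : F)).re : ℝ) := by
      show ((φ.inf ι / Units.map (ι : ℚ̄ →* ℂ) u : ℂˣ) : ℂ) = _
      rw [Units.val_div_eq_div_val, Complex.ofReal_div, inf_real hφ hι, f.coe_re]
      rfl
    have hpos : 0 < ((φ.inf ι : ℂ)).re / (f.1 (x' : F)).re := by
      rcases lt_or_gt_of_ne hre with h | h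
      · rw [if_neg h.not_gt] at hsf
        have h' : ¬ 0 < (f.1 (x' : F)).re := fun hc => by
          rw [(realSign_eq_one_iff f x').mpr hc] at hsf
          exact absurd hsf (by decide)
        refine div_pos_of_neg_of_neg h (lt_of_le_of_ne (not_lt.mp h') fun h0 => x'.ne_zero ?_)
        have := f.coe_re (x' : F)
        rw [h0, Complex.ofReal_zero] at this
        exact f.1.injective (by rw [← this, map_zero])
      · rw [if_pos h] at hsf
        exact div_pos h ((realSign_eq_one_iff f x').mp hsf)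
    obtain ⟨r, hr⟩ := exists_real_root_of_pos (p := p) hpos
    exact ⟨r, by rw [hval, hr]⟩

/-- The local classes of an element of `F`. -/
def classMap (T : Finset ℕ) (p : ℕ) (F : IntermediateField ℚ ℚ̄) [FiniteDimensional ℚ F] :
    Fˣ →* (∀ P : {P // P ∈ primesOverT F T}, Fˣ ⧸ locSub p F (placeAbove F P.1)) ×
      (RealEmb F → ℤˣ) :=
  MonoidHom.prod (MonoidHom.pi fun _ => QuotientGroup.mk' _) (MonoidHom.pi fun f => realSign f)

theorem classMap_surjective (hT : ∀ q ∈ T, q.Prime) (hne : T.Nonempty) (hμ : ContainsMuP p F) :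
    Function.Surjective (classMap T p F) := by
  classical
  rintro ⟨c, s⟩
  choose a ha using fun P => QuotientGroup.mk_surjective (c P)
  obtain ⟨n, hn⟩ := exists_depth hμ T
  set a' : HeightOneSpectrum (𝓞 F) → F := fun P =>
    if h : P ∈ primesOverT F T then (a ⟨P, h⟩ : F) else 1 with ha'
  have ha'0 : ∀ P ∈ primesOverT F T, a' P ≠ 0 := fun P h => by
    simp only [ha', dif_pos h]; exact Units.ne_zero _
  obtain ⟨k, hk⟩ := exists_pow_le_of_ne_zero (primesOverT F T) a' ha'0
  obtain ⟨x, hx⟩ := exists_weak_approx (primesOverT F T) a' (n + 1 + k)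
  have hxa : ∀ A : Place, A.Over T →
      A.1.valuation ((x : ℚ̄) / (a' (primeOf F A) : ℚ̄) - 1) ≤
        A.1.valuation (A.char : ℚ̄) ^ (n + 1) := by
    intro A hA
    have hm : primeOf F A ∈ primesOverT F T := primeOf_mem_primesOverT.mpr hA
    have h0 : ((a' (primeOf F A) : F) : ℚ̄) ≠ 0 := by simpa using ha'0 _ hm
    rw [div_sub_one h0, map_div₀, div_le_iff₀ (zero_lt_iff.mpr (by simpa using h0))]
    refine (hx A hm).trans ?_
    rw [pow_add]
    exact mul_le_mul_right (hk A hm) _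
  have hx0 : x ≠ 0 := by
    obtain ⟨q, hq⟩ := hne
    obtain ⟨A₀, hA₀⟩ := GalCommon.exists_liesOverPrime (hT q hq)
    let A₁ : Place := ⟨A₀, q, hT q hq, hA₀⟩
    intro h
    have h1 := hxa A₁ ⟨q, hq, hT q hq, hA₀⟩
    rw [h, ZeroMemClass.coe_zero, zero_div, zero_sub, Valuation.map_neg, map_one] at h1
    exact absurd h1 (not_le.mpr (pow_lt_one₀ zero_le A₁.valuation_char_lt_one (Nat.succ_ne_zero n)))
  obtain ⟨x', hx', hs⟩ := exists_sign_adjust hT hne (Units.mk0 x hx0) s (n + 1)
  refine ⟨x', Prod.ext (funext fun P => ?_) (funext hs)⟩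
  show QuotientGroup.mk x' = c P
  rw [← ha P, eq_comm, QuotientGroup.eq, locSub, Subgroup.mem_comap]
  set A := placeAbove F P.1 with hA
  have hover : A.Over T := primeOf_mem_primesOverT.mp (by rw [hA, primeOf_placeAbove]; exact P.2)
  refine hn A _ hover (fun σ hσ _ =>
    (IntermediateField.mem_fixingSubgroup_iff _ _).mp hσ _ (((a P)⁻¹ * x' : Fˣ) : F).2) ?_
  have h1 := hxa A hover
  have h2 := hx' A hover
  rw [Units.val_mk0] at h2
  have hA' : a' (primeOf F A) = (a P : F) := by
    simp only [ha', hA, primeOf_placeAbove, dif_pos P.2]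
  rw [hA'] at h1
  have hx00 : (x : ℚ̄) ≠ 0 := by simpa using hx0
  have ha0 : (((a P : Fˣ) : F) : ℚ̄) ≠ 0 := by simp
  show A.1.valuation (((((a P)⁻¹ * x' : Fˣ) : F) : ℚ̄) - 1) ≤ _
  have hq1 : A.1.valuation (A.char : ℚ̄) ^ (n + 1) ≤ 1 :=
    pow_le_one₀ zero_le A.valuation_char_lt_one.le
  rw [show ((((a P)⁻¹ * x' : Fˣ) : F) : ℚ̄) - 1 =
    (((x' : F) : ℚ̄) / (x : ℚ̄) - 1) * ((x : ℚ̄) / (((a P : Fˣ) : F) : ℚ̄))
      + ((x : ℚ̄) / (((a P : Fˣ) : F) : ℚ̄) - 1) by push_cast; field_simp; ring]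
  refine le_trans ?_ (pow_le_pow_of_le_one zero_le A.valuation_char_lt_one.le n.le_succ)
  refine le_trans (A.1.valuation.map_add _ _) (max_le ?_ h1)
  rw [map_mul]
  refine le_trans (mul_le_mul_left h2 _) (mul_le_of_le_one_right' ?_)
  rw [← sub_add_cancel ((x : ℚ̄) / (((a P : Fˣ) : F) : ℚ̄)) 1]
  exact le_trans (A.1.valuation.map_add _ _) (max_le (h1.trans hq1) (by simp))

theorem locSub_eq_of_primeOf_eq {A B : Place} (h : primeOf F A = primeOf F B) :
    locSub p F A = locSub p F B := by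
  suffices key : ∀ A B : Place, primeOf F A = primeOf F B → locSub p F A ≤ locSub p F B from
    le_antisymm (key A B h) (key B A h.symm)
  intro A B h x hx
  obtain ⟨t, ht, hfix⟩ := hx
  obtain ⟨σ, hσ, rfl⟩ := exists_smul_eq_of_primeOf_eq (F := F) h
  refine ⟨Units.map (σ : ℚ̄ →* ℚ̄) t, ?_, fun τ hτ hτA => ?_⟩
  · rw [← map_pow, ht]
    exact Units.ext ((IntermediateField.mem_fixingSubgroup_iff _ _).mp hσ _ (x : F).2)
  · have h1 := hfix (σ⁻¹ * (τ * σ)) (mul_mem (inv_mem hσ) (mul_mem hτ hσ))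
      (by rw [mul_smul, mul_smul, hτA, inv_smul_smul])
    rw [AlgEquiv.mul_apply, AlgEquiv.mul_apply] at h1
    have h2 := congrArg σ h1
    rw [← AlgEquiv.mul_apply σ, mul_inv_cancel, AlgEquiv.one_apply] at h2
    exact h2

theorem index_ker_of_surjective {G M : Type*} [Group G] [MulOneClass M] (f : G →* M)
    (hf : Function.Surjective f) : f.ker.index = Nat.card M := by
  have h : ∀ a b : G, a⁻¹ * b ∈ f.ker → f a = f b := fun a b h => by
    have e : f b = f a * f (a⁻¹ * b) := by rw [← map_mul, mul_inv_cancel_left]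
    rw [e, MonoidHom.mem_ker.mp h, mul_one]
  refine Nat.card_congr (Equiv.ofBijective
    (Quotient.lift f fun a b hab => h a b (QuotientGroup.leftRel_apply.mp hab))
    ⟨?_, fun m => ⟨QuotientGroup.mk (hf m).choose, (hf m).choose_spec⟩⟩)
  intro x y
  refine Quotient.inductionOn₂ x y fun a b hab => Quotient.sound ?_
  refine QuotientGroup.leftRel_apply.mpr (MonoidHom.mem_ker.mpr ?_)
  have hab' : f a = f b := hab
  rw [map_mul, ← hab', ← map_mul, inv_mul_cancel, map_one]

/-- The index in the ideles. -/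
theorem relIndex_away_sup_pow' (hT : ∀ q ∈ T, q.Prime) (hpT : p ∈ T) (hμ : ContainsMuP p F) :
    (awayIdeles T F ⊔ powIdeles p F).relIndex (ideles F) =
      p ^ (Module.finrank ℚ F + 2 * numPlaces T F + numReal F) := by
  classical
  have hne : T.Nonempty := ⟨p, hpT⟩
  set N := awayIdeles T F ⊔ powIdeles p F with hN
  have hNle : N ≤ ideles F := sup_le awayIdeles_le_ideles (by
    rintro _ ⟨ψ, hψ, rfl⟩; exact pow_mem hψ p)
  let j : Fˣ →* ideles F :=
    ((PreIdele.principalHom).comp (Units.map (algebraMap F ℚ̄ : F →* ℚ̄))).codRestrict _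
      fun x => principal_le_ideles ⟨_, (x : F).2, rfl⟩
  let q := (QuotientGroup.mk' (N.subgroupOf (ideles F))).comp j
  have hq : Function.Surjective q := by
    intro c
    obtain ⟨φ, rfl⟩ := QuotientGroup.mk_surjective c
    obtain ⟨_, ⟨u, hu, rfl⟩, θ, hθ, hφ⟩ :=
      Subgroup.mem_sup.mp (ideles_le_principal_sup' (p := p) hT hne hμ φ.2)
    refine ⟨Units.mk0 ⟨u, hu⟩ fun h => u.ne_zero (congrArg Subtype.val h), ?_⟩
    refine (QuotientGroup.eq (s := N.subgroupOf (ideles F))).mpr (Subgroup.mem_subgroupOf.mpr ?_)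
    show (PreIdele.principalHom (Units.map (algebraMap F ℚ̄ : F →* ℚ̄) _))⁻¹ * φ.1 ∈ N
    rw [show Units.map (algebraMap F ℚ̄ : F →* ℚ̄) (Units.mk0 (⟨u, hu⟩ : F) _) = u from
      Units.ext rfl, ← hφ, inv_mul_cancel_left]
    exact hθ
  have hker : q.ker = (classMap T p F).ker := by
    ext x
    set u := Units.map (algebraMap F ℚ̄ : F →* ℚ̄) x with hu
    rw [MonoidHom.mem_ker, MonoidHom.mem_ker]
    show (QuotientGroup.mk (j x) : ideles F ⧸ N.subgroupOf (ideles F)) = 1 ↔ _
    rw [QuotientGroup.eq_one_iff, Subgroup.mem_subgroupOf]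
    show PreIdele.principalHom u ∈ N ↔ _
    constructor
    · intro h
      obtain ⟨h1, h2⟩ := component_of_mem h
      refine Prod.ext (funext fun P => (QuotientGroup.eq_one_iff _).mpr (h1 _ ?_)) (funext fun f => ?_)
      · exact primeOf_mem_primesOverT.mp (by rw [primeOf_placeAbove]; exact P.2)
      · by_cases hp2 : p = 2
        · obtain ⟨ι, hι⟩ := exists_res_eq f.1
          obtain ⟨r, hr⟩ := h2 ι (by rw [hι]; exact f.2)
          refine (realSign_eq_one_iff f x).mpr ?_
          have hr' : f.1 (x : F) = ((r ^ 2 : ℝ) : ℂ) := by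
            rw [Complex.ofReal_pow, ← hι, ← hp2, hr]; rfl
          rw [hr', Complex.ofReal_re]
          rcases eq_or_ne r 0 with h0 | h0
          · exact absurd (f.1.injective (by simp [h0] at hr')) x.ne_zero
          · positivity
        · exact (isEmpty_realEmb hp2 hμ).elim f
    · intro h
      refine mem_away_sup_pow (principal_le_ideles ⟨u, (x : F).2, rfl⟩) (fun A hA => ?_)
        fun ι hι => ?_
      · have h1 := congrFun (congrArg Prod.fst h)
          ⟨primeOf F A, primeOf_mem_primesOverT.mpr hA⟩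
        have h1' : x ∈ locSub p F (placeAbove F (primeOf F A)) :=
          (QuotientGroup.eq_one_iff _).mp h1
        rw [locSub_eq_of_primeOf_eq (primeOf_placeAbove _)] at h1'
        exact h1'
      · set f : RealEmb F := ⟨ι.res F, hι⟩
        have h2 := (realSign_eq_one_iff f x).mp (congrFun (congrArg Prod.snd h) f)
        obtain ⟨r, hr⟩ := exists_real_root_of_pos (p := p) h2
        exact ⟨r, by rw [hr, f.coe_re]; rfl⟩
  have key : N.relIndex (ideles F) =
      Nat.card ((∀ P : {P // P ∈ primesOverT F T}, Fˣ ⧸ locSub p F (placeAbove F P.1)) ×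
        (RealEmb F → ℤˣ)) := by
    have e1 : N.relIndex (ideles F) = q.ker.index := (index_ker_of_surjective q hq).symm
    rw [e1, hker]
    exact index_ker_of_surjective (classMap T p F) (classMap_surjective hT hne hμ)
  rw [key, Nat.card_prod, Nat.card_pi]
  have h2 : Nat.card (RealEmb F → ℤˣ) = p ^ numReal F := by
    rw [Nat.card_fun, Nat.card_eq_fintype_card, Fintype.card_units_int, numReal,
      ← Nat.card_coe_set_eq]
    by_cases hp2 : p = 2
    · rw [hp2]; rfl
    · have := isEmpty_realEmb hp2 hμ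
      rw [show Nat.card {f : F →+* ℂ | (starRingEnd ℂ).comp f = f} = 0 from
        Nat.card_of_isEmpty (α := RealEmb F), show Nat.card (RealEmb F) = 0 from
        Nat.card_of_isEmpty, pow_zero, pow_zero]
  have h1 : ∏ P : {P // P ∈ primesOverT F T}, Nat.card (Fˣ ⧸ locSub p F (placeAbove F P.1)) =
      p ^ (Module.finrank ℚ F + 2 * numPlaces T F) := by
    simp only [← Subgroup.index_eq_card, index_locSub hμ, primeOf_placeAbove]
    rw [Finset.univ_eq_attach,
      Finset.prod_attach _ (fun P => p * (p * Ideal.absNorm P.asIdeal ^ expOf F P p)),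
      Finset.prod_mul_distrib, Finset.prod_mul_distrib, Finset.prod_const,
      prod_absNorm_pow hp.out hpT, numPlaces_eq_card, ← mul_assoc, ← pow_add, ← pow_add]
    congr 1
    omega
  rw [h1, h2, ← pow_add]

end FLTAgent.TW
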