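import Fermat.Agent.TW.Idele.ClassQ

/-!
# The Herbrand quotient of `C_T` in a cyclic extension of degree `p`

`q_p` of `C_T(F')` and of its fixed classes `C_T(F)` are both `p`, so the Herbrand quotient is `p`.
-/

set_option autoImplicit false
set_option synthInstance.maxHeartbeats 200000
set_option maxHeartbeats 1000000

noncomputable section

open scoped Pointwise

namespace FLTAgent.TW

local notation "ℚ̄" => AlgebraicClosure ℚ
local notation "Γ" => (AlgebraicClosure ℚ ≃ₐ[ℚ] AlgebraicClosure ℚ)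

variable {T : Finset ℕ} {p : ℕ} [hp : Fact p.Prime] {L F F' : IntermediateField ℚ ℚ̄}

section Stable

variable {σ : Γ} (hσ : ∀ x : ℚ̄, x ∈ F' → σ x ∈ F')
variable (hσK : ∀ τ ∈ F'.fixingSubgroup, σ⁻¹ * τ * σ ∈ F'.fixingSubgroup)

omit hp

include hσK in
theorem smul_mem_ideles_of_stable {φ : PreIdele} (hφ : φ ∈ ideles F') : σ • φ ∈ ideles F' := by
  obtain ⟨h1, h2, S, h3⟩ := hφ
  refine ⟨fun τ hτ => ?_, fun ι => ?_, S, fun A hA => ?_⟩
  · conv_rhs =>
      rw [← h1 _ (hσK τ hτ), ← mul_smul, mul_assoc, mul_inv_cancel_left, mul_smul]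
  · rw [PreIdele.inf_smul, PreIdele.inf_smul, ← h2]; rfl
  · show Units.map _ _ ∈ _
    conv => arg 1; rw [← smul_inv_smul σ A, Place.coe_smul]
    exact unitGroup_smul.mpr (h3 _ (by rwa [Place.over_smul_iff]))

include hσ hσK in
theorem smul_mem_classKer_of_stable {φ : PreIdele} (hφ : φ ∈ classKer T F') :
    σ • φ ∈ classKer T F' := by
  obtain ⟨_, ⟨x, hx, rfl⟩, u, ⟨⟨hu1, hu2, hu3⟩, hu4⟩, rfl⟩ := Subgroup.mem_sup.mp hφ
  rw [smul_mul']
  refine Subgroup.mul_mem_sup ⟨_, hσ _ hx, (PreIdele.smul_principalHom σ x).symm⟩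
    ⟨⟨smul_mem_ideles_of_stable hσK hu1, fun A hA => ?_, funext fun ι => ?_⟩, fun A => ?_⟩
  · exact Units.ext (by rw [PreIdele.coe_fin_smul, hu2 _ (hA.smul _)]; simp)
  · rw [PreIdele.inf_smul, hu3]; rfl
  · show Units.map _ _ ∈ _
    conv => arg 1; rw [← smul_inv_smul σ A, Place.coe_smul]
    exact unitGroup_smul.mpr (hu4 _)

variable (T) in
/-- The endomorphism of `C_T(F')` given by `σ`. -/
def classSmul : IdeleClass T F' →* IdeleClass T F' :=
  QuotientGroup.map _ _
    (((MulDistribMulAction.toMonoidHom PreIdele σ).comp (ideles F').subtype).codRestrict (ideles F')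
      fun φ => smul_mem_ideles_of_stable hσK φ.2)
    fun _ hφ => smul_mem_classKer_of_stable hσ hσK hφ

theorem classSmul_mk (φ : ideles F') :
    classSmul T hσ hσK (QuotientGroup.mk φ) =
      QuotientGroup.mk ⟨σ • φ.1, smul_mem_ideles_of_stable hσK φ.2⟩ := rfl

end Stable

/-- The Herbrand quotient is `p`. -/
theorem herbrand_quotient' (hL : IdeleSetting T p L) (hFF' : F ≤ F') (hF'L : F' ≤ L)
    (hμ : ContainsMuP p F) (σ : Γ) (hσ : σ ∈ F.fixingSubgroup) (hσ' : σ ∉ F'.fixingSubgroup)
    (hnormal : (F'.fixingSubgroup.subgroupOf F.fixingSubgroup).Normal)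
    (hdeg : F'.fixingSubgroup.relIndex F.fixingSubgroup = p) :
    0 < (classKer T F ⊔ normSubgroup F F').relIndex (ideles F) ∧
    (classKer T F ⊔ normSubgroup F F').relIndex (ideles F) =
      p * (classKer T F' ⊔ Subgroup.closure ((fun b => σ • b / b) '' (ideles F' : Set PreIdele))
        ).relIndex
          (Subgroup.closure {φ | φ ∈ ideles F' ∧ normIdele F F' φ ∈ classKer T F'}) ∧
    (classKer T F ⊔ normSubgroup F F').relIndex (ideles F) =
      p * (classKer T F' ⊔ Subgroup.closure ((fun b => σ • b / b) '' (ideles F' : Set PreIdele))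
        ).relIndex
          (Subgroup.closure {φ | φ ∈ ideles F' ∧ normIdele F F' φ ∈ classKer T F}) := by
  classical
  have := hL.finite
  have : FiniteDimensional ℚ F := finite_of_le (L := L) (hFF'.trans hF'L)
  have : FiniteDimensional ℚ F' := finite_of_le (L := L) hF'L
  have hμ' : ContainsMuP p F' := fun ζ h => hFF' (hμ ζ h)
  have := hnormal
  have := finite_fixing_quotient F.fixingSubgroup F'
  set K := F'.fixingSubgroup.subgroupOf F.fixingSubgroup with hK
  have hconj : ∀ ρ ∈ F.fixingSubgroup, ∀ τ ∈ F'.fixingSubgroup,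
      ρ⁻¹ * τ * ρ ∈ F'.fixingSubgroup := fun ρ hρ τ hτ => by
    have h := hnormal.conj_mem ⟨τ, IntermediateField.fixingSubgroup_le hFF' hτ⟩
      (Subgroup.mem_subgroupOf.mpr hτ) ⟨ρ⁻¹, inv_mem hρ⟩
    have h' : ρ⁻¹ * τ * (ρ⁻¹)⁻¹ ∈ F'.fixingSubgroup := Subgroup.mem_subgroupOf.mp h
    rwa [inv_inv] at h'
  have hstab : ∀ ρ ∈ F.fixingSubgroup, ∀ x : ℚ̄, x ∈ F' → ρ x ∈ F' := fun ρ hρ x hx =>
    mem_of_forall_fixed fun τ hτ => by
      have h := (IntermediateField.mem_fixingSubgroup_iff _ _).mp (hconj ρ hρ τ hτ) x hx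
      rw [AlgEquiv.mul_apply, AlgEquiv.mul_apply] at h
      have h2 := congrArg ρ h
      rwa [← AlgEquiv.mul_apply ρ, mul_inv_cancel, AlgEquiv.one_apply] at h2
  -- the quotient group is generated by `σ`
  set s : F.fixingSubgroup := ⟨σ, hσ⟩ with hs
  have hcard : Nat.card (F.fixingSubgroup ⧸ K) = p := (Subgroup.index_eq_card K).symm.trans hdeg
  have hs1 : (QuotientGroup.mk s : F.fixingSubgroup ⧸ K) ≠ 1 := fun h =>
    hσ' (Subgroup.mem_subgroupOf.mp ((QuotientGroup.eq_one_iff _).mp h))
  have hord : orderOf (QuotientGroup.mk s : F.fixingSubgroup ⧸ K) = p := by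
    refine orderOf_eq_prime ?_ hs1
    conv_lhs => rw [← hcard]
    exact pow_card_eq_one'
  have hσp : σ ^ p ∈ F'.fixingSubgroup := by
    have h : (QuotientGroup.mk (s ^ p) : F.fixingSubgroup ⧸ K) = 1 := by
      rw [QuotientGroup.mk_pow]
      conv_lhs => arg 2; rw [← hord]
      exact pow_orderOf_eq_one _
    exact Subgroup.mem_subgroupOf.mp ((QuotientGroup.eq_one_iff _).mp h)
  let e : Fin p → F.fixingSubgroup ⧸ K := fun i => QuotientGroup.mk s ^ (i : ℕ)
  have he : Function.Bijective e := by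
    refine (Nat.bijective_iff_injective_and_card e).mpr ⟨fun i j h => Fin.ext ?_, by
      rw [Nat.card_fin, hcard]⟩
    exact pow_injOn_Iio_orderOf (show (i : ℕ) < orderOf (QuotientGroup.mk s : _ ⧸ K) by rw [hord]; exact i.2)
      (show (j : ℕ) < orderOf (QuotientGroup.mk s : _ ⧸ K) by rw [hord]; exact j.2) h
  -- the automorphism
  have hσi : σ⁻¹ ∈ F.fixingSubgroup := inv_mem hσ
  let g : IdeleClass T F' ≃* IdeleClass T F' :=
    { classSmul T (hstab σ hσ) (hconj σ hσ) with
      invFun := classSmul T (hstab σ⁻¹ hσi) (hconj σ⁻¹ hσi)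
      left_inv := fun c => by
        induction c using QuotientGroup.induction_on with
        | _ φ => exact congrArg QuotientGroup.mk (Subtype.ext (inv_smul_smul σ φ.1))
      right_inv := fun c => by
        induction c using QuotientGroup.induction_on with
        | _ φ => exact congrArg QuotientGroup.mk (Subtype.ext (smul_inv_smul σ φ.1)) }
  have hpowmem : ∀ (i : ℕ) (φ : PreIdele), φ ∈ ideles F' → σ ^ i • φ ∈ ideles F' := fun i φ hφ =>
    smul_mem_ideles_of_stable (hconj _ (pow_mem hσ i)) hφ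
  have hgpow : ∀ (i : ℕ) (φ : ideles F'), (g ^ i : MulAut (IdeleClass T F')) (QuotientGroup.mk φ) =
      QuotientGroup.mk ⟨σ ^ i • φ.1, hpowmem i φ.1 φ.2⟩ := by
    intro i
    induction i with
    | zero => intro φ; exact congrArg QuotientGroup.mk (Subtype.ext (one_smul Γ φ.1).symm)
    | succ i ih =>
      intro φ
      rw [pow_succ]
      show (g ^ i : MulAut (IdeleClass T F')) (g (QuotientGroup.mk φ)) = _
      refine (ih ⟨σ • φ.1, smul_mem_ideles_of_stable (hconj σ hσ) φ.2⟩).trans
        (congrArg QuotientGroup.mk (Subtype.ext ?_))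
      show σ ^ i • σ • φ.1 = σ ^ (i + 1) • φ.1
      rw [pow_succ, mul_smul]
  have hg : (g : MulAut (IdeleClass T F')) ^ p = 1 := by
    ext c
    induction c using QuotientGroup.induction_on with
    | _ φ => rw [hgpow]; exact congrArg QuotientGroup.mk (Subtype.ext (φ.2.1 _ hσp))
  have hnorm : ∀ φ : ideles F', normHom g p (QuotientGroup.mk φ) =
      QuotientGroup.mk ⟨normIdele F F' φ.1,
        ideles_le_of_le hFF' (normIdele_mem' φ.2)⟩ := by
    intro φ
    have h1 : ∀ i, (g ^ i : MulAut (IdeleClass T F')) (QuotientGroup.mk φ) =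
        QuotientGroup.mk' _ ⟨σ ^ i • φ.1, hpowmem i φ.1 φ.2⟩ := fun i => hgpow i φ
    show ∏ i ∈ Finset.range p, (g ^ i : MulAut (IdeleClass T F')) (QuotientGroup.mk φ) = _
    simp only [h1]
    rw [← map_prod]
    refine congrArg QuotientGroup.mk (Subtype.ext ?_)
    rw [SubmonoidClass.coe_finsetProd]
    have := Fintype.ofFinite (F.fixingSubgroup ⧸ K)
    show _ = normIdele F F' φ.1
    rw [normIdele, finprod_eq_prod_of_fintype, ← Fin.prod_univ_eq_prod_range]
    refine Fintype.prod_bijective e he _ _ fun i => ?_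
    show σ ^ (i : ℕ) • φ.1 = _
    have h := out_smul (H := F.fixingSubgroup) (K := F'.fixingSubgroup) φ.2.1 (s ^ (i : ℕ))
    rw [show e i = QuotientGroup.mk (s ^ (i : ℕ)) from (QuotientGroup.mk_pow _ _ _).symm]
    simpa [hs] using h.symm
  -- the classes of `F`
  let ι : IdeleClass T F →* IdeleClass T F' :=
    QuotientGroup.map _ _ (Subgroup.inclusion (ideles_le_of_le hFF')) fun φ hφ =>
      Subgroup.mem_subgroupOf.mpr (classKer_mono' hFF' (Subgroup.mem_subgroupOf.mp hφ))
  have hιinj : Function.Injective ι := by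
    refine (injective_iff_map_eq_one ι).mpr fun c hc => ?_
    induction c using QuotientGroup.induction_on with
    | _ φ =>
      have h' : (QuotientGroup.mk (Subgroup.inclusion (ideles_le_of_le hFF') φ) :
          IdeleClass T F') = 1 := hc
      have h'' := Subgroup.mem_subgroupOf.mp ((QuotientGroup.eq_one_iff _).mp h')
      exact (QuotientGroup.eq_one_iff φ).mpr (Subgroup.mem_subgroupOf.mpr
        (classKer_inter' φ.2 h''))
  have hιrange : ι.range = fixedBy g := by
    ext c
    constructor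
    · rintro ⟨d, rfl⟩
      induction d using QuotientGroup.induction_on with
      | _ φ => exact congrArg QuotientGroup.mk (Subtype.ext (φ.2.1 σ hσ))
    · intro hc
      obtain ⟨φ, rfl⟩ := QuotientGroup.mk_surjective c
      have hgc : g (QuotientGroup.mk φ) = QuotientGroup.mk φ := hc
      have hpow : ∀ i : ℕ, σ ^ i • φ.1 / φ.1 ∈ classKer T F' := by
        intro i
        have h : (g ^ i : MulAut (IdeleClass T F')) (QuotientGroup.mk φ) = QuotientGroup.mk φ := by
          induction i with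
          | zero => rfl
          | succ i ih =>
            rw [pow_succ]
            show (g ^ i : MulAut (IdeleClass T F')) (g (QuotientGroup.mk φ)) = _
            rw [hgc]; exact ih
        rw [hgpow] at h
        exact Subgroup.mem_subgroupOf.mp (QuotientGroup.eq_iff_div_mem.mp h)
      obtain ⟨ψ, hψ, hψ'⟩ := exists_fixed' (p := p) hL hFF' hF'L hnormal φ.2 fun τ hτ => by
        obtain ⟨i, hi⟩ := he.2 (QuotientGroup.mk ⟨τ, hτ⟩)
        have hk : (QuotientGroup.mk (s ^ (i : ℕ)) : F.fixingSubgroup ⧸ K) =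
            QuotientGroup.mk ⟨τ, hτ⟩ := (QuotientGroup.mk_pow _ _ _).trans hi
        have := smul_eq_of_mk_eq (H := F.fixingSubgroup) (K := F'.fixingSubgroup) φ.2.1 hk
        have h2 := hpow i
        simp only [hs, SubgroupClass.coe_pow] at this
        rwa [this] at h2
      exact ⟨QuotientGroup.mk ⟨ψ, hψ⟩,
        (QuotientGroup.eq_iff_div_mem.mpr (Subgroup.mem_subgroupOf.mpr hψ')).symm⟩
  obtain ⟨hM, hMv⟩ := qInd_ideleClass (T := T) (p := p) (F := F') hL.prime hL.mem hμ'
  obtain ⟨hC, hCv⟩ := qInd_ideleClass (T := T) (p := p) (F := F) hL.prime hL.mem hμ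
  let eq₀ : IdeleClass T F ≃* fixedBy g :=
    (MonoidHom.ofInjective hιinj).trans (MulEquiv.subgroupCongr hιrange)
  obtain ⟨hG1, hG2⟩ := qInd_congr eq₀ (f := powMonoidHom p) (f' := powMonoidHom p)
    (fun m => map_pow eq₀ m p)
  obtain ⟨hpos, heq⟩ := herbrand_of_qInd (g := g) hg hM (hG2 hC) hMv (hG1.trans hCv)
  -- translate the first index
  let π : ideles F →* IdeleClass T F' := ι.comp (QuotientGroup.mk' _)
  have hπrange : π.range = fixedBy g := by
    rw [MonoidHom.range_comp, MonoidHom.range_eq_top.mpr (QuotientGroup.mk'_surjective _),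
      ← MonoidHom.range_eq_map, hιrange]
  have hNmem : normSubgroup F F' ≤ ideles F := (Subgroup.closure_le _).mpr (by
    rintro _ ⟨ψ, hψ, rfl⟩; exact normIdele_mem' hψ)
  have hA : (classKer T F ⊔ normSubgroup F F').relIndex (ideles F) =
      (normHom g p).range.relIndex (fixedBy g) := by
    rw [← hπrange, ← Subgroup.index_comap, Subgroup.relIndex]
    congr 1
    ext φ
    rw [Subgroup.mem_comap, Subgroup.mem_subgroupOf]
    constructor
    · intro h
      obtain ⟨k, hk, n, hn, hkn⟩ := Subgroup.mem_sup.mp h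
      have hn' : (⟨n, hNmem hn⟩ : ideles F) ∈ (normHom g p).range.comap π := by
        have hle : normSubgroup F F' ≤ ((normHom g p).range.comap π).map (ideles F).subtype := by
          refine (Subgroup.closure_le _).mpr ?_
          rintro _ ⟨ψ, hψ, rfl⟩
          exact ⟨⟨normIdele F F' ψ, normIdele_mem' hψ⟩, ⟨QuotientGroup.mk ⟨ψ, hψ⟩, hnorm ⟨ψ, hψ⟩⟩,
            rfl⟩
        obtain ⟨y, hy, hy'⟩ := hle hn
        rwa [show (⟨n, hNmem hn⟩ : ideles F) = y from Subtype.ext hy'.symm]
      have hk' : π ⟨k, classKer_le_ideles' hk⟩ = 1 := by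
        show ι (QuotientGroup.mk _) = 1
        rw [(QuotientGroup.eq_one_iff _).mpr (Subgroup.mem_subgroupOf.mpr hk), map_one]
      rw [show φ = ⟨k, classKer_le_ideles' hk⟩ * ⟨n, hNmem hn⟩ from Subtype.ext hkn.symm, map_mul,
        hk', one_mul]
      exact Subgroup.mem_comap.mp hn'
    · rintro ⟨c, hc⟩
      obtain ⟨ψ, rfl⟩ := QuotientGroup.mk_surjective c
      rw [hnorm] at hc
      have h : (normIdele F F' ψ.1)⁻¹ * φ.1 ∈ classKer T F' :=
        Subgroup.mem_subgroupOf.mp (QuotientGroup.eq.mp hc)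
      have h' : (normIdele F F' ψ.1)⁻¹ * φ.1 ∈ classKer T F :=
        classKer_inter' (mul_mem (inv_mem (normIdele_mem' ψ.2)) φ.2) h
      rw [show φ.1 = ((normIdele F F' ψ.1)⁻¹ * φ.1) * normIdele F F' ψ.1 by
        rw [mul_comm, mul_inv_cancel_left]]
      exact Subgroup.mul_mem_sup h' (Subgroup.subset_closure ⟨ψ, ψ.2, rfl⟩)
  -- translate the second index
  set Bs := classKer T F' ⊔ Subgroup.closure ((fun b => σ • b / b) '' (ideles F' : Set PreIdele))
  have hBle : Bs ≤ ideles F' := sup_le classKer_le_ideles' ((Subgroup.closure_le _).mpr (by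
    rintro _ ⟨b, hb, rfl⟩
    exact div_mem (smul_mem_ideles_of_stable (hconj σ hσ) hb) hb))
  have hsecond : ∀ Kz : Subgroup PreIdele, (∀ φ, φ ∈ ideles F' →
      (normIdele F F' φ ∈ Kz ↔ normIdele F F' φ ∈ classKer T F')) →
      Bs.relIndex (Subgroup.closure {φ | φ ∈ ideles F' ∧ normIdele F F' φ ∈ Kz}) =
        (diffHom g).range.relIndex (normHom g p).ker := by
    intro Kz hKz
    set Z := Subgroup.closure {φ | φ ∈ ideles F' ∧ normIdele F F' φ ∈ Kz}
    have hZle : Z ≤ ideles F' := (Subgroup.closure_le _).mpr fun φ h => h.1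
    let q : ideles F' →* IdeleClass T F' := QuotientGroup.mk' _
    have hB : Bs.subgroupOf (ideles F') = (diffHom g).range.comap q := by
      ext φ
      rw [Subgroup.mem_subgroupOf, Subgroup.mem_comap]
      constructor
      · intro h
        obtain ⟨k, hk, n, hn, hkn⟩ := Subgroup.mem_sup.mp h
        have hle : Subgroup.closure ((fun b => σ • b / b) '' (ideles F' : Set PreIdele)) ≤
            ((diffHom g).range.comap q).map (ideles F').subtype := by
          refine (Subgroup.closure_le _).mpr ?_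
          rintro _ ⟨b, hb, rfl⟩
          exact ⟨⟨σ • b, smul_mem_ideles_of_stable (hconj σ hσ) hb⟩ / ⟨b, hb⟩,
            ⟨QuotientGroup.mk ⟨b, hb⟩, (map_div q _ _).symm⟩, rfl⟩
        obtain ⟨y, hy, hy'⟩ := hle hn
        have hk' : q ⟨k, classKer_le_ideles' hk⟩ = 1 :=
          (QuotientGroup.eq_one_iff _).mpr (Subgroup.mem_subgroupOf.mpr hk)
        rw [show φ = ⟨k, classKer_le_ideles' hk⟩ * y from Subtype.ext (by
          show (φ : PreIdele) = k * (y : PreIdele)
          rw [show (y : PreIdele) = n from hy', hkn]), map_mul, hk', one_mul]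
        exact hy
      · rintro ⟨c, hc⟩
        obtain ⟨b, rfl⟩ := QuotientGroup.mk_surjective c
        have hc' : q (⟨σ • b.1, smul_mem_ideles_of_stable (hconj σ hσ) b.2⟩ / b) = q φ :=
          (map_div q _ _).trans hc
        have h := Subgroup.mem_subgroupOf.mp (QuotientGroup.eq_iff_div_mem.mp hc'.symm)
        rw [show (φ : PreIdele) = ((φ : PreIdele) / (σ • b.1 / b.1)) * (σ • b.1 / b.1) by
          rw [div_mul_cancel]]
        exact Subgroup.mul_mem_sup h (Subgroup.subset_closure ⟨b.1, b.2, rfl⟩)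
    have hZ : (Z.subgroupOf (ideles F')).map q = (normHom g p).ker := by
      have hker : ∀ φ : ideles F',
          q φ ∈ (normHom g p).ker ↔ normIdele F F' φ.1 ∈ Kz := fun φ => by
        rw [MonoidHom.mem_ker, hKz _ φ.2]
        show normHom g p (QuotientGroup.mk φ) = 1 ↔ _
        rw [hnorm, QuotientGroup.eq_one_iff, Subgroup.mem_subgroupOf]
      apply le_antisymm
      · rintro _ ⟨φ, hφ, rfl⟩
        have hle : Z ≤ ((normHom g p).ker.comap q).map (ideles F').subtype := by
          refine (Subgroup.closure_le _).mpr ?_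
          rintro b ⟨hb, hb'⟩
          exact ⟨⟨b, hb⟩, (hker ⟨b, hb⟩).mpr hb', rfl⟩
        obtain ⟨y, hy, hy'⟩ := hle (Subgroup.mem_subgroupOf.mp hφ)
        rwa [show φ = y from Subtype.ext hy'.symm]
      · intro c hc
        obtain ⟨φ, rfl⟩ := QuotientGroup.mk_surjective c
        exact ⟨φ, Subgroup.mem_subgroupOf.mpr
          (Subgroup.subset_closure ⟨φ.2, (hker φ).mp hc⟩), rfl⟩
    rw [← Subgroup.relIndex_subgroupOf hZle (H := Bs), hB, Subgroup.relIndex_comap, hZ]
  rw [hA, hsecond (classKer T F') (fun _ _ => Iff.rfl),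
    hsecond (classKer T F) (fun φ hφ =>
      ⟨fun h => classKer_mono' hFF' h, fun h => classKer_inter' (normIdele_mem' hφ) h⟩)]
  exact ⟨hpos, by exact_mod_cast heq, by exact_mod_cast heq⟩

end FLTAgent.TW
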