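import Fermat.Agent.TW.Idele.Basic
import Fermat.Agent.TW.Idele.Counts
import Fermat.Agent.TW.Idele.Units
import Fermat.Agent.TW.Idele.ClassQ
import Fermat.Agent.TW.Idele.Herbrand
import Fermat.Agent.TW.Idele.CardHoms

/-!
# Arithmetic of idele classes

The arithmetic facts about the idele classes `C_T` used by the class field theory of the Kummer
layers, stated for an `IdeleSetting` and collected from the files of `TW/Idele`: descent of fixed
classes (`classKer_inter`, `exists_fixed`, from `Basic`), the norm (`normIdele_mem`,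
`normIdele_trans`), local and global counts of `p`-th power classes (`relIndex_away_sup_pow` from
`Counts`, `relIndex_tUnits_pow` from `Units`, `card_classes` from `ClassQ`), the Herbrand quotient
`p` in a cyclic extension of degree `p` (`herbrand_quotient`, from `Herbrand`) and the count of
equivariant maps into the classes (`card_homs`, from `CardHoms`).  No completions are used.
-/

set_option autoImplicit false

noncomputable section

open scoped Pointwise

namespace FLTAgent.TW

local notation "Γ" => (AlgebraicClosure ℚ ≃ₐ[ℚ] AlgebraicClosure ℚ)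

variable {T T' : Finset ℕ} {p : ℕ} {L F F' : IntermediateField ℚ (AlgebraicClosure ℚ)}

theorem ideles_mono (hFL : F ≤ L) : ideles F ≤ ideles L := fun _ ⟨h1, h2, h3⟩ =>
  ⟨fun σ hσ => h1 σ (IntermediateField.fixingSubgroup_le hFL hσ), h2, h3⟩

theorem classKer_le_ideles [FiniteDimensional ℚ L] : classKer T L ≤ ideles L :=
  classKer_le_ideles'

/-- `C_T(F) → C_T(L)` is injective. -/
theorem classKer_inter (hFL : F ≤ L) {φ : PreIdele} (hφ : φ ∈ ideles F)
    (h : φ ∈ classKer T L) : φ ∈ classKer T F :=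
  classKer_inter' hφ h

theorem classKer_mono (hFL : F ≤ L) : classKer T F ≤ classKer T L :=
  classKer_mono' hFL

theorem TPrincipal.mono (h : TPrincipal T F) (hTT' : T ⊆ T') : TPrincipal T' F :=
  tPrincipal_mono h hTT'

theorem exists_tPrincipal (L : IntermediateField ℚ (AlgebraicClosure ℚ)) [FiniteDimensional ℚ L]
    (T₀ : Finset ℕ) :
    ∃ T : Finset ℕ, T₀ ⊆ T ∧ (∀ q ∈ T, q ∈ T₀ ∨ q.Prime) ∧ ∀ F ≤ L, TPrincipal T F :=
  exists_tPrincipal' L T₀

/-- An element of `C_T(F')` fixed by the `p`-group `Gal(F'/F)` comes from `C_T(F)`. -/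
theorem exists_fixed [Fact p.Prime] (hL : IdeleSetting T p L) (hFF' : F ≤ F') (hF'L : F' ≤ L)
    (hnormal : (F'.fixingSubgroup.subgroupOf F.fixingSubgroup).Normal) {k : ℕ}
    (hdeg : F'.fixingSubgroup.relIndex F.fixingSubgroup = p ^ k) {φ : PreIdele}
    (hφ : φ ∈ ideles F') (h : ∀ σ ∈ F.fixingSubgroup, σ • φ / φ ∈ classKer T F') :
    ∃ ψ ∈ ideles F, φ / ψ ∈ classKer T F' :=
  exists_fixed' hL hFF' hF'L hnormal hφ h

/-! ### Norms -/

theorem normIdele_mem [FiniteDimensional ℚ L] (hFL : F ≤ L) {φ : PreIdele}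
    (hφ : φ ∈ ideles L) : normIdele F L φ ∈ ideles F :=
  normIdele_mem' hφ

theorem normIdele_mul [FiniteDimensional ℚ L] (hFL : F ≤ L) (φ ψ : PreIdele) :
    normIdele F L (φ * ψ) = normIdele F L φ * normIdele F L ψ :=
  normIdele_mul' φ ψ

theorem normIdele_trans [FiniteDimensional ℚ L] (hFF' : F ≤ F') (hF'L : F' ≤ L) {φ : PreIdele}
    (hφ : φ ∈ ideles L) : normIdele F F' (normIdele F' L φ) = normIdele F L φ :=
  normIdele_trans' hFF' hF'L hφ

theorem normIdele_of_mem [FiniteDimensional ℚ L] (hFL : F ≤ L) {φ : PreIdele}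
    (hφ : φ ∈ ideles F) :
    normIdele F L φ = φ ^ L.fixingSubgroup.relIndex F.fixingSubgroup :=
  normIdele_of_mem' hφ

theorem normIdele_mem_classKer [FiniteDimensional ℚ L] (hFL : F ≤ L) {φ : PreIdele}
    (hφ : φ ∈ classKer T L) : normIdele F L φ ∈ classKer T F :=
  normIdele_mem_classKer' hφ

/-! ### Counts -/

/-- Local `p`-th power classes above `T` and at the real places. -/
theorem relIndex_away_sup_pow [Fact p.Prime] (hL : IdeleSetting T p L)
    (hFL : F ≤ L) (hμ : ContainsMuP p F) :
    (awayIdeles T F ⊔ powIdeles p F).relIndex (ideles F) =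
      p ^ (Module.finrank ℚ F + 2 * numPlaces T F + numReal F) :=
  haveI := hL.finite
  haveI := finite_of_le (L := L) hFL
  relIndex_away_sup_pow' hL.prime hL.mem hμ

/-- Approximation at `T` and at the real places. -/
theorem ideles_le_principal_sup [Fact p.Prime] (hL : IdeleSetting T p L)
    (hFL : F ≤ L) (hμ : ContainsMuP p F) :
    ideles F ≤ principal F ⊔ (awayIdeles T F ⊔ powIdeles p F) :=
  haveI := hL.finite
  haveI := finite_of_le (L := L) hFL
  ideles_le_principal_sup' hL.prime ⟨p, hL.mem⟩ hμ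

theorem relIndex_tUnits_pow [Fact p.Prime] (hL : IdeleSetting T p L)
    (hFL : F ≤ L) (hμ : ContainsMuP p F) :
    ((tUnits T F).map (powMonoidHom p)).relIndex (tUnits T F) =
      p ^ (numPlaces T F + numInf F) :=
  haveI := hL.finite
  haveI := finite_of_le (L := L) hFL
  relIndex_tUnits_pow' hμ

/-- The Herbrand quotient of `C_T` in a cyclic extension of degree `p`. -/
theorem herbrand_quotient [Fact p.Prime] (hL : IdeleSetting T p L)
    (hFF' : F ≤ F') (hF'L : F' ≤ L) (hμ : ContainsMuP p F) (σ : Γ) (hσ : σ ∈ F.fixingSubgroup)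
    (hσ' : σ ∉ F'.fixingSubgroup) (hnormal : (F'.fixingSubgroup.subgroupOf F.fixingSubgroup).Normal)
    (hdeg : F'.fixingSubgroup.relIndex F.fixingSubgroup = p) :
    0 < (classKer T F ⊔ normSubgroup F F').relIndex (ideles F) ∧
    (classKer T F ⊔ normSubgroup F F').relIndex (ideles F) =
      p * (classKer T F' ⊔ Subgroup.closure ((fun b => σ • b / b) '' (ideles F' : Set PreIdele))
        ).relIndex
          (Subgroup.closure {φ | φ ∈ ideles F' ∧ normIdele F F' φ ∈ classKer T F'}) :=
  ⟨(herbrand_quotient' hL hFF' hF'L hμ σ hσ hσ' hnormal hdeg).1,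
    (herbrand_quotient' hL hFF' hF'L hμ σ hσ hσ' hnormal hdeg).2.1⟩

/-- `C_T(F)/p` has `p` times as many elements as `C_T(F)[p]`. -/
theorem card_classes [Fact p.Prime] (hL : IdeleSetting T p L) (hFL : F ≤ L)
    (hT : TPrincipal T F) (hμ : ContainsMuP p F) :
    0 < Nat.card (IdeleClassModP T p F) ∧
    Nat.card (IdeleClassModP T p F) = p * Nat.card {c : IdeleClass T F // c ^ p = 1} :=
  haveI := hL.finite
  haveI := finite_of_le (L := L) hFL
  card_classes' hL.prime hL.mem hμ

/-- The difference between `C_T(L)/p` and `C_T(L)[p]` as representations of a group of order prime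
to `p` is the trivial representation. -/
theorem card_homs [Fact p.Prime] (hp2 : p ≠ 2) (hL : IdeleSetting T p L) [Normal ℚ L]
    (hT : TPrincipal T L) (hμ : ContainsMuP p L) (H : Subgroup Γ) (hH : L.fixingSubgroup ≤ H)
    (hord : (L.fixingSubgroup.relIndex H).Coprime p) (N : Type) [AddCommGroup N] [Finite N]
    [DistribMulAction H N] (hN : ∀ x : N, p • x = 0)
    (htriv : ∀ h : H, (h : Γ) ∈ L.fixingSubgroup → ∀ x : N, h • x = x) :
    0 < Nat.card (equivariantHoms H N (IdeleClassModP T p L)) ∧
    Nat.card (equivariantHoms H N (IdeleClassModP T p L)) =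
      Nat.card {f : N →+ ZMod p // ∀ (h : H) x, f (h • x) = f x} *
        Nat.card (equivariantHoms H N (IdeleClass T L)) :=
  haveI := hL.finite
  card_homs' hp2 hL.prime hL.mem hμ H hH hord N hN htriv

end FLTAgent.TW
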