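import Fermat.Agent.TW.Idele.ClassField.Artin
import Fermat.Agent.TW.Idele.ClassField.Kummer
import Fermat.Agent.TW.Idele.ClassField.Reciprocity
import Fermat.Agent.TW.Idele.Arith
import Fermat.Agent.TW.Idele.ClassField.Cohomology

/-!
# Class field theory of `C_T` in `p`-power degree

The theorems used for the Taylor–Wiles primes, for fields containing `μ_p` inside an
`IdeleSetting`, collected from the files of `TW/Idele/ClassField`: the norm index `p` in degree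
`p` (`relIndex_norm`, from `NormIndex`), `H¹ = 0` for `p`-extensions (`cohomology_one`, from
`Cohomology`), the Artin map of a cyclotomic `p`-extension with its reciprocity law
(`exists_artin`, from `Artin`), and Kummer theory in both directions (`exists_kummer` from
`Kummer`, `exists_character_of_kummer` from `Reciprocity`).
-/

set_option autoImplicit false

noncomputable section

open scoped Pointwise

namespace FLTAgent.TW

local notation "ℚ̄" => AlgebraicClosure ℚ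
local notation "Γ" => (AlgebraicClosure ℚ ≃ₐ[ℚ] AlgebraicClosure ℚ)

variable {T : Finset ℕ} {p : ℕ} {L F F' : IntermediateField ℚ (AlgebraicClosure ℚ)}

/-- The norm index in degree `p`. -/
theorem relIndex_norm [Fact p.Prime] (hL : IdeleSetting T p L)
    (hT : ∀ E ≤ L, TPrincipal T E) (hFF' : F ≤ F') (hF'L : F' ≤ L) (hμ : ContainsMuP p F)
    (hnormal : (F'.fixingSubgroup.subgroupOf F.fixingSubgroup).Normal)
    (hdeg : F'.fixingSubgroup.relIndex F.fixingSubgroup = p) :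
    (classKer T F ⊔ normSubgroup F F').relIndex (ideles F) = p := by
  exact relIndex_norm_of_tPrincipal hL (hT F (hFF'.trans hF'L)) hFF' hF'L hμ hnormal hdeg

/-- `H¹(Gal(L/F), C_T(L)) = 0` for `p`-extensions. -/
theorem cohomology_one [Fact p.Prime] (hL : IdeleSetting T p L)
    (hT : ∀ E ≤ L, TPrincipal T E) (hFL : F ≤ L) (hμ : ContainsMuP p F) {k : ℕ}
    (hdeg : L.fixingSubgroup.relIndex F.fixingSubgroup = p ^ k) (a : Γ → PreIdele)
    (ha : ∀ σ ∈ F.fixingSubgroup, a σ ∈ ideles L)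
    (hcoc : ∀ σ ∈ F.fixingSubgroup, ∀ τ ∈ F.fixingSubgroup,
      a (σ * τ) / (a σ * σ • a τ) ∈ classKer T L)
    (hL1 : ∀ σ ∈ L.fixingSubgroup, a σ ∈ classKer T L) :
    ∃ b ∈ ideles L, ∀ σ ∈ F.fixingSubgroup, a σ / (σ • b / b) ∈ classKer T L := by
  exact cohomology_one' hL hT k F hFL hμ hdeg a ha hcoc hL1

/-- The Artin map of a cyclotomic `p`-extension `E` of `ℚ`, and its reciprocity law over the
fields `F ∋ ζ_p` linearly disjoint from `E`. -/
theorem exists_artin [Fact p.Prime] (hL : IdeleSetting T p L)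
    (hT : ∀ E ≤ L, TPrincipal T E) (E : IntermediateField ℚ (AlgebraicClosure ℚ)) [Normal ℚ E]
    (hEL : E ≤ L) (hcyc : IsCyclic (E ≃ₐ[ℚ] E)) {k : ℕ} (hdeg : Module.finrank ℚ E = p ^ k)
    (m : ℕ) (hm : 0 < m) (hmT : ∀ q : ℕ, q.Prime → q ∣ m → q ∈ T)
    (hEm : E ≤ IntermediateField.adjoin ℚ {ζ : ℚ̄ | ζ ^ m = 1}) :
    ∃ ω : ideles ⊥ →* (E ≃ₐ[ℚ] E), Function.Surjective ω ∧
      (∀ φ : ideles ⊥, φ.1 ∈ classKer T ⊥ → ω φ = 1) ∧
      (∀ (q : ℕ) (hq : q.Prime) (A : Place), q ∉ T → A.1.LiesOverPrime q →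
        ∀ σ : Γ, A.1.IsFrobeniusAt σ q → ∀ h : placeIdele ⊥ q hq.ne_zero A ∈ ideles ⊥,
          ω ⟨_, h⟩ = AlgEquiv.restrictNormalHom E σ) ∧
      ∀ F : IntermediateField ℚ (AlgebraicClosure ℚ), F ≤ L → ContainsMuP p F → E ⊓ F = ⊥ →
        ∀ φ ∈ ideles F, ∀ h : normIdele ⊥ F φ ∈ ideles ⊥,
          ω ⟨_, h⟩ = 1 ↔ φ ∈ classKer T F ⊔ normSubgroup F (F ⊔ E) := by
  exact exists_artin_map hL E hEL hcyc hdeg m hm hmT hEm

/-- Every character of `C_T(F)` of order dividing `p` is given by Kummer theory. -/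
theorem exists_kummer [Fact p.Prime] (hL : IdeleSetting T p L)
    (hT : ∀ E ≤ L, TPrincipal T E) (hFL : F ≤ L) (hμ : ContainsMuP p F)
    (lam : ideles F →* (AlgebraicClosure ℚ)ˣ) (hlam : ∀ φ, lam φ ^ p = 1)
    (hker : ∀ φ : ideles F, φ.1 ∈ classKer T F → lam φ = 1) :
    ∃ y : (AlgebraicClosure ℚ)ˣ, (y : ℚ̄) ^ p ∈ F ∧
      (∀ A : Place, ¬ A.Over T → ∀ σ ∈ A.1.inertiaSubgroupIn ℚ, σ (y : ℚ̄) = y) ∧
      ∀ (q : ℕ) (hq : q.Prime) (A : Place), q ∉ T → A.1.LiesOverPrime q →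
        ∀ σ : Γ, A.1.IsFrobeniusAt σ q → ∀ f : ℕ, 0 < f → σ ^ f ∈ F.fixingSubgroup →
          (∀ g : ℕ, 0 < g → g < f → σ ^ g ∉ F.fixingSubgroup) →
          ∀ h : placeIdele F q hq.ne_zero A ∈ ideles F,
            (lam ⟨_, h⟩ : ℚ̄) = (σ ^ f) (y : ℚ̄) / (y : ℚ̄) := by
  obtain ⟨y, hy, hunr, h⟩ := exists_kummer_units hL (hT F hFL) hFL hμ lam hlam hker
  exact ⟨y, by rw [← Units.val_pow_eq_pow_val]; exact hy.1, hunr, h⟩

/-- Reciprocity in Kummer extensions: every Kummer element unramified outside `T` gives a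
character of `C_T(F)`. -/
theorem exists_character_of_kummer [Fact p.Prime] (hL : IdeleSetting T p L)
    (hT : ∀ E ≤ L, TPrincipal T E) (hFL : F ≤ L) (hμ : ContainsMuP p F)
    (y : (AlgebraicClosure ℚ)ˣ) (hy : (y : ℚ̄) ^ p ∈ F)
    (hunr : ∀ A : Place, ¬ A.Over T → ∀ σ ∈ A.1.inertiaSubgroupIn ℚ, σ (y : ℚ̄) = y) :
    ∃ lam : ideles F →* (AlgebraicClosure ℚ)ˣ, (∀ φ, lam φ ^ p = 1) ∧
      (∀ φ : ideles F, φ.1 ∈ classKer T F → lam φ = 1) ∧
      ∀ (q : ℕ) (hq : q.Prime) (A : Place), q ∉ T → A.1.LiesOverPrime q →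
        ∀ σ : Γ, A.1.IsFrobeniusAt σ q → ∀ f : ℕ, 0 < f → σ ^ f ∈ F.fixingSubgroup →
          (∀ g : ℕ, 0 < g → g < f → σ ^ g ∉ F.fixingSubgroup) →
          ∀ h : placeIdele F q hq.ne_zero A ∈ ideles F,
            (lam ⟨_, h⟩ : ℚ̄) = (σ ^ f) (y : ℚ̄) / (y : ℚ̄) := by
  obtain ⟨lam, h1, h2, -, h3⟩ := exists_reciprocity hL hFL hμ hy hunr
  exact ⟨lam, h1, h2, h3⟩

end FLTAgent.TW
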