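import Fermat.Agent.TW.Idele.Modules

/-!
# The components at `T ∪ ∞`: deep units, the exponential at infinity

Deep units modulo `p`-th powers are the integers modulo `p`; the infinite components are the
quotient of a uniquely divisible module by the anti-invariant functions.
-/

set_option autoImplicit false
set_option maxSynthPendingDepth 6
set_option synthInstance.maxHeartbeats 200000
set_option maxHeartbeats 1000000

noncomputable section

open IsDedekindDomain NumberField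
open scoped Pointwise NumberField

namespace FLTAgent.TW

local notation "ℚ̄" => AlgebraicClosure ℚ
local notation "Γ" => (AlgebraicClosure ℚ ≃ₐ[ℚ] AlgebraicClosure ℚ)

attribute [local instance] numberField_intermediate

variable (T : Finset ℕ) (L : IntermediateField ℚ ℚ̄)

/-- Keep the finite components. -/
def finProj : PreIdele →* PreIdele where
  toFun φ := ⟨φ.fin, 1⟩
  map_one' := rfl
  map_mul' φ ψ := PreIdele.ext rfl (funext fun ι => by simp)

/-- Keep the infinite components. -/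
def infProj : PreIdele →* PreIdele where
  toFun φ := ⟨1, φ.inf⟩
  map_one' := rfl
  map_mul' φ ψ := PreIdele.ext (funext fun A => by simp) rfl

theorem finProj_mem {φ : PreIdele} (hφ : φ ∈ ideles L) : finProj φ ∈ ideles L :=
  ⟨fun σ hσ => PreIdele.ext ((congrArg PreIdele.fin (hφ.1 σ hσ) :)) (funext fun _ => rfl),
    fun ι => by show (1 : ℂˣ) = Units.map _ (1 : ℂˣ); rw [map_one], hφ.2.2⟩

theorem infProj_mem {φ : PreIdele} (hφ : φ ∈ ideles L) : infProj φ ∈ ideles L :=
  ⟨fun σ hσ => PreIdele.ext (funext fun _ => Units.ext (map_one σ))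
      ((congrArg PreIdele.inf (hφ.1 σ hσ) :)),
    hφ.2.1, ∅, fun _ _ => one_mem _⟩

/-- `Γ` on pre-ideles. -/
abbrev ideleAut : Γ →* MulAut PreIdele := MulDistribMulAction.toMulAut Γ PreIdele

/-- The components at `T ∪ ∞`. -/
def locIdeles : Subgroup PreIdele where
  carrier := {φ | φ ∈ ideles L ∧ ∀ A : Place, ¬ A.Over T → φ.fin A = 1}
  one_mem' := ⟨one_mem _, fun _ _ => rfl⟩
  mul_mem' ha hb := ⟨mul_mem ha.1 hb.1, fun A hA => by simp [ha.2 A hA, hb.2 A hA]⟩
  inv_mem' ha := ⟨inv_mem ha.1, fun A hA => by simp [ha.2 A hA]⟩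

/-- Units at `T ∪ ∞`. -/
def locUnits : Subgroup PreIdele where
  carrier := {φ | φ ∈ locIdeles T L ∧ ∀ A : Place, φ.fin A ∈ A.1.unitGroup}
  one_mem' := ⟨one_mem _, fun _ => one_mem _⟩
  mul_mem' ha hb := ⟨mul_mem ha.1 hb.1, fun A => mul_mem (ha.2 A) (hb.2 A)⟩
  inv_mem' ha := ⟨inv_mem ha.1, fun A => inv_mem (ha.2 A)⟩

variable (c : ℕ)

/-- Units congruent to `1` modulo `c` at `T`. -/
def deepUnits : Subgroup PreIdele where
  carrier := {φ | φ ∈ locUnits T L ∧
    ∀ A : Place, A.Over T → A.1.valuation ((φ.fin A : ℚ̄) - 1) ≤ A.1.valuation (c : ℚ̄)}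
  one_mem' := ⟨one_mem _, fun A _ => by simp⟩
  mul_mem' {a b} ha hb := by
    refine ⟨mul_mem ha.1 hb.1, fun A hA => ?_⟩
    rw [PreIdele.fin_mul, Units.val_mul,
      show (a.fin A : ℚ̄) * b.fin A - 1 = ((a.fin A : ℚ̄) - 1) * b.fin A + ((b.fin A : ℚ̄) - 1) by
        ring]
    refine (A.1.valuation.map_add _ _).trans (max_le ?_ (hb.2 A hA))
    rw [map_mul, mem_unitGroup_iff.mp (hb.1.2 A), mul_one]
    exact ha.2 A hA
  inv_mem' {a} ha := by
    refine ⟨inv_mem ha.1, fun A hA => ?_⟩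
    have h1 := mem_unitGroup_iff.mp (ha.1.2 A)
    rw [PreIdele.fin_inv, Units.val_inv_eq_inv_val,
      show (a.fin A : ℚ̄)⁻¹ - 1 = -(((a.fin A : ℚ̄) - 1) * (a.fin A : ℚ̄)⁻¹) by
        field_simp; ring,
      Valuation.map_neg, map_mul, map_inv₀, h1, inv_one, mul_one]
    exact ha.2 A hA

/-- Deep units with trivial infinite components. -/
def deepFin : Subgroup PreIdele where
  carrier := {φ | φ ∈ deepUnits T L c ∧ φ.inf = 1}
  one_mem' := ⟨one_mem _, rfl⟩
  mul_mem' ha hb := ⟨mul_mem ha.1 hb.1, funext fun ι => by simp [ha.2, hb.2]⟩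
  inv_mem' ha := ⟨inv_mem ha.1, funext fun ι => by simp [ha.2]⟩

/-- The infinite components. -/
def infPart : Subgroup PreIdele where
  carrier := {φ | φ ∈ ideles L ∧ φ.fin = 1}
  one_mem' := ⟨one_mem _, rfl⟩
  mul_mem' ha hb := ⟨mul_mem ha.1 hb.1, funext fun A => by simp [ha.2, hb.2]⟩
  inv_mem' ha := ⟨inv_mem ha.1, funext fun A => by simp [ha.2]⟩

/-- Additive functions on the embeddings compatible with conjugation. -/
def logSub : Subgroup (Emb → Multiplicative ℂ) where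
  carrier := {z | (∀ σ ∈ L.fixingSubgroup, embFunAut _ σ z = z) ∧
    ∀ ι : Emb, Multiplicative.toAdd (z ι.conj) = starRingEnd ℂ (Multiplicative.toAdd (z ι))}
  one_mem' := ⟨fun σ _ => map_one _, fun ι => by simp⟩
  mul_mem' {a b} ha hb :=
    ⟨fun σ hσ => by rw [map_mul, ha.1 σ hσ, hb.1 σ hσ], fun ι => by simp [ha.2 ι, hb.2 ι]⟩
  inv_mem' {a} ha := ⟨fun σ hσ => by rw [map_inv, ha.1 σ hσ], fun ι => by simp [ha.2 ι]⟩

variable {T L c}

/-! ### Stability -/

section Stable

variable [Normal ℚ L] (σ : Γ) {φ : PreIdele}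

theorem smul_mem_locIdeles (hφ : φ ∈ locIdeles T L) : σ • φ ∈ locIdeles T L :=
  ⟨smul_mem_ideles σ hφ.1, fun A hA => Units.ext (by
    rw [PreIdele.coe_fin_smul, hφ.2 _ (by simpa using hA)]; simp)⟩

theorem smul_mem_locUnits (hφ : φ ∈ locUnits T L) : σ • φ ∈ locUnits T L := by
  refine ⟨smul_mem_locIdeles σ hφ.1, fun A => ?_⟩
  show Units.map _ _ ∈ _
  conv => arg 1; rw [← smul_inv_smul σ A, Place.coe_smul]
  exact unitGroup_smul.mpr (hφ.2 _)

theorem smul_mem_deepUnits (hφ : φ ∈ deepUnits T L c) : σ • φ ∈ deepUnits T L c := by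
  refine ⟨smul_mem_locUnits σ hφ.1, fun A hA => ?_⟩
  have h := (valuation_smul_le_iff σ (σ⁻¹ • A) (z := (φ.fin (σ⁻¹ • A) : ℚ̄) - 1)
    (w := (c : ℚ̄))).mpr (hφ.2 _ (hA.smul _))
  rwa [smul_inv_smul, map_sub, map_one, map_natCast] at h

theorem smul_mem_deepFin (hφ : φ ∈ deepFin T L c) : σ • φ ∈ deepFin T L c :=
  ⟨smul_mem_deepUnits σ hφ.1, funext fun ι => by rw [PreIdele.inf_smul, hφ.2]; rfl⟩

theorem smul_mem_infPart (hφ : φ ∈ infPart L) : σ • φ ∈ infPart L :=
  ⟨smul_mem_ideles σ hφ.1, funext fun A => Units.ext (by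
    rw [PreIdele.coe_fin_smul, hφ.2]; simp)⟩

theorem embFunAut_mem {A : Type*} [CommGroup A] {n : Emb → A}
    (hn : ∀ τ ∈ L.fixingSubgroup, embFunAut A τ n = n) {τ : Γ} (hτ : τ ∈ L.fixingSubgroup) :
    embFunAut A τ (embFunAut A σ n) = embFunAut A σ n := by
  have h : σ⁻¹ * τ * σ ∈ L.fixingSubgroup := by
    have := (normal_fixingSubgroup_of_normal L).conj_mem τ hτ σ⁻¹
    rwa [inv_inv] at this
  conv_rhs => rw [← hn _ h]
  rw [← MulAut.mul_apply, ← map_mul, ← MulAut.mul_apply, ← map_mul]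
  congr 2
  group

theorem embFunAut_mem_antiFun {n : Emb → Multiplicative ℤ} (hn : n ∈ antiFun L) :
    embFunAut _ σ n ∈ antiFun L :=
  ⟨fun _ hτ => embFunAut_mem σ hn.1 hτ, fun ι => hn.2 (ι.comp (σ : ℚ̄ →+* ℚ̄))⟩

theorem embFunAut_mem_logSub {z : Emb → Multiplicative ℂ} (hz : z ∈ logSub L) :
    embFunAut _ σ z ∈ logSub L :=
  ⟨fun _ hτ => embFunAut_mem σ hz.1 hτ, fun ι => hz.2 (ι.comp (σ : ℚ̄ →+* ℚ̄))⟩

end Stable

/-! ### Infinity -/

variable (L) in
/-- `2 π i`. -/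
def periodHom : antiFun L →* logSub L :=
  ((MonoidHom.compLeft (AddMonoidHom.toMultiplicative
    ((AddMonoidHom.mulRight (2 * (Real.pi : ℂ) * Complex.I)).comp (Int.castAddHom ℂ))) Emb).comp
      (antiFun L).subtype).codRestrict _ fun n => by
    refine ⟨fun σ hσ => funext fun ι => ?_, fun ι => ?_⟩
    · have h := congrFun (n.2.1 σ hσ) ι
      rw [embFunAut_apply] at h
      rw [embFunAut_apply]
      exact congrArg (AddMonoidHom.toMultiplicative
        ((AddMonoidHom.mulRight (2 * (Real.pi : ℂ) * Complex.I)).comp (Int.castAddHom ℂ))) h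
    · show ((Multiplicative.toAdd ((n : Emb → Multiplicative ℤ) ι.conj) : ℤ) : ℂ) * _ =
        starRingEnd ℂ (((Multiplicative.toAdd ((n : Emb → Multiplicative ℤ) ι) : ℤ) : ℂ) * _)
      rw [n.2.2 ι, toAdd_inv]
      simp [map_ofNat]

variable (L) in
/-- The exponential. -/
def expInf : logSub L →* infPart L where
  toFun z := ⟨⟨1, fun ι => Units.mk0 (Complex.exp (Multiplicative.toAdd ((z : Emb → Multiplicative ℂ) ι)))
      (Complex.exp_ne_zero _)⟩,
    ⟨fun σ hσ => PreIdele.ext (funext fun A => Units.ext (map_one σ)) (funext fun ι => by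
        refine Units.ext ?_
        show Complex.exp (Multiplicative.toAdd ((z : Emb → Multiplicative ℂ) (ι.comp (σ : ℚ̄ →+* ℚ̄)))) = _
        rw [← embFunAut_apply σ (z : Emb → Multiplicative ℂ), z.2.1 σ hσ]
        rfl),
      fun ι => Units.ext (by
        show Complex.exp (Multiplicative.toAdd ((z : Emb → Multiplicative ℂ) ι.conj)) =
          starRingEnd ℂ (Complex.exp (Multiplicative.toAdd ((z : Emb → Multiplicative ℂ) ι)))
        rw [z.2.2 ι, Complex.exp_conj]), ∅, fun A _ => one_mem _⟩, rfl⟩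
  map_one' := Subtype.ext (PreIdele.ext rfl (funext fun ι => Units.ext (by simp)))
  map_mul' z z' := Subtype.ext (PreIdele.ext (funext fun A => by simp) (funext fun ι => Units.ext (by
    simp [Complex.exp_add])))

theorem periodHom_injective : Function.Injective (periodHom L) := by
  intro n n' h
  refine Subtype.ext (funext fun ι => Multiplicative.toAdd.injective ?_)
  have h' := congrArg (fun z : logSub L => Multiplicative.toAdd ((z : Emb → Multiplicative ℂ) ι)) h
  change ((Multiplicative.toAdd ((n : Emb → Multiplicative ℤ) ι) : ℤ) : ℂ) * _ =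
    ((Multiplicative.toAdd ((n' : Emb → Multiplicative ℤ) ι) : ℤ) : ℂ) * _ at h'
  exact Int.cast_injective (mul_right_cancel₀ (by simp [Complex.ofReal_eq_zero, Real.pi_ne_zero]) h')

theorem range_periodHom : (periodHom L).range = (expInf L).ker := by
  ext z
  constructor
  · rintro ⟨n, rfl⟩
    refine Subtype.ext (PreIdele.ext rfl (funext fun ι => Units.ext ?_))
    show Complex.exp (((Multiplicative.toAdd ((n : Emb → Multiplicative ℤ) ι) : ℤ) : ℂ) * _) = 1
    exact Complex.exp_int_mul_two_pi_mul_I _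
  · intro hz
    have h1 : ∀ ι, ∃ n : ℤ, Multiplicative.toAdd ((z : Emb → Multiplicative ℂ) ι) =
        (n : ℂ) * (2 * (Real.pi : ℂ) * Complex.I) := fun ι =>
      Complex.exp_eq_one_iff.mp (congrArg (fun w : infPart L => ((w : PreIdele).inf ι : ℂ))
        (MonoidHom.mem_ker.mp hz))
    choose n hn using h1
    have hne : (2 * (Real.pi : ℂ) * Complex.I) ≠ 0 := by simp [Real.pi_ne_zero]
    refine ⟨⟨fun ι => Multiplicative.ofAdd (n ι), fun σ hσ => funext fun ι => ?_, fun ι => ?_⟩,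
      Subtype.ext (funext fun ι => Multiplicative.toAdd.injective (hn ι).symm)⟩
    · rw [embFunAut_apply]
      refine congrArg Multiplicative.ofAdd (Int.cast_injective (α := ℂ) (mul_right_cancel₀ hne ?_))
      rw [← hn, ← hn, ← embFunAut_apply σ (z : Emb → Multiplicative ℂ), z.2.1 σ hσ]
    · refine Multiplicative.toAdd.injective (Int.cast_injective (α := ℂ) (mul_right_cancel₀ hne ?_))
      rw [toAdd_ofAdd, toAdd_inv, toAdd_ofAdd, ← hn, Int.cast_neg, neg_mul, ← hn, z.2.2 ι, hn]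
      simp [map_ofNat]

variable {p : ℕ} [hp : Fact p.Prime]

/-- Multiplication by `p` is bijective on `logSub`. -/
theorem pow_bijective_logSub : Function.Bijective (powMonoidHom p : logSub L →* logSub L) := by
  have hp0 : (p : ℂ) ≠ 0 := Nat.cast_ne_zero.mpr hp.out.ne_zero
  constructor
  · intro a b h
    refine Subtype.ext (funext fun ι => Multiplicative.toAdd.injective ?_)
    have h' := congrArg (fun z : logSub L => Multiplicative.toAdd ((z : Emb → Multiplicative ℂ) ι)) h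
    simp only [powMonoidHom_apply, SubmonoidClass.coe_pow, Pi.pow_apply, toAdd_pow,
      nsmul_eq_mul] at h'
    exact mul_left_cancel₀ hp0 h'
  · intro b
    refine ⟨⟨fun ι => Multiplicative.ofAdd (Multiplicative.toAdd ((b : Emb → Multiplicative ℂ) ι) / p),
      fun σ hσ => funext fun ι => ?_, fun ι => ?_⟩, Subtype.ext (funext fun ι => ?_)⟩
    · rw [embFunAut_apply, ← embFunAut_apply σ (b : Emb → Multiplicative ℂ), b.2.1 σ hσ]
    · simp only [toAdd_ofAdd, b.2.2 ι, map_div₀, map_natCast]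
    · refine Multiplicative.toAdd.injective ?_
      simp only [powMonoidHom_apply, SubmonoidClass.coe_pow, Pi.pow_apply, toAdd_pow, toAdd_ofAdd,
        nsmul_eq_mul]
      field_simp

variable [FiniteDimensional ℚ L]

theorem expInf_surjective (hL : IsEmpty (RealEmb L)) : Function.Surjective (expInf L) := by
  classical
  rintro ⟨φ, hφ, hφ1⟩
  choose ext hext using exists_res_eq (F := L)
  let rep : (L →+* ℂ) → (L →+* ℂ) := fun f => (InfinitePlace.mk f).embedding
  have hcomp : ∀ f : L →+* ℂ, (starRingEnd ℂ).comp f = ComplexEmbedding.conjugate f := fun f =>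
    RingHom.ext fun x => rfl
  have hrep : ∀ f : L →+* ℂ, rep f = f ∨ rep f = (starRingEnd ℂ).comp f := fun f => by
    rw [hcomp]; exact InfinitePlace.embedding_mk_eq f
  let w : (L →+* ℂ) → ℂ := fun f => if f = rep f then Complex.log (φ.inf (ext f) : ℂ)
    else starRingEnd ℂ (Complex.log (φ.inf (ext (rep f)) : ℂ))
  have hwc : ∀ f, w ((starRingEnd ℂ).comp f) = starRingEnd ℂ (w f) := by
    intro f
    have hr : rep ((starRingEnd ℂ).comp f) = rep f := by
      simp only [rep, hcomp, InfinitePlace.mk_conjugate_eq]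
    have hne : ¬ (starRingEnd ℂ).comp f = f := fun h => hL.false ⟨f, h⟩
    simp only [w, hr]
    rcases hrep f with hr' | hr'
    · rw [if_neg (fun hh => hne (hh.trans hr')), if_pos hr'.symm, hr']
    · rw [if_pos hr'.symm, if_neg (fun hh => hne (hh.trans hr').symm), Complex.conj_conj, hr']
  have hwe : ∀ ι : Emb, Complex.exp (w (ι.res L)) = (φ.inf ι : ℂ) := by
    intro ι
    simp only [w]
    split_ifs with h
    · rw [Complex.exp_log (Units.ne_zero _)]
      exact congrArg Units.val (inf_eq_of_res_eq hφ (hext _))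
    · have hr := (hrep (ι.res L)).resolve_left (Ne.symm h)
      rw [Complex.exp_conj, Complex.exp_log (Units.ne_zero _),
        inf_eq_of_res_eq hφ (show (ext (rep (ι.res L))).res L = ι.conj.res L by
          rw [hext, res_conj, hr]), hφ.2.1 ι]
      simp
  refine ⟨⟨fun ι => Multiplicative.ofAdd (w (ι.res L)), fun σ hσ => funext fun ι => ?_,
    fun ι => ?_⟩, Subtype.ext (PreIdele.ext hφ1.symm (funext fun ι => Units.ext (hwe ι)))⟩
  · rw [embFunAut_apply]
    congr 2
    exact RingHom.ext fun x => congrArg ι ((IntermediateField.mem_fixingSubgroup_iff _ _).mp hσ _ x.2)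
  · rw [toAdd_ofAdd, toAdd_ofAdd, res_conj, hwc]

/-! ### Deep units -/

theorem exists_int_approx (x : L) (hx : ∀ A : Place, A.Over T → A.1.valuation (x : ℚ̄) ≤ 1) (n : ℕ) :
    ∃ a : 𝓞 L, ∀ A : Place, A.Over T →
      A.1.valuation ((x : ℚ̄) - ((a : L) : ℚ̄)) ≤ A.1.valuation (A.char : ℚ̄) ^ n := by
  classical
  have hloc : ∀ P : HeightOneSpectrum (𝓞 L), P ∈ primesOverT L T → ∃ a : 𝓞 L,
      P.valuation L (x - a) ≤ P.valuation L (((placeAbove L P).char : L) ^ n) := by
    intro P hP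
    set A := placeAbove L P with hA
    have hA' : A.Over T := primeOf_mem_primesOverT.mp (by rw [primeOf_placeAbove]; exact hP)
    have hx1 : P.valuation L x ≤ 1 := by
      have h := (valuation_le_iff (A := A) x 1).mp (by simpa using hx A hA')
      rwa [primeOf_placeAbove, map_one] at h
    rw [map_pow, valuation_natCast P A.prime_char.ne_zero, ← WithZero.exp_nsmul]
    obtain ⟨a, ha⟩ := exists_int_near P hx1 (n * expOf L P A.char)
    refine ⟨a, ha.trans_eq ?_⟩
    congr 1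
    rw [nsmul_eq_mul]; push_cast; ring
  choose! a ha using hloc
  obtain ⟨b, hb⟩ := exists_congr (primesOverT L T) a n
  refine ⟨b, fun A hA => ?_⟩
  have hm := primeOf_mem_primesOverT (F := L).mpr hA
  have h1 : A.1.valuation ((x : ℚ̄) - ((a (primeOf L A) : L) : ℚ̄)) ≤
      A.1.valuation (A.char : ℚ̄) ^ n := by
    have h := ha _ hm
    rw [char_placeAbove (A := A) rfl] at h
    have h' := (valuation_le_iff (A := A) _ _).mpr h
    simpa [map_pow] using h'
  have h2 := hb A hm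
  rw [Valuation.map_sub_swap] at h2
  calc A.1.valuation ((x : ℚ̄) - ((b : L) : ℚ̄))
      = A.1.valuation (((x : ℚ̄) - ((a (primeOf L A) : L) : ℚ̄)) +
          (((a (primeOf L A) : L) : ℚ̄) - ((b : L) : ℚ̄))) := by rw [sub_add_sub_cancel]
    _ ≤ _ := (A.1.valuation.map_add _ _).trans (max_le h1 h2)

/-- The integers modulo `b` see congruences at `T` when `b` is a `T`-number. -/
theorem dvd_int_of_valuation_le (b : ℕ) (hb : b ≠ 0) (hbT : ∀ q : ℕ, q.Prime → q ∣ b → q ∈ T) {z : 𝓞 L}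
    (h : ∀ A : Place, A.Over T → A.1.valuation ((z : L) : ℚ̄) ≤ A.1.valuation (b : ℚ̄)) :
    (b : 𝓞 L) ∣ z := by
  have hb0 : (b : L) ≠ 0 := Nat.cast_ne_zero.mpr hb
  obtain ⟨w, hw⟩ := HeightOneSpectrum.mem_integers_of_valuation_le_one L ((z : L) / (b : L))
    fun P => by
      set A := placeAbove L P with hA
      have hAb : A.1.valuation ((z : L) : ℚ̄) ≤ A.1.valuation (b : ℚ̄) := by
        by_cases hAT : A.Over T
        · exact h A hAT
        · refine (valuation_int_le A z).trans_eq (Eq.symm (le_antisymm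
            ((A.1.valuation_le_one_iff _).mpr (natCast_mem A.1 b)) (not_lt.mp fun hlt => hAT ?_)))
          rw [Place.over_iff]
          exact hbT _ A.prime_char
            ((GalCommon.natCast_mem_nonunits_iff A.prime_char A.liesOver_char b).mp
              (by rwa [ValuationSubring.mem_nonunits_iff]))
      have h2 := (valuation_le_iff (A := A) (z : L) (b : L)).mp (by
        rw [show (((b : L)) : ℚ̄) = (b : ℚ̄) from map_natCast L.val b]; exact hAb)
      rw [primeOf_placeAbove] at h2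
      rwa [map_div₀, div_le_one₀ (zero_lt_iff.mpr (by simpa using hb0))]
  refine ⟨w, FaithfulSMul.algebraMap_injective (𝓞 L) L ?_⟩
  rw [map_mul, hw, map_natCast, mul_div_cancel₀ _ hb0]

/-- The conditions on the modulus `c`. -/
structure DeepModulus (T : Finset ℕ) (p : ℕ) (ζ : ℚ̄) (c : ℕ) : Prop where
  ne_zero : c ≠ 0
  dvd : ∀ q : ℕ, q.Prime → q ∣ c → q ∈ T
  lt : ∀ A : Place, A.Over T →
    A.1.valuation (c : ℚ̄) < A.1.valuation (p : ℚ̄) * A.1.valuation (ζ - 1)

variable {ζ : ℚ̄}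

theorem exists_deepModulus (hT : ∀ q ∈ T, q.Prime) (hζ : IsPrimitiveRoot ζ p) (hζL : ζ ∈ L) :
    ∃ c, DeepModulus T p ζ c := by
  let z : L := ⟨ζ, hζL⟩
  have hne : (p : L) * (z - 1) ≠ 0 := by
    refine mul_ne_zero (Nat.cast_ne_zero.mpr hp.out.ne_zero) (sub_ne_zero.mpr fun h => ?_)
    exact hζ.ne_one hp.out.one_lt (congrArg Subtype.val h)
  obtain ⟨k, hk⟩ := exists_pow_le_of_ne_zero (primesOverT L T) (fun _ => (p : L) * (z - 1))
    fun _ _ => hne
  refine ⟨(∏ q ∈ T, q) ^ (k + 1), pow_ne_zero _ (Finset.prod_ne_zero_iff.mpr fun q hq =>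
    (hT q hq).ne_zero), fun q hq h => ?_, fun A hA => ?_⟩
  · obtain ⟨r, hr, hqr⟩ := (Prime.dvd_finsetProd_iff hq.prime _).mp (hq.dvd_of_dvd_pow h)
    rwa [(Nat.prime_dvd_prime_iff_eq hq (hT r hr)).mp hqr]
  · have h := hk A (primeOf_mem_primesOverT.mpr hA)
    rw [IntermediateField.coe_mul, map_mul, AddSubgroupClass.coe_sub, OneMemClass.coe_one,
      show (((p : L)) : ℚ̄) = (p : ℚ̄) from map_natCast L.val p] at h
    refine lt_of_lt_of_le ?_ h
    rw [Nat.cast_pow, map_pow]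
    refine lt_of_le_of_lt (pow_le_pow_left₀ zero_le ?_ (k + 1))
      (pow_lt_pow_right_of_lt_one₀ (zero_lt_iff.mpr A.valuation_char_ne_zero)
        A.valuation_char_lt_one k.lt_succ_self)
    rw [Nat.cast_prod, map_prod, ← Finset.mul_prod_erase _ _ (A.over_iff.mp hA)]
    exact mul_le_of_le_one_right' (Finset.prod_le_one' fun q _ =>
      (A.1.valuation_le_one_iff _).mpr (natCast_mem A.1 q))

/-- `a` represents `(θ - 1) / c` at `T`. -/
def RepDeep (T : Finset ℕ) (p c : ℕ) (θ : PreIdele) (a : 𝓞 L) : Prop :=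
  ∀ A : Place, A.Over T → A.1.valuation ((θ.fin A : ℚ̄) - 1 - (c : ℚ̄) * ((a : L) : ℚ̄)) ≤
    A.1.valuation (p : ℚ̄) * A.1.valuation (c : ℚ̄)

theorem exists_repDeep (hc : DeepModulus T p ζ c) {θ : PreIdele} (hθ : θ ∈ deepFin T L c) :
    ∃ a : 𝓞 L, RepDeep T p c θ a := by
  have hc0 : (c : L) ≠ 0 := Nat.cast_ne_zero.mpr hc.ne_zero
  have hcQ : (c : ℚ̄) ≠ 0 := Nat.cast_ne_zero.mpr hc.ne_zero
  obtain ⟨n, hn⟩ := exists_pow_le_of_ne_zero (primesOverT L T) (fun _ => (p : L) * (c : L))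
    fun _ _ => mul_ne_zero (Nat.cast_ne_zero.mpr hp.out.ne_zero) hc0
  obtain ⟨x, -, hx⟩ := exists_idele_approx hθ.1.1.1.1 (primesOverT L T) n
  have hbound : ∀ A : Place, A.Over T → A.1.valuation (A.char : ℚ̄) ^ n ≤
      A.1.valuation (p : ℚ̄) * A.1.valuation (c : ℚ̄) := fun A hA => by
    have h := hn A (primeOf_mem_primesOverT.mpr hA)
    rwa [IntermediateField.coe_mul, map_mul, show (((p : L)) : ℚ̄) = (p : ℚ̄) from map_natCast L.val p,
      show (((c : L)) : ℚ̄) = (c : ℚ̄) from map_natCast L.val c] at h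
  have hp1 : ∀ A : Place, A.1.valuation (p : ℚ̄) ≤ 1 := fun A =>
    (A.1.valuation_le_one_iff _).mpr (natCast_mem A.1 p)
  have hxθ : ∀ A : Place, A.Over T →
      A.1.valuation ((θ.fin A : ℚ̄) - (x : ℚ̄)) ≤ A.1.valuation (A.char : ℚ̄) ^ n := fun A hA => by
    have h := hx A (primeOf_mem_primesOverT.mpr hA)
    rw [div_sub_one (Units.ne_zero _), map_div₀, mem_unitGroup_iff.mp (hθ.1.1.2 A), div_one] at h
    rwa [Valuation.map_sub_swap]
  obtain ⟨a, ha⟩ := exists_int_approx (T := T) ((x - 1) / (c : L)) (fun A hA => by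
    rw [IntermediateField.coe_div, show (((c : L)) : ℚ̄) = (c : ℚ̄) from map_natCast L.val c,
      map_div₀, div_le_one₀ (zero_lt_iff.mpr (by simpa using hcQ))]
    rw [AddSubgroupClass.coe_sub, OneMemClass.coe_one,
      show (x : ℚ̄) - 1 = ((θ.fin A : ℚ̄) - 1) - ((θ.fin A : ℚ̄) - (x : ℚ̄)) by ring]
    exact (A.1.valuation.map_sub _ _).trans (max_le (hθ.1.2 A hA)
      ((hxθ A hA).trans ((hbound A hA).trans (mul_le_of_le_one_left' (hp1 A)))))) n
  refine ⟨a, fun A hA => ?_⟩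
  have h := ha A hA
  rw [IntermediateField.coe_div, show (((c : L)) : ℚ̄) = (c : ℚ̄) from map_natCast L.val c,
    AddSubgroupClass.coe_sub, OneMemClass.coe_one] at h
  rw [show (θ.fin A : ℚ̄) - 1 - (c : ℚ̄) * ((a : L) : ℚ̄) = ((θ.fin A : ℚ̄) - (x : ℚ̄)) +
    (c : ℚ̄) * (((x : ℚ̄) - 1) / (c : ℚ̄) - ((a : L) : ℚ̄)) by field_simp; ring]
  refine (A.1.valuation.map_add _ _).trans (max_le ((hxθ A hA).trans (hbound A hA)) ?_)
  rw [map_mul]
  exact (mul_le_of_le_one_left' ((A.1.valuation_le_one_iff _).mpr (natCast_mem A.1 c))).trans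
    (h.trans (hbound A hA))

theorem RepDeep.dvd_sub (hpT : p ∈ T) (hc : DeepModulus T p ζ c) {θ : PreIdele} {a a' : 𝓞 L}
    (h : RepDeep T p c θ a) (h' : RepDeep T p c θ a') : (p : 𝓞 L) ∣ a - a' := by
  refine dvd_int_of_valuation_le (T := T) p hp.out.ne_zero
    (fun q hq hqp => by rwa [(Nat.prime_dvd_prime_iff_eq hq hp.out).mp hqp]) fun A hA => ?_
  have hc0 : A.1.valuation (c : ℚ̄) ≠ 0 := by simpa using hc.ne_zero
  have h1 : A.1.valuation (c : ℚ̄) * A.1.valuation (((a - a' : 𝓞 L) : L) : ℚ̄) ≤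
      A.1.valuation (p : ℚ̄) * A.1.valuation (c : ℚ̄) := by
    rw [← map_mul, show (c : ℚ̄) * (((a - a' : 𝓞 L) : L) : ℚ̄) =
      ((θ.fin A : ℚ̄) - 1 - (c : ℚ̄) * ((a' : L) : ℚ̄)) -
        ((θ.fin A : ℚ̄) - 1 - (c : ℚ̄) * ((a : L) : ℚ̄)) by push_cast; ring]
    exact (A.1.valuation.map_sub _ _).trans (max_le (h' A hA) (h A hA))
  rw [mul_comm (A.1.valuation (p : ℚ̄))] at h1
  exact le_of_mul_le_mul_left h1 (zero_lt_iff.mpr hc0)

theorem RepDeep.mul (hc : DeepModulus T p ζ c) (hζ : IsPrimitiveRoot ζ p) {θ θ' : PreIdele}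
    (hθ' : θ' ∈ deepFin T L c) {a a' : 𝓞 L}
    (h : RepDeep T p c θ a) (h' : RepDeep T p c θ' a') : RepDeep T p c (θ * θ') (a + a') := by
  intro A hA
  rw [PreIdele.fin_mul, Units.val_mul, show (θ.fin A : ℚ̄) * θ'.fin A - 1 -
      (c : ℚ̄) * (((a + a' : 𝓞 L) : L) : ℚ̄) =
      ((θ.fin A : ℚ̄) - 1 - (c : ℚ̄) * ((a : L) : ℚ̄)) * θ'.fin A +
        (((θ'.fin A : ℚ̄) - 1) * ((c : ℚ̄) * ((a : L) : ℚ̄)) +
          ((θ'.fin A : ℚ̄) - 1 - (c : ℚ̄) * ((a' : L) : ℚ̄))) by push_cast; ring]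
  refine (A.1.valuation.map_add _ _).trans (max_le ?_ ((A.1.valuation.map_add _ _).trans
    (max_le ?_ (h' A hA))))
  · rw [map_mul, mem_unitGroup_iff.mp (hθ'.1.1.2 A), mul_one]
    exact h A hA
  · rw [map_mul, map_mul]
    have hcp : A.1.valuation (c : ℚ̄) ≤ A.1.valuation (p : ℚ̄) :=
      (hc.lt A hA).le.trans (mul_le_of_le_one_right' (valuation_zeta_sub_one_le hζ A))
    refine mul_le_mul' ((hθ'.1.2 A hA).trans hcp) ?_
    exact mul_le_of_le_one_right' (valuation_int_le A a)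

theorem RepDeep.smul [Normal ℚ L] (σ : Γ) {θ : PreIdele} {a a' : 𝓞 L}
    (h : RepDeep T p c θ a) (ha' : ((a' : L) : ℚ̄) = σ ((a : L) : ℚ̄)) :
    RepDeep T p c (σ • θ) a' := by
  intro A hA
  rw [← map_mul]
  have h1 := (valuation_smul_le_iff σ (σ⁻¹ • A)
    (z := (θ.fin (σ⁻¹ • A) : ℚ̄) - 1 - (c : ℚ̄) * ((a : L) : ℚ̄)) (w := (p : ℚ̄) * (c : ℚ̄))).mpr
      (by rw [map_mul]; exact h _ (hA.smul _))
  rwa [smul_inv_smul, map_sub σ, map_sub σ, map_one, map_mul σ, map_natCast, map_mul σ, map_natCast, map_natCast,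
    ← PreIdele.coe_fin_smul, ← ha'] at h1

variable (hζ : IsPrimitiveRoot ζ p) (hζL : ζ ∈ L)

include hζ in
theorem pow_injective_deepFin (hc : DeepModulus T p ζ c) :
    Function.Injective (powMonoidHom p : deepFin T L c →* deepFin T L c) := by
  rintro ⟨a, ha⟩ ⟨b, hb⟩ h
  have h' : a ^ p = b ^ p := congrArg Subtype.val h
  refine Subtype.ext (PreIdele.ext (funext fun A => ?_) (ha.2.trans hb.2.symm))
  by_cases hA : A.Over T
  · have h1 := congrArg (fun φ => ((finHom A φ : ℚ̄ˣ) : ℚ̄)) h'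
    simp only [map_pow, Units.val_pow_eq_pow_val] at h1
    have hlt := lt_of_lt_of_le (hc.lt A hA)
      (mul_le_of_le_one_left' ((A.1.valuation_le_one_iff _).mpr (natCast_mem A.1 p)))
    exact Units.ext (root_unique hζ A h1 (lt_of_le_of_lt (ha.1.2 A hA) hlt)
      (lt_of_le_of_lt (hb.1.2 A hA) hlt))
  · rw [ha.1.1.1.2 A hA, hb.1.1.1.2 A hA]

include hζ hζL in
/-- `p`-th powers of deep units. -/
theorem mem_range_pow_deepFin (hc : DeepModulus T p ζ c) (θ : deepFin T L c) :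
    θ ∈ (powMonoidHom p : deepFin T L c →* deepFin T L c).range ↔ ∀ A : Place, A.Over T →
      A.1.valuation (((θ : PreIdele).fin A : ℚ̄) - 1) ≤
        A.1.valuation (p : ℚ̄) * A.1.valuation (c : ℚ̄) := by
  classical
  have hlt : ∀ A : Place, A.Over T → A.1.valuation (c : ℚ̄) < A.1.valuation (ζ - 1) := fun A hA =>
    lt_of_lt_of_le (hc.lt A hA)
      (mul_le_of_le_one_left' ((A.1.valuation_le_one_iff _).mpr (natCast_mem A.1 p)))
  constructor
  · rintro ⟨ψ, rfl⟩ A hA
    have hψ := ψ.2.1.2 A hA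
    show A.1.valuation (((finHom A ((ψ : PreIdele) ^ p) : ℚ̄ˣ) : ℚ̄) - 1) ≤ _
    rw [map_pow, Units.val_pow_eq_pow_val]
    show A.1.valuation (((ψ : PreIdele).fin A : ℚ̄) ^ p - 1) ≤ _
    rw [valuation_pow_prime_sub_one hζ A (lt_of_le_of_lt hψ (hlt A hA))]
    exact mul_le_mul' le_rfl hψ
  · obtain ⟨θ, hθd, hθinf⟩ := θ
    intro h
    obtain ⟨⟨⟨hθI, hθoff⟩, hθu⟩, _⟩ := hθd
    have hroot : ∀ A : Place, ∃ t : ℚ̄ˣ, (A.Over T → (t : ℚ̄) ^ p = θ.fin A ∧
        A.1.valuation ((t : ℚ̄) - 1) ≤ A.1.valuation (c : ℚ̄)) := by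
      intro A
      by_cases hA : A.Over T
      · have hlt' : A.1.valuation ((θ.fin A : ℚ̄) - 1) <
            A.1.valuation (p : ℚ̄) * A.1.valuation (ζ - 1) :=
          lt_of_le_of_lt (h A hA) (mul_lt_mul_of_pos_left (hlt A hA)
            (zero_lt_iff.mpr (by simpa using hp.out.ne_zero)))
        obtain ⟨t, ht, htn, -⟩ := exists_root_fixed hζ A hlt'
        have ht0 : t ≠ 0 := fun h0 => (θ.fin A).ne_zero (by
          rw [← ht, h0, zero_pow hp.out.ne_zero])
        refine ⟨Units.mk0 t ht0, fun _ => ⟨ht, ?_⟩⟩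
        have h1 := h A hA
        simp only [← ht] at h1
        rw [valuation_pow_prime_sub_one hζ A htn] at h1
        exact le_of_mul_le_mul_left h1 (zero_lt_iff.mpr (by simpa using hp.out.ne_zero))
      · exact ⟨1, fun h' => absurd h' hA⟩
    choose t ht using hroot
    let ψ : PreIdele := ⟨fun A => if A.Over T then t A else 1, 1⟩
    have hequiv : ∀ σ ∈ L.fixingSubgroup, σ • ψ = ψ := by
      intro σ hσ
      refine PreIdele.ext (funext fun A => Units.ext ?_) (funext fun ι => rfl)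
      rw [PreIdele.coe_fin_smul]
      show σ ((if (σ⁻¹ • A).Over T then t (σ⁻¹ • A) else 1 : ℚ̄ˣ) : ℚ̄) =
        ((if A.Over T then t A else 1 : ℚ̄ˣ) : ℚ̄)
      by_cases hA : A.Over T
      · rw [if_pos (hA.smul _), if_pos hA]
        refine root_unique hζ A ?_ ?_ (lt_of_le_of_lt (ht A hA).2 (hlt A hA))
        · rw [← map_pow, (ht _ (hA.smul _)).1, (ht A hA).1, ← coe_smul_fin hθI hσ, smul_inv_smul]
        · have h2 := (valuation_smul_le_iff σ (σ⁻¹ • A) (z := ζ - 1)
            (w := (t (σ⁻¹ • A) : ℚ̄) - 1)).not.mpr (not_le.mpr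
              (lt_of_le_of_lt (ht _ (hA.smul _)).2 (hlt _ (hA.smul _))))
          rw [smul_inv_smul, map_sub σ, map_sub σ, map_one,
            (IntermediateField.mem_fixingSubgroup_iff _ _).mp hσ _ hζL] at h2
          exact not_le.mp h2
      · rw [if_neg (by simpa using hA), if_neg hA, Units.val_one, map_one]
    have hval : ∀ A : Place, A.Over T → A.1.valuation (ψ.fin A : ℚ̄) = 1 := fun A hA => by
      show A.1.valuation ((if A.Over T then t A else 1 : ℚ̄ˣ) : ℚ̄) = 1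
      rw [if_pos hA]
      exact valuation_eq_one_of_near hζ A (lt_of_le_of_lt (ht A hA).2 (hlt A hA))
    have hψ : ψ ∈ deepFin T L c := by
      refine ⟨⟨⟨⟨⟨hequiv, fun ι => ?_, T, fun A hA => ?_⟩, fun A hA => if_neg hA⟩, fun A => ?_⟩,
        fun A hA => ?_⟩, rfl⟩
      · show (1 : ℂˣ) = Units.map _ (1 : ℂˣ); rw [map_one]
      · show (if A.Over T then t A else 1) ∈ _
        rw [if_neg hA]; exact one_mem _
      · by_cases hA : A.Over T
        · exact mem_unitGroup_iff.mpr (hval A hA)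
        · show (if A.Over T then t A else 1) ∈ _
          rw [if_neg hA]; exact one_mem _
      · show A.1.valuation (((if A.Over T then t A else 1 : ℚ̄ˣ) : ℚ̄) - 1) ≤ _
        rw [if_pos hA]; exact (ht A hA).2
    refine ⟨⟨ψ, hψ⟩, Subtype.ext (PreIdele.ext (funext fun A => ?_) (funext fun ι => ?_))⟩
    · show finHom A (ψ ^ p) = θ.fin A
      rw [map_pow]
      show (if A.Over T then t A else 1) ^ p = _
      by_cases hA : A.Over T
      · rw [if_pos hA]; exact Units.ext (ht A hA).1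
      · rw [if_neg hA, one_pow, hθoff A hA]
    · show infHom ι (ψ ^ p) = θ.inf ι
      rw [map_pow, hθinf]
      exact one_pow p

theorem valuation_one_add_mul_eq_one (hc : DeepModulus T p ζ c) (hζ : IsPrimitiveRoot ζ p)
    (a : 𝓞 L) {A : Place} (hA : A.Over T) :
    A.1.valuation (1 + (c : ℚ̄) * ((a : L) : ℚ̄)) = 1 := by
  rw [Valuation.map_add_eq_of_lt_left _ (by
    rw [map_one, map_mul]
    exact lt_of_le_of_lt (mul_le_of_le_one_right' (valuation_int_le A a))
      (lt_of_lt_of_le (hc.lt A hA) (mul_le_one' ((A.1.valuation_le_one_iff _).mpr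
        (natCast_mem A.1 p)) (valuation_zeta_sub_one_le hζ A)))), map_one]

include hζ in
theorem exists_deepFin_rep (hT : ∃ A : Place, A.Over T) (hc : DeepModulus T p ζ c) (a : 𝓞 L) :
    ∃ θ ∈ deepFin T L c, RepDeep T p c θ a := by
  obtain ⟨A₀, hA₀⟩ := hT
  have hu : (1 + (c : ℚ̄) * ((a : L) : ℚ̄)) ≠ 0 := fun h => by
    have := valuation_one_add_mul_eq_one hc hζ a hA₀
    simp [h] at this
  let u : ℚ̄ˣ := Units.mk0 _ hu
  have huL : (u : ℚ̄) ∈ L := add_mem L.one_mem (mul_mem (natCast_mem L c) (a : L).2)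
  set θ := finProj (trunc T (PreIdele.principalHom u))
  have hfin : ∀ A : Place, A.Over T → θ.fin A = u := fun A hA =>
    trunc_fin_of_over (PreIdele.principalHom u) hA
  have hoff : ∀ A : Place, ¬ A.Over T → θ.fin A = 1 := fun A hA =>
    trunc_fin_of_not_over (PreIdele.principalHom u) hA
  refine ⟨θ, ⟨⟨⟨⟨finProj_mem L (trunc_mem (principalHom_mem_ideles huL)), hoff⟩, fun A => ?_⟩,
    fun A hA => ?_⟩, rfl⟩, fun A hA => ?_⟩
  · by_cases hA : A.Over T
    · rw [hfin A hA, mem_unitGroup_iff]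
      exact valuation_one_add_mul_eq_one hc hζ a hA
    · rw [hoff A hA]; exact one_mem _
  · rw [hfin A hA]
    show A.1.valuation (1 + (c : ℚ̄) * ((a : L) : ℚ̄) - 1) ≤ _
    rw [add_sub_cancel_left, map_mul]
    exact mul_le_of_le_one_right' (valuation_int_le A a)
  · rw [hfin A hA]
    show A.1.valuation (1 + (c : ℚ̄) * ((a : L) : ℚ̄) - 1 - (c : ℚ̄) * ((a : L) : ℚ̄)) ≤ _
    simp

/-- Deep units have finite index. -/
theorem finite_deep_quotient (hc : DeepModulus T p ζ c) :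
    Finite (locUnits T L ⧸ (deepUnits T L c).subgroupOf (locUnits T L)) := by
  classical
  have hc0 : (c : L) ≠ 0 := Nat.cast_ne_zero.mpr hc.ne_zero
  obtain ⟨n, hn⟩ := exists_pow_le_of_ne_zero (primesOverT L T) (fun _ => (c : L)) fun _ _ => hc0
  have hbound : ∀ A : Place, A.Over T →
      A.1.valuation (A.char : ℚ̄) ^ n ≤ A.1.valuation (c : ℚ̄) := fun A hA => by
    have h := hn A (primeOf_mem_primesOverT.mpr hA)
    rwa [show (((c : L)) : ℚ̄) = (c : ℚ̄) from map_natCast L.val c] at h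
  have hrep : ∀ θ : locUnits T L, ∃ a : 𝓞 L, ∀ A : Place, A.Over T →
      A.1.valuation (((θ : PreIdele).fin A : ℚ̄) - ((a : L) : ℚ̄)) ≤ A.1.valuation (c : ℚ̄) := by
    intro θ
    obtain ⟨x, -, hx⟩ := exists_idele_approx θ.2.1.1 (primesOverT L T) n
    have hx' : ∀ A : Place, A.Over T →
        A.1.valuation (((θ : PreIdele).fin A : ℚ̄) - (x : ℚ̄)) ≤ A.1.valuation (c : ℚ̄) :=
      fun A hA => by
      have h := hx A (primeOf_mem_primesOverT.mpr hA)
      rw [div_sub_one (Units.ne_zero _), map_div₀, mem_unitGroup_iff.mp (θ.2.2 A), div_one] at h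
      rw [Valuation.map_sub_swap]
      exact h.trans (hbound A hA)
    obtain ⟨a, ha⟩ := exists_int_approx (T := T) x (fun A hA => by
      rw [show (x : ℚ̄) = ((θ : PreIdele).fin A : ℚ̄) - (((θ : PreIdele).fin A : ℚ̄) - (x : ℚ̄)) by
        ring]
      exact (A.1.valuation.map_sub _ _).trans (max_le (mem_unitGroup_iff.mp (θ.2.2 A)).le
        ((hx' A hA).trans ((A.1.valuation_le_one_iff _).mpr (natCast_mem A.1 c))))) n
    refine ⟨a, fun A hA => ?_⟩
    rw [show ((θ : PreIdele).fin A : ℚ̄) - ((a : L) : ℚ̄) =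
      (((θ : PreIdele).fin A : ℚ̄) - (x : ℚ̄)) + ((x : ℚ̄) - ((a : L) : ℚ̄)) by ring]
    exact (A.1.valuation.map_add _ _).trans (max_le (hx' A hA) ((ha A hA).trans (hbound A hA)))
  choose a ha using hrep
  have : Finite (𝓞 L ⧸ Ideal.span {(c : 𝓞 L)}) :=
    Ideal.finiteQuotientOfFreeOfNeBot _ (by simpa using hc.ne_zero)
  refine Finite.of_injective
    (fun q : locUnits T L ⧸ (deepUnits T L c).subgroupOf (locUnits T L) =>
      Ideal.Quotient.mk (Ideal.span {(c : 𝓞 L)}) (a q.out)) fun q r h => ?_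
  rw [← QuotientGroup.out_eq' q, ← QuotientGroup.out_eq' r, QuotientGroup.eq,
    Subgroup.mem_subgroupOf]
  set θ : locUnits T L := q.out
  set θ' : locUnits T L := r.out
  obtain ⟨w, hw⟩ := Ideal.mem_span_singleton.mp (Ideal.Quotient.eq.mp h)
  refine ⟨(θ⁻¹ * θ').2, fun A hA => ?_⟩
  have h1 := mem_unitGroup_iff.mp (θ.2.2 A)
  show A.1.valuation (((((θ : PreIdele).fin A)⁻¹ * (θ' : PreIdele).fin A : ℚ̄ˣ) : ℚ̄) - 1) ≤ _
  rw [Units.val_mul, Units.val_inv_eq_inv_val, show ((θ : PreIdele).fin A : ℚ̄)⁻¹ *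
      (θ' : PreIdele).fin A - 1 = ((θ : PreIdele).fin A : ℚ̄)⁻¹ *
        (((θ' : PreIdele).fin A : ℚ̄) - ((θ : PreIdele).fin A : ℚ̄)) by field_simp,
    map_mul, map_inv₀, h1, inv_one, one_mul,
    show ((θ' : PreIdele).fin A : ℚ̄) - ((θ : PreIdele).fin A : ℚ̄) =
      (((θ' : PreIdele).fin A : ℚ̄) - ((a θ' : L) : ℚ̄)) -
        (((θ : PreIdele).fin A : ℚ̄) - ((a θ : L) : ℚ̄)) - (((a θ - a θ' : 𝓞 L) : L) : ℚ̄) by
          push_cast; ring]
  refine (A.1.valuation.map_sub _ _).trans (max_le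
    ((A.1.valuation.map_sub _ _).trans (max_le (ha θ' A hA) (ha θ A hA))) ?_)
  rw [hw]
  push_cast
  rw [map_mul]
  exact mul_le_of_le_one_right' (valuation_int_le A w)

end FLTAgent.TW
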