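import Fermat.Agent.TW.Idele.Norm
import Fermat.Agent.EllP.Unramified
import Fermat.Agent.Density.Main

/-!
# Places of `ℚ̄` and the primes of a number field inside it

The valuation of a place restricted to a number field `F`, the action of `Gal(ℚ̄/F)` on the places
over a prime of `F`, and the approximation of elements of the decomposition field by elements
of `F`.
-/

set_option autoImplicit false
set_option synthInstance.maxHeartbeats 200000
set_option maxHeartbeats 1000000

noncomputable section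

open IsDedekindDomain
open scoped Pointwise NumberField

namespace FLTAgent.TW

local notation "ℚ̄" => AlgebraicClosure ℚ
local notation "Γ" => (AlgebraicClosure ℚ ≃ₐ[ℚ] AlgebraicClosure ℚ)

/-- A finite subextension of `ℚ̄` is a number field. -/
theorem numberField_intermediate (F : IntermediateField ℚ ℚ̄) [FiniteDimensional ℚ F] :
    NumberField F := ⟨⟩

attribute [local instance] numberField_intermediate

/-- The residue characteristic of a place. -/
def Place.char (A : Place) : ℕ := A.2.choose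

theorem Place.prime_char (A : Place) : A.char.Prime := A.2.choose_spec.1

theorem Place.liesOver_char (A : Place) : A.1.LiesOverPrime A.char := A.2.choose_spec.2

theorem Place.char_eq (A : Place) {q : ℕ} (hq : q.Prime) (hA : A.1.LiesOverPrime q) :
    A.char = q :=
  GalCommon.liesOverPrime_unique A.prime_char hq A.liesOver_char hA

theorem Place.over_iff (A : Place) {T : Finset ℕ} : A.Over T ↔ A.char ∈ T :=
  ⟨fun ⟨_, hqT, hq, hA⟩ => (A.char_eq hq hA).symm ▸ hqT,
    fun h => ⟨_, h, A.prime_char, A.liesOver_char⟩⟩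

@[simp] theorem Place.char_smul (σ : Γ) (A : Place) : (σ • A).char = A.char :=
  (σ • A).char_eq A.prime_char (GalCommon.liesOverPrime_smul A.liesOver_char)

theorem Place.valuation_char_lt_one (A : Place) : A.1.valuation (A.char : ℚ̄) < 1 :=
  A.liesOver_char

theorem Place.valuation_char_ne_zero (A : Place) : A.1.valuation (A.char : ℚ̄) ≠ 0 := by
  simpa using A.prime_char.ne_zero

section Field

variable (F : IntermediateField ℚ ℚ̄) [FiniteDimensional ℚ F]

/-- The prime of `F` below a place. -/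
def primeOf (A : Place) : HeightOneSpectrum (𝓞 F) :=
  ⟨Density.placePrime F A.1,
    (Density.placePrime_isMaximal F A.prime_char A.liesOver_char).isPrime,
    fun h => by
      have h1 := Density.natCast_mem_placePrime (L := F) A.liesOver_char
      rw [h, Ideal.mem_bot] at h1
      exact A.prime_char.ne_zero (Nat.cast_eq_zero.mp h1)⟩

variable {F} {A : Place}

theorem mem_primeOf {y : 𝓞 F} :
    y ∈ (primeOf F A).asIdeal ↔ A.1.valuation ((y : F) : ℚ̄) < 1 :=
  Density.mem_placePrime_iff

theorem valuation_int_le (A : Place) (y : 𝓞 F) : A.1.valuation ((y : F) : ℚ̄) ≤ 1 :=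
  (A.1.valuation_le_one_iff _).mpr (GalCommon.mem_of_isIntegral A.1 (Density.isIntegral_coe F y))

theorem valuation_coe_eq_one {y : 𝓞 F} (h : y ∉ (primeOf F A).asIdeal) :
    A.1.valuation ((y : F) : ℚ̄) = 1 :=
  le_antisymm (valuation_int_le A y) (not_lt.mp (mt mem_primeOf.mpr h))

theorem natCast_char_mem : (A.char : 𝓞 F) ∈ (primeOf F A).asIdeal :=
  Density.natCast_mem_placePrime A.liesOver_char

theorem coe_le_one_iff (x : F) :
    A.1.valuation (x : ℚ̄) ≤ 1 ↔ (primeOf F A).valuation F x ≤ 1 := by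
  constructor
  · intro hx
    by_contra hv
    rw [not_le] at hv
    have hx0 : x ≠ 0 := fun h => by simp [h] at hv
    have hv' : (primeOf F A).valuation F x⁻¹ ≤ 1 := by
      rw [map_inv₀]; exact inv_le_one_of_one_le₀ hv.le
    obtain ⟨a, s, has⟩ := (primeOf F A).exists_primeCompl_mul_eq_of_integer (x := x⁻¹) hv'
    have hs1 : (primeOf F A).valuation F ((s : 𝓞 F) : F) = 1 := by
      rw [HeightOneSpectrum.valuation_of_algebraMap]
      exact (HeightOneSpectrum.intValuation_eq_one_iff_mem_primeCompl _ _).mpr s.2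
    have ha : a ∈ (primeOf F A).asIdeal := by
      rw [← HeightOneSpectrum.valuation_lt_one_iff_mem (K := F)]
      have has' : ((a : 𝓞 F) : F) = x⁻¹ * ((s : 𝓞 F) : F) := has.symm
      show (primeOf F A).valuation F ((a : 𝓞 F) : F) < 1
      rw [has', map_mul, hs1, mul_one, map_inv₀]
      exact inv_lt_one_of_one_lt₀ hv
    have h1 : A.1.valuation ((x⁻¹ : F) : ℚ̄) < 1 := by
      have e := congrArg (fun z : F => A.1.valuation (z : ℚ̄)) has
      simp only [MulMemClass.coe_mul, map_mul] at e
      rw [valuation_coe_eq_one (A := A) s.2, mul_one] at e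
      rw [e]
      exact mem_primeOf.mp ha
    rw [IntermediateField.coe_inv, map_inv₀, inv_lt_one₀ (by simpa [zero_lt_iff] using hx0)] at h1
    exact absurd hx (not_le.mpr h1)
  · intro hv
    obtain ⟨a, s, has⟩ := (primeOf F A).exists_primeCompl_mul_eq_of_integer (x := x) hv
    have e := congrArg (fun z : F => A.1.valuation (z : ℚ̄)) has
    simp only [MulMemClass.coe_mul, map_mul] at e
    rw [valuation_coe_eq_one (A := A) s.2, mul_one] at e
    rw [e]
    exact valuation_int_le A a

/-- The valuation of a place on `F` is that of the prime below it. -/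
theorem valuation_le_iff (x y : F) :
    A.1.valuation (x : ℚ̄) ≤ A.1.valuation (y : ℚ̄) ↔
      (primeOf F A).valuation F x ≤ (primeOf F A).valuation F y := by
  rcases eq_or_ne y 0 with rfl | hy
  · simp
  · have h := coe_le_one_iff (A := A) (x / y)
    have hy' : (y : ℚ̄) ≠ 0 := by simpa using hy
    rw [IntermediateField.coe_div, map_div₀, map_div₀,
      div_le_one₀ (by simpa [zero_lt_iff] using hy'),
      div_le_one₀ (by simpa [zero_lt_iff] using hy)] at h
    exact h

theorem valuation_eq_iff (x y : F) :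
    A.1.valuation (x : ℚ̄) = A.1.valuation (y : ℚ̄) ↔
      (primeOf F A).valuation F x = (primeOf F A).valuation F y := by
  simp only [le_antisymm_iff, valuation_le_iff]

theorem valuation_lt_iff (x y : F) :
    A.1.valuation (x : ℚ̄) < A.1.valuation (y : ℚ̄) ↔
      (primeOf F A).valuation F x < (primeOf F A).valuation F y := by
  simp only [lt_iff_not_ge, valuation_le_iff]

theorem mem_unitGroup_iff {x : ℚ̄ˣ} :
    x ∈ A.1.unitGroup ↔ A.1.valuation (x : ℚ̄) = 1 := Iff.rfl

variable (F)

theorem exists_primeOf_eq (P : HeightOneSpectrum (𝓞 F)) : ∃ A : Place, primeOf F A = P := by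
  let f : 𝓞 F →+* ℚ̄ := (algebraMap F ℚ̄).comp (algebraMap (𝓞 F) F)
  have hf : Function.Injective f :=
    (algebraMap F ℚ̄).injective.comp (FaithfulSMul.algebraMap_injective (𝓞 F) F)
  let e : 𝓞 F ≃+* f.range := RingEquiv.ofBijective f.rangeRestrict
    ⟨fun a b h => by
      have h' : f a = f b := congrArg (fun z : f.range => (z : ℚ̄)) h
      exact hf h', f.rangeRestrict_surjective⟩
  let I : Ideal f.range := P.asIdeal.comap e.symm
  have hI : I ≠ ⊤ := fun h => P.isPrime.ne_top ((Ideal.eq_top_iff_one _).mpr (by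
    have := (Ideal.eq_top_iff_one I).mp h
    rwa [Ideal.mem_comap, map_one] at this))
  obtain ⟨B, -, hB⟩ := Ideal.image_subset_nonunits_valuationSubring (A := f.range) I hI
  have hle : ∀ y ∈ P.asIdeal, f y ∈ B.nonunits := fun y hy =>
    hB ⟨e y, by simpa [I] using hy, rfl⟩
  -- the residue characteristic
  obtain ⟨q, hq, hqP⟩ : ∃ q : ℕ, q.Prime ∧ (q : 𝓞 F) ∈ P.asIdeal := by
    have hn0 : Ideal.absNorm P.asIdeal ≠ 0 := Ideal.absNorm_eq_zero_iff.not.mpr P.ne_bot
    have hmem : (Ideal.absNorm P.asIdeal : 𝓞 F) ∈ P.asIdeal := Ideal.absNorm_mem _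
    have hne1 : Ideal.absNorm P.asIdeal ≠ 1 :=
      Ideal.absNorm_eq_one_iff.not.mpr P.isPrime.ne_top
    generalize Ideal.absNorm P.asIdeal = n at hn0 hmem hne1
    induction n using Nat.recOnMul with
    | zero => exact absurd rfl hn0
    | one => exact absurd rfl hne1
    | prime p hp => exact ⟨p, hp, hmem⟩
    | mul a b iha ihb =>
      rw [Nat.cast_mul] at hmem
      rw [mul_ne_zero_iff] at hn0
      rcases P.isPrime.mem_or_mem hmem with h | h
      · exact iha hn0.1 h (fun h1 => P.isPrime.ne_top ((Ideal.eq_top_iff_one _).mpr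
          (by simpa [h1] using h)))
      · exact ihb hn0.2 h (fun h1 => P.isPrime.ne_top ((Ideal.eq_top_iff_one _).mpr
          (by simpa [h1] using h)))
  have hqB : B.LiesOverPrime q := by
    have := hle _ hqP
    rwa [map_natCast] at this
  refine ⟨⟨B, q, hq, hqB⟩, HeightOneSpectrum.ext ?_⟩
  exact (P.isMaximal.eq_of_le (primeOf F ⟨B, q, hq, hqB⟩).isPrime.ne_top fun y hy =>
    Density.mem_placePrime_iff.mpr (hle y hy)).symm

variable {F}

theorem place_eq_of_centre_eq {A B : Place} (h : EllP.centre A.1 = EllP.centre B.1) : A = B := by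
  have key : ∀ {A B : Place}, EllP.centre A.1 = EllP.centre B.1 → A.1 ≤ B.1 := by
    intro A B h x hx
    obtain ⟨a, s, hs, hxs⟩ := EllP.exists_num_den A.prime_char A.liesOver_char hx
    rw [h, EllP.mem_centre, ValuationSubring.mem_nonunits_iff, not_lt] at hs
    rw [← ValuationSubring.valuation_le_one_iff]
    have e := congrArg B.1.valuation hxs
    rw [map_mul] at e
    calc B.1.valuation x ≤ B.1.valuation x * B.1.valuation (s : ℚ̄) := le_mul_of_one_le_right zero_le hs
      _ = B.1.valuation (a : ℚ̄) := e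
      _ ≤ 1 := (B.1.valuation_le_one_iff _).mpr (EllP.mem_of_isIntegral_int B.1 a.2)
  exact Subtype.ext (le_antisymm (key h) (key h.symm))

theorem smul_mem_centre_iff (σ : Γ) (A : Place) (b : 𝓞 ℚ̄) :
    σ • b ∈ EllP.centre (σ • A).1 ↔ b ∈ EllP.centre A.1 := by
  rw [EllP.mem_centre, EllP.mem_centre, EllP.coe_smul_OQ, AlgEquiv.smul_def, Place.coe_smul,
    GalCommon.map_mem_nonunits_iff]

theorem centre_smul (σ : Γ) (A : Place) : EllP.centre (σ • A).1 = σ • EllP.centre A.1 := by
  ext b
  rw [Ideal.mem_pointwise_smul_iff_inv_smul_mem, ← smul_mem_centre_iff σ A, smul_inv_smul]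

omit [FiniteDimensional ℚ F] in
/-- An automorphism over `F` as an element of `Γ`. -/
theorem restrictScalars_mem (h : ℚ̄ ≃ₐ[F] ℚ̄) : h.restrictScalars ℚ ∈ F.fixingSubgroup :=
  (IntermediateField.mem_fixingSubgroup_iff _ _).mpr fun x hx => h.commutes ⟨x, hx⟩

theorem primeOf_smul {σ : Γ} (hσ : σ ∈ F.fixingSubgroup) :
    primeOf F (σ • A) = primeOf F A := by
  refine HeightOneSpectrum.ext (Ideal.ext fun y => ?_)
  rw [mem_primeOf, mem_primeOf, ← ValuationSubring.mem_nonunits_iff,
    ← ValuationSubring.mem_nonunits_iff, Place.coe_smul]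
  conv_lhs => rw [← (IntermediateField.mem_fixingSubgroup_iff _ _).mp hσ _ (y : F).2]
  exact GalCommon.map_mem_nonunits_iff

/-- The places over a prime of `F` form one orbit. -/
theorem exists_smul_eq_of_primeOf_eq {A B : Place} (h : primeOf F A = primeOf F B) :
    ∃ σ ∈ F.fixingSubgroup, σ • A = B := by
  have := EllP.qbarIsGalois
  let : TopologicalSpace (𝓞 ℚ̄) := ⊥
  have : DiscreteTopology (𝓞 ℚ̄) := ⟨rfl⟩
  have := EllP.continuousSMul_integral F
  have hunder : (EllP.centre A.1).under (𝓞 F) = (EllP.centre B.1).under (𝓞 F) := by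
    ext y
    have e := congrArg (fun P : HeightOneSpectrum (𝓞 F) => y ∈ P.asIdeal) h
    simp only [eq_iff_iff, mem_primeOf] at e
    rw [Ideal.under_def, Ideal.under_def, Ideal.mem_comap, Ideal.mem_comap, EllP.mem_centre,
      EllP.mem_centre, EllP.coe_algebraMap_OL, ValuationSubring.mem_nonunits_iff,
      ValuationSubring.mem_nonunits_iff]
    exact e
  obtain ⟨g, hg⟩ := Algebra.IsInvariant.exists_smul_of_under_eq_of_profinite
    (A := 𝓞 F) (G := ℚ̄ ≃ₐ[F] ℚ̄) (EllP.centre A.1) (EllP.centre B.1) hunder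
  refine ⟨g.restrictScalars ℚ, restrictScalars_mem g, place_eq_of_centre_eq ?_⟩
  rw [centre_smul, hg]
  ext b
  rw [Ideal.mem_pointwise_smul_iff_inv_smul_mem, Ideal.mem_pointwise_smul_iff_inv_smul_mem]
  rfl

theorem primeOf_eq_iff {A B : Place} :
    primeOf F A = primeOf F B ↔ ∃ σ ∈ F.fixingSubgroup, σ • A = B :=
  ⟨exists_smul_eq_of_primeOf_eq, fun ⟨_, hσ, h⟩ => h ▸ (primeOf_smul hσ).symm⟩

theorem char_eq_of_primeOf_eq {A B : Place} (h : primeOf F A = primeOf F B) : A.char = B.char := by
  obtain ⟨σ, -, rfl⟩ := exists_smul_eq_of_primeOf_eq h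
  rw [Place.char_smul]

variable (F)

theorem finite_primeOf_over (q : ℕ) : {P | ∃ A : Place, A.char = q ∧ primeOf F A = P}.Finite := by
  by_cases hq : q = 0
  · refine Set.Finite.subset Set.finite_empty ?_
    rintro P ⟨A, hA, -⟩
    exact A.prime_char.ne_zero (hA.trans hq)
  refine (Ideal.finite_factors (I := Ideal.span {(q : 𝓞 F)}) (by simpa using hq)).subset ?_
  rintro P ⟨A, rfl, rfl⟩
  exact Ideal.dvd_iff_le.mpr ((Ideal.span_singleton_le_iff_mem _).mpr natCast_char_mem)

/-- The primes of `F` over `T`. -/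
def primesOverT (T : Finset ℕ) : Finset (HeightOneSpectrum (𝓞 F)) :=
  ((T.finite_toSet.biUnion fun q _ => finite_primeOf_over F q)).toFinset

variable {F}

theorem mem_primesOverT {T : Finset ℕ} {P : HeightOneSpectrum (𝓞 F)} :
    P ∈ primesOverT F T ↔ ∃ A : Place, A.Over T ∧ primeOf F A = P := by
  simp only [primesOverT, Set.Finite.mem_toFinset, Set.mem_iUnion, Finset.mem_coe,
    Set.mem_ofPred_eq, Place.over_iff]
  exact ⟨fun ⟨q, hq, A, hA, h⟩ => ⟨A, hA ▸ hq, h⟩, fun ⟨A, hA, h⟩ => ⟨_, hA, A, rfl, h⟩⟩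

theorem primeOf_mem_primesOverT {T : Finset ℕ} :
    primeOf F A ∈ primesOverT F T ↔ A.Over T := by
  rw [mem_primesOverT]
  refine ⟨fun ⟨B, hB, h⟩ => ?_, fun h => ⟨A, h, rfl⟩⟩
  rwa [Place.over_iff, char_eq_of_primeOf_eq h.symm, ← Place.over_iff]

/-- The valuation group of a place is archimedean. -/
theorem exists_char_pow_le (A : Place) {z : ℚ̄} (hz : z ≠ 0) :
    ∃ n : ℕ, A.1.valuation (A.char : ℚ̄) ^ n ≤ A.1.valuation z := by
  have : FiniteDimensional ℚ (IntermediateField.adjoin ℚ {z}) :=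
    IntermediateField.adjoin.finiteDimensional (EllP.qbarIsAlgebraic.isAlgebraic z).isIntegral
  set Z := IntermediateField.adjoin ℚ {z}
  let z' : Z := ⟨z, IntermediateField.mem_adjoin_simple_self ℚ z⟩
  let q' : Z := (A.char : Z)
  have hq' : (q' : ℚ̄) = (A.char : ℚ̄) := map_natCast Z.val _
  have h0 : (primeOf Z A).valuation Z z' ≠ 0 := by simpa [z', Subtype.ext_iff] using hz
  have hlt : (primeOf Z A).valuation Z q' < 1 := by
    have := (valuation_lt_iff (A := A) q' (1 : Z)).mp (by simpa [hq'] using A.valuation_char_lt_one)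
    simpa using this
  have hq0 : (primeOf Z A).valuation Z q' ≠ 0 := by simpa [q'] using A.prime_char.ne_zero
  obtain ⟨n, hn⟩ : ∃ n : ℕ, (primeOf Z A).valuation Z q' ^ n ≤ (primeOf Z A).valuation Z z' := by
    set a := (primeOf Z A).valuation Z q'
    set b := (primeOf Z A).valuation Z z'
    refine ⟨(-WithZero.log b).toNat, ?_⟩
    have ha : WithZero.log a ≤ -1 := by
      have := (WithZero.log_lt_iff_lt_exp hq0 (a := 0)).mpr (by simpa using hlt)
      omega
    rw [← WithZero.log_le_log (pow_ne_zero _ hq0) h0, WithZero.log_pow, nsmul_eq_mul]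
    have h1 := Int.self_le_toNat (-WithZero.log b)
    have h2 : ((-WithZero.log b).toNat : ℤ) * WithZero.log a ≤ ((-WithZero.log b).toNat : ℤ) * (-1) :=
      mul_le_mul_of_nonneg_left ha (by positivity)
    omega
  refine ⟨n, ?_⟩
  have := (valuation_le_iff (A := A) (q' ^ n) z').mpr (by simpa using hn)
  simpa [hq', z'] using this

variable (F)

/-- An element fixed by the decomposition group of `A` in `Gal(ℚ̄/F)` is close to one of `F`. -/
theorem exists_approx (A : Place) {y : ℚ̄} (hy0 : y ≠ 0)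
    (hy : ∀ σ ∈ F.fixingSubgroup, σ • A = A → σ y = y) (n : ℕ) :
    ∃ x : F, x ≠ 0 ∧ A.1.valuation ((x : ℚ̄) / y - 1) ≤ A.1.valuation (A.char : ℚ̄) ^ n := by
  classical
  obtain ⟨n₀, rfl⟩ : ∃ n₀, n₀ = n := ⟨n, rfl⟩
  suffices h : ∀ n, 0 < n →
      ∃ x : F, x ≠ 0 ∧ A.1.valuation ((x : ℚ̄) / y - 1) ≤ A.1.valuation (A.char : ℚ̄) ^ n by
    obtain ⟨x, hx0, hx⟩ := h (n₀ + 1) n₀.succ_pos
    exact ⟨x, hx0, hx.trans (pow_le_pow_of_le_one zero_le A.valuation_char_lt_one.le n₀.le_succ)⟩
  clear n₀
  intro n hn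
  have : FiniteDimensional ℚ (IntermediateField.adjoin ℚ {y}) :=
    IntermediateField.adjoin.finiteDimensional (EllP.qbarIsAlgebraic.isAlgebraic y).isIntegral
  set Z := F ⊔ IntermediateField.adjoin ℚ {y} with hZ
  have hFZ : F ≤ Z := le_sup_left
  have hyZ : y ∈ Z := le_sup_right (a := F) (IntermediateField.mem_adjoin_simple_self ℚ y)
  -- the translates of `A` not over its prime of `Z`
  set q := A.char with hq
  obtain ⟨m, hm⟩ : ∃ m : ℕ, ∀ B : Place, B.char = q →
      B.1.valuation (q : ℚ̄) ^ m * B.1.valuation (y - 1) ≤ B.1.valuation (q : ℚ̄) ^ n ∧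
      B.1.valuation (q : ℚ̄) ^ m ≤ B.1.valuation (q : ℚ̄) ^ n * B.1.valuation y := by
    have hfin := finite_primeOf_over Z q
    have hone : ∀ P ∈ hfin.toFinset, ∃ m : ℕ, ∀ B : Place, primeOf Z B = P →
        B.1.valuation (q : ℚ̄) ^ m * B.1.valuation (y - 1) ≤ B.1.valuation (q : ℚ̄) ^ n ∧
        B.1.valuation (q : ℚ̄) ^ m ≤ B.1.valuation (q : ℚ̄) ^ n * B.1.valuation y := by
      intro P hP
      obtain ⟨B₀, hB₀q, hB₀⟩ := (Set.Finite.mem_toFinset _).mp hP
      let y' : Z := ⟨y, hyZ⟩
      obtain ⟨m₁, hm₁⟩ := exists_char_pow_le B₀ hy0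
      obtain ⟨m₂, hm₂⟩ : ∃ m₂ : ℕ, B₀.1.valuation (q : ℚ̄) ^ m₂ * B₀.1.valuation (y - 1) ≤ 1 := by
        rcases eq_or_ne (y - 1) 0 with h | h
        · exact ⟨0, by simp [h]⟩
        · obtain ⟨m₂, hm₂⟩ := exists_char_pow_le B₀ (inv_ne_zero h)
          rw [map_inv₀, hB₀q] at hm₂
          exact ⟨m₂, (le_div_iff₀ (by simpa [zero_lt_iff] using h)).mp (by simpa using hm₂)⟩
      refine ⟨m₁ + m₂ + n, fun B hB => ?_⟩
      have hle : ∀ u v : Z, B.1.valuation (u : ℚ̄) ≤ B.1.valuation (v : ℚ̄) ↔
          B₀.1.valuation (u : ℚ̄) ≤ B₀.1.valuation (v : ℚ̄) := fun u v => by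
        rw [valuation_le_iff, valuation_le_iff, hB, hB₀]
      have hq1 : B₀.1.valuation (q : ℚ̄) ≤ 1 := hB₀q ▸ B₀.valuation_char_lt_one.le
      rw [hB₀q] at hm₁
      constructor
      · have h := (hle ((q : Z) ^ (m₁ + m₂ + n) * (y' - 1)) ((q : Z) ^ n)).mpr (by
          push_cast [y', map_mul, map_pow]
          calc _ = B₀.1.valuation (q : ℚ̄) ^ m₁ * (B₀.1.valuation (q : ℚ̄) ^ m₂ *
                B₀.1.valuation (y - 1)) * B₀.1.valuation (q : ℚ̄) ^ n := by
                simp only [pow_add]; ac_rfl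
            _ ≤ 1 * 1 * B₀.1.valuation (q : ℚ̄) ^ n := by
                gcongr
                exact pow_le_one₀ zero_le hq1
            _ = _ := by simp)
        push_cast [y', map_mul, map_pow] at h
        exact h
      · have h := (hle ((q : Z) ^ (m₁ + m₂ + n)) ((q : Z) ^ n * y')).mpr (by
          push_cast [y', map_mul, map_pow]
          calc _ = B₀.1.valuation (q : ℚ̄) ^ n * (B₀.1.valuation (q : ℚ̄) ^ m₁ *
                B₀.1.valuation (q : ℚ̄) ^ m₂) := by simp only [pow_add]; ac_rfl
            _ ≤ B₀.1.valuation (q : ℚ̄) ^ n * (B₀.1.valuation y * 1) := by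
                gcongr
                exact pow_le_one₀ zero_le hq1
            _ = _ := by simp)
        push_cast [y', map_mul, map_pow] at h
        exact h
    choose mf hmf using hone
    refine ⟨hfin.toFinset.sup fun P => if h : P ∈ hfin.toFinset then mf P h else 0, fun B hB => ?_⟩
    have hPmem : primeOf Z B ∈ hfin.toFinset := (Set.Finite.mem_toFinset _).mpr ⟨B, hB, rfl⟩
    have hge := Finset.le_sup (f := fun P => if h : P ∈ hfin.toFinset then mf P h else 0) hPmem
    simp only [dif_pos hPmem] at hge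
    have hq1 : B.1.valuation (q : ℚ̄) ≤ 1 := hB ▸ B.valuation_char_lt_one.le
    obtain ⟨h1, h2⟩ := hmf _ hPmem B rfl
    have hpow := pow_le_pow_of_le_one zero_le hq1 hge
    exact ⟨le_trans (mul_le_mul_left hpow _) h1, le_trans hpow h2⟩
  -- Chinese remainders
  set s := (finite_primeOf_over Z q).toFinset with hs
  let e : HeightOneSpectrum (𝓞 Z) → ℕ := fun P =>
    multiplicity P.asIdeal (Ideal.span {((q : 𝓞 Z) ^ m)})
  obtain ⟨c, hc⟩ := IsDedekindDomain.exists_forall_sub_mem_ideal (s := s)
    (fun P => P.asIdeal) e (fun P _ => Ideal.prime_of_isPrime P.ne_bot P.isPrime)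
    (fun P _ P' _ h h' => h (HeightOneSpectrum.ext h'))
    (fun P => if P.1 = primeOf Z A then 1 else 0)
  have hcval : ∀ B : Place, B.char = q →
      B.1.valuation (((c : Z) : ℚ̄) - if primeOf Z B = primeOf Z A then 1 else 0)
        ≤ B.1.valuation (q : ℚ̄) ^ m := by
    intro B hB
    have hPmem : primeOf Z B ∈ s := (Set.Finite.mem_toFinset _).mpr ⟨B, hB, rfl⟩
    have h := hc _ hPmem
    simp only at h
    set t : 𝓞 Z := if primeOf Z B = primeOf Z A then 1 else 0 with ht
    have hv : (primeOf Z B).valuation Z ((c - t : 𝓞 Z) : Z) ≤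
        (primeOf Z B).valuation Z (((q : 𝓞 Z) ^ m : 𝓞 Z) : Z) := by
      rw [HeightOneSpectrum.valuation_of_algebraMap, HeightOneSpectrum.valuation_of_algebraMap,
        (primeOf Z B).intValuation_eq_exp_neg_multiplicity
          (pow_ne_zero _ (Nat.cast_ne_zero.mpr (hB ▸ B.prime_char.ne_zero)))]
      exact ((primeOf Z B).intValuation_le_pow_iff_mem _ _).mpr h
    have h' := (valuation_le_iff (A := B) _ _).mpr hv
    have e1 : ((((c - t : 𝓞 Z) : Z)) : ℚ̄) =
        ((c : Z) : ℚ̄) - if primeOf Z B = primeOf Z A then 1 else 0 := by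
      rw [ht]; split_ifs <;> simp
    rw [e1] at h'
    refine h'.trans_eq ?_
    simp [map_pow]
  -- the norm
  set w : ℚ̄ := 1 + (y - 1) * ((c : Z) : ℚ̄) with hw
  have hwZ : w ∈ Z := add_mem Z.one_mem (mul_mem (sub_mem hyZ Z.one_mem) (c : Z).2)
  have hwfix : ∀ k ∈ Z.fixingSubgroup, k • w = w := fun k hk =>
    (IntermediateField.mem_fixingSubgroup_iff _ _).mp hk w hwZ
  have := finite_fixing_quotient F.fixingSubgroup Z
  set x := cosetProd F.fixingSubgroup Z.fixingSubgroup w with hx
  have hxF : x ∈ F := mem_of_forall_fixed fun σ hσ => smul_cosetProd hwfix hσ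
  set u := A.1.valuation (q : ℚ̄) ^ n with hu
  have hu1 : u < 1 := pow_lt_one₀ zero_le A.valuation_char_lt_one hn.ne'
  -- every factor
  have hfac : ∀ c' : F.fixingSubgroup ⧸ Z.fixingSubgroup.subgroupOf F.fixingSubgroup,
      A.1.valuation ((((Quotient.out c' : F.fixingSubgroup) : Γ) • w) /
        (if c' = QuotientGroup.mk 1 then y else 1) - 1) ≤ u := by
    intro c'
    set σ := ((Quotient.out c' : F.fixingSubgroup) : Γ) with hσdef
    have hσF : σ ∈ F.fixingSubgroup := (Quotient.out c').2
    by_cases hc' : c' = QuotientGroup.mk 1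
    · rw [if_pos hc']
      have hσw : σ • w = w := by
        rw [hσdef, hc', out_smul hwfix 1]; simp
      have e1 : w / y - 1 = (1 - y⁻¹) * (((c : Z) : ℚ̄) - 1) := by
        rw [hw]; field_simp; ring
      rw [hσw, e1, map_mul]
      have h1 := hcval A rfl
      rw [if_pos rfl] at h1
      obtain ⟨h2, h3⟩ := hm A rfl
      have h4 : A.1.valuation (1 - y⁻¹) = A.1.valuation (y - 1) / A.1.valuation y := by
        rw [← map_div₀]; congr 1; field_simp
      rw [h4, div_mul_eq_mul_div, div_le_iff₀ (by simpa [zero_lt_iff] using hy0)]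
      calc _ ≤ A.1.valuation (y - 1) * A.1.valuation (q : ℚ̄) ^ m :=
            mul_le_mul_right h1 _
        _ ≤ _ := by
          rcases le_total (A.1.valuation y) 1 with hy1 | hy1
          · calc _ ≤ 1 * A.1.valuation (q : ℚ̄) ^ m := by
                  gcongr
                  exact le_trans (A.1.valuation.map_sub _ _) (max_le hy1 (by simp))
              _ ≤ _ := by rw [one_mul]; exact h3
          · rw [mul_comm]
            exact le_trans h2 (le_mul_of_one_le_right zero_le hy1)
    · rw [if_neg hc', div_one]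
      -- `σ⁻¹ • A` lies over another prime of `Z`
      have hB : primeOf Z (σ⁻¹ • A) ≠ primeOf Z A := by
        intro h
        obtain ⟨τ, hτ, hτA⟩ := exists_smul_eq_of_primeOf_eq h
        -- `τ * σ⁻¹` fixes `A`
        have hfix : (τ * σ⁻¹) • A = A := by rw [mul_smul, hτA]
        have hmemF : τ * σ⁻¹ ∈ F.fixingSubgroup :=
          mul_mem (IntermediateField.fixingSubgroup_le hFZ hτ) (inv_mem hσF)
        have hmemZ : τ * σ⁻¹ ∈ Z.fixingSubgroup := by
          rw [hZ, IntermediateField.mem_fixingSubgroup_iff]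
          intro a ha
          have hle : F ⊔ IntermediateField.adjoin ℚ {y} ≤
              IntermediateField.fixedField (Subgroup.zpowers (τ * σ⁻¹)) := by
            refine sup_le (fun b hb => ?_) (IntermediateField.adjoin_simple_le_iff.mpr ?_)
            · rintro ⟨g, hg⟩
              exact (IntermediateField.mem_fixingSubgroup_iff _ _).mp
                (Subgroup.zpowers_le.mpr hmemF hg) b hb
            · rintro ⟨g, hg⟩
              have hmem : τ * σ⁻¹ ∈ MulAction.stabilizer Γ y := hy _ hmemF hfix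
              exact Subgroup.zpowers_le.mpr hmem hg
          exact hle ha ⟨_, Subgroup.mem_zpowers _⟩
        refine hc' ?_
        rw [← QuotientGroup.out_eq' c', QuotientGroup.eq, Subgroup.mem_subgroupOf]
        have : (τ⁻¹ * (τ * σ⁻¹)) ∈ Z.fixingSubgroup := mul_mem (inv_mem hτ) hmemZ
        simpa [hσdef] using this
      have e1 : σ • w - 1 = σ • ((y - 1) * ((c : Z) : ℚ̄)) := by
        rw [hw, AlgEquiv.smul_def, AlgEquiv.smul_def, map_add, map_one, add_sub_cancel_left]
      rw [e1]
      have h1 := hcval (σ⁻¹ • A) (by simp [hq])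
      rw [if_neg hB, sub_zero] at h1
      obtain ⟨h2, -⟩ := hm (σ⁻¹ • A) (by simp [hq])
      have h3 : (σ⁻¹ • A).1.valuation ((y - 1) * ((c : Z) : ℚ̄)) ≤
          (σ⁻¹ • A).1.valuation ((q : ℚ̄) ^ n) := by
        rw [map_mul, map_pow]
        exact le_trans (mul_le_mul_right h1 _) (by rw [mul_comm]; exact h2)
      have key : ∀ z z' : ℚ̄, z' ≠ 0 → (σ⁻¹ • A).1.valuation z ≤ (σ⁻¹ • A).1.valuation z' →
          A.1.valuation (σ • z) ≤ A.1.valuation (σ • z') := by
        intro z z' hz' hzz'
        have h4 : z / z' ∈ (σ⁻¹ • A).1 := (ValuationSubring.valuation_le_one_iff _ _).mp (by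
          rw [map_div₀]; exact div_le_one_of_le₀ hzz' zero_le)
        rw [Place.coe_smul, ValuationSubring.mem_inv_pointwise_smul_iff,
          ← ValuationSubring.valuation_le_one_iff, AlgEquiv.smul_def, map_div₀, map_div₀,
          div_le_one₀ (by simpa [zero_lt_iff] using hz')] at h4
        exact h4
      have h5 := key _ _ (pow_ne_zero _ (Nat.cast_ne_zero.mpr A.prime_char.ne_zero)) h3
      simpa [hu, hq, AlgEquiv.smul_def] using h5
  -- assemble
  have hprod : A.1.valuation (x / y - 1) ≤ u := by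
    have := Fintype.ofFinite (F.fixingSubgroup ⧸ Z.fixingSubgroup.subgroupOf F.fixingSubgroup)
    have hxy : x / y = ∏ c' : F.fixingSubgroup ⧸ Z.fixingSubgroup.subgroupOf F.fixingSubgroup,
        (((Quotient.out c' : F.fixingSubgroup) : Γ) • w) /
          (if c' = QuotientGroup.mk 1 then y else 1) := by
      rw [Finset.prod_div_distrib, Finset.prod_ite_eq', if_pos (Finset.mem_univ _), hx, cosetProd,
        finprod_eq_prod_of_fintype]
    rw [hxy]
    refine Finset.prod_induction _ (fun z => A.1.valuation (z - 1) ≤ u) ?_ (by simp [hu])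
      fun c' _ => hfac c'
    intro a b ha hb
    rw [show a * b - 1 = (a - 1) * (b - 1) + ((a - 1) + (b - 1)) by ring]
    refine le_trans (A.1.valuation.map_add _ _) (max_le ?_ ?_)
    · rw [map_mul]
      exact le_trans (mul_le_mul' ha hb) (mul_le_of_le_one_left zero_le
        (pow_le_one₀ zero_le A.valuation_char_lt_one.le))
    · exact le_trans (A.1.valuation.map_add _ _) (max_le ha hb)
  refine ⟨⟨x, hxF⟩, ?_, hprod⟩
  intro h
  have hx0 : x = 0 := congrArg Subtype.val h
  rw [hx, cosetProd] at hx0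
  have := Fintype.ofFinite (F.fixingSubgroup ⧸ Z.fixingSubgroup.subgroupOf F.fixingSubgroup)
  rw [finprod_eq_prod_of_fintype, Finset.prod_eq_zero_iff] at hx0
  obtain ⟨c', -, hc'⟩ := hx0
  have := hfac c'
  rw [hc', zero_div, zero_sub, Valuation.map_neg, map_one] at this
  exact absurd this (not_le.mpr hu1)

end Field

end FLTAgent.TW
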