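import Fermat.Agent.GalCommon.Basic

/-!
# A completion-free model of the ideles of the number fields inside `ℚ̄`

A pre-idele is a family of elements of `ℚ̄ˣ` indexed by the places of `ℚ̄` above primes, together
with a family of elements of `ℂˣ` indexed by the embeddings `ℚ̄ →+* ℂ`.  The absolute Galois group
acts on pre-ideles.  The ideles of `L` are the pre-ideles fixed by `Gal(ℚ̄/L)` which are compatible
with complex conjugation and are units at almost all places.  (The component at a place `A` then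
lies in the decomposition field of `A` over `L`, a henselian field which replaces the completion.)

`classKer T L` is the subgroup generated by the principal ideles and the ideles that are trivial
above `T ∪ {∞}` and are units elsewhere; `IdeleClass T L` is the quotient, the group classically
denoted `C_T(L)`.
-/

set_option autoImplicit false

noncomputable section

open scoped Pointwise

namespace FLTAgent.TW

local notation "ℚ̄" => AlgebraicClosure ℚ
local notation "Γ" => (AlgebraicClosure ℚ ≃ₐ[ℚ] AlgebraicClosure ℚ)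

/-- Places of `ℚ̄` above the rational primes. -/
def Place : Type :=
  {A : ValuationSubring (AlgebraicClosure ℚ) // ∃ q : ℕ, q.Prime ∧ A.LiesOverPrime q}

instance : MulAction Γ Place where
  smul σ A := ⟨σ • A.1, let ⟨q, hq, hA⟩ := A.2; ⟨q, hq, GalCommon.liesOverPrime_smul hA⟩⟩
  one_smul A := Subtype.ext (one_smul Γ A.1)
  mul_smul σ τ A := Subtype.ext (mul_smul σ τ A.1)

@[simp] theorem Place.coe_smul (σ : Γ) (A : Place) : (σ • A).1 = σ • A.1 := rfl

/-- The place lies over one of the primes in `T`. -/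
def Place.Over (A : Place) (T : Finset ℕ) : Prop :=
  ∃ q ∈ T, q.Prime ∧ A.1.LiesOverPrime q

theorem Place.Over.smul {A : Place} {T : Finset ℕ} (h : A.Over T) (σ : Γ) : (σ • A).Over T :=
  let ⟨q, hqT, hq, hA⟩ := h; ⟨q, hqT, hq, GalCommon.liesOverPrime_smul hA⟩

@[simp] theorem Place.over_smul_iff {A : Place} {T : Finset ℕ} {σ : Γ} :
    (σ • A).Over T ↔ A.Over T :=
  ⟨fun h => inv_smul_smul σ A ▸ h.smul σ⁻¹, fun h => h.smul σ⟩

/-- Embeddings of `ℚ̄` in `ℂ`. -/
abbrev Emb : Type := AlgebraicClosure ℚ →+* ℂ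

/-- Complex conjugate of an embedding. -/
def Emb.conj (ι : Emb) : Emb := (starRingEnd ℂ).comp ι

/-- Families of local components. -/
@[ext]
structure PreIdele : Type where
  /-- The components at the finite places. -/
  fin : Place → (AlgebraicClosure ℚ)ˣ
  /-- The components at the infinite places. -/
  inf : Emb → ℂˣ

namespace PreIdele

instance : CommGroup PreIdele where
  mul φ ψ := ⟨φ.fin * ψ.fin, φ.inf * ψ.inf⟩
  one := ⟨1, 1⟩
  inv φ := ⟨φ.fin⁻¹, φ.inf⁻¹⟩
  div φ ψ := ⟨φ.fin / ψ.fin, φ.inf / ψ.inf⟩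
  div_eq_mul_inv _ _ := PreIdele.ext (div_eq_mul_inv _ _) (div_eq_mul_inv _ _)
  mul_assoc _ _ _ := PreIdele.ext (mul_assoc _ _ _) (mul_assoc _ _ _)
  one_mul _ := PreIdele.ext (one_mul _) (one_mul _)
  mul_one _ := PreIdele.ext (mul_one _) (mul_one _)
  inv_mul_cancel _ := PreIdele.ext (inv_mul_cancel _) (inv_mul_cancel _)
  mul_comm _ _ := PreIdele.ext (mul_comm _ _) (mul_comm _ _)

@[simp] theorem fin_mul (φ ψ : PreIdele) (A : Place) : (φ * ψ).fin A = φ.fin A * ψ.fin A := rfl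
@[simp] theorem inf_mul (φ ψ : PreIdele) (ι : Emb) : (φ * ψ).inf ι = φ.inf ι * ψ.inf ι := rfl
@[simp] theorem fin_one (A : Place) : (1 : PreIdele).fin A = 1 := rfl
@[simp] theorem inf_one (ι : Emb) : (1 : PreIdele).inf ι = 1 := rfl
@[simp] theorem fin_inv (φ : PreIdele) (A : Place) : (φ⁻¹).fin A = (φ.fin A)⁻¹ := rfl
@[simp] theorem inf_inv (φ : PreIdele) (ι : Emb) : (φ⁻¹).inf ι = (φ.inf ι)⁻¹ := rfl

instance : SMul Γ PreIdele where
  smul σ φ := ⟨fun A => Units.map (σ : ℚ̄ →* ℚ̄) (φ.fin (σ⁻¹ • A)),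
    fun ι => φ.inf (ι.comp (σ : ℚ̄ →+* ℚ̄))⟩

theorem coe_fin_smul (σ : Γ) (φ : PreIdele) (A : Place) :
    ((σ • φ).fin A : ℚ̄) = σ (φ.fin (σ⁻¹ • A) : ℚ̄) := rfl

theorem inf_smul (σ : Γ) (φ : PreIdele) (ι : Emb) :
    (σ • φ).inf ι = φ.inf (ι.comp (σ : ℚ̄ →+* ℚ̄)) := rfl

instance : MulDistribMulAction Γ PreIdele where
  one_smul φ := PreIdele.ext (funext fun A => Units.ext (by simp [coe_fin_smul]))
    (funext fun ι => by rw [inf_smul]; rfl)
  mul_smul σ τ φ := PreIdele.ext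
    (funext fun A => Units.ext (by simp [coe_fin_smul, mul_smul, AlgEquiv.mul_apply]))
    (funext fun ι => by rw [inf_smul, inf_smul, inf_smul]; rfl)
  smul_mul σ φ ψ := PreIdele.ext (funext fun A => Units.ext (by simp [coe_fin_smul]))
    (funext fun ι => rfl)
  smul_one σ := PreIdele.ext (funext fun A => Units.ext (by simp [coe_fin_smul]))
    (funext fun ι => rfl)

/-- Principal ideles. -/
def principalHom : (AlgebraicClosure ℚ)ˣ →* PreIdele where
  toFun x := ⟨fun _ => x, fun ι => Units.map (ι : ℚ̄ →* ℂ) x⟩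
  map_one' := PreIdele.ext rfl (funext fun ι => by simp)
  map_mul' x y := PreIdele.ext rfl (funext fun ι => by simp)

theorem smul_principalHom (σ : Γ) (x : (AlgebraicClosure ℚ)ˣ) :
    σ • principalHom x = principalHom (Units.map (σ : ℚ̄ →* ℚ̄) x) :=
  PreIdele.ext rfl (funext fun _ => Units.ext rfl)

theorem principalHom_injective : Function.Injective principalHom := fun x y h => by
  obtain ⟨A, hA⟩ := GalCommon.exists_liesOverPrime Nat.prime_two
  exact congrFun (congrArg PreIdele.fin h) ⟨A, 2, Nat.prime_two, hA⟩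

end PreIdele

open PreIdele

/-- The ideles of `L`. -/
def ideles (L : IntermediateField ℚ (AlgebraicClosure ℚ)) : Subgroup PreIdele where
  carrier := {φ | (∀ σ ∈ L.fixingSubgroup, σ • φ = φ) ∧
    (∀ ι : Emb, φ.inf ι.conj = Units.map (starRingEnd ℂ : ℂ →* ℂ) (φ.inf ι)) ∧
    ∃ S : Finset ℕ, ∀ A : Place, ¬ A.Over S → φ.fin A ∈ A.1.unitGroup}
  one_mem' := ⟨fun σ _ => smul_one σ, fun ι => by simp, ∅, fun A _ => one_mem _⟩
  mul_mem' := by
    rintro φ ψ ⟨h1, h2, S, h3⟩ ⟨k1, k2, S', k3⟩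
    refine ⟨fun σ hσ => by rw [smul_mul', h1 σ hσ, k1 σ hσ],
      fun ι => by simp [h2 ι, k2 ι], S ∪ S', fun A hA => mul_mem (h3 A ?_) (k3 A ?_)⟩
    · exact fun ⟨q, hq, h⟩ => hA ⟨q, Finset.mem_union_left _ hq, h⟩
    · exact fun ⟨q, hq, h⟩ => hA ⟨q, Finset.mem_union_right _ hq, h⟩
  inv_mem' := by
    rintro φ ⟨h1, h2, S, h3⟩
    exact ⟨fun σ hσ => by rw [smul_inv', h1 σ hσ], fun ι => by simp [h2 ι],
      S, fun A hA => inv_mem (h3 A hA)⟩

/-- The principal ideles of `L`. -/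
def principal (L : IntermediateField ℚ (AlgebraicClosure ℚ)) : Subgroup PreIdele where
  carrier := {φ | ∃ x : (AlgebraicClosure ℚ)ˣ, (x : AlgebraicClosure ℚ) ∈ L ∧ principalHom x = φ}
  one_mem' := ⟨1, L.one_mem, map_one _⟩
  mul_mem' := by
    rintro _ _ ⟨x, hx, rfl⟩ ⟨y, hy, rfl⟩
    exact ⟨x * y, L.mul_mem hx hy, map_mul _ _ _⟩
  inv_mem' := by
    rintro _ ⟨x, hx, rfl⟩
    exact ⟨x⁻¹, by rw [Units.val_inv_eq_inv_val]; exact L.inv_mem hx, map_inv _ _⟩

/-- The ideles of `L` which are trivial above `T ∪ {∞}`. -/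
def awayIdeles (T : Finset ℕ) (L : IntermediateField ℚ (AlgebraicClosure ℚ)) :
    Subgroup PreIdele where
  carrier := {φ | φ ∈ ideles L ∧ (∀ A : Place, A.Over T → φ.fin A = 1) ∧ φ.inf = 1}
  one_mem' := ⟨one_mem _, fun _ _ => rfl, rfl⟩
  mul_mem' := by
    rintro φ ψ ⟨h1, h2, h3⟩ ⟨k1, k2, k3⟩
    exact ⟨mul_mem h1 k1, fun A hA => by rw [fin_mul, h2 A hA, k2 A hA, one_mul],
      funext fun ι => by rw [inf_mul, h3, k3, Pi.one_apply, one_mul]⟩
  inv_mem' := by
    rintro φ ⟨h1, h2, h3⟩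
    exact ⟨inv_mem h1, fun A hA => by rw [fin_inv, h2 A hA, inv_one],
      funext fun ι => by rw [inf_inv, h3, Pi.one_apply, inv_one]⟩

/-- The ideles of `L` trivial above `T ∪ {∞}` and units at all other places. -/
def unitIdeles (T : Finset ℕ) (L : IntermediateField ℚ (AlgebraicClosure ℚ)) :
    Subgroup PreIdele where
  carrier := {φ | φ ∈ awayIdeles T L ∧ ∀ A : Place, φ.fin A ∈ A.1.unitGroup}
  one_mem' := ⟨one_mem _, fun _ => one_mem _⟩
  mul_mem' := by rintro φ ψ ⟨h1, h2⟩ ⟨k1, k2⟩; exact ⟨mul_mem h1 k1, fun A => mul_mem (h2 A) (k2 A)⟩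
  inv_mem' := by rintro φ ⟨h1, h2⟩; exact ⟨inv_mem h1, fun A => inv_mem (h2 A)⟩

/-- The kernel of `ideles L → C_T(L)`. -/
def classKer (T : Finset ℕ) (L : IntermediateField ℚ (AlgebraicClosure ℚ)) : Subgroup PreIdele :=
  principal L ⊔ unitIdeles T L

/-- The `p`-th powers of ideles of `L`. -/
def powIdeles (p : ℕ) (L : IntermediateField ℚ (AlgebraicClosure ℚ)) : Subgroup PreIdele :=
  (ideles L).map (powMonoidHom p)

/-- The norm from `L` to `F` (meaningful for `F ≤ L`, `L` finite over `ℚ`). -/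
def normIdele (F L : IntermediateField ℚ (AlgebraicClosure ℚ)) (φ : PreIdele) : PreIdele :=
  ∏ᶠ c : F.fixingSubgroup ⧸ L.fixingSubgroup.subgroupOf F.fixingSubgroup,
    ((Quotient.out c : F.fixingSubgroup) : Γ) • φ

/-- The subgroup generated by the norms from `L`. -/
def normSubgroup (F L : IntermediateField ℚ (AlgebraicClosure ℚ)) : Subgroup PreIdele :=
  Subgroup.closure (normIdele F L '' (ideles L : Set PreIdele))

open Classical in
/-- The idele equal to `q` at the places of `L` conjugate to `A` over `L`, and `1` elsewhere. -/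
def placeIdele (L : IntermediateField ℚ (AlgebraicClosure ℚ)) (q : ℕ) (hq : q ≠ 0) (A : Place) :
    PreIdele where
  fin B := if ∃ σ ∈ L.fixingSubgroup, σ • A = B then
    Units.mk0 (q : ℚ̄) (Nat.cast_ne_zero.mpr hq) else 1
  inf _ := 1

/-- `L` is a finite Galois extension of `ℚ` unramified outside `T ∋ p`. -/
structure IdeleSetting (T : Finset ℕ) (p : ℕ)
    (L : IntermediateField ℚ (AlgebraicClosure ℚ)) : Prop where
  finite : FiniteDimensional ℚ L
  isGalois : IsGalois ℚ L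
  mem : p ∈ T
  prime : ∀ q ∈ T, q.Prime
  unramified : ∀ A : Place, ¬ A.Over T →
    ∀ σ ∈ A.1.inertiaSubgroupIn ℚ, σ ∈ L.fixingSubgroup

/-- The `T`-class group of `L` is trivial. -/
def TPrincipal (T : Finset ℕ) (L : IntermediateField ℚ (AlgebraicClosure ℚ)) : Prop :=
  ∀ φ ∈ ideles L, ∃ x : (AlgebraicClosure ℚ)ˣ, (x : AlgebraicClosure ℚ) ∈ L ∧
    ∀ A : Place, ¬ A.Over T → φ.fin A * x⁻¹ ∈ A.1.unitGroup

/-- The primitive `p`-th roots of unity lie in `L`. -/
def ContainsMuP (p : ℕ) (L : IntermediateField ℚ (AlgebraicClosure ℚ)) : Prop :=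
  ∀ ζ : AlgebraicClosure ℚ, ζ ^ p = 1 → ζ ∈ L

/-! ### Stability under the Galois group -/

section Stable

variable {T : Finset ℕ} {L : IntermediateField ℚ (AlgebraicClosure ℚ)}

theorem mem_of_normal [Normal ℚ L] (σ : Γ) {x : ℚ̄} (hx : x ∈ L) : σ x ∈ L := by
  have := AlgEquiv.restrictNormal_commutes σ L ⟨x, hx⟩
  exact this ▸ ((σ.restrictNormal L) ⟨x, hx⟩).2

theorem unitGroup_smul {A : ValuationSubring (AlgebraicClosure ℚ)} {σ : Γ}
    {x : (AlgebraicClosure ℚ)ˣ} :
    Units.map (σ : ℚ̄ →* ℚ̄) x ∈ (σ • A).unitGroup ↔ x ∈ A.unitGroup := by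
  have key : ∀ (B : ValuationSubring (AlgebraicClosure ℚ)) (y : (AlgebraicClosure ℚ)ˣ),
      y ∈ B.unitGroup ↔ (y : ℚ̄) ∈ B ∧ ((y⁻¹ : (AlgebraicClosure ℚ)ˣ) : ℚ̄) ∈ B := by
    intro B y
    refine ⟨fun h => ⟨(B.valuation_le_one_iff _).mp (le_of_eq h), (B.valuation_le_one_iff _).mp
      (le_of_eq (inv_mem h))⟩, fun ⟨h1, h2⟩ => ?_⟩
    refine le_antisymm ((B.valuation_le_one_iff _).mpr h1) ?_
    have h3 := (B.valuation_le_one_iff _).mpr h2
    rwa [Units.val_inv_eq_inv_val, map_inv₀, inv_le_one₀ (by simp [zero_lt_iff])] at h3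
  simp only [key, ← map_inv, Units.coe_map, MonoidHom.coe_coe, ← AlgEquiv.smul_def,
    ValuationSubring.smul_mem_pointwise_smul_iff]

theorem smul_mem_ideles [Normal ℚ L] (σ : Γ) {φ : PreIdele} (hφ : φ ∈ ideles L) :
    σ • φ ∈ ideles L := by
  obtain ⟨h1, h2, S, h3⟩ := hφ
  refine ⟨fun τ hτ => ?_, fun ι => ?_, S, fun A hA => ?_⟩
  · have : σ⁻¹ * τ * σ ∈ L.fixingSubgroup := by
      rw [IntermediateField.mem_fixingSubgroup_iff] at hτ ⊢
      intro x hx
      simp only [AlgEquiv.mul_apply]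
      rw [hτ _ (mem_of_normal σ hx), ← AlgEquiv.mul_apply, inv_mul_cancel, AlgEquiv.one_apply]
    conv_rhs => rw [← h1 _ this, ← mul_smul, mul_assoc, mul_inv_cancel_left, mul_smul]
  · rw [PreIdele.inf_smul, PreIdele.inf_smul, ← h2]; rfl
  · show Units.map _ _ ∈ _
    conv => arg 1; rw [← smul_inv_smul σ A, Place.coe_smul]
    exact unitGroup_smul.mpr (h3 _ (by rwa [Place.over_smul_iff]))

theorem smul_mem_principal [Normal ℚ L] (σ : Γ) {φ : PreIdele} (hφ : φ ∈ principal L) :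
    σ • φ ∈ principal L := by
  obtain ⟨x, hx, rfl⟩ := hφ
  exact ⟨_, mem_of_normal σ hx, (smul_principalHom σ x).symm⟩

theorem smul_mem_awayIdeles [Normal ℚ L] (σ : Γ) {φ : PreIdele} (hφ : φ ∈ awayIdeles T L) :
    σ • φ ∈ awayIdeles T L := by
  obtain ⟨h1, h2, h3⟩ := hφ
  refine ⟨smul_mem_ideles σ h1, fun A hA => ?_, funext fun ι => ?_⟩
  · exact Units.ext (by rw [coe_fin_smul, h2 _ (hA.smul _)]; simp)
  · rw [PreIdele.inf_smul, h3]; rfl

theorem smul_mem_unitIdeles [Normal ℚ L] (σ : Γ) {φ : PreIdele} (hφ : φ ∈ unitIdeles T L) :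
    σ • φ ∈ unitIdeles T L := by
  refine ⟨smul_mem_awayIdeles σ hφ.1, fun A => ?_⟩
  show Units.map _ _ ∈ _
  conv => arg 1; rw [← smul_inv_smul σ A, Place.coe_smul]
  exact unitGroup_smul.mpr (hφ.2 _)

theorem smul_mem_classKer [Normal ℚ L] (σ : Γ) {φ : PreIdele} (hφ : φ ∈ classKer T L) :
    σ • φ ∈ classKer T L := by
  obtain ⟨x, hx, u, hu, rfl⟩ := Subgroup.mem_sup.mp hφ
  rw [smul_mul']
  exact Subgroup.mul_mem_sup (smul_mem_principal σ hx) (smul_mem_unitIdeles σ hu)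

theorem smul_mem_powIdeles [Normal ℚ L] {p : ℕ} (σ : Γ) {φ : PreIdele}
    (hφ : φ ∈ powIdeles p L) : σ • φ ∈ powIdeles p L := by
  obtain ⟨ψ, hψ, rfl⟩ := hφ
  exact ⟨σ • ψ, smul_mem_ideles σ hψ, (smul_pow' σ ψ p).symm⟩

end Stable

/-! ### Idele classes -/

/-- `C_T(L)`. -/
abbrev IdeleClass (T : Finset ℕ) (L : IntermediateField ℚ (AlgebraicClosure ℚ)) : Type :=
  ideles L ⧸ (classKer T L).subgroupOf (ideles L)

/-- `C_T(L)` modulo `p`-th powers. -/
abbrev IdeleClassModP (T : Finset ℕ) (p : ℕ) (L : IntermediateField ℚ (AlgebraicClosure ℚ)) :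
    Type :=
  ideles L ⧸ (classKer T L ⊔ powIdeles p L).subgroupOf (ideles L)

/-- The action on a quotient of the ideles of a normal field by a stable subgroup. -/
@[reducible]
def quotAction (L : IntermediateField ℚ (AlgebraicClosure ℚ)) [Normal ℚ L] (N : Subgroup PreIdele)
    (hN : ∀ (σ : Γ) (φ : PreIdele), φ ∈ N → σ • φ ∈ N) :
    MulDistribMulAction Γ (ideles L ⧸ N.subgroupOf (ideles L)) where
  smul σ := QuotientGroup.map _ _
    (((MulDistribMulAction.toMonoidHom PreIdele σ).comp (ideles L).subtype).codRestrict _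
      fun φ => smul_mem_ideles σ φ.2) fun φ hφ => hN σ _ hφ
  one_smul c := by
    induction c using QuotientGroup.induction_on with
    | _ φ => exact congrArg QuotientGroup.mk (Subtype.ext (one_smul Γ φ.1))
  mul_smul σ τ c := by
    induction c using QuotientGroup.induction_on with
    | _ φ => exact congrArg QuotientGroup.mk (Subtype.ext (mul_smul σ τ φ.1))
  smul_mul σ c d := map_mul _ c d
  smul_one σ := map_one _

instance ideleClassAction (T : Finset ℕ) (L : IntermediateField ℚ (AlgebraicClosure ℚ))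
    [Normal ℚ L] : MulDistribMulAction Γ (IdeleClass T L) :=
  quotAction L _ fun σ _ h => smul_mem_classKer σ h

instance ideleClassModPAction (T : Finset ℕ) (p : ℕ)
    (L : IntermediateField ℚ (AlgebraicClosure ℚ)) [Normal ℚ L] :
    MulDistribMulAction Γ (IdeleClassModP T p L) :=
  quotAction L _ fun σ φ h => by
    obtain ⟨a, ha, b, hb, rfl⟩ := Subgroup.mem_sup.mp h
    rw [smul_mul']
    exact Subgroup.mul_mem_sup (smul_mem_classKer σ ha) (smul_mem_powIdeles σ hb)

theorem smul_mk_ideleClass (T : Finset ℕ) (L : IntermediateField ℚ (AlgebraicClosure ℚ))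
    [Normal ℚ L] (σ : Γ) (φ : ideles L) :
    σ • (QuotientGroup.mk φ : IdeleClass T L) =
      QuotientGroup.mk ⟨σ • φ.1, smul_mem_ideles σ φ.2⟩ := rfl

/-! ### Further sets attached to a field -/

/-- The number of places of `F` above the primes in `T`. -/
def numPlaces (T : Finset ℕ) (F : IntermediateField ℚ (AlgebraicClosure ℚ)) : ℕ :=
  ((fun A : Place => MulAction.orbit F.fixingSubgroup A) '' {A | A.Over T}).ncard

/-- The number of real places of `F`. -/
def numReal (F : IntermediateField ℚ (AlgebraicClosure ℚ)) : ℕ :=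
  {f : F →+* ℂ | (starRingEnd ℂ).comp f = f}.ncard

/-- The number of infinite places of `F`. -/
def numInf (F : IntermediateField ℚ (AlgebraicClosure ℚ)) : ℕ :=
  (numReal F + Module.finrank ℚ F) / 2

/-- The `T`-units of `F`. -/
def tUnits (T : Finset ℕ) (F : IntermediateField ℚ (AlgebraicClosure ℚ)) :
    Subgroup (AlgebraicClosure ℚ)ˣ where
  carrier := {x | (x : AlgebraicClosure ℚ) ∈ F ∧ ∀ A : Place, ¬ A.Over T → x ∈ A.1.unitGroup}
  one_mem' := ⟨F.one_mem, fun _ _ => one_mem _⟩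
  mul_mem' := by rintro x y ⟨h1, h2⟩ ⟨k1, k2⟩; exact ⟨F.mul_mem h1 k1, fun A hA => mul_mem (h2 A hA) (k2 A hA)⟩
  inv_mem' := by
    rintro x ⟨h1, h2⟩
    exact ⟨by rw [Units.val_inv_eq_inv_val]; exact F.inv_mem h1, fun A hA => inv_mem (h2 A hA)⟩

/-- Additive-to-multiplicative maps equivariant for a subgroup of the Galois group. -/
def equivariantHoms (H : Subgroup Γ) (N : Type) [Add N] [SMul H N] (C : Type) [Mul C] [SMul Γ C] :
    Set (N → C) :=
  {f | (∀ x y, f (x + y) = f x * f y) ∧ ∀ (h : H) x, f (h • x) = (h : Γ) • f x}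

end FLTAgent.TW
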