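import Fermat.Agent.TW.Idele.PlaceField

/-!
# Approximation of ideles by elements of the field

A component of an idele of `F` is close to an element of `F` (`exists_approx_fin`); with the
Chinese remainder theorem this gives weak approximation at finitely many primes of `F`
(`exists_weak_approx`) and one element of `F` close to an idele at finitely many primes
(`exists_idele_approx`).
-/

set_option autoImplicit false
set_option synthInstance.maxHeartbeats 200000
set_option maxHeartbeats 1000000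

noncomputable section

open IsDedekindDomain
open scoped Pointwise NumberField nonZeroDivisors

namespace FLTAgent.TW

local notation "ℚ̄" => AlgebraicClosure ℚ
local notation "Γ" => (AlgebraicClosure ℚ ≃ₐ[ℚ] AlgebraicClosure ℚ)

attribute [local instance] numberField_intermediate

theorem valuation_smul_le_iff (σ : Γ) (A : Place) {z w : ℚ̄} :
    (σ • A).1.valuation (σ z) ≤ (σ • A).1.valuation (σ w) ↔ A.1.valuation z ≤ A.1.valuation w := by
  rcases eq_or_ne w 0 with rfl | hw
  · simp
  rw [← div_le_one₀ (by simpa [zero_lt_iff] using hw),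
    ← div_le_one₀ (b := A.1.valuation w) (by simpa [zero_lt_iff] using hw), ← map_div₀, ← map_div₀,
    ← map_div₀, ValuationSubring.valuation_le_one_iff, ValuationSubring.valuation_le_one_iff,
    Place.coe_smul, ← AlgEquiv.smul_def, ValuationSubring.smul_mem_pointwise_smul_iff]

theorem valuation_smul_eq_iff (σ : Γ) (A : Place) {z w : ℚ̄} :
    (σ • A).1.valuation (σ z) = (σ • A).1.valuation (σ w) ↔ A.1.valuation z = A.1.valuation w := by
  simp only [le_antisymm_iff, valuation_smul_le_iff]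

theorem exists_emb : Nonempty Emb :=
  haveI := EllP.qbarIsAlgebraic
  ⟨(IsAlgClosed.lift : ℚ̄ →ₐ[ℚ] ℂ).toRingHom⟩

/-- An element is a unit at almost all places. -/
theorem exists_finset_unit (x : ℚ̄ˣ) :
    ∃ S : Finset ℕ, ∀ A : Place, ¬ A.Over S → x ∈ A.1.unitGroup := by
  have : FiniteDimensional ℚ (IntermediateField.adjoin ℚ {(x : ℚ̄)}) :=
    IntermediateField.adjoin.finiteDimensional (EllP.qbarIsAlgebraic.isAlgebraic _).isIntegral
  set Z := IntermediateField.adjoin ℚ {(x : ℚ̄)}
  obtain ⟨a, b, hb, hab⟩ := IsFractionRing.div_surjective (𝓞 Z)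
    (⟨(x : ℚ̄), IntermediateField.mem_adjoin_simple_self ℚ _⟩ : Z)
  have hab' : ((a : Z) : ℚ̄) / ((b : Z) : ℚ̄) = x := by
    have h := congrArg (Subtype.val : Z → ℚ̄) hab
    simpa using h
  have ha : a ≠ 0 := fun h => x.ne_zero (by rw [← hab', h]; simp)
  have hb0 : b ≠ 0 := nonZeroDivisors.ne_zero hb
  refine ⟨(Ideal.absNorm (Ideal.span {a}) * Ideal.absNorm (Ideal.span {b})).primeFactors,
    fun A hA => ?_⟩
  have key : ∀ c : 𝓞 Z, c ≠ 0 →
      Ideal.absNorm (Ideal.span {c}) ∣ Ideal.absNorm (Ideal.span {a}) * Ideal.absNorm (Ideal.span {b}) →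
      A.1.valuation ((c : Z) : ℚ̄) = 1 := fun c hc hdvd => by
    refine le_antisymm (valuation_int_le A c) (not_lt.mp fun hlt => hA ?_)
    have hmem : c ∈ (primeOf Z A).asIdeal := mem_primeOf.mpr hlt
    have h1 : (Ideal.absNorm (Ideal.span {c}) : 𝓞 Z) ∈ (primeOf Z A).asIdeal :=
      (Ideal.span_singleton_le_iff_mem _).mpr hmem (Ideal.absNorm_mem _)
    have h2 : A.char ∣ Ideal.absNorm (Ideal.span {c}) :=
      (GalCommon.natCast_mem_nonunits_iff A.prime_char A.liesOver_char _).mp (by
        rw [ValuationSubring.mem_nonunits_iff]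
        simpa using mem_primeOf.mp h1)
    rw [A.over_iff, Nat.mem_primeFactors]
    exact ⟨A.prime_char, h2.trans hdvd, mul_ne_zero
      (Ideal.absNorm_eq_zero_iff.not.mpr (by simpa using ha))
      (Ideal.absNorm_eq_zero_iff.not.mpr (by simpa using hb0))⟩
  rw [mem_unitGroup_iff, ← hab', map_div₀, key a ha (dvd_mul_right _ _),
    key b hb0 (dvd_mul_left _ _), div_one]

variable {F : IntermediateField ℚ (AlgebraicClosure ℚ)}

theorem coe_smul_fin {φ : PreIdele} (hφ : φ ∈ ideles F) {σ : Γ} (hσ : σ ∈ F.fixingSubgroup)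
    (A : Place) : (φ.fin (σ • A) : ℚ̄) = σ (φ.fin A : ℚ̄) := by
  conv_lhs => rw [← hφ.1 σ hσ]
  rw [PreIdele.coe_fin_smul, inv_smul_smul]

theorem fin_fixed {φ : PreIdele} (hφ : φ ∈ ideles F) (A : Place) {σ : Γ}
    (hσ : σ ∈ F.fixingSubgroup) (hA : σ • A = A) : σ (φ.fin A : ℚ̄) = (φ.fin A : ℚ̄) := by
  rw [← coe_smul_fin hφ hσ, hA]

theorem inf_fixed {φ : PreIdele} (hφ : φ ∈ ideles F) (ι : Emb) {σ : Γ}
    (hσ : σ ∈ F.fixingSubgroup) : φ.inf (ι.comp (σ : ℚ̄ →+* ℚ̄)) = φ.inf ι := by
  conv_rhs => rw [← hφ.1 σ hσ]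
  rfl

variable [FiniteDimensional ℚ F]

/-- An idele of `F` is locally close to an element of `F`. -/
theorem exists_approx_fin {φ : PreIdele} (hφ : φ ∈ ideles F) (A : Place) (n : ℕ) :
    ∃ x : F, x ≠ 0 ∧
      A.1.valuation ((x : ℚ̄) / φ.fin A - 1) ≤ A.1.valuation (A.char : ℚ̄) ^ n :=
  exists_approx F A (φ.fin A).ne_zero (fun _ hσ hA => fin_fixed hφ A hσ hA) n

variable (F)

/-- A place over a prime. -/
def placeAbove (P : HeightOneSpectrum (𝓞 F)) : Place := (exists_primeOf_eq F P).choose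

variable {F}

@[simp] theorem primeOf_placeAbove (P : HeightOneSpectrum (𝓞 F)) :
    primeOf F (placeAbove F P) = P := (exists_primeOf_eq F P).choose_spec

theorem char_placeAbove {A : Place} {P : HeightOneSpectrum (𝓞 F)} (h : primeOf F A = P) :
    (placeAbove F P).char = A.char :=
  char_eq_of_primeOf_eq (F := F) (by rw [primeOf_placeAbove, h])

/-- Congruences in the ring of integers. -/
theorem exists_congr (W : Finset (HeightOneSpectrum (𝓞 F))) (a : HeightOneSpectrum (𝓞 F) → 𝓞 F)
    (n : ℕ) : ∃ x : 𝓞 F, ∀ A : Place, primeOf F A ∈ W →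
      A.1.valuation (((x : F) : ℚ̄) - ((a (primeOf F A) : F) : ℚ̄))
        ≤ A.1.valuation (A.char : ℚ̄) ^ n := by
  classical
  obtain ⟨x, hx⟩ := IsDedekindDomain.exists_forall_sub_mem_ideal (s := W) (fun P => P.asIdeal)
    (fun P => multiplicity P.asIdeal (Ideal.span {(((placeAbove F P).char : 𝓞 F) ^ n)}))
    (fun P _ => Ideal.prime_of_isPrime P.ne_bot P.isPrime)
    (fun P _ P' _ h h' => h (HeightOneSpectrum.ext h')) (fun P => a P.1)
  refine ⟨x, fun A hA => ?_⟩
  have h := hx _ hA
  simp only at h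
  rw [char_placeAbove (A := A) rfl] at h
  have hv : (primeOf F A).valuation F ((x - a (primeOf F A) : 𝓞 F) : F) ≤
      (primeOf F A).valuation F (((A.char : 𝓞 F) ^ n : 𝓞 F) : F) := by
    rw [HeightOneSpectrum.valuation_of_algebraMap, HeightOneSpectrum.valuation_of_algebraMap,
      (primeOf F A).intValuation_eq_exp_neg_multiplicity
        (pow_ne_zero _ (Nat.cast_ne_zero.mpr A.prime_char.ne_zero))]
    exact ((primeOf F A).intValuation_le_pow_iff_mem _ _).mpr h
  have h' := (valuation_le_iff (A := A) _ _).mpr hv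
  simpa [map_pow] using h'

/-- The exponent needed below a nonzero element of `F`. -/
theorem exists_pow_le_of_ne_zero (W : Finset (HeightOneSpectrum (𝓞 F)))
    (a : HeightOneSpectrum (𝓞 F) → F) (ha : ∀ P ∈ W, a P ≠ 0) :
    ∃ k : ℕ, ∀ A : Place, primeOf F A ∈ W →
      A.1.valuation (A.char : ℚ̄) ^ k ≤ A.1.valuation (a (primeOf F A) : ℚ̄) := by
  classical
  have h : ∀ P ∈ W, ∃ k : ℕ, ∀ A : Place, primeOf F A = P →
      A.1.valuation (A.char : ℚ̄) ^ k ≤ A.1.valuation (a P : ℚ̄) := by
    intro P hP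
    obtain ⟨k, hk⟩ := exists_char_pow_le (placeAbove F P) (z := (a P : ℚ̄))
      (by simpa using ha P hP)
    refine ⟨k, fun A hA => ?_⟩
    rw [char_placeAbove hA] at hk
    have e : ((A.char : F) : ℚ̄) = (A.char : ℚ̄) := map_natCast F.val _
    have h1 := (valuation_le_iff (A := placeAbove F P) ((A.char : F) ^ k) (a P)).mp
      (by simpa [e] using hk)
    rw [primeOf_placeAbove, ← hA] at h1
    have h2 := (valuation_le_iff (A := A) _ _).mpr h1
    simpa [e, hA] using h2
  choose k hk using h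
  refine ⟨W.sup fun P => if hP : P ∈ W then k P hP else 0, fun A hA => ?_⟩
  refine le_trans (pow_le_pow_of_le_one zero_le A.valuation_char_lt_one.le ?_) (hk _ hA A rfl)
  have := Finset.le_sup (f := fun P => if hP : P ∈ W then k P hP else 0) hA
  simpa only [dif_pos hA] using this

/-- Weak approximation. -/
theorem exists_weak_approx (W : Finset (HeightOneSpectrum (𝓞 F)))
    (a : HeightOneSpectrum (𝓞 F) → F) (n : ℕ) : ∃ x : F, ∀ A : Place, primeOf F A ∈ W →
      A.1.valuation ((x : ℚ̄) - (a (primeOf F A) : ℚ̄)) ≤ A.1.valuation (A.char : ℚ̄) ^ n := by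
  classical
  obtain ⟨⟨d, hd⟩, hint⟩ := IsLocalization.exist_integer_multiples (𝓞 F)⁰ W a
  have hd0 : ((d : 𝓞 F) : F) ≠ 0 := by simpa using nonZeroDivisors.ne_zero hd
  choose r hr using hint
  obtain ⟨k, hk⟩ := exists_pow_le_of_ne_zero W (fun _ => (d : F)) fun _ _ => hd0
  obtain ⟨x, hx⟩ := exists_congr W (fun P => if hP : P ∈ W then r P hP else 0) (n + k)
  refine ⟨(x : F) / (d : F), fun A hA => ?_⟩
  have h := hx A hA
  rw [dif_pos hA] at h
  have hr' : ((r _ hA : 𝓞 F) : F) = (d : F) * a (primeOf F A) := by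
    simpa [Submonoid.smul_def, Algebra.smul_def] using hr _ hA
  rw [hr'] at h
  have hd' : ((d : F) : ℚ̄) ≠ 0 := by simpa using hd0
  rw [IntermediateField.coe_div, div_sub' hd', map_div₀,
    div_le_iff₀ (by simpa [zero_lt_iff] using hd')]
  refine le_trans ?_ (mul_le_mul_right (hk A hA) _)
  rw [← pow_add]
  simpa using h

/-- An idele is close to one element of `F` at finitely many primes. -/
theorem exists_idele_approx {φ : PreIdele} (hφ : φ ∈ ideles F)
    (W : Finset (HeightOneSpectrum (𝓞 F))) (n : ℕ) : ∃ x : F, x ≠ 0 ∧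
      ∀ A : Place, primeOf F A ∈ W →
        A.1.valuation ((x : ℚ̄) / φ.fin A - 1) ≤ A.1.valuation (A.char : ℚ̄) ^ n := by
  classical
  by_cases hW : W = ∅
  · exact ⟨1, one_ne_zero, fun A hA => absurd hA (by simp [hW])⟩
  choose a ha0 ha using fun P => exists_approx_fin hφ (placeAbove F P) (n + 1)
  obtain ⟨k, hk⟩ := exists_pow_le_of_ne_zero W a fun P _ => ha0 P
  obtain ⟨x, hx⟩ := exists_weak_approx W a (n + 1 + k)
  have key : ∀ A : Place, primeOf F A ∈ W →
      A.1.valuation ((x : ℚ̄) / φ.fin A - 1) ≤ A.1.valuation (A.char : ℚ̄) ^ (n + 1) := by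
    intro A hA
    obtain ⟨σ, hσ, hσA⟩ := exists_smul_eq_of_primeOf_eq (F := F)
      (A := placeAbove F (primeOf F A)) (B := A) (primeOf_placeAbove _)
    set u := A.1.valuation (A.char : ℚ̄) ^ (n + 1) with hu
    set b : ℚ̄ := (a (primeOf F A) : ℚ̄) with hb
    have h1 : A.1.valuation (b / φ.fin A - 1) ≤ u := by
      have h := (valuation_smul_le_iff σ (placeAbove F (primeOf F A))
        (z := b / (φ.fin (placeAbove F (primeOf F A)) : ℚ̄) - 1)
        (w := ((placeAbove F (primeOf F A)).char : ℚ̄) ^ (n + 1))).mpr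
          (by rw [map_pow]; exact ha (primeOf F A))
      rw [map_sub, map_one, map_div₀, map_pow, map_natCast,
        (IntermediateField.mem_fixingSubgroup_iff _ _).mp hσ _ (a (primeOf F A)).2,
        ← coe_smul_fin hφ hσ, hσA, char_placeAbove (A := A) rfl, map_pow] at h
      exact h
    have hu1 : u < 1 := pow_lt_one₀ zero_le A.valuation_char_lt_one (Nat.succ_ne_zero n)
    have hb1 : A.1.valuation (b / φ.fin A) = 1 := by
      rw [← sub_add_cancel (b / (φ.fin A : ℚ̄)) 1,
        Valuation.map_add_eq_of_lt_right _ (by rw [map_one]; exact lt_of_le_of_lt h1 hu1), map_one]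
    have hbφ : A.1.valuation b = A.1.valuation (φ.fin A : ℚ̄) := by
      rw [map_div₀] at hb1
      exact (div_eq_one_iff_eq (by simp)).mp hb1
    have hb0 : A.1.valuation (φ.fin A : ℚ̄) ≠ 0 := by simp
    have h2 : A.1.valuation (((x : ℚ̄) - b) / φ.fin A) ≤ u := by
      rw [map_div₀, div_le_iff₀ (zero_lt_iff.mpr hb0), ← hbφ]
      refine le_trans (hx A hA) ?_
      rw [pow_add]
      exact mul_le_mul_right (hk A hA) _
    rw [show (x : ℚ̄) / φ.fin A - 1 = ((x : ℚ̄) - b) / φ.fin A + (b / φ.fin A - 1) by ring]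
    exact le_trans (A.1.valuation.map_add _ _) (max_le h2 h1)
  obtain ⟨P, hP⟩ := Finset.nonempty_iff_ne_empty.mpr hW
  refine ⟨x, fun h => ?_, fun A hA => le_trans (key A hA)
    (pow_le_pow_of_le_one zero_le A.valuation_char_lt_one.le n.le_succ)⟩
  have := key (placeAbove F P) (by simpa using hP)
  rw [h, ZeroMemClass.coe_zero, zero_div, zero_sub, Valuation.map_neg, map_one] at this
  exact absurd this (not_le.mpr
    (pow_lt_one₀ zero_le (placeAbove F P).valuation_char_lt_one (Nat.succ_ne_zero n)))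

end FLTAgent.TW
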