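import Fermat.Agent.TW.Idele.QIndex

/-!
# The equivariant index quotient

For a finite group `G` of order prime to `p`, a finite `G`-module `N` killed by `p` and a
`G`-module `M` let `qHom M = #Hom_G(N, M/Mᵖ) / #Hom_G(N, M[p])`.  As `Hom_G(N, -)` is exact on
modules killed by `p` (averaging), this is multiplicative in short exact sequences, and it is `1`
for finite modules.
-/

set_option autoImplicit false
set_option maxHeartbeats 1000000

noncomputable section

namespace FLTAgent.TW

variable {G N : Type*} [Group G] [AddCommGroup N] (ν : G →* Function.End N)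

/-- Equivariant maps from `N`. -/
def eHom {M : Type*} [CommGroup M] (ρ : G →* MulAut M) : Subgroup (N → M) where
  carrier := {f | (∀ x y, f (x + y) = f x * f y) ∧ ∀ g x, f (ν g x) = ρ g (f x)}
  one_mem' := ⟨fun x y => by simp, fun g x => by simp⟩
  mul_mem' := by
    rintro f f' ⟨h1, h2⟩ ⟨k1, k2⟩
    exact ⟨fun x y => by simp only [Pi.mul_apply, h1, k1, mul_mul_mul_comm],
      fun g x => by simp only [Pi.mul_apply, h2, k2, map_mul]⟩
  inv_mem' := by
    rintro f ⟨h1, h2⟩
    exact ⟨fun x y => by simp only [Pi.inv_apply, h1, mul_inv],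
      fun g x => by simp only [Pi.inv_apply, h2, map_inv]⟩

section Map

variable {ν} {A B : Type*} [CommGroup A] [CommGroup B] {ρA : G →* MulAut A} {ρB : G →* MulAut B}

/-- Composition with an equivariant map. -/
def eMap (u : A →* B) (hu : ∀ g a, u (ρA g a) = ρB g (u a)) : eHom ν ρA →* eHom ν ρB where
  toFun f := ⟨fun x => u ((f : N → A) x), fun x y => (congrArg u (f.2.1 x y)).trans (map_mul u _ _),
    fun g x => (congrArg u (f.2.2 g x)).trans (hu g _)⟩
  map_one' := Subtype.ext (funext fun _ => map_one u)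
  map_mul' _ _ := Subtype.ext (funext fun _ => map_mul u _ _)

theorem eMap_apply (u : A →* B) (hu : ∀ g a, u (ρA g a) = ρB g (u a)) (f : eHom ν ρA) (x : N) :
    (eMap u hu f : N → B) x = u ((f : N → A) x) := rfl

theorem eMap_injective (u : A →* B) (hu : ∀ g a, u (ρA g a) = ρB g (u a))
    (h : Function.Injective u) : Function.Injective (eMap (ν := ν) u hu) :=
  fun _ _ he => Subtype.ext (funext fun x => h (congrFun (congrArg Subtype.val he) x))

theorem card_eHom_congr (e : A ≃* B) (he : ∀ g a, e (ρA g a) = ρB g (e a)) :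
    Nat.card (eHom ν ρA) = Nat.card (eHom ν ρB) := by
  refine Nat.card_congr (Equiv.ofBijective (eMap (e : A →* B) he)
    ⟨eMap_injective _ he e.injective, fun f => ?_⟩)
  refine ⟨⟨fun x => e.symm ((f : N → B) x),
    fun x y => (congrArg e.symm (f.2.1 x y)).trans (map_mul e.symm _ _),
    fun g x => e.injective ?_⟩, Subtype.ext (funext fun x => e.apply_symm_apply _)⟩
  rw [e.apply_symm_apply, f.2.2, he, e.apply_symm_apply]

end Map

variable {ν} (p : ℕ) [hp : Fact p.Prime]

section Lift

variable [Finite G] [Finite N] {A B : Type*} [CommGroup A] [CommGroup B]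
  {ρA : G →* MulAut A} {ρB : G →* MulAut B}

omit [Finite G] in
/-- An additive section on a `p`-elementary group. -/
theorem exists_additive_lift_aux [Module (ZMod p) N] (u : A →* B) (hA : ∀ a : A, a ^ p = 1)
    (F₀ : N →+ Additive B) (hf : ∀ x, Additive.toMul (F₀ x) ∈ u.range) :
    ∃ l : N → A, (∀ x y, l (x + y) = l x * l y) ∧ ∀ x, u (l x) = Additive.toMul (F₀ x) := by
  classical
  let b := Module.Basis.ofVectorSpace (ZMod p) N
  have : Fintype (Module.Basis.ofVectorSpaceIndex (ZMod p) N) := Fintype.ofFinite _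
  choose a ha using fun j => MonoidHom.mem_range.mp (hf (b j))
  have hpowA : ∀ (r s : ZMod p) (c : A), c ^ (r + s).val = c ^ r.val * c ^ s.val := fun r s c => by
    rw [← pow_add, ZMod.val_add]
    exact (pow_eq_pow_mod _ (hA c)).symm
  refine ⟨fun x => ∏ j, a j ^ (b.repr x j).val, fun x y => by
    simp only [map_add, Finsupp.add_apply, hpowA, Finset.prod_mul_distrib], fun x => ?_⟩
  rw [map_prod]
  have hx : x = ∑ j, (b.repr x j).val • b j := by
    conv_lhs => rw [← b.sum_repr x]
    refine Finset.sum_congr rfl fun j _ => ?_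
    rw [← Nat.cast_smul_eq_nsmul (ZMod p), ZMod.natCast_zmod_val]
  conv_rhs => rw [hx, map_sum, toMul_sum]
  refine Finset.prod_congr rfl fun j _ => ?_
  rw [map_pow, ha, map_nsmul]
  rfl

omit [Finite G] in
theorem exists_additive_lift (hNp : ∀ x : N, p • x = 0) (u : A →* B) (hA : ∀ a : A, a ^ p = 1)
    (F₀ : N →+ Additive B) (hf : ∀ x, Additive.toMul (F₀ x) ∈ u.range) :
    ∃ l : N → A, (∀ x y, l (x + y) = l x * l y) ∧ ∀ x, u (l x) = Additive.toMul (F₀ x) :=
  letI := AddCommGroup.zmodModule hNp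
  exists_additive_lift_aux p u hA F₀ hf

/-- Equivariant lifting along maps of modules killed by `p`, by averaging. -/
theorem exists_lift (hG : (Nat.card G).Coprime p) (hNp : ∀ x : N, p • x = 0)
    (hν : ∀ g x y, ν g (x + y) = ν g x + ν g y) (u : A →* B)
    (hu : ∀ g a, u (ρA g a) = ρB g (u a)) (hA : ∀ a : A, a ^ p = 1)
    (f : eHom ν ρB) (hf : ∀ x, (f : N → B) x ∈ u.range) : ∃ f', eMap u hu f' = f := by
  classical
  have := Fintype.ofFinite G
  obtain ⟨l, hl, hul'⟩ := exists_additive_lift p hNp u hA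
    (AddMonoidHom.mk' (fun x => Additive.ofMul ((f : N → B) x)) fun x y => by rw [f.2.1]; rfl) hf
  have hul : ∀ x, u (l x) = (f : N → B) x := hul'
  obtain ⟨m, -, hm⟩ := Nat.exists_mul_mod_eq_one_of_coprime hG hp.out.one_lt
  let F : N → A := fun x => (∏ g : G, ρA g (l (ν g⁻¹ x))) ^ m
  refine ⟨⟨F, fun x y => ?_, fun h x => ?_⟩, Subtype.ext (funext fun x => ?_)⟩
  · simp only [F, hν, hl, map_mul, Finset.prod_mul_distrib, mul_pow]
  · simp only [F, map_pow, map_prod]
    congr 1
    refine Fintype.prod_equiv (Equiv.mulLeft h⁻¹) _ _ fun g => ?_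
    simp only [Equiv.coe_mulLeft, map_mul, MulAut.mul_apply, mul_inv_rev, inv_inv, map_inv]
    rw [MulAut.apply_inv_self]
    rfl
  · show u (F x) = _
    simp only [F, map_pow, map_prod, hu, hul]
    have hterm : ∀ g : G, ρB g ((f : N → B) (ν g⁻¹ x)) = (f : N → B) x := fun g => by
      rw [← f.2.2]
      show (f : N → B) ((ν g * ν g⁻¹ : Function.End N) x) = _
      rw [← map_mul, mul_inv_cancel, map_one]
      rfl
    simp only [hterm, Finset.prod_const, Finset.card_univ]
    rw [← pow_mul, ← Nat.card_eq_fintype_card]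
    have hB : ∀ y ∈ u.range, y ^ p = 1 := by rintro _ ⟨c, rfl⟩; rw [← map_pow, hA, map_one]
    rw [pow_eq_pow_mod _ (hB _ (hf x)), hm, pow_one]

variable {C : Type*} [CommGroup C] {ρC : G →* MulAut C}

/-- `Hom_G(N, -)` is exact on modules killed by `p`. -/
theorem eMap_exact (hG : (Nat.card G).Coprime p) (hNp : ∀ x : N, p • x = 0)
    (hν : ∀ g x y, ν g (x + y) = ν g x + ν g y) (u : A →* B)
    (hu : ∀ g a, u (ρA g a) = ρB g (u a)) (v : B →* C) (hv : ∀ g b, v (ρB g b) = ρC g (v b))
    (hA : ∀ a : A, a ^ p = 1) (hex : u.range = v.ker) :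
    (eMap (ν := ν) u hu).range = (eMap (ν := ν) v hv).ker := by
  ext f
  constructor
  · rintro ⟨f', rfl⟩
    refine Subtype.ext (funext fun x => ?_)
    show v (u ((f' : N → A) x)) = 1
    exact MonoidHom.mem_ker.mp (hex ▸ ⟨_, rfl⟩)
  · intro hf
    exact exists_lift p hG hNp hν u hu hA f fun x => hex.symm ▸ MonoidHom.mem_ker.mpr
      (congrFun (congrArg Subtype.val (MonoidHom.mem_ker.mp hf)) x)

theorem eMap_surjective (hG : (Nat.card G).Coprime p) (hNp : ∀ x : N, p • x = 0)
    (hν : ∀ g x y, ν g (x + y) = ν g x + ν g y) (u : A →* B)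
    (hu : ∀ g a, u (ρA g a) = ρB g (u a)) (hA : ∀ a : A, a ^ p = 1) (hs : Function.Surjective u) :
    Function.Surjective (eMap (ν := ν) u hu) :=
  fun f => exists_lift p hG hNp hν u hu hA f fun _ => hs _

end Lift

section Quot

variable {M : Type*} [CommGroup M] (ρ : G →* MulAut M)

/-- The induced action on `M/Mᵖ`. -/
def powQuotAct : G →* MulAut (M ⧸ (powMonoidHom p : M →* M).range) :=
  let act : G → (M ⧸ (powMonoidHom p : M →* M).range →* M ⧸ (powMonoidHom p : M →* M).range) :=
    fun g => QuotientGroup.map _ _ (ρ g : M →* M)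
      (by rintro _ ⟨m, rfl⟩; exact ⟨ρ g m, (map_pow (ρ g) m p).symm⟩)
  { toFun := fun g =>
      { act g with
        invFun := act g⁻¹
        left_inv := fun c => by
          induction c using QuotientGroup.induction_on with
          | _ m =>
            show QuotientGroup.mk (ρ g⁻¹ (ρ g m)) = (QuotientGroup.mk m : M ⧸ _)
            rw [← MulAut.mul_apply, ← map_mul, inv_mul_cancel, map_one, MulAut.one_apply]
        right_inv := fun c => by
          induction c using QuotientGroup.induction_on with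
          | _ m =>
            show QuotientGroup.mk (ρ g (ρ g⁻¹ m)) = (QuotientGroup.mk m : M ⧸ _)
            rw [← MulAut.mul_apply, ← map_mul, mul_inv_cancel, map_one, MulAut.one_apply] }
    map_one' := by
      ext c
      induction c using QuotientGroup.induction_on with
      | _ m =>
        show QuotientGroup.mk (ρ 1 m) = (QuotientGroup.mk m : M ⧸ _)
        rw [map_one, MulAut.one_apply]
    map_mul' := fun g h => by
      ext c
      induction c using QuotientGroup.induction_on with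
      | _ m =>
        show QuotientGroup.mk (ρ (g * h) m) = (QuotientGroup.mk (ρ g (ρ h m)) : M ⧸ _)
        rw [map_mul, MulAut.mul_apply] }

omit hp in
theorem powQuotAct_mk (g : G) (m : M) :
    powQuotAct p ρ g (QuotientGroup.mk m) = QuotientGroup.mk (ρ g m) := rfl

/-- The induced action on a stable subgroup. -/
def resAct (S : Subgroup M) (hS : ∀ g, ∀ m ∈ S, ρ g m ∈ S) : G →* MulAut S where
  toFun g :=
    { toFun := fun m => ⟨ρ g m, hS g m m.2⟩
      invFun := fun m => ⟨ρ g⁻¹ m, hS g⁻¹ m m.2⟩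
      left_inv := fun m => Subtype.ext (by
        show ρ g⁻¹ (ρ g m) = m
        rw [← MulAut.mul_apply, ← map_mul, inv_mul_cancel, map_one, MulAut.one_apply])
      right_inv := fun m => Subtype.ext (by
        show ρ g (ρ g⁻¹ m) = m
        rw [← MulAut.mul_apply, ← map_mul, mul_inv_cancel, map_one, MulAut.one_apply])
      map_mul' := fun a b => Subtype.ext (map_mul (ρ g) _ _) }
  map_one' := by
    refine MulEquiv.ext fun m => Subtype.ext ?_
    show ρ 1 m = m
    rw [map_one, MulAut.one_apply]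
  map_mul' g h := by
    refine MulEquiv.ext fun m => Subtype.ext ?_
    show ρ (g * h) m = ρ g (ρ h m)
    rw [map_mul, MulAut.mul_apply]

omit hp in
theorem coe_resAct (S : Subgroup M) (hS : ∀ g, ∀ m ∈ S, ρ g m ∈ S) (g : G) (m : S) :
    (resAct ρ S hS g m : M) = ρ g m := rfl

/-- The action on `M[p]`. -/
abbrev torAct : G →* MulAut (powMonoidHom p : M →* M).ker :=
  resAct ρ _ fun g m hm => MonoidHom.mem_ker.mpr (by
    rw [powMonoidHom_apply, ← map_pow, show m ^ p = 1 from hm, map_one])

omit hp in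
theorem eHom_values (hNp : ∀ x : N, p • x = 0) (f : eHom ν ρ) (x : N) :
    ((f : N → M) x) ^ p = 1 := by
  let F₀ : N →+ Additive M :=
    AddMonoidHom.mk' (fun x => Additive.ofMul ((f : N → M) x)) fun x y => by rw [f.2.1]; rfl
  have h := map_nsmul F₀ p x
  rw [hNp, map_zero] at h
  exact (congrArg Additive.toMul h).symm

omit hp in
theorem card_eHom_tor (hNp : ∀ x : N, p • x = 0) :
    Nat.card (eHom ν (torAct p ρ)) = Nat.card (eHom ν ρ) := by
  refine Nat.card_congr (Equiv.ofBijective
    (eMap (powMonoidHom p : M →* M).ker.subtype fun g m => rfl)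
    ⟨eMap_injective _ _ Subtype.val_injective, fun f => ?_⟩)
  exact ⟨⟨fun x => ⟨(f : N → M) x, MonoidHom.mem_ker.mpr (eHom_values p ρ hNp f x)⟩,
    fun x y => Subtype.ext (f.2.1 x y), fun g x => Subtype.ext (f.2.2 g x)⟩, rfl⟩

variable (ν) in
/-- `#Hom_G(N, M/Mᵖ) / #Hom_G(N, M[p])`. -/
def qHom : ℚ := (Nat.card (eHom ν (powQuotAct p ρ)) : ℚ) / (Nat.card (eHom ν ρ) : ℚ)

omit hp in
theorem finite_eHom [Finite N] [Finite M] : Finite (eHom ν ρ) :=
  Subtype.finite

omit hp in
theorem finite_eHom_of_qFinite [Finite N] (hNp : ∀ x : N, p • x = 0)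
    (h : QFinite (powMonoidHom p : M →* M)) :
    Finite (eHom ν ρ) ∧ Finite (eHom ν (powQuotAct p ρ)) := by
  have := h.coker
  have := h.ker
  refine ⟨?_, finite_eHom _⟩
  have : Finite (eHom ν (torAct p ρ)) := finite_eHom _
  exact Nat.finite_of_card_ne_zero (card_eHom_tor p ρ hNp ▸ Nat.card_pos.ne')

omit hp in
theorem qHom_pos [Finite N] (hNp : ∀ x : N, p • x = 0) (h : QFinite (powMonoidHom p : M →* M)) :
    0 < qHom ν p ρ := by
  obtain ⟨h1, h2⟩ := finite_eHom_of_qFinite (ν := ν) p ρ hNp h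
  exact div_pos (by exact_mod_cast Nat.card_pos) (by exact_mod_cast Nat.card_pos)

variable {ρ}

omit hp in
theorem qHom_congr {M' : Type*} [CommGroup M'] {ρ' : G →* MulAut M'} (e : M ≃* M')
    (he : ∀ g m, e (ρ g m) = ρ' g (e m)) : qHom ν p ρ = qHom ν p ρ' := by
  have hr : (powMonoidHom p : M →* M).range.map (e : M →* M') =
      (powMonoidHom p : M' →* M').range := by
    ext x
    constructor
    · rintro ⟨_, ⟨m, rfl⟩, rfl⟩; exact ⟨e m, (map_pow e m p).symm⟩
    · rintro ⟨n, rfl⟩; exact ⟨e.symm n ^ p, ⟨_, rfl⟩, by simp⟩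
  rw [qHom, qHom, card_eHom_congr e he,
    card_eHom_congr (ρB := powQuotAct p ρ') (QuotientGroup.congr _ _ e hr) fun g c => by
      induction c using QuotientGroup.induction_on with
      | _ m => exact congrArg QuotientGroup.mk (he g m)]

end Quot

section Exact

variable [Finite G] [Finite N] {A B C : Type*} [CommGroup A] [CommGroup B] [CommGroup C]
  {ρA : G →* MulAut A} {ρB : G →* MulAut B} {ρC : G →* MulAut C}

/-- Multiplicativity in short exact sequences. -/
theorem qHom_mul (hG : (Nat.card G).Coprime p) (hNp : ∀ x : N, p • x = 0)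
    (hν : ∀ g x y, ν g (x + y) = ν g x + ν g y)
    (i : A →* B) (π : B →* C) (hi : Function.Injective i) (hπ : Function.Surjective π)
    (hex : i.range = π.ker) (hiA : ∀ g a, i (ρA g a) = ρB g (i a))
    (hπB : ∀ g b, π (ρB g b) = ρC g (π b))
    (hA : QFinite (powMonoidHom p : A →* A)) (hC : QFinite (powMonoidHom p : C →* C)) :
    qHom ν p ρB = qHom ν p ρA * qHom ν p ρC := by
  obtain ⟨u₁, u₂, u₃, u₄, u₅, h₁, h₂, h₃, h₄, h₅, h₆, e₁, e₂, e₃, e₄, e₅⟩ :=
    snake (fA := powMonoidHom p) (fB := powMonoidHom p) (fC := powMonoidHom p) i π hi hπ hex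
      (fun a => map_pow i a p) (fun b => map_pow π b p)
  have hB : QFinite (powMonoidHom p : B →* B) :=
    QFinite.middle (fA := powMonoidHom p) (fB := powMonoidHom p) (fC := powMonoidHom p) i π hi hπ hex
      (fun a => map_pow i a p) (fun b => map_pow π b p) hA hC
  have c₁ : ∀ g a, u₁ (torAct p ρA g a) = torAct p ρB g (u₁ a) := fun g a => Subtype.ext (by
    rw [e₁, coe_resAct, coe_resAct, e₁, hiA])
  have c₂ : ∀ g b, u₂ (torAct p ρB g b) = torAct p ρC g (u₂ b) := fun g b => Subtype.ext (by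
    rw [e₂, coe_resAct, coe_resAct, e₂, hπB])
  have c₃ : ∀ g c, u₃ (torAct p ρC g c) = powQuotAct p ρA g (u₃ c) := by
    intro g c
    obtain ⟨b, hb⟩ := hπ (c : C)
    obtain ⟨x, hx⟩ := MonoidHom.mem_range.mp (hex.symm ▸ MonoidHom.mem_ker.mpr (show π (b ^ p) = 1 by
      rw [map_pow, hb]; exact c.2) : b ^ p ∈ i.range)
    rw [e₃ c x b hb hx, powQuotAct_mk]
    refine e₃ _ _ (ρB g b) ?_ ?_
    · rw [hπB, hb]; rfl
    · rw [hiA, hx, powMonoidHom_apply, map_pow]
  have c₄ : ∀ g a, u₄ (powQuotAct p ρA g a) = powQuotAct p ρB g (u₄ a) := by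
    intro g a
    induction a using QuotientGroup.induction_on with
    | _ a => rw [powQuotAct_mk, e₄, e₄, powQuotAct_mk, hiA]
  have c₅ : ∀ g b, u₅ (powQuotAct p ρB g b) = powQuotAct p ρC g (u₅ b) := by
    intro g b
    induction b using QuotientGroup.induction_on with
    | _ b => rw [powQuotAct_mk, e₅, e₅, powQuotAct_mk, hπB]
  have hkA : ∀ a : (powMonoidHom p : A →* A).ker, a ^ p = 1 := fun a => Subtype.ext a.2
  have hkB : ∀ a : (powMonoidHom p : B →* B).ker, a ^ p = 1 := fun a => Subtype.ext a.2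
  have hkC : ∀ a : (powMonoidHom p : C →* C).ker, a ^ p = 1 := fun a => Subtype.ext a.2
  have hcA : ∀ a : A ⧸ (powMonoidHom p : A →* A).range, a ^ p = 1 := fun a => by
    induction a using QuotientGroup.induction_on with
    | _ m => exact (QuotientGroup.eq_one_iff _).mpr ⟨m, rfl⟩
  have hcB : ∀ a : B ⧸ (powMonoidHom p : B →* B).range, a ^ p = 1 := fun a => by
    induction a using QuotientGroup.induction_on with
    | _ m => exact (QuotientGroup.eq_one_iff _).mpr ⟨m, rfl⟩
  have key := card_six (eMap (ν := ν) u₁ c₁) (eMap u₂ c₂) (eMap u₃ c₃) (eMap u₄ c₄) (eMap u₅ c₅)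
    (eMap_injective _ _ h₁) (eMap_exact p hG hNp hν _ c₁ _ c₂ hkA h₂)
    (eMap_exact p hG hNp hν _ c₂ _ c₃ hkB h₃) (eMap_exact p hG hNp hν _ c₃ _ c₄ hkC h₄)
    (eMap_exact p hG hNp hν _ c₄ _ c₅ hcA h₅) (eMap_surjective p hG hNp hν _ c₅ hcB h₆)
  rw [card_eHom_tor p ρA hNp, card_eHom_tor p ρB hNp, card_eHom_tor p ρC hNp] at key
  obtain ⟨fa, fa'⟩ := finite_eHom_of_qFinite (ν := ν) p ρA hNp hA
  obtain ⟨fb, fb'⟩ := finite_eHom_of_qFinite (ν := ν) p ρB hNp hB
  obtain ⟨fc, fc'⟩ := finite_eHom_of_qFinite (ν := ν) p ρC hNp hC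
  have e : (Nat.card (eHom ν ρA) : ℚ) * Nat.card (eHom ν ρC) * Nat.card (eHom ν (powQuotAct p ρB)) =
      Nat.card (eHom ν ρB) * Nat.card (eHom ν (powQuotAct p ρA)) *
        Nat.card (eHom ν (powQuotAct p ρC)) := by exact_mod_cast key
  have p1 : (Nat.card (eHom ν ρA) : ℚ) ≠ 0 := by exact_mod_cast Nat.card_pos.ne'
  have p2 : (Nat.card (eHom ν ρB) : ℚ) ≠ 0 := by exact_mod_cast Nat.card_pos.ne'
  have p3 : (Nat.card (eHom ν ρC) : ℚ) ≠ 0 := by exact_mod_cast Nat.card_pos.ne'
  unfold qHom
  field_simp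
  linear_combination e

end Exact

/-- Finite modules have trivial quotient. -/
theorem qHom_of_finite [Finite G] [Finite N] (hG : (Nat.card G).Coprime p)
    (hNp : ∀ x : N, p • x = 0) (hν : ∀ g x y, ν g (x + y) = ν g x + ν g y) :
    ∀ (n : ℕ) {M : Type} [CommGroup M] [Finite M] (ρ : G →* MulAut M), Nat.card M = n →
      qHom ν p ρ = 1 := by
  intro n
  induction n using Nat.strong_induction_on with
  | _ n ih =>
    intro M _ _ ρ hn
    set f := (powMonoidHom p : M →* M)
    have : Finite (eHom ν ρ) := finite_eHom _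
    by_cases hk : f.ker = ⊥
    · have hr : f.range = ⊤ := by
        refine MonoidHom.range_eq_top.mpr ?_
        exact Finite.injective_iff_surjective.mp ((MonoidHom.ker_eq_bot_iff f).mp hk)
      have h1 : Nat.card (eHom ν (powQuotAct p ρ)) = 1 := by
        have : Subsingleton (M ⧸ f.range) := QuotientGroup.subsingleton_iff.mpr hr
        have : Subsingleton (eHom ν (powQuotAct p ρ)) :=
          ⟨fun a b => Subtype.ext (funext fun x => Subsingleton.elim _ _)⟩
        exact Nat.card_of_subsingleton 1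
      have h2 : Nat.card (eHom ν ρ) = 1 := by
        have : Subsingleton (eHom ν ρ) := ⟨fun a b => Subtype.ext (funext fun x => by
          have : ∀ c : eHom ν ρ, (c : N → M) x = 1 := fun c =>
            Subgroup.mem_bot.mp (hk ▸ MonoidHom.mem_ker.mpr (eHom_values p ρ hNp c x))
          rw [this a, this b])⟩
        exact Nat.card_of_subsingleton 1
      rw [qHom, h1, h2, Nat.cast_one, div_one]
    by_cases hk' : f.ker = ⊤
    · have hr : f.range = ⊥ := by
        rw [MonoidHom.range_eq_bot_iff]; exact MonoidHom.ker_eq_top_iff.mp hk'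
      have hbij : Function.Bijective (QuotientGroup.mk' f.range) :=
        ⟨(MonoidHom.ker_eq_bot_iff _).mp (by rw [QuotientGroup.ker_mk', hr]),
          QuotientGroup.mk'_surjective _⟩
      have h1 : Nat.card (eHom ν ρ) = Nat.card (eHom ν (powQuotAct p ρ)) :=
        card_eHom_congr (MulEquiv.ofBijective _ hbij) fun g m => rfl
      rw [qHom, h1, div_self (by rw [← h1]; exact_mod_cast Nat.card_pos.ne')]
    have hSR : ∀ g, ∀ m ∈ f.range, ρ g m ∈ f.range := by
      rintro g _ ⟨m, rfl⟩; exact ⟨ρ g m, (map_pow (ρ g) m p).symm⟩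
    have hmul := qHom_mul (ν := ν) p hG hNp hν (ρA := torAct p ρ) (ρB := ρ)
      (ρC := resAct ρ f.range hSR) f.ker.subtype f.rangeRestrict f.ker.subtype_injective
      f.rangeRestrict_surjective (by rw [MonoidHom.ker_rangeRestrict, Subgroup.range_subtype])
      (fun g a => rfl) (fun g b => Subtype.ext (map_pow (ρ g) b p).symm)
      (qFinite_of_finite _) (qFinite_of_finite _)
    have hcard : Nat.card f.ker * Nat.card f.range = n := by
      rw [← hn, ← Subgroup.card_mul_index f.ker, Subgroup.index_ker]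
    have hk1 : 1 < Nat.card f.ker := (Subgroup.one_lt_card_iff_ne_bot _).mpr hk
    have hr1 : 1 < Nat.card f.range := by
      refine (Subgroup.one_lt_card_iff_ne_bot _).mpr fun h => hk' ?_
      exact MonoidHom.ker_eq_top_iff.mpr ((MonoidHom.range_eq_bot_iff).mp h)
    have l1 : Nat.card f.ker < n := by
      rw [← hcard]; exact lt_mul_of_one_lt_right (zero_lt_one.trans hk1) hr1
    have l2 : Nat.card f.range < n := by
      rw [← hcard]; exact lt_mul_of_one_lt_left (zero_lt_one.trans hr1) hk1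
    rw [hmul, ih _ l1 _ rfl, ih _ l2 _ rfl, mul_one]

end FLTAgent.TW
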