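import Fermat.Agent.TW.Idele.Lattice

/-!
# Sub- and quotient modules, products, and their fixed elements

Helper lemmas for `qInd` and `qHom`: the action on quotients and products, multiplicativity in
products (`qInd_prod`, `qHom_prod`), invariance under passing to a stable subgroup of finite
index (`qHom_of_finite_index`), and triviality for uniquely divisible modules
(`qHom_of_bijective`).
-/

set_option autoImplicit false
set_option maxHeartbeats 1000000

noncomputable section

namespace FLTAgent.TW

variable {G : Type*} [Group G]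

section Basic

variable {M : Type*} [CommGroup M] (ρ : G →* MulAut M)

/-- The induced action on the quotient by a stable subgroup. -/
def quotAct (S : Subgroup M) (hS : ∀ g, ∀ m ∈ S, ρ g m ∈ S) : G →* MulAut (M ⧸ S) :=
  let act : G → (M ⧸ S →* M ⧸ S) := fun g =>
    QuotientGroup.map _ _ (ρ g : M →* M) fun m hm => hS g m hm
  { toFun := fun g =>
      { act g with
        invFun := act g⁻¹
        left_inv := fun c => by
          induction c using QuotientGroup.induction_on with
          | _ m =>
            show QuotientGroup.mk (ρ g⁻¹ (ρ g m)) = (QuotientGroup.mk m : M ⧸ S)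
            rw [← MulAut.mul_apply, ← map_mul, inv_mul_cancel, map_one, MulAut.one_apply]
        right_inv := fun c => by
          induction c using QuotientGroup.induction_on with
          | _ m =>
            show QuotientGroup.mk (ρ g (ρ g⁻¹ m)) = (QuotientGroup.mk m : M ⧸ S)
            rw [← MulAut.mul_apply, ← map_mul, mul_inv_cancel, map_one, MulAut.one_apply] }
    map_one' := by
      ext c
      induction c using QuotientGroup.induction_on with
      | _ m =>
        show QuotientGroup.mk (ρ 1 m) = (QuotientGroup.mk m : M ⧸ S)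
        rw [map_one, MulAut.one_apply]
    map_mul' := fun g h => by
      ext c
      induction c using QuotientGroup.induction_on with
      | _ m =>
        show QuotientGroup.mk (ρ (g * h) m) = (QuotientGroup.mk (ρ g (ρ h m)) : M ⧸ S)
        rw [map_mul, MulAut.mul_apply] }

theorem quotAct_mk (S : Subgroup M) (hS : ∀ g, ∀ m ∈ S, ρ g m ∈ S) (g : G) (m : M) :
    quotAct ρ S hS g (QuotientGroup.mk m) = QuotientGroup.mk (ρ g m) := rfl

variable {M' : Type*} [CommGroup M'] (ρ' : G →* MulAut M')

/-- The action on a product. -/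
def prodAct : G →* MulAut (M × M') where
  toFun g := MulEquiv.prodCongr (ρ g) (ρ' g)
  map_one' := by
    refine MulEquiv.ext fun x => ?_
    show (ρ 1 x.1, ρ' 1 x.2) = x
    rw [map_one, map_one]; rfl
  map_mul' g h := by
    refine MulEquiv.ext fun x => ?_
    show (ρ (g * h) x.1, ρ' (g * h) x.2) = (ρ g (ρ h x.1), ρ' g (ρ' h x.2))
    rw [map_mul, map_mul]; rfl

theorem prodAct_apply (g : G) (x : M × M') : prodAct ρ ρ' g x = (ρ g x.1, ρ' g x.2) := rfl

/-- The fixed elements of a product. -/
def fixSubProd (S : Subgroup G) : fixSub (prodAct ρ ρ') S ≃* fixSub ρ S × fixSub ρ' S where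
  toFun x := (⟨x.1.1, fun g hg => congrArg Prod.fst (x.2 g hg)⟩,
    ⟨x.1.2, fun g hg => congrArg Prod.snd (x.2 g hg)⟩)
  invFun y := ⟨(y.1.1, y.2.1), fun g hg => Prod.ext (y.1.2 g hg) (y.2.2 g hg)⟩
  left_inv _ := rfl
  right_inv _ := rfl
  map_mul' _ _ := rfl

/-- `q_p` of a product. -/
theorem qInd_prod (p : ℕ) (h : QFinite (powMonoidHom p : M →* M))
    (h' : QFinite (powMonoidHom p : M' →* M')) :
    QFinite (powMonoidHom p : M × M' →* M × M') ∧
      qInd (powMonoidHom p : M × M' →* M × M') =
        qInd (powMonoidHom p : M →* M) * qInd (powMonoidHom p : M' →* M') := by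
  have hi : Function.Injective (MonoidHom.inl M M') := fun a b hab => congrArg Prod.fst hab
  have hπ : Function.Surjective (MonoidHom.snd M M') := fun b => ⟨(1, b), rfl⟩
  have hex : (MonoidHom.inl M M').range = (MonoidHom.snd M M').ker := by
    ext ⟨a, b⟩
    constructor
    · rintro ⟨x, hx⟩; exact (congrArg Prod.snd hx).symm
    · intro hb
      exact ⟨a, Prod.ext rfl (MonoidHom.mem_ker.mp hb).symm⟩
  have e₁ : ∀ a : M, MonoidHom.inl M M' (powMonoidHom p a) = powMonoidHom p (MonoidHom.inl M M' a) :=
    fun a => map_pow (MonoidHom.inl M M') a p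
  have e₂ : ∀ b : M × M', MonoidHom.snd M M' (powMonoidHom p b) = powMonoidHom p (MonoidHom.snd M M' b) :=
    fun b => map_pow (MonoidHom.snd M M') b p
  exact ⟨QFinite.middle (A := M) (B := M × M') (C := M') (fA := powMonoidHom p)
      (fB := powMonoidHom p) (fC := powMonoidHom p) (MonoidHom.inl M M') (MonoidHom.snd M M')
      hi hπ hex e₁ e₂ h h',
    qInd_mul (A := M) (B := M × M') (C := M') (fA := powMonoidHom p)
      (fB := powMonoidHom p) (fC := powMonoidHom p) (MonoidHom.inl M M') (MonoidHom.snd M M')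
      hi hπ hex e₁ e₂ h h'⟩

/-- `q_p` of the fixed elements of a product. -/
theorem qInd_fixSub_prod (p : ℕ) (S : Subgroup G)
    (h : QFinite (powMonoidHom p : fixSub ρ S →* fixSub ρ S))
    (h' : QFinite (powMonoidHom p : fixSub ρ' S →* fixSub ρ' S)) :
    qInd (powMonoidHom p : fixSub (prodAct ρ ρ') S →* fixSub (prodAct ρ ρ') S) =
      qInd (powMonoidHom p : fixSub ρ S →* fixSub ρ S) *
        qInd (powMonoidHom p : fixSub ρ' S →* fixSub ρ' S) := by
  rw [← (qInd_prod p h h').2]
  exact (qInd_congr (fixSubProd ρ ρ' S).symm (f := powMonoidHom p) (f' := powMonoidHom p)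
    fun m => map_pow _ m p).1

end Basic

section QHom

variable {N : Type*} [AddCommGroup N] (ν : G →* Function.End N) (p : ℕ) [hp : Fact p.Prime]
variable [Finite G] [Finite N]

/-- `qHom` of a product. -/
theorem qHom_prod (hG : (Nat.card G).Coprime p) (hNp : ∀ x : N, p • x = 0)
    (hν : ∀ g x y, ν g (x + y) = ν g x + ν g y)
    {M M' : Type} [CommGroup M] [CommGroup M'] (ρ : G →* MulAut M) (ρ' : G →* MulAut M')
    (h : QFinite (powMonoidHom p : M →* M)) (h' : QFinite (powMonoidHom p : M' →* M')) :
    qHom ν p (prodAct ρ ρ') = qHom ν p ρ * qHom ν p ρ' := by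
  refine qHom_mul (ν := ν) p hG hNp hν (MonoidHom.inl M M') (MonoidHom.snd M M')
    (fun a b hab => congrArg Prod.fst hab) (fun b => ⟨(1, b), rfl⟩) ?_ (fun g a => ?_)
    (fun g b => rfl) h h'
  · ext ⟨a, b⟩
    constructor
    · rintro ⟨x, hx⟩; exact (congrArg Prod.snd hx).symm
    · intro hb
      exact ⟨a, Prod.ext rfl (MonoidHom.mem_ker.mp hb).symm⟩
  · exact Prod.ext rfl (map_one (ρ' g)).symm

/-- A stable subgroup of finite index has the same `qHom`. -/
theorem qHom_of_finite_index (hG : (Nat.card G).Coprime p) (hNp : ∀ x : N, p • x = 0)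
    (hν : ∀ g x y, ν g (x + y) = ν g x + ν g y)
    {M : Type} [CommGroup M] (ρ : G →* MulAut M) (S : Subgroup M) (hS : ∀ g, ∀ m ∈ S, ρ g m ∈ S)
    [Finite (M ⧸ S)] (h : QFinite (powMonoidHom p : S →* S)) :
    QFinite (powMonoidHom p : M →* M) ∧ qHom ν p ρ = qHom ν p (resAct ρ S hS) := by
  have hex : S.subtype.range = (QuotientGroup.mk' S).ker := by
    rw [QuotientGroup.ker_mk', Subgroup.range_subtype]
  refine ⟨QFinite.middle (fA := powMonoidHom p) (fB := powMonoidHom p) (fC := powMonoidHom p)
    S.subtype (QuotientGroup.mk' S) S.subtype_injective (QuotientGroup.mk'_surjective S) hex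
    (fun _ => rfl) (fun _ => rfl) h (qFinite_of_finite _), ?_⟩
  rw [qHom_mul (ν := ν) p hG hNp hν (ρA := resAct ρ S hS) (ρB := ρ) (ρC := quotAct ρ S hS)
    S.subtype (QuotientGroup.mk' S) S.subtype_injective (QuotientGroup.mk'_surjective S) hex
    (fun g a => rfl) (fun g m => rfl) h (qFinite_of_finite _),
    qHom_of_finite (ν := ν) p hG hNp hν _ (quotAct ρ S hS) rfl, mul_one]

omit [Finite G] [Finite N] in
/-- Uniquely divisible modules have trivial quotient. -/
theorem qHom_of_bijective [Finite N] (hNp : ∀ x : N, p • x = 0) {M : Type} [CommGroup M]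
    (ρ : G →* MulAut M) (h : Function.Bijective (powMonoidHom p : M →* M)) :
    QFinite (powMonoidHom p : M →* M) ∧ qHom ν p ρ = 1 := by
  set f := (powMonoidHom p : M →* M)
  have hk : f.ker = ⊥ := (MonoidHom.ker_eq_bot_iff f).mpr h.1
  have hr : f.range = ⊤ := MonoidHom.range_eq_top.mpr h.2
  have : Subsingleton (M ⧸ f.range) := QuotientGroup.subsingleton_iff.mpr hr
  refine ⟨⟨inferInstance, by rw [hk]; infer_instance⟩, ?_⟩
  have h1 : Nat.card (eHom ν (powQuotAct p ρ)) = 1 := by
    have : Subsingleton (eHom ν (powQuotAct p ρ)) :=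
      ⟨fun a b => Subtype.ext (funext fun x => Subsingleton.elim _ _)⟩
    exact Nat.card_of_subsingleton 1
  have h2 : Nat.card (eHom ν ρ) = 1 := by
    have : Subsingleton (eHom ν ρ) := ⟨fun a b => Subtype.ext (funext fun x => by
      have : ∀ c : eHom ν ρ, (c : N → M) x = 1 := fun c =>
        Subgroup.mem_bot.mp (hk ▸ MonoidHom.mem_ker.mpr (eHom_values p ρ hNp c x))
      rw [this a, this b])⟩
    exact Nat.card_of_subsingleton 1
  rw [qHom, h1, h2, Nat.cast_one, div_one]

end QHom

end FLTAgent.TW
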