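import Mathlib

/-!
# Traces and fixed vectors of integral matrices which are idempotent modulo `p`

If integral matrices `A`, `B` are idempotent modulo `p` and the integral polynomials in them have
the same traces, their fixed spaces modulo `p` have the same size: lift `A`, `B` to idempotents
modulo a high power of `p`, whose traces are the ranks.
-/

set_option autoImplicit false
set_option maxHeartbeats 1000000

noncomputable section

open Matrix

namespace FLTAgent.TW

section Lifting

/-- The step lifting idempotents. -/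
def idemStep {R : Type*} [Ring R] (a : R) : R := 3 * a ^ 2 - 2 * a ^ 3

theorem idemStep_sq_sub {R : Type*} [Ring R] (a : R) :
    idemStep a ^ 2 - idemStep a = (a ^ 2 - a) ^ 2 * (4 * a ^ 2 - 4 * a - 3) := by
  have h : (Polynomial.X : Polynomial ℤ) ^ 0 = 1 := pow_zero _
  have key : (3 * (Polynomial.X : Polynomial ℤ) ^ 2 - 2 * Polynomial.X ^ 3) ^ 2 -
      (3 * Polynomial.X ^ 2 - 2 * Polynomial.X ^ 3) =
      (Polynomial.X ^ 2 - Polynomial.X) ^ 2 * (4 * Polynomial.X ^ 2 - 4 * Polynomial.X - 3) := by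
    ring
  have := congrArg (Polynomial.aeval (R := ℤ) a) key
  simpa [idemStep, map_ofNat] using this

theorem idemStep_sub {R : Type*} [Ring R] (a : R) :
    idemStep a - a = (a ^ 2 - a) * (1 - 2 * a) := by
  have key : (3 * (Polynomial.X : Polynomial ℤ) ^ 2 - 2 * Polynomial.X ^ 3) - Polynomial.X =
      (Polynomial.X ^ 2 - Polynomial.X) * (1 - 2 * Polynomial.X) := by ring
  have := congrArg (Polynomial.aeval (R := ℤ) a) key
  simpa [idemStep, map_ofNat] using this

end Lifting

variable {n : Type*} [Fintype n] [DecidableEq n] (p : ℕ)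

/-- Reduction of an integral matrix. -/
abbrev redMat (m : ℕ) : Matrix n n ℤ →+* Matrix n n (ZMod m) := (Int.castRingHom (ZMod m)).mapMatrix

omit [DecidableEq n] in
theorem intMat_eq_smul_of_red_eq_zero [DecidableEq n] {m : ℕ} {A : Matrix n n ℤ}
    (h : redMat m A = 0) : ∃ B, A = (m : ℤ) • B := by
  have h' : ∀ i j, (m : ℤ) ∣ A i j := fun i j =>
    (ZMod.intCast_zmod_eq_zero_iff_dvd _ _).mp (congrFun (congrFun h i) j)
  choose B hB using h'
  exact ⟨Matrix.of B, Matrix.ext fun i j => by simp [hB i j]⟩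

omit [DecidableEq n] in
theorem red_smul_self [DecidableEq n] {m : ℕ} (B : Matrix n n ℤ) : redMat m ((m : ℤ) • B) = 0 :=
  Matrix.ext fun i j => show (((m : ℤ) * B i j : ℤ) : ZMod m) = 0 by simp

/-- Iterating the step gives idempotents modulo high powers of `p`. -/
theorem red_idemStep_iterate {A : Matrix n n ℤ} (hA : redMat p (A ^ 2 - A) = 0) (t : ℕ) :
    redMat (p ^ 2 ^ t) (idemStep^[t] A ^ 2 - idemStep^[t] A) = 0 ∧
      redMat p (idemStep^[t] A - A) = 0 := by
  induction t with
  | zero =>
    refine ⟨?_, by simp⟩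
    obtain ⟨B, hB⟩ := intMat_eq_smul_of_red_eq_zero hA
    rw [Function.iterate_zero_apply, hB, show p ^ 2 ^ 0 = p by simp]
    exact red_smul_self B
  | succ t ih =>
    rw [Function.iterate_succ_apply']
    set a := idemStep^[t] A
    obtain ⟨B, hB⟩ := intMat_eq_smul_of_red_eq_zero ih.1
    refine ⟨?_, ?_⟩
    · rw [idemStep_sq_sub, hB, smul_pow, smul_mul_assoc, ← Nat.cast_pow, ← pow_mul, ← pow_succ]
      exact red_smul_self _
    · have h1 : redMat p (a ^ 2 - a) = 0 := by
        rw [hB, show ((p ^ 2 ^ t : ℕ) : ℤ) = (p : ℤ) * (p : ℤ) ^ (2 ^ t - 1) by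
          rw [← pow_succ', Nat.sub_add_cancel Nat.one_le_two_pow]; push_cast; rfl, mul_smul]
        exact red_smul_self _
      rw [show idemStep a - A = (idemStep a - a) + (a - A) by abel, map_add, ih.2, idemStep_sub,
        map_mul, h1, zero_mul, add_zero]

variable [hp : Fact p.Prime]

/-- The trace of an idempotent modulo `p ^ M` is the dimension of the fixed space modulo `p`. -/
theorem trace_idempotent (M : ℕ) (hM : 0 < M) {E : Matrix n n ℤ}
    (hE : redMat (p ^ M) (E ^ 2 - E) = 0) :
    ∃ r : ℕ, r ≤ Fintype.card n ∧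
      Nat.card {v : n → ZMod p // redMat p E *ᵥ v = v} = p ^ r ∧
      (E.trace : ZMod (p ^ M)) = (r : ZMod (p ^ M)) := by
  classical
  obtain ⟨Bd, hBd⟩ := intMat_eq_smul_of_red_eq_zero hE
  have hE0 : redMat p E * redMat p E = redMat p E := by
    rw [← sub_eq_zero, ← sq, ← map_pow, ← map_sub, hBd,
      show ((p ^ M : ℕ) : ℤ) = (p : ℤ) * (p : ℤ) ^ (M - 1) by
        rw [← pow_succ', Nat.sub_add_cancel hM]; push_cast; rfl, mul_smul]
    exact red_smul_self _
  set E0 := redMat p E with hE0def
  let f := Matrix.toLin' E0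
  let W := LinearMap.range f
  have : Module.Finite (ZMod p) W := inferInstance
  let r := Module.finrank (ZMod p) W
  let b : Module.Basis (Fin r) (ZMod p) W := Module.finBasis (ZMod p) W
  have hfix : ∀ v, v ∈ W ↔ E0 *ᵥ v = v := by
    intro v
    refine ⟨?_, fun h => ⟨v, by simpa [f, Matrix.toLin'_apply] using h⟩⟩
    rintro ⟨w, rfl⟩
    simp [f, Matrix.toLin'_apply, Matrix.mulVec_mulVec, hE0]
  let U0 : Matrix n (Fin r) (ZMod p) := LinearMap.toMatrix' (W.subtype ∘ₗ b.equivFun.symm.toLinearMap)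
  let V0 : Matrix (Fin r) n (ZMod p) := LinearMap.toMatrix' (b.equivFun.toLinearMap ∘ₗ f.rangeRestrict)
  have hUV : U0 * V0 = E0 := by
    rw [← LinearMap.toMatrix'_comp]
    conv_rhs => rw [← LinearMap.toMatrix'_toLin' E0]
    congr 1
    refine LinearMap.ext fun v => ?_
    simp [f]
  have hVU : V0 * U0 = 1 := by
    rw [← LinearMap.toMatrix'_comp, ← LinearMap.toMatrix'_id]
    congr 1
    refine LinearMap.ext fun c => ?_
    have hw : f.rangeRestrict ((b.equivFun.symm c : W) : n → ZMod p) = b.equivFun.symm c :=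
      Subtype.ext ((Matrix.toLin'_apply _ _).trans ((hfix _).mp (b.equivFun.symm c).2))
    show b.equivFun (f.rangeRestrict ((b.equivFun.symm c : W) : n → ZMod p)) = c
    rw [hw, LinearEquiv.apply_symm_apply]
  refine ⟨r, ?_, ?_, ?_⟩
  · calc r ≤ Module.finrank (ZMod p) (n → ZMod p) := Submodule.finrank_le W
      _ = _ := Module.finrank_fintype_fun_eq_card _
  · rw [Nat.card_congr (Equiv.subtypeEquivRight fun v => (hfix v).symm),
      show Nat.card {v // v ∈ W} = Nat.card (Fin r → ZMod p) from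
        Nat.card_congr b.equivFun.toEquiv, Nat.card_fun, Nat.card_zmod, Nat.card_fin]
  -- lift the factorisation
  have : NeZero (p ^ M) := ⟨pow_ne_zero _ hp.out.ne_zero⟩
  let π : ZMod (p ^ M) →+* ZMod p := ZMod.castHom (dvd_pow_self p hM.ne') (ZMod p)
  have hπ : Function.Surjective π := ZMod.castHom_surjective _
  choose s hs using hπ
  set Eb := redMat (p ^ M) E with hEbdef
  have hEb : Eb * Eb = Eb := by rw [← sub_eq_zero, ← sq, ← map_pow, ← map_sub, hE]
  have hEbπ : Eb.map π = E0 := Matrix.ext fun i j => by simp [Eb, E0]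
  set U := Eb * U0.map s with hU
  set V := V0.map s * Eb with hV
  have hUπ : U.map π = U0 := by
    rw [hU, Matrix.map_mul, hEbπ, Matrix.ext (N := U0) (M := (U0.map s).map π) fun i j => hs _,
      ← hUV, Matrix.mul_assoc, hVU, Matrix.mul_one]
  have hVπ : V.map π = V0 := by
    rw [hV, Matrix.map_mul, hEbπ, Matrix.ext (N := V0) (M := (V0.map s).map π) fun i j => hs _,
      ← hUV, ← Matrix.mul_assoc, hVU, Matrix.one_mul]
  have hnilp : ∀ {a : Type} [Fintype a] [DecidableEq a] (X : Matrix a a (ZMod (p ^ M))),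
      X.map π = 0 → X ^ M = 0 := by
    intro a _ _ X hX
    have hdiv : ∀ i j, ∃ c, X i j = (p : ZMod (p ^ M)) * c := by
      intro i j
      have h : π (X i j) = 0 := congrFun (congrFun hX i) j
      rw [ZMod.castHom_apply, ZMod.cast_eq_val, ZMod.natCast_eq_zero_iff] at h
      obtain ⟨c, hc⟩ := h
      exact ⟨(c : ZMod (p ^ M)), by rw [← ZMod.natCast_zmod_val (X i j), hc, Nat.cast_mul]⟩
    choose c hc using hdiv
    rw [show X = (p : ZMod (p ^ M)) • Matrix.of c from Matrix.ext fun i j => by simp [hc i j],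
      smul_pow, ← Nat.cast_pow, ZMod.natCast_self, zero_smul]
  set Wm := V * U with hWm
  obtain ⟨Winv, hW1, hW2⟩ : ∃ Winv, Wm * Winv = 1 ∧ Winv * Wm = 1 := by
    have h : IsUnit Wm := by
      have hn : IsNilpotent (Wm - 1) := ⟨M, hnilp _ (by
        rw [Matrix.map_sub π (fun x y => map_sub π x y), hWm, Matrix.map_mul, hUπ, hVπ, hVU,
          Matrix.map_one π (map_zero π) (map_one π), sub_self])⟩
      simpa using hn.isUnit_one_add
    obtain ⟨u, hu⟩ := h
    exact ⟨↑u⁻¹, by rw [← hu, Units.mul_inv], by rw [← hu, Units.inv_mul]⟩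
  set E' := U * Winv * V with hE'
  have hE'sq : E' * E' = E' := by
    calc U * Winv * V * (U * Winv * V) = U * (Winv * (V * U)) * Winv * V := by
          simp only [Matrix.mul_assoc]
      _ = _ := by rw [← hWm, hW2, Matrix.mul_one]
  have hEE' : Eb * E' = E' := by
    rw [hE', hU]
    simp only [← Matrix.mul_assoc, hEb]
  have hE'E : E' * Eb = E' := by
    rw [hE', hV]
    simp only [Matrix.mul_assoc, hEb]
  have hDsq : (Eb - E') * (Eb - E') = Eb - E' := by
    rw [sub_mul, mul_sub, mul_sub, hEb, hEE', hE'E, hE'sq, sub_self, sub_zero]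
  have hWinvπ : Winv.map π = 1 := by
    have := congrArg (fun X => Matrix.map X π) hW2
    simp only [Matrix.map_mul, hWm, hUπ, hVπ, hVU, Matrix.mul_one,
      Matrix.map_one π (map_zero π) (map_one π)] at this
    exact this
  have hD0 : Eb = E' := by
    by_contra hne
    have hpow : ∀ k : ℕ, (Eb - E') ^ (k + 1) = Eb - E' := fun k => by
      induction k with
      | zero => rw [pow_one]
      | succ k ih => rw [pow_succ, ih, hDsq]
    have hsum : ((Eb - E').map π : Matrix n n (ZMod p)) = 0 := by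
      rw [Matrix.map_sub π (fun x y => map_sub π x y), hE', Matrix.map_mul, Matrix.map_mul,
        hEbπ, hUπ, hVπ, hWinvπ, Matrix.mul_one, hUV, sub_self]
    -- powers vanish
    have hdiv : ∀ i j, ∃ c, (Eb - E') i j = (p : ZMod (p ^ M)) * c := by
      intro i j
      have h : π ((Eb - E') i j) = 0 := congrFun (congrFun hsum i) j
      rw [ZMod.castHom_apply, ZMod.cast_eq_val, ZMod.natCast_eq_zero_iff] at h
      obtain ⟨c, hc⟩ := h
      exact ⟨(c : ZMod (p ^ M)), by rw [← ZMod.natCast_zmod_val ((Eb - E') i j), hc, Nat.cast_mul]⟩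
    choose c hc using hdiv
    have h2 : (Eb - E') ^ M = 0 := by
      rw [show Eb - E' = (p : ZMod (p ^ M)) • Matrix.of c from Matrix.ext fun i j => by simp [hc i j],
        smul_pow, ← Nat.cast_pow, ZMod.natCast_self, zero_smul]
    exact hne (sub_eq_zero.mp ((hpow (M - 1)).symm.trans
      ((congrArg (fun k => (Eb - E') ^ k) (Nat.sub_add_cancel hM)).trans h2)))
  have htr : (E.trace : ZMod (p ^ M)) = Eb.trace := by
    simp [Matrix.trace, Eb]
  rw [htr, hD0, hE', Matrix.trace_mul_comm, ← Matrix.mul_assoc, ← hWm, hW1, Matrix.trace_one,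
    Fintype.card_fin]

end FLTAgent.TW
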