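import Fermat.Agent.TW.Idele.EHom
import Fermat.Agent.TW.Idele.Idempotent

/-!
# Finitely generated modules with the same ranks of fixed points

For a finite group `G` of order prime to `p`, two finitely generated `G`-modules whose fixed points
under all subgroups have the same `q_p` have the same `qHom`: by induction on the cyclic
subgroups their traces agree (the trace of an integral matrix is rational: Dirichlet's theorem and
`tr (A ^ q) ≡ tr A [mod q]`), and traces determine the dimensions of the spaces of equivariant maps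
modulo `p`.
-/

set_option autoImplicit false
set_option maxHeartbeats 1000000
set_option synthInstance.maxHeartbeats 200000

noncomputable section

open Matrix
open scoped Kronecker

namespace FLTAgent.TW

variable {G : Type*} [Group G]

section Pairs

variable {κ κ' : Type*} [Fintype κ] [DecidableEq κ] [Fintype κ'] [DecidableEq κ']
variable (R : G →* Matrix κ κ ℤ) (R' : G →* Matrix κ' κ' ℤ)
variable [Fintype G] {ι : Type*} [Fintype ι] [DecidableEq ι]

/-- Matrices coming from the same element of `Matrix ι ι ℤ[G]`. -/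
def SameElement (A : Matrix (ι × κ) (ι × κ) ℤ) (B : Matrix (ι × κ') (ι × κ') ℤ) : Prop :=
  ∃ C : G → Matrix ι ι ℤ, A = ∑ g, C g ⊗ₖ R g ∧ B = ∑ g, C g ⊗ₖ R' g

theorem sum_kronecker_mul (C C' : G → Matrix ι ι ℤ) :
    (∑ g, C g ⊗ₖ R g) * (∑ g, C' g ⊗ₖ R g) = ∑ h, (∑ g, C g * C' (g⁻¹ * h)) ⊗ₖ R h := by
  simp only [Finset.sum_mul, Finset.mul_sum, ← Matrix.mul_kronecker_mul, ← map_mul]
  rw [Finset.sum_comm]
  have h2 : ∀ g, ∑ g', (C g * C' g') ⊗ₖ R (g * g') = ∑ h, (C g * C' (g⁻¹ * h)) ⊗ₖ R h := fun g => by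
    refine Fintype.sum_equiv (Equiv.mulLeft g) _ _ fun g' => ?_
    simp
  simp only [h2]
  rw [Finset.sum_comm]
  refine Finset.sum_congr rfl fun h _ => ?_
  ext ⟨i, k⟩ ⟨j, l⟩
  simp only [Matrix.sum_apply, Matrix.kronecker_apply, Finset.sum_mul]

variable {R R'}

theorem SameElement.mul {A A' : Matrix (ι × κ) (ι × κ) ℤ} {B B' : Matrix (ι × κ') (ι × κ') ℤ}
    (h : SameElement R R' A B) (h' : SameElement R R' A' B') :
    SameElement R R' (A * A') (B * B') := by
  obtain ⟨C, rfl, rfl⟩ := h
  obtain ⟨C', rfl, rfl⟩ := h'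
  exact ⟨fun h => ∑ g, C g * C' (g⁻¹ * h), sum_kronecker_mul R C C', sum_kronecker_mul R' C C'⟩

theorem SameElement.sub {A A' : Matrix (ι × κ) (ι × κ) ℤ} {B B' : Matrix (ι × κ') (ι × κ') ℤ}
    (h : SameElement R R' A B) (h' : SameElement R R' A' B') :
    SameElement R R' (A - A') (B - B') := by
  obtain ⟨C, rfl, rfl⟩ := h
  obtain ⟨C', rfl, rfl⟩ := h'
  refine ⟨C - C', ?_, ?_⟩ <;>
  · ext ⟨i, k⟩ ⟨j, l⟩
    simp [Matrix.sum_apply, sub_mul]

theorem SameElement.smul {A : Matrix (ι × κ) (ι × κ) ℤ} {B : Matrix (ι × κ') (ι × κ') ℤ} (c : ℤ)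
    (h : SameElement R R' A B) : SameElement R R' (c • A) (c • B) := by
  obtain ⟨C, rfl, rfl⟩ := h
  refine ⟨fun g => c • C g, ?_, ?_⟩ <;> simp [Finset.smul_sum, Matrix.smul_kronecker, -zsmul_eq_mul]

theorem idemStep_eq_smul {m : Type*} [Fintype m] [DecidableEq m] (X : Matrix m m ℤ) :
    idemStep X = (3 : ℤ) • (X * X) - (2 : ℤ) • (X * X * X) := by
  rw [idemStep, zsmul_eq_mul, zsmul_eq_mul]
  push_cast
  noncomm_ring

theorem SameElement.idemStep {A : Matrix (ι × κ) (ι × κ) ℤ} {B : Matrix (ι × κ') (ι × κ') ℤ}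
    (h : SameElement R R' A B) : SameElement R R' (idemStep A) (idemStep B) := by
  rw [idemStep_eq_smul, idemStep_eq_smul]
  exact ((h.mul h).smul 3).sub (((h.mul h).mul h).smul 2)

theorem SameElement.trace_eq {A : Matrix (ι × κ) (ι × κ) ℤ} {B : Matrix (ι × κ') (ι × κ') ℤ}
    (h : SameElement R R' A B) (ht : ∀ g, (R g).trace = (R' g).trace) : A.trace = B.trace := by
  obtain ⟨C, rfl, rfl⟩ := h
  simp only [Matrix.trace_sum, Matrix.trace_kronecker, ht]

end Pairs

/-- The trace of an integral matrix of finite order is rational. -/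
theorem trace_pow_coprime [Finite G] {m : Type*} [Fintype m] [DecidableEq m]
    (Q : G →* Matrix m m ℤ) (g : G) (k : ℕ) (hk : k.Coprime (orderOf g)) :
    (Q (g ^ k)).trace = (Q g).trace := by
  have hn : 0 < orderOf g := orderOf_pos g
  obtain ⟨q, hq1, hq, hqk⟩ := Nat.forall_exists_prime_gt_and_modEq
    ((Q (g ^ k)).trace - (Q g).trace).natAbs hn.ne' hk
  have := Fact.mk hq
  have hgq : g ^ q = g ^ k := pow_eq_pow_iff_modEq.mpr hqk
  have h1 : (((Q g ^ q).trace : ℤ) : ZMod q) = ((Q g).trace : ZMod q) := by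
    have h2 := ZMod.trace_pow_card ((Int.castRingHom (ZMod q)).mapMatrix (Q g))
    rw [← map_pow, ZMod.pow_card] at h2
    simpa [Matrix.trace] using h2
  rw [← map_pow, hgq, ← sub_eq_zero, ← Int.cast_sub,
    ZMod.intCast_zmod_eq_zero_iff_dvd] at h1
  exact sub_eq_zero.mp (Int.eq_zero_of_dvd_of_natAbs_lt_natAbs h1 (by simpa using hq1))

/-- Sums over all subgroups determine the trace of an integral representation. -/
theorem trace_eq_of_sums [Finite G] {κ κ' : Type*} [Fintype κ] [DecidableEq κ] [Fintype κ']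
    [DecidableEq κ'] (R : G →* Matrix κ κ ℤ) (R' : G →* Matrix κ' κ' ℤ)
    (h : ∀ S : Subgroup G,
      ∑ᶠ g : S, (R (g : G)).trace = ∑ᶠ g : S, (R' (g : G)).trace) :
    ∀ g, (R g).trace = (R' g).trace := by
  classical
  have := Fintype.ofFinite G
  intro g
  induction hn : orderOf g using Nat.strong_induction_on generalizing g with
  | _ n ih =>
    have hs := h (Subgroup.zpowers g)
    rw [finsum_eq_sum_of_fintype, finsum_eq_sum_of_fintype, ← sub_eq_zero,
      ← Finset.sum_sub_distrib] at hs
    have hterm : ∀ x : Subgroup.zpowers g, (R (x : G)).trace - (R' (x : G)).trace =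
        if orderOf (x : G) = n then (R g).trace - (R' g).trace else 0 := by
      rintro ⟨x, hx⟩
      obtain ⟨k, rfl⟩ := (mem_powers_iff_mem_zpowers (x := g)).mpr hx
      simp only
      split_ifs with hk
      · have hco : k.Coprime (orderOf g) := by
          rw [← hn] at hk
          have h' := orderOf_pow g (n := k)
          rw [hk, eq_comm, Nat.div_eq_self] at h'
          rcases h' with h' | h'
          · exact absurd h' (orderOf_pos g).ne'
          · exact Nat.Coprime.symm h'
        rw [trace_pow_coprime R g k hco, trace_pow_coprime R' g k hco]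
      · refine sub_eq_zero.mpr (ih _ ?_ _ rfl)
        exact lt_of_le_of_ne (Nat.le_of_dvd (hn ▸ orderOf_pos g) (hn ▸ orderOf_pow_dvd k)) hk
    simp only [hterm, ← Finset.sum_filter, Finset.sum_const, smul_eq_zero] at hs
    rcases hs with hs | hs
    · exact absurd hs (Finset.card_ne_zero.mpr
        ⟨⟨g, Subgroup.mem_zpowers g⟩, Finset.mem_filter.mpr ⟨Finset.mem_univ _, hn⟩⟩)
    · exact sub_eq_zero.mp hs

variable {N : Type*} [AddCommGroup N] {ν : G →* Function.End N}
variable {κ : Type*} [Fintype κ] [DecidableEq κ]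

theorem redMat_mulVec_comp (m : ℕ) (R : G →* Matrix κ κ ℤ) (g h : G) (v : κ → ZMod m) :
    redMat m (R g) *ᵥ (redMat m (R h) *ᵥ v) = redMat m (R (g * h)) *ᵥ v := by
  rw [Matrix.mulVec_mulVec, ← map_mul, ← map_mul]

/-- The action on vectors. -/
def vecAct (m : ℕ) (R : G →* Matrix κ κ ℤ) : G →* MulAut (Multiplicative (κ → ZMod m)) where
  toFun g :=
    { toFun := fun x => Multiplicative.ofAdd (redMat m (R g) *ᵥ Multiplicative.toAdd x)
      invFun := fun x => Multiplicative.ofAdd (redMat m (R g⁻¹) *ᵥ Multiplicative.toAdd x)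
      left_inv := fun x => by
        simp only [toAdd_ofAdd, redMat_mulVec_comp, inv_mul_cancel, map_one, Matrix.one_mulVec,
          ofAdd_toAdd]
      right_inv := fun x => by
        simp only [toAdd_ofAdd, redMat_mulVec_comp, mul_inv_cancel, map_one, Matrix.one_mulVec,
          ofAdd_toAdd]
      map_mul' := fun x y => by simp [Matrix.mulVec_add] }
  map_one' := by
    refine MulEquiv.ext fun x => ?_
    show Multiplicative.ofAdd (redMat m (R 1) *ᵥ Multiplicative.toAdd x) = x
    simp
  map_mul' g h := by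
    refine MulEquiv.ext fun x => ?_
    show Multiplicative.ofAdd (redMat m (R (g * h)) *ᵥ Multiplicative.toAdd x) = Multiplicative.ofAdd
      (redMat m (R g) *ᵥ Multiplicative.toAdd (Multiplicative.ofAdd
        (redMat m (R h) *ᵥ Multiplicative.toAdd x)))
    rw [toAdd_ofAdd, redMat_mulVec_comp]

/-- The action on integral vectors. -/
def latAct (R : G →* Matrix κ κ ℤ) : G →* MulAut (Multiplicative (κ → ℤ)) where
  toFun g :=
    { toFun := fun x => Multiplicative.ofAdd (R g *ᵥ Multiplicative.toAdd x)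
      invFun := fun x => Multiplicative.ofAdd (R g⁻¹ *ᵥ Multiplicative.toAdd x)
      left_inv := fun x => by simp [Matrix.mulVec_mulVec, ← map_mul]
      right_inv := fun x => by simp [Matrix.mulVec_mulVec, ← map_mul]
      map_mul' := fun x y => by simp [Matrix.mulVec_add] }
  map_one' := by
    refine MulEquiv.ext fun x => ?_
    show Multiplicative.ofAdd (R 1 *ᵥ Multiplicative.toAdd x) = x
    simp
  map_mul' g h := by
    refine MulEquiv.ext fun x => ?_
    show Multiplicative.ofAdd (R (g * h) *ᵥ Multiplicative.toAdd x) = Multiplicative.ofAdd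
      (R g *ᵥ Multiplicative.toAdd (Multiplicative.ofAdd (R h *ᵥ Multiplicative.toAdd x)))
    simp [Matrix.mulVec_mulVec]

theorem toAdd_latAct (R : G →* Matrix κ κ ℤ) (g : G) (x : Multiplicative (κ → ℤ)) :
    Multiplicative.toAdd (latAct R g x) = R g *ᵥ Multiplicative.toAdd x := rfl

theorem toAdd_vecAct (m : ℕ) (R : G →* Matrix κ κ ℤ) (g : G) (x : Multiplicative (κ → ZMod m)) :
    Multiplicative.toAdd (vecAct m R g x) = redMat m (R g) *ᵥ Multiplicative.toAdd x := rfl

variable (p : ℕ) [hp : Fact p.Prime]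

/-- For a lattice only the maps modulo `p` count. -/
theorem qHom_lattice [Finite N] (hNp : ∀ x : N, p • x = 0) (R : G →* Matrix κ κ ℤ) :
    qHom ν p (latAct R) = Nat.card (eHom ν (vecAct p R)) := by
  have : NeZero p := ⟨hp.out.ne_zero⟩
  have h1 : Nat.card (eHom ν (latAct R)) = 1 := by
    have : Subsingleton (eHom ν (latAct R)) := ⟨fun a b => Subtype.ext (funext fun x => by
      have : ∀ c : eHom ν (latAct R), (c : N → Multiplicative (κ → ℤ)) x = 1 := fun c => by
        have h := eHom_values p (latAct R) hNp c x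
        refine Multiplicative.toAdd.injective (funext fun i => ?_)
        have h2 := congrFun (congrArg Multiplicative.toAdd h) i
        simpa [hp.out.ne_zero] using h2
      rw [this a, this b])⟩
    exact Nat.card_of_subsingleton 1
  let r : Multiplicative (κ → ℤ) →* Multiplicative (κ → ZMod p) :=
    AddMonoidHom.toMultiplicative ((Int.castAddHom (ZMod p)).compLeft κ)
  have hr : Function.Surjective r := fun x =>
    ⟨Multiplicative.ofAdd fun i => ((Multiplicative.toAdd x i).val : ℤ), by
      refine Multiplicative.toAdd.injective (funext fun i => ?_)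
      simp [r]⟩
  have hker : r.ker = (powMonoidHom p).range := by
    ext x
    constructor
    · intro hx
      choose c hc using fun i => (ZMod.intCast_zmod_eq_zero_iff_dvd _ p).mp
        (congrFun (congrArg Multiplicative.toAdd hx) i)
      exact ⟨Multiplicative.ofAdd c, Multiplicative.toAdd.injective (funext fun i => by
        simp [hc i, mul_comm])⟩
    · rintro ⟨y, rfl⟩
      refine Multiplicative.toAdd.injective (funext fun i => ?_)
      simp [r]
  let e := (QuotientGroup.quotientMulEquivOfEq hker.symm).trans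
    (QuotientGroup.quotientKerEquivOfSurjective r hr)
  have h2 : Nat.card (eHom ν (powQuotAct p (latAct R))) = Nat.card (eHom ν (vecAct p R)) :=
    card_eHom_congr e fun g c => by
      induction c using QuotientGroup.induction_on with
      | _ x =>
        show r (latAct R g x) = vecAct p R g (r x)
        refine Multiplicative.toAdd.injective (funext fun i => ?_)
        show ((R g *ᵥ Multiplicative.toAdd x) i : ZMod p) =
          (redMat p (R g) *ᵥ fun j => ((Multiplicative.toAdd x j : ℤ) : ZMod p)) i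
        simp [Matrix.mulVec, dotProduct]
  rw [qHom, h1, h2, Nat.cast_one, div_one]

section Count

variable [Fintype G] [Finite N] [Module (ZMod p) N]

/-- The averaging matrices whose fixed vectors are the equivariant maps modulo `p`. -/
theorem exists_average (hG : (Nat.card G).Coprime p) (hν : ∀ g x y, ν g (x + y) = ν g x + ν g y) :
    ∃ (d : ℕ) (C : G → Matrix (Fin d) (Fin d) ℤ),
      ∀ {κ : Type} [Fintype κ] [DecidableEq κ] (R : G →* Matrix κ κ ℤ),
        redMat p (∑ g, C g ⊗ₖ R g) ^ 2 = redMat p (∑ g, C g ⊗ₖ R g) ∧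
        Nat.card (eHom ν (vecAct p R)) =
          Nat.card {v : Fin d × κ → ZMod p // redMat p (∑ g, C g ⊗ₖ R g) *ᵥ v = v} := by
  classical
  have : Fintype (Module.Basis.ofVectorSpaceIndex (ZMod p) N) := Fintype.ofFinite _
  let b := (Module.Basis.ofVectorSpace (ZMod p) N).reindex
    (Fintype.equivFin (Module.Basis.ofVectorSpaceIndex (ZMod p) N))
  set d := Fintype.card (Module.Basis.ofVectorSpaceIndex (ZMod p) N)
  have hcG : ((Nat.card G : ℕ) : ZMod p) ≠ 0 := fun h =>
    hp.out.coprime_iff_not_dvd.mp hG.symm ((ZMod.natCast_eq_zero_iff _ _).mp h)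
  set c : ZMod p := ((Nat.card G : ℕ) : ZMod p)⁻¹ with hc
  let νl : G → (N →ₗ[ZMod p] N) := fun g =>
    (AddMonoidHom.mk' (ν g) (hν g)).toZModLinearMap p
  refine ⟨d, fun g => Matrix.of fun i j => ((c * b.repr (νl g⁻¹ (b i)) j).val : ℤ), ?_⟩
  intro κ _ _ R
  set A := ∑ g, (Matrix.of fun i j => ((c * b.repr (νl g⁻¹ (b i)) j).val : ℤ)) ⊗ₖ R g with hA
  let ext : (Fin d × κ → ZMod p) → (N →ₗ[ZMod p] κ → ZMod p) := fun v =>
    b.constr (ZMod p) fun i k => v (i, k)
  let avg : (N →ₗ[ZMod p] κ → ZMod p) → (N →ₗ[ZMod p] κ → ZMod p) := fun F =>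
    c • ∑ g : G, (Matrix.toLin' (redMat p (R g))).comp (F.comp (νl g⁻¹))
  have hext : ∀ v x k, ext v x k = ∑ i, b.repr x i * v (i, k) := fun v x k => by
    simp [ext, Module.Basis.constr_apply_fintype, Module.Basis.equivFun_apply]
  have hAv : ∀ v i k, (redMat p A *ᵥ v) (i, k) = avg (ext v) (b i) k := by
    intro v i k
    simp only [hA, map_sum, Matrix.sum_mulVec, Finset.sum_apply, avg, LinearMap.smul_apply,
      LinearMap.sum_apply, LinearMap.comp_apply, Matrix.toLin'_apply, Pi.smul_apply,
      smul_eq_mul, Finset.mul_sum]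
    refine Finset.sum_congr rfl fun g _ => ?_
    simp only [Matrix.mulVec, dotProduct, Fintype.sum_prod_type, hext, Finset.mul_sum]
    rw [Finset.sum_comm]
    refine Finset.sum_congr rfl fun l _ => Finset.sum_congr rfl fun j _ => ?_
    simp [RingHom.mapMatrix_apply]
    ring
  have hequiv : ∀ F h x, avg F (νl h x) = redMat p (R h) *ᵥ avg F x := by
    intro F h x
    simp only [avg, LinearMap.smul_apply, LinearMap.sum_apply, LinearMap.comp_apply,
      Matrix.toLin'_apply, Matrix.mulVec_smul, Matrix.mulVec_sum]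
    congr 1
    refine Fintype.sum_equiv (Equiv.mulLeft h⁻¹) _ _ fun g => ?_
    simp only [Equiv.coe_mulLeft, Matrix.mulVec_mulVec, ← map_mul, mul_inv_cancel_left]
    congr 2
    show ν g⁻¹ (ν h x) = ν (h⁻¹ * g)⁻¹ x
    rw [_root_.mul_inv_rev, inv_inv, map_mul]
    rfl
  have hfixed : ∀ F : N →ₗ[ZMod p] κ → ZMod p,
      (∀ g x, F (νl g x) = redMat p (R g) *ᵥ F x) → avg F = F := by
    intro F hF
    refine LinearMap.ext fun x => ?_
    have hterm : ∀ g : G, redMat p (R g) *ᵥ F (νl g⁻¹ x) = F x := fun g => by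
      rw [← hF]
      congr 1
      show (ν g * ν g⁻¹ : Function.End N) x = x
      rw [← map_mul, mul_inv_cancel, map_one]
      rfl
    simp only [avg, LinearMap.smul_apply, LinearMap.sum_apply, LinearMap.comp_apply,
      Matrix.toLin'_apply, hterm, Finset.sum_const, Finset.card_univ]
    rw [← Nat.cast_smul_eq_nsmul (ZMod p), smul_smul, hc, ← Nat.card_eq_fintype_card,
      inv_mul_cancel₀ hcG, one_smul]
  have hav : ∀ v, ext (redMat p A *ᵥ v) = avg (ext v) := fun v =>
    b.ext fun i => funext fun k =>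
      (congrFun (b.constr_basis (ZMod p) _ i) k).trans (hAv v i k)
  refine ⟨?_, ?_⟩
  · refine Matrix.toLin'.injective (LinearMap.ext fun v => funext fun ⟨i, k⟩ => ?_)
    rw [sq, Matrix.toLin'_apply, Matrix.toLin'_apply, ← Matrix.mulVec_mulVec, hAv, hAv, hav,
      hfixed _ (hequiv (ext v))]
  refine Nat.card_congr
    { toFun := fun f => ⟨fun q => Multiplicative.toAdd
        ((f : N → Multiplicative (κ → ZMod p)) (b q.1)) q.2, ?_⟩
      invFun := fun v => ⟨fun x => Multiplicative.ofAdd (ext v.1 x),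
        fun x y => congrArg Multiplicative.ofAdd (map_add (ext v.1) x y), fun g x => ?_⟩
      left_inv := fun f => ?_
      right_inv := fun v => Subtype.ext (funext fun ⟨i, k⟩ =>
        congrFun (b.constr_basis (ZMod p) _ i) k) }
  · set F : N →ₗ[ZMod p] κ → ZMod p := (AddMonoidHom.mk'
      (fun x => Multiplicative.toAdd ((f : N → Multiplicative (κ → ZMod p)) x))
      fun x y => by rw [f.2.1, toAdd_mul]).toZModLinearMap p
    have e : ext (fun q => Multiplicative.toAdd ((f : N → Multiplicative (κ → ZMod p)) (b q.1)) q.2)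
        = F := b.ext fun i => by
      simp only [ext, Module.Basis.constr_basis]
      rfl
    refine funext fun ⟨i, k⟩ => ?_
    rw [hAv, e, hfixed F fun g x => by
      show Multiplicative.toAdd ((f : N → Multiplicative (κ → ZMod p)) (ν g x)) = _
      rw [f.2.2, toAdd_vecAct]
      rfl]
    rfl
  · refine Multiplicative.toAdd.injective ?_
    rw [toAdd_vecAct, toAdd_ofAdd, toAdd_ofAdd]
    have h := hequiv (ext v.1) g x
    rw [← hav, v.2] at h
    exact h
  · refine Subtype.ext (funext fun x => Multiplicative.toAdd.injective (funext fun k => ?_))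
    rw [toAdd_ofAdd, hext]
    set F : N →ₗ[ZMod p] κ → ZMod p := (AddMonoidHom.mk'
      (fun x => Multiplicative.toAdd ((f : N → Multiplicative (κ → ZMod p)) x))
      fun x y => by rw [f.2.1, toAdd_mul]).toZModLinearMap p
    show ∑ i, b.repr x i * F (b i) k = F x k
    conv_rhs => rw [← b.sum_repr x, map_sum, Finset.sum_apply]
    refine Finset.sum_congr rfl fun i _ => ?_
    rw [map_smul]
    rfl

theorem card_eHom_of_trace_eq (hG : (Nat.card G).Coprime p)
    (hν : ∀ g x y, ν g (x + y) = ν g x + ν g y) {κ κ' : Type} [Fintype κ] [DecidableEq κ]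
    [Fintype κ'] [DecidableEq κ'] (R : G →* Matrix κ κ ℤ) (R' : G →* Matrix κ' κ' ℤ)
    (ht : ∀ g, (R g).trace = (R' g).trace) :
    Nat.card (eHom ν (vecAct p R)) = Nat.card (eHom ν (vecAct p R')) := by
  classical
  obtain ⟨d, C, hC⟩ := exists_average (ν := ν) p hG hν
  obtain ⟨hA, hcA⟩ := hC R
  obtain ⟨hB, hcB⟩ := hC R'
  set A := ∑ g, C g ⊗ₖ R g
  set B := ∑ g, C g ⊗ₖ R' g
  set t := Fintype.card (Fin d × κ) + Fintype.card (Fin d × κ')
  have hA' : redMat p (A ^ 2 - A) = 0 := by rw [map_sub, map_pow, hA, sub_self]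
  have hB' : redMat p (B ^ 2 - B) = 0 := by rw [map_sub, map_pow, hB, sub_self]
  obtain ⟨hAt, hAt'⟩ := red_idemStep_iterate p hA' t
  obtain ⟨hBt, hBt'⟩ := red_idemStep_iterate p hB' t
  obtain ⟨r, hr, hcr, htr⟩ := trace_idempotent p (2 ^ t) (Nat.two_pow_pos t) hAt
  obtain ⟨r', hr', hcr', htr'⟩ := trace_idempotent p (2 ^ t) (Nat.two_pow_pos t) hBt
  rw [map_sub, sub_eq_zero] at hAt' hBt'
  rw [hAt'] at hcr
  rw [hBt'] at hcr'
  have hsame : ∀ k, SameElement R R' (idemStep^[k] A) (idemStep^[k] B) := by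
    intro k
    induction k with
    | zero => exact ⟨C, rfl, rfl⟩
    | succ k ih => rw [Function.iterate_succ_apply', Function.iterate_succ_apply']; exact ih.idemStep
  rw [(hsame t).trace_eq ht, htr'] at htr
  have hlt : ∀ s, s ≤ t → s < p ^ 2 ^ t := fun s hs => by
    calc s ≤ t := hs
      _ < 2 ^ t := Nat.lt_two_pow_self
      _ ≤ p ^ t := Nat.pow_le_pow_left hp.out.two_le t
      _ ≤ p ^ 2 ^ t := Nat.pow_le_pow_right hp.out.pos Nat.lt_two_pow_self.le
  have hrr : r = r' := by
    have h := (ZMod.natCast_eq_natCast_iff' _ _ _).mp htr.symm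
    rwa [Nat.mod_eq_of_lt (hlt _ (hr.trans (by omega))),
      Nat.mod_eq_of_lt (hlt _ (hr'.trans (by omega)))] at h
  rw [hcA, hcB, hcr, hcr', hrr]

end Count

section FixedRank

variable {M : Type*} [CommGroup M]

/-- The fixed elements of a subgroup. -/
def fixSub (ρ : G →* MulAut M) (S : Subgroup G) : Subgroup M where
  carrier := {m | ∀ g ∈ S, ρ g m = m}
  one_mem' g _ := map_one _
  mul_mem' {a b} ha hb g hg := by rw [map_mul, ha g hg, hb g hg]
  inv_mem' {a} ha g hg := by rw [map_inv, ha g hg]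

omit hp in
theorem finite_quotient_of_pow_mem {κ' : Type*} [Fintype κ'] (e : M ≃* Multiplicative (κ' → ℤ))
    {n : ℕ} (hn : n ≠ 0) (S : Subgroup M) (h : ∀ m : M, m ^ n ∈ S) : Finite (M ⧸ S) := by
  have := (qInd_pow_lattice κ' hn).1.coker
  refine Finite.of_surjective (QuotientGroup.map (powMonoidHom n).range S
    (e.symm : Multiplicative (κ' → ℤ) →* M) ?_) fun x => ?_
  · rintro _ ⟨y, rfl⟩
    show e.symm (y ^ n) ∈ S
    rw [map_pow]; exact h _
  · induction x using QuotientGroup.induction_on with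
    | _ m => exact ⟨QuotientGroup.mk (e m), congrArg QuotientGroup.mk (e.symm_apply_apply m)⟩

/-- `q_p` of the fixed vectors and the trace. -/
theorem qInd_fixSub_latAct [Finite G] (R : G →* Matrix κ κ ℤ) (S : Subgroup G) :
    ∃ (d : ℕ) (_ : fixSub (latAct R) S ≃* Multiplicative (Fin d → ℤ)),
      QFinite (powMonoidHom p : fixSub (latAct R) S →* fixSub (latAct R) S) ∧
      qInd (powMonoidHom p : fixSub (latAct R) S →* fixSub (latAct R) S) = (p : ℚ) ^ d ∧
      ∑ᶠ g : S, (R (g : G)).trace = (Nat.card S : ℤ) * d := by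
  classical
  have := Fintype.ofFinite S
  let W : Submodule ℤ (κ → ℤ) :=
    { carrier := {v | ∀ g ∈ S, R g *ᵥ v = v}
      add_mem' := fun {a b} ha hb g hg => by rw [Matrix.mulVec_add, ha g hg, hb g hg]
      zero_mem' := fun g _ => Matrix.mulVec_zero _
      smul_mem' := fun c a ha g hg => by rw [Matrix.mulVec_smul, ha g hg] }
  let d := Module.finrank ℤ W
  let b : Module.Basis (Fin d) ℤ W := Module.finBasis ℤ W
  let e : fixSub (latAct R) S ≃* Multiplicative (Fin d → ℤ) :=
    { toFun := fun m => Multiplicative.ofAdd (b.equivFun ⟨Multiplicative.toAdd m.1,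
        fun g hg => congrArg Multiplicative.toAdd (m.2 g hg)⟩)
      invFun := fun v => ⟨Multiplicative.ofAdd ((b.equivFun.symm (Multiplicative.toAdd v) : W) :
          κ → ℤ), fun g hg => Multiplicative.toAdd.injective
            ((b.equivFun.symm (Multiplicative.toAdd v)).2 g hg)⟩
      left_inv := fun m => Subtype.ext (Multiplicative.toAdd.injective
        (congrArg Subtype.val (b.equivFun.symm_apply_apply _)))
      right_inv := fun v => Multiplicative.toAdd.injective (b.equivFun.apply_symm_apply _)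
      map_mul' := fun m m' => by
        rw [← ofAdd_add, ← map_add]
        rfl }
  obtain ⟨h1, h2⟩ := qInd_pow_lattice (Fin d) hp.out.ne_zero
  obtain ⟨h3, h4⟩ := qInd_congr e.symm (f := powMonoidHom p) (f' := powMonoidHom p)
    (fun m => map_pow e.symm m p)
  refine ⟨d, e, h4 h1, by rw [h3, h2, Fintype.card_fin], ?_⟩
  let P := ∑ g : S, Matrix.toLin' (R (g : G))
  have hP : ∀ v, P v ∈ W := by
    intro v g hg
    simp only [P, LinearMap.sum_apply, Matrix.toLin'_apply, Matrix.mulVec_sum,
      Matrix.mulVec_mulVec, ← map_mul]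
    exact Fintype.sum_equiv (Equiv.mulLeft ⟨g, hg⟩) _ _ fun x => rfl
  have h5 := LinearMap.trace_restrict_eq_of_forall_mem W P hP
  have h6 : P.restrict (fun x _ => hP x) = (Nat.card S : ℤ) • LinearMap.id (M := W) := by
    refine LinearMap.ext fun w => Subtype.ext ?_
    have hw : ∀ g : S, R (g : G) *ᵥ (w : κ → ℤ) = w := fun g => w.2 g g.2
    simp [P, LinearMap.restrict_apply, hw, Nat.card_eq_fintype_card]
  rw [h6, map_smul, LinearMap.trace_id, smul_eq_mul] at h5
  rw [finsum_eq_sum_of_fintype]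
  refine Eq.trans ?_ h5.symm
  simp [P, Matrix.trace_toLin'_eq]

end FixedRank

/-- Reduction of a finitely generated module to a lattice. -/
theorem exists_lattice [Finite G] [Finite N] (hG : (Nat.card G).Coprime p)
    (hNp : ∀ x : N, p • x = 0) (hν : ∀ g x y, ν g (x + y) = ν g x + ν g y)
    {M : Type} [CommGroup M] [Monoid.FG M] (ρ : G →* MulAut M) :
    ∃ (d : ℕ) (R : G →* Matrix (Fin d) (Fin d) ℤ),
      QFinite (powMonoidHom p : M →* M) ∧ qHom ν p ρ = qHom ν p (latAct R) ∧
      ∀ S : Subgroup G, QFinite (powMonoidHom p : fixSub ρ S →* fixSub ρ S) ∧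
        qInd (powMonoidHom p : fixSub ρ S →* fixSub ρ S) =
          qInd (powMonoidHom p : fixSub (latAct R) S →* fixSub (latAct R) S) := by
  classical
  have : Module.Finite ℤ (Additive M) := Module.Finite.iff_addGroup_fg.mpr
    (GroupFG.iff_add_fg.mp (Group.fg_iff_monoid_fg.mpr inferInstance))
  let tor := Submodule.torsion ℤ (Additive M)
  have : Finite tor := Module.finite_of_fg_torsion tor (Submodule.torsion_isTorsion)
  let d := Module.finrank ℤ (Additive M ⧸ tor)
  let b : Module.Basis (Fin d) ℤ (Additive M ⧸ tor) := Module.finBasis ℤ (Additive M ⧸ tor)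
  let L : G → (Additive M →ₗ[ℤ] Additive M) := fun g =>
    (MonoidHom.toAdditive (ρ g : M →* M)).toIntLinearMap
  have hL : ∀ g, tor ≤ tor.comap (L g) := fun g x ⟨a, ha⟩ => ⟨a, by
    show a • L g x = 0
    rw [Submonoid.smul_def, ← map_smul, ← Submonoid.smul_def, ha, map_zero]⟩
  let Lq : G → ((Fin d → ℤ) →ₗ[ℤ] (Fin d → ℤ)) := fun g =>
    b.equivFun.toLinearMap ∘ₗ tor.mapQ tor (L g) (hL g) ∘ₗ b.equivFun.symm.toLinearMap
  let π : M →* Multiplicative (Fin d → ℤ) :=
    { toFun := fun x => Multiplicative.ofAdd (b.equivFun (Submodule.Quotient.mk (Additive.ofMul x)))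
      map_one' := by simp
      map_mul' := fun x y => by rw [ofMul_mul, Submodule.Quotient.mk_add, map_add, ofAdd_add] }
  have hπ : Function.Surjective π := fun v => by
    obtain ⟨x, hx⟩ := Submodule.Quotient.mk_surjective tor (b.equivFun.symm (Multiplicative.toAdd v))
    refine ⟨Additive.toMul x, ?_⟩
    show Multiplicative.ofAdd (b.equivFun (Submodule.Quotient.mk x)) = v
    rw [hx, LinearEquiv.apply_symm_apply]
    rfl
  have hLπ : ∀ g x, Lq g (Multiplicative.toAdd (π x)) = Multiplicative.toAdd (π (ρ g x)) :=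
    fun g x => by
      show b.equivFun (tor.mapQ tor (L g) (hL g) (b.equivFun.symm (b.equivFun _))) = _
      rw [LinearEquiv.symm_apply_apply]
      rfl
  let R : G →* Matrix (Fin d) (Fin d) ℤ :=
    { toFun := fun g => LinearMap.toMatrix' (Lq g)
      map_one' := by
        rw [← LinearMap.toMatrix'_id]
        congr 1
        refine LinearMap.ext fun v => ?_
        obtain ⟨x, hx⟩ := hπ (Multiplicative.ofAdd v)
        rw [show v = Multiplicative.toAdd (π x) by rw [hx]; rfl, hLπ, map_one, MulAut.one_apply]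
        rfl
      map_mul' := fun g h => by
        rw [← LinearMap.toMatrix'_comp]
        congr 1
        refine LinearMap.ext fun v => ?_
        obtain ⟨x, hx⟩ := hπ (Multiplicative.ofAdd v)
        rw [show v = Multiplicative.toAdd (π x) by rw [hx]; rfl]
        show Lq (g * h) _ = Lq g (Lq h _)
        rw [hLπ, hLπ, hLπ, map_mul, MulAut.mul_apply] }
  have hequiv : ∀ g x, π (ρ g x) = latAct R g (π x) := fun g x => by
    refine Multiplicative.toAdd.injective ?_
    rw [toAdd_latAct]
    show _ = LinearMap.toMatrix' (Lq g) *ᵥ _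
    rw [LinearMap.toMatrix'_mulVec, hLπ]
  have hkfin : Finite π.ker := by
    refine Finite.of_injective (fun m : π.ker => (⟨Additive.ofMul (m : M), ?_⟩ : tor)) ?_
    · have h := congrArg Multiplicative.toAdd (MonoidHom.mem_ker.mp m.2)
      exact (Submodule.Quotient.mk_eq_zero tor).mp (b.equivFun.injective (by rw [map_zero]; exact h))
    · intro a b h
      exact Subtype.ext (congrArg (fun z : tor => Additive.toMul (z : Additive M)) h)
  have hkS : ∀ g, ∀ m ∈ π.ker, ρ g m ∈ π.ker := fun g m hm => by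
    rw [MonoidHom.mem_ker, hequiv, show π m = 1 from hm, map_one]
  have hex : π.ker.subtype.range = π.ker := Subgroup.range_subtype _
  obtain ⟨hlat, -⟩ := qInd_pow_lattice (Fin d) hp.out.ne_zero
  refine ⟨d, R, ?_, ?_, fun S => ?_⟩
  · exact QFinite.middle (fA := powMonoidHom p) (fB := powMonoidHom p) (fC := powMonoidHom p)
      π.ker.subtype π π.ker.subtype_injective hπ hex (fun a => rfl) (fun x => map_pow π x p)
      (qFinite_of_finite _) hlat
  · rw [qHom_mul (ν := ν) p hG hNp hν (ρA := resAct ρ π.ker hkS) (ρB := ρ) (ρC := latAct R)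
      π.ker.subtype π π.ker.subtype_injective hπ hex (fun g a => rfl) hequiv
      (qFinite_of_finite _) hlat, qHom_of_finite (ν := ν) p hG hNp hν _ _ rfl, one_mul]
  -- fixed elements
  obtain ⟨d', e', hF, -, -⟩ := qInd_fixSub_latAct p R S
  let πS : fixSub ρ S →* fixSub (latAct R) S :=
    (π.comp (fixSub ρ S).subtype).codRestrict _ fun m g hg => by
      show latAct R g (π (m : M)) = π (m : M)
      rw [← hequiv, m.2 g hg]
  have : Finite πS.ker := Finite.of_injective
    (fun m : πS.ker => (⟨((m : fixSub ρ S) : M), congrArg Subtype.val m.2⟩ : π.ker))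
    fun a b h => Subtype.ext (Subtype.ext (congrArg (fun z : π.ker => (z : M)) h))
  have : Finite (fixSub (latAct R) S ⧸ πS.range) := by
    have := Fintype.ofFinite S
    refine finite_quotient_of_pow_mem e' (n := Nat.card S) Nat.card_pos.ne' _ fun y => ?_
    obtain ⟨x, hx⟩ := hπ y.1
    refine ⟨⟨∏ g : S, ρ (g : G) x, fun g hg => ?_⟩, Subtype.ext ?_⟩
    · rw [map_prod]
      refine Fintype.prod_equiv (Equiv.mulLeft ⟨g, hg⟩) _ _ fun z => ?_
      show ρ g (ρ (z : G) x) = ρ (g * (z : G)) x
      rw [map_mul, MulAut.mul_apply]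
    · show π (∏ g : S, ρ (g : G) x) = ((y ^ Nat.card S : fixSub (latAct R) S) : Multiplicative _)
      rw [map_prod, SubmonoidClass.coe_pow, Nat.card_eq_fintype_card]
      refine (Finset.prod_congr rfl fun g _ => ?_).trans (Finset.prod_const _)
      rw [hequiv, hx]
      exact y.2 g g.2
  exact qPow_of_finite_ker_coker p πS hF

/-- Equal `q_p` of all fixed subgroups gives equal `qHom`. -/
theorem qHom_eq_of_fixed [Finite G] [Finite N] (hG : (Nat.card G).Coprime p)
    (hNp : ∀ x : N, p • x = 0) (hν : ∀ g x y, ν g (x + y) = ν g x + ν g y)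
    {M M' : Type} [CommGroup M] [Monoid.FG M] [CommGroup M'] [Monoid.FG M']
    (ρ : G →* MulAut M) (ρ' : G →* MulAut M')
    (h : ∀ S : Subgroup G, qInd (powMonoidHom p : fixSub ρ S →* fixSub ρ S) =
      qInd (powMonoidHom p : fixSub ρ' S →* fixSub ρ' S)) :
    qHom ν p ρ = qHom ν p ρ' := by
  have := Fintype.ofFinite G
  obtain ⟨d, R, -, hq, hfix⟩ := exists_lattice (ν := ν) p hG hNp hν ρ
  obtain ⟨d', R', -, hq', hfix'⟩ := exists_lattice (ν := ν) p hG hNp hν ρ'
  have ht : ∀ g, (R g).trace = (R' g).trace := trace_eq_of_sums R R' fun S => by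
    obtain ⟨a, -, -, ha, hta⟩ := qInd_fixSub_latAct p R S
    obtain ⟨a', -, -, ha', hta'⟩ := qInd_fixSub_latAct p R' S
    have h' := h S
    rw [(hfix S).2, (hfix' S).2, ha, ha'] at h'
    rw [hta, hta', pow_right_injective₀ (by exact_mod_cast hp.out.pos)
      (by exact_mod_cast hp.out.one_lt.ne') h']
  let := AddCommGroup.zmodModule hNp
  rw [hq, hq', qHom_lattice p hNp, qHom_lattice p hNp, card_eHom_of_trace_eq p hG hν R R' ht]

end FLTAgent.TW
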