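import Fermat.Agent.TW.Idele.GModules
import Fermat.Agent.TW.Idele.ClassQ

/-!
# The lattices of a number field entering the count of equivariant maps

Units, integers, and anti-invariant functions on the embeddings, each finitely generated, with
their fixed elements under a subgroup of the Galois group and the `q_p` of these
(`qInd_units_sub`, `qInd_intSub`, `qInd_antiFun`).
-/

set_option autoImplicit false
set_option maxSynthPendingDepth 6
set_option synthInstance.maxHeartbeats 200000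
set_option maxHeartbeats 1000000

noncomputable section

open IsDedekindDomain NumberField
open scoped Pointwise NumberField

namespace FLTAgent.TW

local notation "ℚ̄" => AlgebraicClosure ℚ
local notation "Γ" => (AlgebraicClosure ℚ ≃ₐ[ℚ] AlgebraicClosure ℚ)

attribute [local instance] numberField_intermediate

/-! ### Actions -/

/-- `Γ` on `ℚ̄ˣ`. -/
def unitsAut : Γ →* MulAut ℚ̄ˣ where
  toFun σ := Units.mapEquiv (σ : ℚ̄ ≃* ℚ̄)
  map_one' := MulEquiv.ext fun _ => Units.ext rfl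
  map_mul' _ _ := MulEquiv.ext fun _ => Units.ext rfl

/-- `Γ` on the additive group of `ℚ̄`. -/
def addQbarAut : Γ →* MulAut (Multiplicative ℚ̄) where
  toFun σ := AddEquiv.toMultiplicative (σ : ℚ̄ ≃+ ℚ̄)
  map_one' := MulEquiv.ext fun _ => rfl
  map_mul' _ _ := MulEquiv.ext fun _ => rfl

/-- `Γ` on functions on the embeddings. -/
def embFunAut (A : Type*) [CommGroup A] : Γ →* MulAut (Emb → A) where
  toFun σ :=
    { toFun := fun n ι => n (ι.comp (σ : ℚ̄ →+* ℚ̄))
      invFun := fun n ι => n (ι.comp ((σ⁻¹ : Γ) : ℚ̄ →+* ℚ̄))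
      left_inv := fun n => funext fun ι =>
        congrArg n (RingHom.ext fun x => congrArg ι (inv_smul_smul σ x))
      right_inv := fun n => funext fun ι =>
        congrArg n (RingHom.ext fun x => congrArg ι (smul_inv_smul σ x))
      map_mul' := fun _ _ => rfl }
  map_one' := MulEquiv.ext fun n => funext fun _ => congrArg n (RingHom.ext fun _ => rfl)
  map_mul' _ _ := MulEquiv.ext fun n => funext fun _ => congrArg n (RingHom.ext fun _ => rfl)

theorem embFunAut_apply {A : Type*} [CommGroup A] (σ : Γ) (n : Emb → A) (ι : Emb) :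
    embFunAut A σ n ι = n (ι.comp (σ : ℚ̄ →+* ℚ̄)) := rfl

section QuotRes

variable {M : Type*} [CommGroup M] (ρ₀ : Γ →* MulAut M) {H : Subgroup Γ}
variable (L : IntermediateField ℚ ℚ̄) [(L.fixingSubgroup.subgroupOf H).Normal]

/-- The action of `H / Gal(ℚ̄/L)` on a stable subgroup fixed by `Gal(ℚ̄/L)`. -/
def quotRes (X : Subgroup M) (hX : ∀ σ ∈ H, ∀ m ∈ X, ρ₀ σ m ∈ X)
    (htriv : ∀ σ ∈ L.fixingSubgroup, ∀ m ∈ X, ρ₀ σ m = m) :
    H ⧸ L.fixingSubgroup.subgroupOf H →* MulAut X :=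
  QuotientGroup.lift _ (resAct (ρ₀.comp H.subtype) X fun h m hm => hX h h.2 m hm) fun h hh =>
    MonoidHom.mem_ker.mpr (MulEquiv.ext fun m =>
      Subtype.ext (htriv h (Subgroup.mem_subgroupOf.mp hh) m m.2))

theorem coe_quotRes_mk (X : Subgroup M) (hX : ∀ σ ∈ H, ∀ m ∈ X, ρ₀ σ m ∈ X)
    (htriv : ∀ σ ∈ L.fixingSubgroup, ∀ m ∈ X, ρ₀ σ m = m) (h : H) (m : X) :
    (quotRes ρ₀ L X hX htriv (QuotientGroup.mk h) m : M) = ρ₀ (h : Γ) m := rfl

/-- The fixed elements in terms of a smaller subgroup. -/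
theorem qInd_fixSub_quotRes (p : ℕ) (X Y : Subgroup M) (hX : ∀ σ ∈ H, ∀ m ∈ X, ρ₀ σ m ∈ X)
    (htriv : ∀ σ ∈ L.fixingSubgroup, ∀ m ∈ X, ρ₀ σ m = m)
    (S : Subgroup (H ⧸ L.fixingSubgroup.subgroupOf H)) (F : IntermediateField ℚ ℚ̄)
    (hF : F.fixingSubgroup = (S.comap (QuotientGroup.mk' _)).map H.subtype)
    (hY : ∀ m, m ∈ Y ↔ m ∈ X ∧ ∀ σ ∈ F.fixingSubgroup, ρ₀ σ m = m) :
    (QFinite (powMonoidHom p : Y →* Y) →
      QFinite (powMonoidHom p : fixSub (quotRes ρ₀ L X hX htriv) S →*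
        fixSub (quotRes ρ₀ L X hX htriv) S)) ∧
    qInd (powMonoidHom p : fixSub (quotRes ρ₀ L X hX htriv) S →*
      fixSub (quotRes ρ₀ L X hX htriv) S) = qInd (powMonoidHom p : Y →* Y) := by
  let e : Y ≃* fixSub (quotRes ρ₀ L X hX htriv) S :=
    { toFun := fun y => ⟨⟨y.1, ((hY _).mp y.2).1⟩, fun g hg => by
        obtain ⟨h, rfl⟩ := QuotientGroup.mk_surjective g
        exact Subtype.ext (((hY _).mp y.2).2 _ (hF ▸ ⟨h, hg, rfl⟩))⟩
      invFun := fun m => ⟨m.1.1, (hY _).mpr ⟨m.1.2, fun σ hσ => by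
        rw [hF] at hσ
        obtain ⟨h, hh, rfl⟩ := hσ
        exact congrArg Subtype.val (m.2 _ hh)⟩⟩
      left_inv := fun _ => rfl
      right_inv := fun _ => rfl
      map_mul' := fun _ _ => rfl }
  obtain ⟨h1, h2⟩ := qInd_congr e (f := powMonoidHom p) (f' := powMonoidHom p)
    (fun m => map_pow e m p)
  exact ⟨h2, h1⟩

end QuotRes

theorem normal_fixingSubgroup_of_normal (L : IntermediateField ℚ ℚ̄) [Normal ℚ L] :
    L.fixingSubgroup.Normal := by
  refine ⟨fun τ hτ σ => ?_⟩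
  rw [IntermediateField.mem_fixingSubgroup_iff] at hτ ⊢
  intro x hx
  rw [AlgEquiv.mul_apply, AlgEquiv.mul_apply, hτ _ (mem_of_normal _ hx), ← AlgEquiv.mul_apply,
    mul_inv_cancel, AlgEquiv.one_apply]

/-- Subgroups containing `Gal(ℚ̄/L)` come from subfields of `L`. -/
theorem exists_fixedField {L : IntermediateField ℚ ℚ̄} [FiniteDimensional ℚ L] (S : Subgroup Γ)
    (hS : L.fixingSubgroup ≤ S) :
    ∃ F : IntermediateField ℚ ℚ̄, F ≤ L ∧ F.fixingSubgroup = S := by
  have := GalCommon.isGalois_Qbar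
  have hopen : IsOpen (S : Set Γ) := Subgroup.isOpen_mono hS L.fixingSubgroup_isOpen
  refine ⟨IntermediateField.fixedField S, ?_,
    InfiniteGalois.fixingSubgroup_fixedField ⟨S, S.isClosed_of_isOpen hopen⟩⟩
  intro x hx
  exact mem_of_forall_fixed fun σ hσ => hx ⟨σ, hS hσ⟩

variable {p : ℕ} [hp : Fact p.Prime] {L F : IntermediateField ℚ ℚ̄}

/-! ### Units -/

omit hp in
theorem mem_tUnits_iff (T : Finset ℕ) (hFL : F ≤ L) (x : ℚ̄ˣ) :
    x ∈ tUnits T F ↔ x ∈ tUnits T L ∧ ∀ σ ∈ F.fixingSubgroup, unitsAut σ x = x := by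
  refine ⟨fun h => ⟨⟨hFL h.1, h.2⟩, fun σ hσ =>
    Units.ext ((IntermediateField.mem_fixingSubgroup_iff _ _).mp hσ _ h.1)⟩,
    fun h => ⟨mem_of_forall_fixed fun σ hσ => congrArg Units.val (h.2 σ hσ), h.1.2⟩⟩

theorem unitsAut_mem_tUnits [Normal ℚ L] (T : Finset ℕ) (σ : Γ) {x : ℚ̄ˣ}
    (hx : x ∈ tUnits T L) : unitsAut σ x ∈ tUnits T L := by
  refine ⟨mem_of_normal σ hx.1, fun A hA => ?_⟩
  show Units.map (σ : ℚ̄ →* ℚ̄) x ∈ _
  conv => arg 1; rw [← smul_inv_smul σ A, Place.coe_smul]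
  exact unitGroup_smul.mpr (hx.2 _ (by rwa [Place.over_smul_iff]))

theorem unitsToT_surjective [FiniteDimensional ℚ F] :
    Function.Surjective (unitsToT ∅ F) := by
  rw [← MonoidHom.range_eq_top, ordHom_ker]
  refine eq_top_iff.mpr fun x _ => ?_
  refine MonoidHom.mem_ker.mpr (Multiplicative.toAdd.injective (funext fun P => ?_))
  obtain ⟨A, hA, -⟩ := mem_primesOverT.mp P.2
  obtain ⟨q, hq, -⟩ := hA
  simp at hq

theorem fg_units [FiniteDimensional ℚ F] : Monoid.FG (tUnits ∅ F) := by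
  have : Monoid.FG (𝓞 F)ˣ := inferInstance
  exact Monoid.fg_of_surjective (unitsToT ∅ F) unitsToT_surjective

theorem qInd_units_sub [FiniteDimensional ℚ F] :
    QFinite (powMonoidHom p : tUnits ∅ F →* tUnits ∅ F) ∧
      qInd (powMonoidHom p : tUnits ∅ F →* tUnits ∅ F) * p = (p : ℚ) ^ numInf F := by
  obtain ⟨h1, h2⟩ := qInd_tUnits (T := ∅) (p := p) (F := F)
  refine ⟨h1, h2.trans ?_⟩
  rw [numPlaces_eq_card, Finset.card_eq_zero.mpr (Finset.eq_empty_of_forall_notMem fun P hP => ?_),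
    zero_add]
  obtain ⟨A, ⟨q, hq, -⟩, -⟩ := mem_primesOverT.mp hP
  simp at hq

/-! ### Integers -/

variable (F) in
/-- The integers of `F`, written multiplicatively. -/
def intSub : Subgroup (Multiplicative ℚ̄) where
  carrier := {x | Multiplicative.toAdd x ∈ F ∧ IsIntegral ℤ (Multiplicative.toAdd x)}
  one_mem' := ⟨F.zero_mem, isIntegral_zero⟩
  mul_mem' hx hy := ⟨F.add_mem hx.1 hy.1, hx.2.add hy.2⟩
  inv_mem' hx := ⟨F.neg_mem hx.1, hx.2.neg⟩

variable (F) in
/-- The integers in `intSub`. -/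
def intSubHom : Multiplicative (𝓞 F) →* intSub F where
  toFun a := ⟨Multiplicative.ofAdd (((Multiplicative.toAdd a : 𝓞 F) : F) : ℚ̄),
    ((Multiplicative.toAdd a : 𝓞 F) : F).2, Density.isIntegral_coe F (Multiplicative.toAdd a)⟩
  map_one' := Subtype.ext (by simp)
  map_mul' a b := Subtype.ext (by simp)

/-- The integers. -/
def intSubEquiv : Multiplicative (𝓞 F) ≃* intSub F :=
  MulEquiv.ofBijective (intSubHom F)
    ⟨fun _ _ h => Multiplicative.toAdd.injective (FaithfulSMul.algebraMap_injective (𝓞 F) F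
        (Subtype.ext (congrArg (fun z : intSub F => Multiplicative.toAdd (z : Multiplicative ℚ̄)) h))),
      fun x => ⟨Multiplicative.ofAdd ⟨⟨Multiplicative.toAdd x.1, x.2.1⟩,
        (isIntegral_algebraMap_iff (R := ℤ) (A := F) (B := ℚ̄) (algebraMap F ℚ̄).injective).mp x.2.2⟩,
        Subtype.ext rfl⟩⟩

theorem fg_intSub [FiniteDimensional ℚ F] : Monoid.FG (intSub F) := by
  have : Monoid.FG (Multiplicative (𝓞 F)) :=
    AddMonoid.fg_iff_mul_fg.mp (AddGroup.fg_iff_addMonoid_fg.mp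
      (Module.Finite.iff_addGroup_fg.mp inferInstance))
  exact Monoid.fg_of_surjective (intSubEquiv (F := F)).toMonoidHom intSubEquiv.surjective

theorem qInd_intSub [FiniteDimensional ℚ F] :
    QFinite (powMonoidHom p : intSub F →* intSub F) ∧
      qInd (powMonoidHom p : intSub F →* intSub F) = (p : ℚ) ^ Module.finrank ℚ F := by
  let b := RingOfIntegers.basis F
  let e : Multiplicative (Module.Free.ChooseBasisIndex ℤ (𝓞 F) → ℤ) ≃* intSub F :=
    (AddEquiv.toMultiplicative b.equivFun.toAddEquiv).symm.trans intSubEquiv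
  obtain ⟨h1, h2⟩ := qInd_congr e (f := powMonoidHom p) (f' := powMonoidHom p)
    (fun m => map_pow e m p)
  obtain ⟨h3, h4⟩ := qInd_pow_lattice (Module.Free.ChooseBasisIndex ℤ (𝓞 F)) hp.out.ne_zero
  refine ⟨h2 h3, ?_⟩
  rw [h1, h4, ← Module.finrank_eq_card_chooseBasisIndex, RingOfIntegers.rank]

omit hp in
theorem mem_intSub_iff (hFL : F ≤ L) (x : Multiplicative ℚ̄) :
    x ∈ intSub F ↔ x ∈ intSub L ∧ ∀ σ ∈ F.fixingSubgroup, addQbarAut σ x = x :=
  ⟨fun h => ⟨⟨hFL h.1, h.2⟩, fun _ hσ => Multiplicative.toAdd.injective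
    ((IntermediateField.mem_fixingSubgroup_iff _ _).mp hσ _ h.1)⟩,
    fun h => ⟨mem_of_forall_fixed fun σ hσ => congrArg Multiplicative.toAdd (h.2 σ hσ), h.1.2⟩⟩

omit hp in
theorem addQbarAut_mem_intSub [Normal ℚ L] (σ : Γ) {x : Multiplicative ℚ̄} (hx : x ∈ intSub L) :
    addQbarAut σ x ∈ intSub L :=
  ⟨mem_of_normal σ hx.1, hx.2.map (σ.restrictScalars ℤ)⟩

/-! ### Anti-invariant functions on the embeddings -/

variable (F) in
/-- Functions on the embeddings of `F` changing sign under complex conjugation. -/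
def antiFun : Subgroup (Emb → Multiplicative ℤ) where
  carrier := {n | (∀ σ ∈ F.fixingSubgroup, embFunAut _ σ n = n) ∧ ∀ ι : Emb, n ι.conj = (n ι)⁻¹}
  one_mem' := ⟨fun σ _ => map_one _, fun ι => by simp⟩
  mul_mem' {a b} ha hb :=
    ⟨fun σ hσ => by rw [map_mul, ha.1 σ hσ, hb.1 σ hσ],
      fun ι => by simp [ha.2 ι, hb.2 ι, mul_comm]⟩
  inv_mem' {a} ha := ⟨fun σ hσ => by rw [map_inv, ha.1 σ hσ], fun ι => by simp [ha.2 ι]⟩

theorem antiFun_eq_of_res_eq {n : Emb → Multiplicative ℤ} (hn : n ∈ antiFun F) {ι ι' : Emb}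
    (h : ι.res F = ι'.res F) : n ι = n ι' := by
  obtain ⟨σ, hσ, rfl⟩ := exists_smul_of_res_eq h
  exact (congrFun (hn.1 σ hσ) ι).symm

variable [FiniteDimensional ℚ F]

theorem nonempty_antiFunEquiv :
    Nonempty (antiFun F ≃*
      Multiplicative ({v : InfinitePlace F // v.IsComplex} → ℤ)) := by
  classical
  choose ext hext using exists_res_eq (F := F)
  let rep : (F →+* ℂ) → (F →+* ℂ) := fun f => (InfinitePlace.mk f).embedding
  have hcomp : ∀ f : F →+* ℂ, (starRingEnd ℂ).comp f = ComplexEmbedding.conjugate f := fun f =>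
    RingHom.ext fun x => rfl
  have hrep : ∀ f : F →+* ℂ, rep f = f ∨ rep f = (starRingEnd ℂ).comp f := fun f => by
    rw [hcomp]; exact InfinitePlace.embedding_mk_eq f
  have hcx : ∀ f : F →+* ℂ, (InfinitePlace.mk f).IsComplex ↔ ¬ (starRingEnd ℂ).comp f = f :=
    fun f => by rw [InfinitePlace.isComplex_mk_iff, ComplexEmbedding.isReal_iff, hcomp]
  let back : ({v : InfinitePlace F // v.IsComplex} → ℤ) → (F →+* ℂ) → ℤ := fun m f =>
    if h : (InfinitePlace.mk f).IsComplex then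
      (if f = rep f then m ⟨_, h⟩ else -m ⟨_, h⟩)
    else 0
  have hback : ∀ m f, back m ((starRingEnd ℂ).comp f) = -back m f := by
    intro m f
    have hmk : InfinitePlace.mk ((starRingEnd ℂ).comp f) = InfinitePlace.mk f := by
      rw [hcomp, InfinitePlace.mk_conjugate_eq]
    have hr : rep ((starRingEnd ℂ).comp f) = rep f := by simp only [rep, hmk]
    simp only [back, hr]
    by_cases h : (InfinitePlace.mk f).IsComplex
    · have h' : (InfinitePlace.mk ((starRingEnd ℂ).comp f)).IsComplex := hmk.symm ▸ h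
      rw [dif_pos h, dif_pos h']
      have e : (⟨_, h'⟩ : {v : InfinitePlace F // v.IsComplex}) = ⟨_, h⟩ := Subtype.ext hmk
      rw [e]
      have hne := (hcx f).mp h
      rcases hrep f with hr' | hr'
      · rw [if_neg (fun hh => hne (hh.trans hr')), if_pos hr'.symm]
      · rw [if_pos hr'.symm, if_neg (fun hh => hne (hh.trans hr').symm), neg_neg]
    · rw [dif_neg h, dif_neg (hmk.symm ▸ h), neg_zero]
  refine ⟨{
    toFun := fun n => Multiplicative.ofAdd fun v => Multiplicative.toAdd (n.1 (ext v.1.embedding))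
    invFun := fun m => ⟨fun ι => Multiplicative.ofAdd (back (Multiplicative.toAdd m) (ι.res F)),
      fun σ hσ => funext fun ι => ?_, fun ι => ?_⟩
    left_inv := fun n => Subtype.ext (funext fun ι => ?_)
    right_inv := fun m => Multiplicative.toAdd.injective (funext fun v => ?_)
    map_mul' := fun n n' => Multiplicative.toAdd.injective (funext fun v => ?_) }⟩
  · rw [embFunAut_apply]
    congr 2
    exact RingHom.ext fun x => congrArg ι ((IntermediateField.mem_fixingSubgroup_iff _ _).mp hσ _ x.2)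
  · show Multiplicative.ofAdd (back _ (ι.conj.res F)) = (Multiplicative.ofAdd (back _ (ι.res F)))⁻¹
    rw [res_conj, hback, ofAdd_neg]
  · refine Multiplicative.toAdd.injective ?_
    simp only [toAdd_ofAdd, back]
    set f := ι.res F with hf
    by_cases h : (InfinitePlace.mk f).IsComplex
    · rw [dif_pos h]
      have hne := (hcx f).mp h
      rcases hrep f with hr | hr
      · rw [if_pos hr.symm]
        exact congrArg Multiplicative.toAdd (antiFun_eq_of_res_eq n.2 (by rw [hext]; exact hr))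
      · rw [if_neg (fun hh => hne (hh.trans hr).symm)]
        have h1 : n.1 (ext (rep f)) = n.1 ι.conj :=
          antiFun_eq_of_res_eq n.2 (by rw [hext, res_conj]; exact hr)
        show -Multiplicative.toAdd (n.1 (ext (rep f))) = _
        rw [h1, n.2.2 ι, toAdd_inv, neg_neg]
    · rw [dif_neg h]
      have hreal : (starRingEnd ℂ).comp f = f := not_not.mp (mt (hcx f).mpr h)
      have h1 : n.1 ι.conj = n.1 ι := antiFun_eq_of_res_eq n.2 (by rw [res_conj]; exact hreal)
      rw [n.2.2 ι] at h1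
      have h2 := congrArg Multiplicative.toAdd h1
      rw [toAdd_inv] at h2
      omega
  · simp only [toAdd_ofAdd, back, hext]
    have h : (InfinitePlace.mk v.1.embedding).IsComplex := by
      rw [InfinitePlace.mk_embedding]; exact v.2
    rw [dif_pos h, if_pos (by simp only [rep, InfinitePlace.mk_embedding])]
    exact congrArg (Multiplicative.toAdd m) (Subtype.ext (InfinitePlace.mk_embedding v.1))
  · simp

theorem fg_antiFun : Monoid.FG (antiFun F) := by
  classical
  obtain ⟨e⟩ := nonempty_antiFunEquiv (F := F)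
  have : Monoid.FG (Multiplicative ({v : InfinitePlace F // v.IsComplex} → ℤ)) :=
    AddMonoid.fg_iff_mul_fg.mp (AddGroup.fg_iff_addMonoid_fg.mp
      (Module.Finite.iff_addGroup_fg.mp inferInstance))
  exact Monoid.fg_of_surjective e.symm.toMonoidHom e.symm.surjective

theorem qInd_antiFun :
    QFinite (powMonoidHom p : antiFun F →* antiFun F) ∧
      qInd (powMonoidHom p : antiFun F →* antiFun F) =
        (p : ℚ) ^ InfinitePlace.nrComplexPlaces F := by
  classical
  obtain ⟨e⟩ := nonempty_antiFunEquiv (F := F)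
  obtain ⟨h1, h2⟩ := qInd_congr e.symm (f := powMonoidHom p) (f' := powMonoidHom p)
    (fun m => map_pow e.symm m p)
  obtain ⟨h3, h4⟩ := qInd_pow_lattice {v : InfinitePlace F // v.IsComplex} hp.out.ne_zero
  exact ⟨h2 h3, by rw [h1, h4]⟩

omit hp [FiniteDimensional ℚ F] in
theorem mem_antiFun_iff (hFL : F ≤ L) (n : Emb → Multiplicative ℤ) :
    n ∈ antiFun F ↔ n ∈ antiFun L ∧ ∀ σ ∈ F.fixingSubgroup, embFunAut _ σ n = n :=
  ⟨fun h => ⟨⟨fun σ hσ => h.1 σ (IntermediateField.fixingSubgroup_le hFL hσ), h.2⟩, h.1⟩,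
    fun h => ⟨h.2, h.1.2⟩⟩

end FLTAgent.TW
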